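import Fermat.Agent.AnJacH.LowMat
import Fermat.Agent.SSMod.Comps
import Fermat.Agent.GoodRed.HeckeNorm

/-!
# Norms from level `qM` to level `M`, `q ∤ M`, and the Atkin–Lehner operator
-/

set_option autoImplicit false
set_option linter.unusedSectionVars false
set_option linter.style.haveILetI false

noncomputable section

namespace Fermat.Agent.AnJacH

open ModularCurve Fermat.Agent.ModFun Fermat.Agent.AnJac AlgebraicCurve IsLocalRing
open Fermat.Agent.HeckeQ CongruenceSubgroup MatrixGroups UpperHalfPlane Matrix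
open Fermat.Agent.SSMod Fermat.Agent.Curves Module
open scoped Pointwise

local notation "Qbar" => AlgebraicClosure ℚ
local notation "GQ" => Qbar ≃ₐ[ℚ] Qbar

variable {q M : ℕ} [hq : Fact q.Prime] [NeZero q] [NeZero M] [NeZero (q * M)]
  (hqM : Nat.Coprime q M)

variable (q M) in
/-- the norm along `F_M ⊆ F_{qM}` -/
def Nq (u : modularFunctionFieldFullC Qbar (q * M)) : modularFunctionFieldFullC Qbar M :=
  letI := algebraAlong (alpha Qbar q M)
  Algebra.norm (modularFunctionFieldFullC Qbar M) u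

lemma Nq_mul (u v : modularFunctionFieldFullC Qbar (q * M)) :
    Nq q M (u * v) = Nq q M u * Nq q M v :=
  letI := algebraAlong (alpha Qbar q M)
  map_mul (Algebra.norm (modularFunctionFieldFullC Qbar M)) u v

lemma Nq_one : Nq q M 1 = 1 :=
  letI := algebraAlong (alpha Qbar q M)
  map_one (Algebra.norm (modularFunctionFieldFullC Qbar M))

lemma Nq_pow (u : modularFunctionFieldFullC Qbar (q * M)) (n : ℕ) :
    Nq q M (u ^ n) = Nq q M u ^ n :=
  letI := algebraAlong (alpha Qbar q M)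
  map_pow (Algebra.norm (modularFunctionFieldFullC Qbar M)) u n

lemma Nq_ne_zero {u : modularFunctionFieldFullC Qbar (q * M)} (hu : u ≠ 0) : Nq q M u ≠ 0 := by
  intro h0
  have h1 := Nq_mul (q := q) (M := M) u u⁻¹
  rw [mul_inv_cancel₀ hu, Nq_one, h0, zero_mul] at h1
  exact one_ne_zero h1

include hqM in
lemma not_dvd_of_coprime : ¬ q ∣ M := (Nat.Prime.coprime_iff_not_dvd hq.out).mp hqM

include hqM in
lemma finrank_alpha :
    (letI := algebraAlong (alpha Qbar q M); finrank (modularFunctionFieldFullC Qbar M)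
      (modularFunctionFieldFullC Qbar (q * M))) = q + 1 := by
  have hle : modularFunctionFieldFullC Qbar M ≤ modularFunctionFieldFullC Qbar (q * M) :=
    full_degeneracyC_le (K := Qbar) (dvd_mul_left M q)
  rw [GoodRed.finrank_incl hle (alpha Qbar q M) (fun x => coe_alpha x)]
  exact GoodRed.relfinrank_full (k := Qbar) (N := M) (p := q) hq.out
    (not_dvd_of_coprime hqM) (by exact_mod_cast NeZero.ne (q * M))

include hqM in
lemma Nq_alpha (x : modularFunctionFieldFullC Qbar M) :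
    Nq q M (alpha Qbar q M x) = x ^ (q + 1) := by
  letI := algebraAlong (alpha Qbar q M)
  have h1 := Algebra.norm_algebraMap (S := modularFunctionFieldFullC Qbar (q * M)) x
  have h2 : finrank (modularFunctionFieldFullC Qbar M)
      (modularFunctionFieldFullC Qbar (q * M)) = q + 1 := finrank_alpha hqM
  rw [h2] at h1
  exact h1

/-- **the norm formula** -/
theorem coe_Nq (u : modularFunctionFieldFullC Qbar (q * M)) :
    (Nq q M u : LaurentSeries Qbar) =
      (u : LaurentSeries Qbar) * hW q (al ιQ hqM u : LaurentSeries Qbar) := by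
  haveI : CharZero (modularFunctionFieldFullC Qbar M) :=
    charZero_of_injective_algebraMap (algebraMap Qbar (modularFunctionFieldFullC Qbar M)).injective
  let ρ : modularFunctionFieldFullC Qbar M →+* LaurentSeries Qbar :=
    (qExpand Qbar q).comp (algebraMap (modularFunctionFieldFullC Qbar M) (LaurentSeries Qbar))
  let φ : Option (rootsOfUnity q Qbar) →
      (modularFunctionFieldFullC Qbar (q * M) →+* LaurentSeries Qbar) :=
    fun o => match o with
      | none => (qExpand Qbar q).comp (algebraMap (modularFunctionFieldFullC Qbar (q * M))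
          (LaurentSeries Qbar))
      | some ξ => ((twist (ξ : Qbarˣ)).comp (algebraMap (modularFunctionFieldFullC Qbar (q * M))
          (LaurentSeries Qbar))).comp ((al ιQ hqM : modularFunctionFieldFullC Qbar (q * M) →+* _))
  have hφα : ∀ i x, φ i (alpha Qbar q M x) = ρ x := by
    intro i x
    cases i with
    | none =>
      change qExpand Qbar q ((alpha Qbar q M x : _) : LaurentSeries Qbar) =
        qExpand Qbar q (x : LaurentSeries Qbar)
      rw [coe_alpha]
    | some ξ =>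
      change twist (ξ : Qbarˣ) ((al ιQ hqM (alpha Qbar q M x) : _) : LaurentSeries Qbar) =
        qExpand Qbar q (x : LaurentSeries Qbar)
      rw [al_alpha, coe_beta]
      exact twist_qExpand _ q ((mem_rootsOfUnity q _).1 ξ.2) _
  have hφ : Function.Injective φ := by
    let J : modularFunctionFieldFullC Qbar M :=
      ⟨Jd Qbar 1, Jd_mem Qbar (NeZero.ne M) (one_dvd M)⟩
    have h0 : (φ none (beta Qbar q M J)).coeff (-1) = 0 := by
      change (qExpand Qbar q ((beta Qbar q M J : _) : LaurentSeries Qbar)).coeff (-1) = 0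
      apply qExpand_coeff_of_not_dvd
      rw [dvd_neg]
      intro h
      have h2 := Int.natCast_dvd_natCast.1 (by simpa using h : ((q : ℕ) : ℤ) ∣ ((1 : ℕ) : ℤ))
      exact hq.out.one_lt.ne' (Nat.dvd_one.1 h2)
    have h1 : ∀ ξ : rootsOfUnity q Qbar, (φ (some ξ) (beta Qbar q M J)).coeff (-1) =
        (((ξ : Qbarˣ) ^ (-1 : ℤ) : Qbarˣ) : Qbar) := by
      intro ξ
      change (twist (ξ : Qbarˣ) ((al ιQ hqM (beta Qbar q M J) : _) : LaurentSeries Qbar)).coeff
        (-1) = _
      rw [al_beta, coe_alpha, twist_coeff]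
      change _ * (Jd Qbar 1).coeff (-1) = _
      rw [GoodRed.Jd_coeff_neg_one, mul_one]
    intro a b hab
    have h2 := congrArg (fun F => HahnSeries.coeff (F (beta Qbar q M J)) (-1)) hab
    cases a with
    | none =>
      cases b with
      | none => rfl
      | some ξ =>
        exfalso
        rw [h0, h1] at h2
        exact (Units.ne_zero _) h2.symm
    | some ξ =>
      cases b with
      | none =>
        exfalso
        rw [h0, h1] at h2
        exact (Units.ne_zero _) h2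
      | some ξ' =>
        rw [h1, h1] at h2
        have h3 := Units.ext h2
        rw [_root_.zpow_neg_one, _root_.zpow_neg_one] at h3
        rw [Subtype.ext (inv_injective h3)]
  have hcard : (letI := algebraAlong (alpha Qbar q M); finrank (modularFunctionFieldFullC Qbar M)
      (modularFunctionFieldFullC Qbar (q * M))) =
        Fintype.card (Option (rootsOfUnity q Qbar)) := by
    rw [finrank_alpha hqM, Fintype.card_option]
    congr 1
    have h := HasEnoughRootsOfUnity.natCard_rootsOfUnity Qbar q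
    rw [Nat.card_eq_fintype_card] at h
    exact h.symm
  have key := GoodRed.norm_aux (alpha Qbar q M).toRingHom hcard
    (by rw [Fintype.card_option]; omega) ρ φ hφα hφ u
  rw [Fintype.prod_option] at key
  apply qExpand_inj q
  refine key.trans ?_
  rw [map_mul, qExpand_hW, prodTwist]
  rfl


/-! ### classes -/

lemma ord_norm {n : ℕ} {u : modularFunctionFieldFullC Qbar (q * M)} (hu0 : u ≠ 0)
    (hu : ∀ v : Place Qbar (modularFunctionFieldFullC Qbar (q * M)), (n : ℤ) ∣ v.ord u)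
    (v : Place Qbar (modularFunctionFieldFullC Qbar M)) : (n : ℤ) ∣ v.ord (Nq q M u) := by
  have h1 := pushforwardAlong_divisorOf (alpha Qbar q M) (integralAlong (alpha Qbar q M)) hu0
  have h2 : ∃ D : Divisor Qbar (modularFunctionFieldFullC Qbar (q * M)),
      divisorOf (k := Qbar) u = (n : ℤ) • D := by
    choose c hc using hu
    refine ⟨(divisorOf (k := Qbar) u).mapRange (fun z => z / (n : ℤ)) (by simp), ?_⟩
    ext w
    rw [Finsupp.smul_apply, Finsupp.mapRange_apply]
    change w.ord u = (n : ℤ) • (w.ord u / (n : ℤ))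
    rw [hc w, smul_eq_mul]
    rcases eq_or_ne (n : ℤ) 0 with h | h
    · rw [h]; simp
    · rw [Int.mul_ediv_cancel_left _ h]
  obtain ⟨D, hD⟩ := h2
  rw [hD, map_zsmul] at h1
  have h3 := DFunLike.congr_fun h1 v
  rw [Finsupp.smul_apply] at h3
  exact ⟨_, h3.symm⟩

lemma ord_al {n : ℕ} {u : modularFunctionFieldFullC Qbar (q * M)}
    (hu : ∀ v : Place Qbar (modularFunctionFieldFullC Qbar (q * M)), (n : ℤ) ∣ v.ord u)
    (v : Place Qbar (modularFunctionFieldFullC Qbar (q * M))) :
    (n : ℤ) ∣ v.ord (al ιQ hqM u) := by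
  obtain ⟨w, hw⟩ := exists_place_comap (al ιQ hqM) (fun c => ⟨c, al_const ιQ hqM c⟩) v
  rw [← hw]
  exact hu w

variable (q M) in
lemma exists_NqMat {n : ℕ} (hn : n ≠ 0) :
    ∃ L, KSys.IsMat (KQ (q * M)) (bL (q * M)) (KQ M) (bL M) n (Nq q M) L :=
  KSys.exists_isMat hn Nq_mul (fun u hu => Nq_ne_zero hu)
    (fun u x hu => by
      have hu' := hu
      obtain ⟨φ, h1, -⟩ := hu'
      obtain ⟨ψ, hψ⟩ := exists_ClX (N := M) ιQ hn (u := Nq q M u) (Nq_ne_zero hu.ne_zero)
        (ord_norm hu.ne_zero fun v => ClX.dvd_ord ιQ h1 v)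
      exact ⟨_, ψ, hψ, rfl⟩)

lemma exists_alMat {n : ℕ} (hn : n ≠ 0) :
    ∃ L, KSys.IsMat (KQ (q * M)) (bL (q * M)) (KQ (q * M)) (bL (q * M)) n (al ιQ hqM) L :=
  KSys.exists_isMat hn (fun u v => map_mul _ u v) (fun u hu => (map_ne_zero _).mpr hu)
    (fun u x hu => by
      have hu' := hu
      obtain ⟨φ, h1, -⟩ := hu'
      obtain ⟨ψ, hψ⟩ := exists_ClX (N := q * M) ιQ hn (u := al ιQ hqM u)
        ((map_ne_zero _).mpr hu.ne_zero) (ord_al hqM fun v => ClX.dvd_ord ιQ h1 v)
      exact ⟨_, ψ, hψ, rfl⟩)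

/-! ### relations -/

lemma alpha_Nq_al {ζ : Qbarˣ} (hζ : IsPrimitiveRoot ζ q)
    (u : modularFunctionFieldFullC Qbar (q * M)) :
    alpha Qbar q M (Nq q M (al ιQ hqM u)) =
      al ιQ hqM u * FU ιQ (dvd_mul_right q M) hζ u := by
  apply Subtype.ext
  rw [coe_alpha, coe_Nq hqM, al_al]
  change _ = (al ιQ hqM u : LaurentSeries Qbar) * heckeW ζ q (u : LaurentSeries Qbar)
  rw [heckeW_eq_hW hζ]

lemma Nq_FU {ζ : Qbarˣ} (hζ : IsPrimitiveRoot ζ q)
    {u : modularFunctionFieldFullC Qbar (q * M)} (hu : u ≠ 0) :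
    Nq q M (FU ιQ (dvd_mul_right q M) hζ u) = Nq q M (al ιQ hqM u) ^ q := by
  have h1 := congrArg (Nq q M) (alpha_Nq_al hqM hζ u)
  rw [Nq_mul, Nq_alpha hqM, pow_succ'] at h1
  have h2 : Nq q M (al ιQ hqM u) ≠ 0 := Nq_ne_zero ((map_ne_zero _).mpr hu)
  exact (mul_left_cancel₀ h2 h1).symm

variable {n : ℕ} {Am : Matrix (Fin (finrank ℤ (Lat M))) (Fin (finrank ℤ (Lat (q * M)))) (ZMod n)}
  {Wm : Matrix (Fin (finrank ℤ (Lat (q * M)))) (Fin (finrank ℤ (Lat (q * M)))) (ZMod n)}
  (hAm : KSys.IsMat (KQ (q * M)) (bL (q * M)) (KQ M) (bL M) n (Nq q M) Am)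
  (hWm : KSys.IsMat (KQ (q * M)) (bL (q * M)) (KQ (q * M)) (bL (q * M)) n (al ιQ hqM) Wm)

include hWm in
lemma W_sq (hn : n ≠ 0) : Wm * Wm = 1 := by
  refine (hWm.comp hWm).eq hn ?_
  intro u x hu
  rw [Matrix.one_mulVec]
  change (KQ (q * M)).Cls (bL (q * M)) n (al ιQ hqM (al ιQ hqM u)) x
  rw [al_al]
  exact hu

include hAm hWm in
lemma A_U (hn : n ≠ 0) : Am * UmN (q * M) n q (dvd_mul_right q M) = q • (Am * Wm) := by
  obtain ⟨ζ, hζ⟩ := exists_zeta q
  refine ((isMat_U (n := n) (dvd_mul_right q M) hζ).comp hAm).eq hn ?_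
  intro u x hu
  rw [Matrix.smul_mulVec]
  change (KQ M).Cls (bL M) n (Nq q M (FU ιQ (dvd_mul_right q M) hζ u)) _
  rw [Nq_FU hqM hζ hu.ne_zero]
  exact KSys.Cls.npow hn (hWm.comp hAm u x hu) q

include hAm hWm in
/-- injectivity of the second norm away from the eigenvalues of `w_q` -/
lemma ker_AW (hn : n ≠ 0) {x : Fin (finrank ℤ (Lat (q * M))) → ZMod n}
    (hx : (Am * Wm) *ᵥ x = 0) :
    Wm *ᵥ x + UmN (q * M) n q (dvd_mul_right q M) *ᵥ x = 0 := by
  obtain ⟨ζ, hζ⟩ := exists_zeta q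
  obtain ⟨u, hu⟩ := (KQ (q * M)).exists_cls (bL (q * M)) hn x
  have h1 := hWm.comp hAm u x hu
  rw [hx] at h1
  obtain ⟨g, hg, e⟩ := h1.exists_pow_one hn
  have h2 := alpha_Nq_al hqM hζ u
  change Nq q M (al ιQ hqM u) = g ^ n at e
  rw [e, map_pow] at h2
  have h3 := (hWm u x hu).mul (isMat_U (n := n) (dvd_mul_right q M) hζ u x hu)
  rw [← h2] at h3
  exact h3.unique hn (KSys.cls_pow hn ((map_ne_zero _).mpr hg))

include hqM hAm in
lemma A_M (hn : n ≠ 0) (σ : GQ) :
    Am * (KQ (q * M)).M (bL (q * M)) hn σ = (KQ M).M (bL M) hn σ * Am := by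
  refine ((KSys.isMat_act hn σ).comp hAm).eq hn ?_
  have h1 := hAm.comp (KSys.isMat_act (b := bL M) hn σ)
  have h2 : (fun u => Nq q M ((KQ (q * M)).act σ u)) = fun u => (KQ M).act σ (Nq q M u) := by
    funext u
    apply Subtype.ext
    rw [coe_Nq hqM]
    have h3 : (al ιQ hqM ((KQ (q * M)).act σ u) : LaurentSeries Qbar) =
        coeffMap ((fQ σ : RingAut Qbar) : Qbar →+* Qbar) (al ιQ hqM u : LaurentSeries Qbar) :=
      congrArg Subtype.val (al_galF ιQ hqM (fQ σ) u)
    rw [h3]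
    change coeffMap ((fQ σ : RingAut Qbar) : Qbar →+* Qbar) (u : LaurentSeries Qbar) * _ =
      coeffMap ((fQ σ : RingAut Qbar) : Qbar →+* Qbar) (Nq q M u : LaurentSeries Qbar)
    rw [coe_Nq hqM, map_mul, coeffMap_hW q _ ((fQ σ : RingAut Qbar) : Qbar →+* Qbar).injective]
  rw [h2]
  exact h1

include hWm in
lemma W_M (hn : n ≠ 0) (σ : GQ) :
    Wm * (KQ (q * M)).M (bL (q * M)) hn σ = (KQ (q * M)).M (bL (q * M)) hn σ * Wm := by
  refine ((KSys.isMat_act hn σ).comp hWm).eq hn ?_
  have h1 := hWm.comp (KSys.isMat_act (b := bL (q * M)) hn σ)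
  have h2 : (fun u => al ιQ hqM ((KQ (q * M)).act σ u)) =
      fun u => (KQ (q * M)).act σ (al ιQ hqM u) := by
    funext u
    exact al_galF ιQ hqM (fQ σ) u
  rw [h2]
  exact h1

/-! ### reduction at a place over `q` -/

variable {A : ValuationSubring Qbar}

lemma sc_full (N : ℕ) (hA : A.LiesOverPrime q) {u : LaurentSeries Qbar}
    (hu : u ∈ modularFunctionFieldFullC Qbar N) (hu0 : u ≠ 0) : Sc A u := by
  haveI := FrobDens.charP_residueField A hq.out hA
  exact scale_full (π := residue A) q N u hu hu0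

include hAm hWm in
/-- **the key relation** on classes with trivial reduction -/
theorem A_frob (hn0 : n ≠ 0) (hn : ¬ q ∣ n) (hA : A.LiesOverPrime q) {τ : GQ}
    (hτ : A.IsFrobeniusAt τ q)
    {x : Fin (finrank ℤ (Lat (q * M))) → ZMod n} (hx : KN (q * M) A n x) :
    Am *ᵥ x = (KQ M).M (bL M) hn0 τ *ᵥ ((Am * Wm) *ᵥ x) := by
  obtain ⟨u, hu, hu'⟩ := hx
  rw [← sub_eq_zero]
  refine KN.eq_zero hq.out hA (not_dvd_of_coprime hqM) hn
    ⟨Nq q M u / (KQ M).act τ (Nq q M (al ιQ hqM u)), ?_, ?_⟩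
  · exact (hAm u x hu).div hn0 ((hWm.comp hAm u x hu).act hn0 τ)
  · change RdC A ((Nq q M u : LaurentSeries Qbar) /
      coeffMap (τ : Qbar →+* Qbar) (Nq q M (al ιQ hqM u) : LaurentSeries Qbar))
    rw [coe_Nq hqM, coe_Nq hqM, al_al, map_mul, mul_comm (u : LaurentSeries Qbar),
      mul_div_mul_comm]
    have h1 : Sc A (al ιQ hqM u : LaurentSeries Qbar) :=
      sc_full (q * M) hA (al ιQ hqM u).2
        (fun h => (map_ne_zero (al ιQ hqM)).mpr hu.ne_zero (Subtype.ext h))
    have h2 : RdC A (hW q (u : LaurentSeries Qbar)) := by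
      obtain ⟨c, hc, h3⟩ := hu'
      have h4 := Rd.hW_one' (ℓ := q) h3
      rw [hW_const] at h4
      exact ⟨c ^ q, pow_ne_zero _ hc, h4⟩
    exact (RdC.hW_frob hq.out hA hτ h1).mul (hu'.div (h2.gal hτ.mem_decompositionSubgroup))

end Fermat.Agent.AnJacH
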