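import Fermat.Agent.Curves.Fundamental

/-!
# Order functions and places; conjugate places
-/

set_option autoImplicit false
set_option linter.unusedSectionVars false

noncomputable section

namespace Fermat.Agent.AnJacH

open AlgebraicCurve Fermat.Agent.Curves

section Place

variable {k F : Type*} [Field k] [Field F] [Algebra k F]

/-- order functions -/
structure IsOrd (k : Type*) {F : Type*} [Field k] [Field F] [Algebra k F] (ρ : F → ℤ) : Prop where
  mul : ∀ x y, x ≠ 0 → y ≠ 0 → ρ (x * y) = ρ x + ρ y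
  add : ∀ x y, x ≠ 0 → y ≠ 0 → x + y ≠ 0 → min (ρ x) (ρ y) ≤ ρ (x + y)
  const : ∀ a : k, a ≠ 0 → ρ (algebraMap k F a) = 0

variable {ρ : F → ℤ}

lemma IsOrd.one (h : IsOrd k ρ) : ρ 1 = 0 := by
  have := h.const 1 one_ne_zero
  rwa [map_one] at this

lemma IsOrd.inv (h : IsOrd k ρ) {x : F} (hx : x ≠ 0) : ρ x⁻¹ = -ρ x := by
  have := h.mul x x⁻¹ hx (inv_ne_zero hx)
  rw [mul_inv_cancel₀ hx, h.one] at this
  omega

lemma IsOrd.pow (h : IsOrd k ρ) {x : F} (hx : x ≠ 0) (n : ℕ) : ρ (x ^ n) = n * ρ x := by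
  induction n with
  | zero => simp [h.one]
  | succ n ih =>
    rw [pow_succ, h.mul _ _ (pow_ne_zero n hx) hx, ih]
    push_cast; ring

lemma IsOrd.zpow (h : IsOrd k ρ) {x : F} (hx : x ≠ 0) (n : ℤ) : ρ (x ^ n) = n * ρ x := by
  obtain ⟨m, rfl | rfl⟩ := n.eq_nat_or_neg
  · rw [zpow_natCast, h.pow hx]
  · rw [zpow_neg, zpow_natCast, h.inv (pow_ne_zero _ hx), h.pow hx]
    ring

/-- the place attached to an order function -/
theorem exists_place_of_rho (h : IsOrd k ρ) {z : F} (hz0 : z ≠ 0) (hz : ρ z ≠ 0) :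
    ∃ (v : Place k F) (ε : ℕ), 0 < ε ∧ ∀ f, f ≠ 0 → ρ f = ε * v.ord f := by
  classical
  have hex : ∃ n : ℕ, 0 < n ∧ ∃ x : F, x ≠ 0 ∧ ρ x = n := by
    rcases lt_or_gt_of_ne hz with h' | h'
    · refine ⟨(-(ρ z)).toNat, by omega, z⁻¹, inv_ne_zero hz0, ?_⟩
      rw [h.inv hz0]
      omega
    · exact ⟨(ρ z).toNat, by omega, z, hz0, by omega⟩
  obtain ⟨hpos, t, ht0, ht⟩ := Nat.find_spec hex
  set ε := Nat.find hex with hε
  have hmin : ∀ x : F, x ≠ 0 → 0 < ρ x → (ε : ℤ) ≤ ρ x := by
    intro x hx0 hx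
    have := Nat.find_min' hex (m := (ρ x).toNat) ⟨by omega, x, hx0, by omega⟩
    omega
  have hdvd : ∀ x : F, x ≠ 0 → (ε : ℤ) ∣ ρ x := by
    intro x hx
    rw [Int.dvd_iff_emod_eq_zero]
    by_contra hne'
    have h7 := Int.emod_nonneg (ρ x) (by omega : (ε : ℤ) ≠ 0)
    have h8 := Int.emod_lt_of_pos (ρ x) (by omega : (0 : ℤ) < ε)
    have h9 : ρ (x * (t ^ (ρ x / ε))⁻¹) = ρ x % ε := by
      rw [h.mul _ _ hx (inv_ne_zero (zpow_ne_zero _ ht0)), h.inv (zpow_ne_zero _ ht0),
        h.zpow ht0, ht, Int.emod_def]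
      ring
    have h10 := hmin _ (mul_ne_zero hx (inv_ne_zero (zpow_ne_zero (ρ x / ε) ht0)))
      (by rw [h9]; omega)
    omega
  have hε0 : (ε : ℤ) ≠ 0 := by omega
  obtain ⟨v, hv⟩ := exists_place_of_ord (k := k) (F := F) (fun f => ρ f / ε)
    (by
      intro x y hx hy
      change ρ (x * y) / ε = ρ x / ε + ρ y / ε
      rw [h.mul x y hx hy, Int.add_ediv_of_dvd_left (hdvd x hx)])
    (by
      intro x y hx hy hxy
      change min (ρ x / ε) (ρ y / ε) ≤ ρ (x + y) / ε
      have h1 : min (ρ x) (ρ y) ≤ ρ (x + y) := h.add x y hx hy hxy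
      rcases le_total (ρ x) (ρ y) with h' | h'
      · exact (min_le_left _ _).trans (Int.ediv_le_ediv (by omega) (by omega))
      · exact (min_le_right _ _).trans (Int.ediv_le_ediv (by omega) (by omega)))
    (by
      intro a ha
      change 0 ≤ ρ (algebraMap k F a) / ε
      rw [h.const a ha, Int.zero_ediv])
    ⟨t, ht0, by
      change ρ t / ε = 1
      rw [ht]
      exact Int.ediv_self hε0⟩
  refine ⟨v, ε, hpos, fun f hf => ?_⟩
  rw [hv f hf, Int.mul_ediv_cancel' (hdvd f hf)]

/-- places with proportional orders are equal -/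
lemma place_eq_of_ord {v w : Place k F} {a b : ℕ} (ha : 0 < a) (hb : 0 < b)
    (h : ∀ f : F, f ≠ 0 → (a : ℤ) * v.ord f = b * w.ord f) : v = w := by
  apply Place.ext
  ext f
  rcases eq_or_ne f 0 with rfl | hf
  · simp
  rw [mem_iff_ord v hf, mem_iff_ord w hf]
  have h3 := h f hf
  constructor
  · intro h
    by_contra hlt
    push Not at hlt
    have : (b : ℤ) * w.ord f < 0 := mul_neg_of_pos_of_neg (by omega) hlt
    have : 0 ≤ (a : ℤ) * v.ord f := mul_nonneg (by omega) h
    omega
  · intro h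
    by_contra hlt
    push Not at hlt
    have : (a : ℤ) * v.ord f < 0 := mul_neg_of_pos_of_neg (by omega) hlt
    have : 0 ≤ (b : ℤ) * w.ord f := mul_nonneg (by omega) h
    omega

/-- pulling back places along isomorphisms, semilinear version -/
lemma exists_place_comap {k' F' : Type*} [Field k'] [Field F'] [Algebra k' F'] (e : F ≃+* F')
    (he : ∀ c : k, ∃ c' : k', e (algebraMap k F c) = algebraMap k' F' c') (v : Place k' F') :
    ∃ w : Place k F, ∀ f, w.ord f = v.ord (e f) := by
  obtain ⟨w, hw⟩ := exists_place_of_ord (k := k) (fun f => v.ord (e f))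
    (by
      intro x y hx hy
      simp only [map_mul]
      rw [v.ord_mul ((map_ne_zero _).mpr hx) ((map_ne_zero _).mpr hy)])
    (by
      intro x y hx hy hxy
      simp only [map_add]
      refine ord_add v ?_ ((map_ne_zero _).mpr hx) ((map_ne_zero _).mpr hy)
      rw [← map_add]
      exact (map_ne_zero _).mpr hxy)
    (by
      intro a _
      obtain ⟨c', hc'⟩ := he a
      rw [hc']
      exact (ord_algebraMap v _).ge)
    (by
      obtain ⟨t, ht0, ht⟩ := exists_ord_eq v 1
      exact ⟨e.symm t, (map_ne_zero _).mpr ht0, by rw [e.apply_symm_apply, ht]⟩)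
  refine ⟨w, fun f => ?_⟩
  rcases eq_or_ne f 0 with rfl | hf
  · simp
  · exact hw f hf

end Place

section Conj

variable {k F F' : Type*} [Field k] [Field F] [Field F'] [Algebra k F] [Algebra k F']
  [Algebra F F'] [IsScalarTower k F F'] [IsAlgClosed k] [IsFunctionField k F']

/-- transitivity of a group of automorphisms on the places above a given place -/
theorem exists_conj {G : Type*} [Group G] [Finite G] (a : G → F' ≃ₐ[k] F')
    (ha1 : a 1 = AlgEquiv.refl)
    (ham : ∀ g h x, a g (a h x) = a (g * h) x)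
    (hfix : ∀ x : F', (∀ g, a g x = x) → ∃ y : F, algebraMap F F' y = x)
    {w w' : Place k F'} (c c' : ℕ) (hc : 0 < c) (hc' : 0 < c')
    (hww : ∀ y : F, y ≠ 0 → (c : ℤ) * w.ord (algebraMap F F' y) = c' * w'.ord (algebraMap F F' y)) :
    ∃ g : G, ∀ x, w.ord x = w'.ord (a g x) := by
  classical
  have := Fintype.ofFinite G
  choose W hW using fun (u : Place k F') (g : G) => exists_place_comap (k := k) (k' := k)
    (a g).toRingEquiv (fun c => ⟨c, (a g).commutes c⟩) u
  have hW' : ∀ u g x, (W u g).ord x = u.ord (a g x) := hW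
  by_contra hcon
  push Not at hcon
  have hdisj : ∀ g h, W w g ≠ W w' h := by
    intro g h he
    obtain ⟨x, hx⟩ := hcon (h * g⁻¹)
    apply hx
    have h1 : (W w g).ord (a g⁻¹ x) = (W w' h).ord (a g⁻¹ x) := by rw [he]
    rw [hW', hW', ham, ham, mul_inv_cancel, ha1] at h1
    exact h1
  obtain ⟨x, hx0, hx⟩ := exists_ord_eq_finset
    (Finset.univ.image (W w) ∪ Finset.univ.image (W w'))
    (fun u => if u ∈ Finset.univ.image (W w) then 1 else 0)
  have h1 : ∀ g, w.ord (a g x) = 1 := by
    intro g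
    rw [← hW', hx _ (Finset.mem_union_left _ (Finset.mem_image_of_mem _ (Finset.mem_univ g))),
      if_pos (Finset.mem_image_of_mem _ (Finset.mem_univ g))]
  have h2 : ∀ g, w'.ord (a g x) = 0 := by
    intro g
    rw [← hW', hx _ (Finset.mem_union_right _ (Finset.mem_image_of_mem _ (Finset.mem_univ g))),
      if_neg]
    rw [Finset.mem_image]
    rintro ⟨h, _, he⟩
    exact hdisj h g he
  have hord : ∀ u : Place k F', u.ord (∏ g, a g x) = ∑ g, u.ord (a g x) := by
    intro u
    have : ∀ s : Finset G, u.ord (∏ g ∈ s, a g x) = ∑ g ∈ s, u.ord (a g x) := by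
      intro s
      induction s using Finset.induction_on with
      | empty =>
        rw [Finset.prod_empty, Finset.sum_empty]
        have := ord_algebraMap u (1 : k)
        rwa [map_one] at this
      | insert g s hg ih =>
        rw [Finset.prod_insert hg, Finset.sum_insert hg, u.ord_mul
          ((map_ne_zero _).mpr hx0)
          (Finset.prod_ne_zero_iff.mpr fun i _ => (map_ne_zero _).mpr hx0), ih]
    exact this _
  obtain ⟨y, hy⟩ := hfix (∏ g, a g x) (by
    intro g
    rw [map_prod]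
    simp only [ham]
    exact Equiv.prod_comp (Equiv.mulLeft g) (fun h => a h x))
  have hy0 : y ≠ 0 := by
    rintro rfl
    rw [map_zero] at hy
    exact Finset.prod_ne_zero_iff.mpr (fun i _ => (map_ne_zero _).mpr hx0) hy.symm
  have h3 := hww y hy0
  rw [hy, hord, hord] at h3
  simp only [h1, h2, Finset.sum_const_zero, mul_zero, Finset.sum_const, Finset.card_univ,
    nsmul_eq_mul, mul_one] at h3
  have h4 : 0 < Fintype.card G := Fintype.card_pos
  have h5 : (0 : ℤ) < (c : ℤ) * Fintype.card G := by positivity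
  omega

end Conj

end Fermat.Agent.AnJacH
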