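import Fermat.Agent.AnJac.CharAlg
import Fermat.Agent.AnJacH.Rho

/-!
# Functions on `Γ\ℍ` for normal subgroups `Γ` of `Γ₀(N)` containing the non-hyperbolic elements
-/

set_option autoImplicit false
set_option linter.unusedSectionVars false

open UpperHalfPlane ModularForm MatrixGroups Matrix.SpecialLinearGroup Filter Function
open scoped Manifold Topology Real

noncomputable section

namespace Fermat.Agent.AnJacH

open Fermat.Agent.AnJac Fermat.Agent.DimS2 Fermat.Agent.ModFun CongruenceSubgroup AlgebraicCurve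
open ModularCurve IntermediateField

/-- admissible groups -/
structure Adm (N : ℕ) (Γ : Subgroup SL(2,ℤ)) : Prop where
  le : Γ ≤ Gamma0 N
  nh : ∀ γ ∈ Gamma0 N, |γ 0 0 + γ 1 1| ≤ 2 → γ ∈ Γ
  conj : ∀ g ∈ Gamma0 N, ∀ γ ∈ Γ, g * γ * g⁻¹ ∈ Γ
  comm : ∀ g ∈ Gamma0 N, ∀ h ∈ Gamma0 N, g * h * g⁻¹ * h⁻¹ ∈ Γ
  fin : (Γ.subgroupOf (Gamma0 N)).FiniteIndex

variable {N : ℕ} {Γ : Subgroup SL(2,ℤ)}

/-- homomorphisms killing all non-hyperbolic elements -/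
def IsNHG {Γ : Subgroup SL(2,ℤ)} {M : Type*} [Monoid M] (χ : Γ →* M) : Prop :=
  ∀ γ : Γ, |(γ : SL(2,ℤ)) 0 0 + (γ : SL(2,ℤ)) 1 1| ≤ 2 → χ γ = 1

lemma isNHG_one {M : Type*} [Monoid M] : IsNHG (1 : Γ →* M) := fun _ _ => rfl

lemma IsNHG.mul {M : Type*} [CommMonoid M] {χ ψ : Γ →* M} (hχ : IsNHG χ)
    (hψ : IsNHG ψ) : IsNHG (χ * ψ) := fun γ hγ => by
  rw [MonoidHom.mul_apply, hχ γ hγ, hψ γ hγ, mul_one]

lemma IsNHG.pow {M : Type*} [CommMonoid M] {χ : Γ →* M} (hχ : IsNHG χ)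
    (n : ℕ) : IsNHG (χ ^ n) := fun γ hγ => by
  rw [MonoidHom.pow_apply, hχ γ hγ, one_pow]

lemma IsNHG.inv {M : Type*} [CommGroup M] {χ : Γ →* M} (hχ : IsNHG χ) :
    IsNHG χ⁻¹ := fun γ hγ => by
  rw [MonoidHom.inv_apply, hχ γ hγ, inv_one]

/-- functions with character on `Γ\ℍ` -/
structure IsXG (N : ℕ) (Γ : Subgroup SL(2,ℤ)) (χ : Γ →* ℂˣ) (f : ℍ → ℂ) : Prop where
  isA : IsA N f
  inv : ∀ (γ : Γ) (τ : ℍ), f ((γ : SL(2,ℤ)) • τ) = χ γ * f τ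

lemma Adm.T_mem (hΓ : Adm N Γ) : ModularGroup.T ∈ Γ :=
  hΓ.nh _ (AnJac.T_mem N) (by simp [ModularGroup.T])

lemma Adm.neg_one_mem (hΓ : Adm N Γ) : (-1 : SL(2,ℤ)) ∈ Γ :=
  hΓ.nh _ (by rw [Gamma0_mem]; simp) (by simp)

lemma Adm.conj_T_mem (hΓ : Adm N Γ) (δ : SL(2,ℤ)) : δ * ModularGroup.T ^ N * δ⁻¹ ∈ Γ := by
  apply hΓ.nh _ (Gamma_le_Gamma0 N (conj_T_mem_Gamma N δ))
  rw [trace_conj]
  have := ModularGroup.coe_T_zpow (N : ℤ)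
  rw [zpow_natCast] at this
  rw [this]
  simp

lemma IsNHG.conj_T (hΓ : Adm N Γ) {M : Type*} [Monoid M] {χ : Γ →* M} (h : IsNHG χ) (δ : SL(2,ℤ)) :
    χ ⟨δ * ModularGroup.T ^ N * δ⁻¹, hΓ.conj_T_mem δ⟩ = 1 := by
  apply h
  rw [trace_conj]
  have := ModularGroup.coe_T_zpow (N : ℤ)
  rw [zpow_natCast] at this
  rw [this]
  simp

/-- constructor for `IsXG` -/
lemma IsXG.of (hΓ : Adm N Γ) {χ : Γ →* ℂˣ} (hχ : IsNHG χ) {f : ℍ → ℂ} (h1 : MDiff f)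
    (h2 : ∀ (γ : Γ) (τ : ℍ), f ((γ : SL(2,ℤ)) • τ) = χ γ * f τ) (h3 : MGA f) :
    IsXG N Γ χ f := by
  refine ⟨⟨h1, fun δ τ => ?_, h3⟩, h2⟩
  have h4 := h2 ⟨δ * ModularGroup.T ^ N * δ⁻¹, hΓ.conj_T_mem δ⟩ (δ • τ)
  rw [hχ.conj_T hΓ, Units.val_one, one_mul] at h4
  rw [← h4]
  congr 1
  simp only [← mul_smul]
  congr 1
  group

namespace IsXG

variable {χ ψ : Γ →* ℂˣ} {f g : ℍ → ℂ}

lemma isP (hf : IsXG N Γ χ f) (hΓ : Adm N Γ) (hχ : IsNHG χ) : IsP f := by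
  refine ⟨hf.isA.mdiff, fun τ => ?_, ?_⟩
  · have h1 := hf.inv ⟨ModularGroup.T, hΓ.T_mem⟩ τ
    rw [hχ ⟨ModularGroup.T, hΓ.T_mem⟩ (by simp [ModularGroup.T]), Units.val_one, one_mul] at h1
    exact h1
  · refine (hf.isA.mg 1).congr fun τ => ?_
    rw [one_smul]

lemma isP_one (hf : IsXG N Γ 1 f) (hΓ : Adm N Γ) : IsP f := hf.isP hΓ isNHG_one

lemma mul (hf : IsXG N Γ χ f) (hg : IsXG N Γ ψ g) : IsXG N Γ (χ * ψ) (f * g) :=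
  ⟨hf.isA.mul hg.isA, fun γ τ => by
    rw [Pi.mul_apply, Pi.mul_apply, hf.inv, hg.inv, MonoidHom.mul_apply, Units.val_mul]; ring⟩

lemma add (hf : IsXG N Γ χ f) (hg : IsXG N Γ χ g) : IsXG N Γ χ (f + g) :=
  ⟨hf.isA.add hg.isA, fun γ τ => by
    rw [Pi.add_apply, Pi.add_apply, hf.inv, hg.inv]; ring⟩

lemma const (c : ℂ) : IsXG N Γ 1 (fun _ => c) := ⟨IsA.const c, fun γ τ => by simp⟩

lemma one : IsXG N Γ 1 1 := const 1

lemma pow (hf : IsXG N Γ χ f) (n : ℕ) : IsXG N Γ (χ ^ n) (f ^ n) := by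
  refine ⟨(Asub N).pow_mem hf.isA n, fun γ τ => ?_⟩
  rw [Pi.pow_apply, Pi.pow_apply, hf.inv, mul_pow, MonoidHom.pow_apply, Units.val_pow_eq_pow_val]

lemma mul_one' (hf : IsXG N Γ 1 f) (hg : IsXG N Γ 1 g) : IsXG N Γ 1 (f * g) := by
  have := hf.mul hg
  exact ⟨this.isA, fun γ τ => by have := this.inv γ τ; simpa using this⟩

lemma pow_one' (hf : IsXG N Γ 1 f) (n : ℕ) : IsXG N Γ 1 (f ^ n) := by
  have := hf.pow n
  exact ⟨this.isA, fun γ τ => by have := this.inv γ τ; simpa using this⟩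

lemma smul (hf : IsXG N Γ χ f) (c : ℂ) : IsXG N Γ χ (fun τ => c * f τ) :=
  ⟨(IsA.const c).mul hf.isA, fun γ τ => by
    rw [hf.inv]
    ring⟩

lemma inv_one' (hf : IsXG N Γ 1 f) {γ : SL(2,ℤ)} (hγ : γ ∈ Γ) (τ : ℍ) :
    f (γ • τ) = f τ := by
  have := hf.inv ⟨γ, hγ⟩ τ
  simpa using this

/-- restriction from `Γ₀(N)` -/
lemma of_isX (hΓ : Adm N Γ) {χ : Gamma0 N →* ℂˣ} (hf : IsX N χ f) :
    IsXG N Γ (χ.comp (Subgroup.inclusion hΓ.le)) f :=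
  ⟨hf.isA, fun γ τ => hf.inv ⟨γ, hΓ.le γ.2⟩ τ⟩

lemma of_isX_one (hΓ : Adm N Γ) (hf : IsX N 1 f) : IsXG N Γ 1 f :=
  ⟨hf.isA, fun γ τ => by
    have := hf.inv ⟨γ, hΓ.le γ.2⟩ τ
    simpa using this⟩

lemma to_isX (hf : IsXG N Γ 1 f) (h : ∀ g ∈ Gamma0 N, ∀ τ, f (g • τ) = f τ) : IsX N 1 f :=
  ⟨hf.isA, fun γ τ => by rw [h γ γ.2]; simp⟩

end IsXG

/-! ### translation by elements of `Γ₀(N)` -/

/-- translation -/
def sl (f : ℍ → ℂ) (g : SL(2,ℤ)) : ℍ → ℂ := fun τ => f (g • τ)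

lemma sl_apply (f : ℍ → ℂ) (g : SL(2,ℤ)) (τ : ℍ) : sl f g τ = f (g • τ) := rfl

lemma sl_sl (f : ℍ → ℂ) (g h : SL(2,ℤ)) : sl (sl f g) h = sl f (g * h) := by
  ext τ
  rw [sl_apply, sl_apply, sl_apply, mul_smul]

lemma sl_one (f : ℍ → ℂ) : sl f 1 = f := by
  ext τ; rw [sl_apply, one_smul]

lemma sl_mul (f g : ℍ → ℂ) (γ : SL(2,ℤ)) : sl (f * g) γ = sl f γ * sl g γ := rfl

lemma sl_add (f g : ℍ → ℂ) (γ : SL(2,ℤ)) : sl (f + g) γ = sl f γ + sl g γ := rfl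

lemma sl_pow (f : ℍ → ℂ) (n : ℕ) (γ : SL(2,ℤ)) : sl (f ^ n) γ = sl f γ ^ n := rfl

lemma sl_eq_zero {f : ℍ → ℂ} {γ : SL(2,ℤ)} (h : sl f γ = 0) : f = 0 := by
  have := congrArg (fun f => sl f γ⁻¹) h
  simp only [sl_sl, mul_inv_cancel, sl_one] at this
  exact this

lemma sl_ne_zero {f : ℍ → ℂ} (h : f ≠ 0) (γ : SL(2,ℤ)) : sl f γ ≠ 0 := fun h' => h (sl_eq_zero h')

/-- conjugation -/
def conjH (hΓ : Adm N Γ) (g : Gamma0 N) : Γ →* Γ where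
  toFun γ := ⟨g * γ * (g : SL(2,ℤ))⁻¹, hΓ.conj g g.2 γ γ.2⟩
  map_one' := by ext1; simp
  map_mul' a b := by
    ext1
    simp only [Subgroup.coe_mul]
    group

lemma coe_conjH (hΓ : Adm N Γ) (g : Gamma0 N) (γ : Γ) :
    (conjH hΓ g γ : SL(2,ℤ)) = g * γ * (g : SL(2,ℤ))⁻¹ := rfl

lemma IsNHG.conjH (hΓ : Adm N Γ) {M : Type*} [Monoid M] {χ : Γ →* M} (h : IsNHG χ) (g : Gamma0 N) :
    IsNHG (χ.comp (AnJacH.conjH hΓ g)) := by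
  intro γ hγ
  rw [MonoidHom.comp_apply]
  apply h
  rw [coe_conjH, trace_conj]
  exact hγ

lemma IsXG.sl (hΓ : Adm N Γ) {χ : Γ →* ℂˣ} {f : ℍ → ℂ} (hf : IsXG N Γ χ f) (g : Gamma0 N) :
    IsXG N Γ (χ.comp (conjH hΓ g)) (sl f g) := by
  refine ⟨hf.isA.translate g, fun γ τ => ?_⟩
  have h := hf.inv (conjH hΓ g γ) ((g : SL(2,ℤ)) • τ)
  rw [sl_apply, sl_apply, MonoidHom.comp_apply, ← h, coe_conjH, ← mul_smul, ← mul_smul]
  congr 2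
  group

lemma IsXG.sl_one' (hΓ : Adm N Γ) {f : ℍ → ℂ} (hf : IsXG N Γ 1 f) (g : Gamma0 N) :
    IsXG N Γ 1 (AnJacH.sl f g) := hf.sl hΓ g

lemma IsXG.sl_mem {f : ℍ → ℂ} (hf : IsXG N Γ 1 f) {γ : SL(2,ℤ)} (hγ : γ ∈ Γ) :
    AnJacH.sl f γ = f := by
  ext τ
  exact hf.inv_one' hγ τ

/-- translations commute -/
lemma IsXG.sl_comm (hΓ : Adm N Γ) {f : ℍ → ℂ} (hf : IsXG N Γ 1 f) (g h : Gamma0 N) :
    AnJacH.sl f ((g : SL(2,ℤ)) * h) = AnJacH.sl f ((h : SL(2,ℤ)) * g) := by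
  have h1 : ((g : SL(2,ℤ)) * h) = ((g : SL(2,ℤ)) * h * (g : SL(2,ℤ))⁻¹ * (h : SL(2,ℤ))⁻¹) *
      ((h : SL(2,ℤ)) * g) := by group
  rw [h1, ← sl_sl f, hf.sl_mem (hΓ.comm g g.2 h h.2)]

/-- translates of `j`-polynomials -/
lemma sl_jev (B : Polynomial ℂ) (g : SL(2,ℤ)) : sl (ef (jev ℂ B)) g = ef (jev ℂ B) := by
  ext τ
  rw [sl_apply, ef_jev_smul]

lemma isXG_jev [NeZero N] (hΓ : Adm N Γ) (B : Polynomial ℂ) : IsXG N Γ 1 (ef (jev ℂ B)) :=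
  IsXG.of_isX_one hΓ (isX_jev B)

/-! ### the field -/

/-- Laurent series of functions on `Γ\ℍ` -/
def RsubG (hΓ : Adm N Γ) : Subalgebra ℂ (LaurentSeries ℂ) where
  carrier := {F | ∃ f, IsXG N Γ 1 f ∧ F = lser f}
  mul_mem' := by
    rintro _ _ ⟨f, hf, rfl⟩ ⟨g, hg, rfl⟩
    exact ⟨f * g, hf.mul_one' hg, (lser_mul (hf.isP_one hΓ) (hg.isP_one hΓ)).symm⟩
  add_mem' := by
    rintro _ _ ⟨f, hf, rfl⟩ ⟨g, hg, rfl⟩
    exact ⟨f + g, hf.add hg, (lser_add (hf.isP_one hΓ) (hg.isP_one hΓ)).symm⟩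
  algebraMap_mem' c := ⟨fun _ => c, IsXG.const c, by rw [lser_const, C_eq_algebraMap]⟩

lemma lser_mem_RsubG (hΓ : Adm N Γ) {f : ℍ → ℂ} (hf : IsXG N Γ 1 f) : lser f ∈ RsubG hΓ :=
  ⟨f, hf, rfl⟩

lemma jev_mem_RsubG [NeZero N] (hΓ : Adm N Γ) (P : Polynomial ℂ) : jev ℂ P ∈ RsubG hΓ :=
  ⟨ef (jev ℂ P), isXG_jev hΓ P, (lser_ef (jev_mem P)).symm⟩

/-- the quotient group -/
abbrev Dl (N : ℕ) (Γ : Subgroup SL(2,ℤ)) := Gamma0 N ⧸ Γ.subgroupOf (Gamma0 N)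

lemma Adm.normal (hΓ : Adm N Γ) : (Γ.subgroupOf (Gamma0 N)).Normal :=
  ⟨fun γ hγ g => by
    rw [Subgroup.mem_subgroupOf] at hγ ⊢
    exact hΓ.conj g g.2 _ hγ⟩

lemma Adm.finite (hΓ : Adm N Γ) : Finite (Dl N Γ) := by
  have := hΓ.fin
  exact Subgroup.finite_quotient_of_finiteIndex

/-- translates depend only on the coset -/
lemma IsXG.sl_congr (hΓ : Adm N Γ) {f : ℍ → ℂ} (hf : IsXG N Γ 1 f) {g h : Gamma0 N}
    (e : (QuotientGroup.mk g : Dl N Γ) = QuotientGroup.mk h) : AnJacH.sl f g = AnJacH.sl f h := by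
  rw [QuotientGroup.eq, Subgroup.mem_subgroupOf] at e
  have h1 : (h : SL(2,ℤ)) * (g : SL(2,ℤ))⁻¹ ∈ Γ := by
    have := hΓ.conj g g.2 _ e
    convert this using 1
    simp only [Subgroup.coe_mul, Subgroup.coe_inv]
    group
  have h2 : (h : SL(2,ℤ)) = ((h : SL(2,ℤ)) * (g : SL(2,ℤ))⁻¹) * g := by group
  rw [h2, ← sl_sl f, hf.sl_mem h1]

/-- the norm to `Γ₀(N)` -/
lemma exists_norm (hΓ : Adm N Γ) [NeZero N] {f : ℍ → ℂ} (hf : IsXG N Γ 1 f) (hf0 : f ≠ 0) :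
    ∃ g, IsXG N Γ 1 g ∧ IsX N 1 (f * g) ∧ f * g ≠ 0 := by
  classical
  have := hΓ.finite
  have := hΓ.normal
  have := Fintype.ofFinite (Dl N Γ)
  have hX : ∀ s : Finset (Dl N Γ), IsXG N Γ 1 (∏ x ∈ s, sl f (Quotient.out x : Gamma0 N)) := by
    intro s
    induction s using Finset.induction_on with
    | empty => rw [Finset.prod_empty]; exact IsXG.one
    | insert x s hx ih => rw [Finset.prod_insert hx]; exact (hf.sl_one' hΓ _).mul_one' ih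
  have h1 : sl f (Quotient.out (1 : Dl N Γ) : Gamma0 N) = f := by
    have e : (QuotientGroup.mk (Quotient.out (1 : Dl N Γ)) : Dl N Γ) =
        QuotientGroup.mk (1 : Gamma0 N) := Quotient.out_eq _
    rw [hf.sl_congr hΓ e, Subgroup.coe_one, sl_one]
  have h2 : f * ∏ x ∈ Finset.univ.erase (1 : Dl N Γ), sl f (Quotient.out x : Gamma0 N) =
      ∏ x : Dl N Γ, sl f (Quotient.out x : Gamma0 N) := by
    rw [← Finset.mul_prod_erase _ _ (Finset.mem_univ (1 : Dl N Γ)), h1]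
  refine ⟨_, hX (Finset.univ.erase 1), ?_, ?_⟩
  · rw [h2]
    refine (hX Finset.univ).to_isX fun g hg τ => ?_
    rw [Finset.prod_apply, Finset.prod_apply]
    rw [← Equiv.prod_comp (Equiv.mulRight (QuotientGroup.mk ⟨g, hg⟩ : Dl N Γ))
      (fun x => sl f (Quotient.out x : Gamma0 N) τ)]
    refine Finset.prod_congr rfl fun x _ => ?_
    have h3 : sl f ((Quotient.out x : Gamma0 N) * (⟨g, hg⟩ : Gamma0 N) : Gamma0 N) =
        sl f (Quotient.out (x * QuotientGroup.mk (⟨g, hg⟩ : Gamma0 N)) : Gamma0 N) := by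
      apply hf.sl_congr hΓ
      rw [QuotientGroup.mk_mul]
      have e1 : (QuotientGroup.mk (Quotient.out x) : Dl N Γ) = x := Quotient.out_eq _
      have e2 : (QuotientGroup.mk (Quotient.out (x * QuotientGroup.mk (⟨g, hg⟩ : Gamma0 N))) :
        Dl N Γ) = x * QuotientGroup.mk (⟨g, hg⟩ : Gamma0 N) := Quotient.out_eq _
      rw [e1, e2]
    rw [Equiv.coe_mulRight, ← h3, Subgroup.coe_mul, ← sl_sl]
    rfl
  · rw [h2, Ne, prod_eq_zero_iff (fun x _ => (hf.sl_one' hΓ _).isA.mdiff)]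
    rintro ⟨x, _, hx⟩
    exact sl_ne_zero hf0 _ hx

variable [NeZero N]

/-- a nonzero element divides a nonzero polynomial in `j` -/
lemma exists_dvd_jevG (hΓ : Adm N Γ) {F : LaurentSeries ℂ} (hF : F ∈ RsubG hΓ) (hF0 : F ≠ 0) :
    ∃ G ∈ RsubG hΓ, ∃ B : Polynomial ℂ, B ≠ 0 ∧ F * G = jev ℂ B := by
  obtain ⟨f, hf, rfl⟩ := hF
  have hf0 : f ≠ 0 := by
    rintro rfl
    exact hF0 ((lser_eq_zero_iff (hf.isP_one hΓ)).mpr rfl)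
  obtain ⟨g, hg, hfg, hfg0⟩ := exists_norm hΓ hf hf0
  obtain ⟨G, ⟨h, hh, rfl⟩, B, hB, h1⟩ := exists_dvd_jev (N := N) ⟨f * g, hfg, rfl⟩
    (lser_ne_zero (hfg.isP isNH_one) hfg0)
  have hh' := IsXG.of_isX_one hΓ hh
  refine ⟨lser (g * h), lser_mem_RsubG hΓ (hg.mul_one' hh'), B, hB, ?_⟩
  rw [← h1, lser_mul (hf.isP_one hΓ) (hg.isP_one hΓ), lser_mul (hg.isP_one hΓ) (hh'.isP_one hΓ),
    mul_assoc]

/-- the field of quotients -/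
def MfG (hΓ : Adm N Γ) : IntermediateField ℂ (LaurentSeries ℂ) where
  carrier := {u | ∃ F ∈ RsubG hΓ, ∃ B : Polynomial ℂ, B ≠ 0 ∧ u * jev ℂ B = F}
  mul_mem' := by
    rintro u v ⟨F, hF, B, hB, h⟩ ⟨G, hG, C, hC, h'⟩
    refine ⟨F * G, mul_mem hF hG, B * C, mul_ne_zero hB hC, ?_⟩
    rw [map_mul, ← h, ← h']
    ring
  add_mem' := by
    rintro u v ⟨F, hF, B, hB, h⟩ ⟨G, hG, C, hC, h'⟩
    refine ⟨F * jev ℂ C + G * jev ℂ B, add_mem (mul_mem hF (jev_mem_RsubG hΓ C))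
      (mul_mem hG (jev_mem_RsubG hΓ B)), B * C, mul_ne_zero hB hC, ?_⟩
    rw [map_mul, ← h, ← h']
    ring
  algebraMap_mem' c := ⟨_, (RsubG hΓ).algebraMap_mem c, 1, one_ne_zero, by simp⟩
  inv_mem' := by
    rintro u ⟨F, hF, B, hB, h⟩
    rcases eq_or_ne u 0 with rfl | hu
    · exact ⟨0, zero_mem _, 1, one_ne_zero, by simp⟩
    · have hjB : jev ℂ B ≠ 0 := by
        rw [Ne, map_eq_zero_iff _ jev_injective]; exact hB
      have hF0 : F ≠ 0 := by rw [← h]; exact mul_ne_zero hu hjB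
      obtain ⟨G, hG, C, hC, hFG⟩ := exists_dvd_jevG hΓ hF hF0
      refine ⟨jev ℂ B * G, mul_mem (jev_mem_RsubG hΓ B) hG, C, hC, ?_⟩
      rw [← hFG, ← h]
      field_simp

lemma jev_ne_zero {B : Polynomial ℂ} (hB : B ≠ 0) : jev ℂ B ≠ 0 := by
  rw [Ne, map_eq_zero_iff _ jev_injective]; exact hB

variable (hΓ : Adm N Γ)

lemma mem_MfG {u : LaurentSeries ℂ} : u ∈ MfG hΓ ↔ ∃ f, IsXG N Γ 1 f ∧ ∃ B : Polynomial ℂ, B ≠ 0 ∧
    u * jev ℂ B = lser f := by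
  constructor
  · rintro ⟨_, ⟨f, hf, rfl⟩, B, hB, h⟩
    exact ⟨f, hf, B, hB, h⟩
  · rintro ⟨f, hf, B, hB, h⟩
    exact ⟨_, ⟨f, hf, rfl⟩, B, hB, h⟩

lemma lser_mem_MfG {f : ℍ → ℂ} (hf : IsXG N Γ 1 f) : lser f ∈ MfG hΓ :=
  (mem_MfG hΓ).mpr ⟨f, hf, 1, one_ne_zero, by simp⟩

lemma quot_mem_MfG {f g : ℍ → ℂ} (hf : IsXG N Γ 1 f) (hg : IsXG N Γ 1 g) :
    lser f / lser g ∈ MfG hΓ := div_mem (lser_mem_MfG hΓ hf) (lser_mem_MfG hΓ hg)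

lemma FF_le_MfG : FF N ≤ MfG hΓ := by
  intro u hu
  obtain ⟨f, hf, B, hB, h⟩ := mem_FF.mp hu
  exact (mem_MfG hΓ).mpr ⟨f, IsXG.of_isX_one hΓ hf, B, hB, h⟩

/-! ### diamond automorphisms -/

/-- representation of elements -/
def Rp (N : ℕ) (Γ : Subgroup SL(2,ℤ)) (u : LaurentSeries ℂ) (f : ℍ → ℂ) (B : Polynomial ℂ) :
    Prop := IsXG N Γ 1 f ∧ B ≠ 0 ∧ u * jev ℂ B = lser f

lemma exists_Rp {u : LaurentSeries ℂ} (hu : u ∈ MfG hΓ) : ∃ f B, Rp N Γ u f B := by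
  obtain ⟨f, hf, B, hB, h⟩ := (mem_MfG hΓ).mp hu
  exact ⟨f, B, hf, hB, h⟩

lemma Rp.cross {u : LaurentSeries ℂ} {f f' : ℍ → ℂ} {B B' : Polynomial ℂ} (h : Rp N Γ u f B)
    (h' : Rp N Γ u f' B') (hΓ : Adm N Γ) : f * ef (jev ℂ B') = f' * ef (jev ℂ B) := by
  apply lser_inj ((h.1.mul_one' (isXG_jev hΓ B')).isP_one hΓ)
    ((h'.1.mul_one' (isXG_jev hΓ B)).isP_one hΓ)
  rw [lser_mul (h.1.isP_one hΓ) ((isXG_jev hΓ B').isP_one hΓ),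
    lser_mul (h'.1.isP_one hΓ) ((isXG_jev hΓ B).isP_one hΓ), lser_ef (jev_mem _),
    lser_ef (jev_mem _), ← h.2.2, ← h'.2.2]
  ring

/-- the diamond map -/
def diaF (g : Gamma0 N) (u : MfG hΓ) : LaurentSeries ℂ :=
  lser (sl (exists_Rp hΓ u.2).choose g) / jev ℂ (exists_Rp hΓ u.2).choose_spec.choose

lemma diaF_eq (g : Gamma0 N) (u : MfG hΓ) {f : ℍ → ℂ} {B : Polynomial ℂ}
    (h : Rp N Γ (u : LaurentSeries ℂ) f B) : diaF hΓ g u = lser (sl f g) / jev ℂ B := by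
  have h' := (exists_Rp hΓ u.2).choose_spec.choose_spec
  set f' := (exists_Rp hΓ u.2).choose with hf'
  set B' := (exists_Rp hΓ u.2).choose_spec.choose with hB'
  have h1 := congrArg (fun f => sl f g) (h.cross h' hΓ)
  simp only [sl_mul, sl_jev] at h1
  have h2 := congrArg lser h1
  rw [lser_mul ((h.1.sl_one' hΓ g).isP_one hΓ) ((isXG_jev hΓ B').isP_one hΓ),
    lser_mul ((h'.1.sl_one' hΓ g).isP_one hΓ) ((isXG_jev hΓ B).isP_one hΓ), lser_ef (jev_mem _),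
    lser_ef (jev_mem _)] at h2
  have h3 := jev_ne_zero h.2.1
  have h4 := jev_ne_zero h'.2.1
  unfold diaF
  rw [div_eq_div_iff h4 h3]
  exact h2.symm

lemma diaF_rp (g : Gamma0 N) (u : MfG hΓ) {f : ℍ → ℂ} {B : Polynomial ℂ}
    (h : Rp N Γ (u : LaurentSeries ℂ) f B) : Rp N Γ (diaF hΓ g u) (sl f g) B := by
  refine ⟨h.1.sl_one' hΓ g, h.2.1, ?_⟩
  rw [diaF_eq hΓ g u h, div_mul_cancel₀ _ (jev_ne_zero h.2.1)]

lemma diaF_mem (g : Gamma0 N) (u : MfG hΓ) : diaF hΓ g u ∈ MfG hΓ := by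
  obtain ⟨f, B, h⟩ := exists_Rp hΓ u.2
  have := diaF_rp hΓ g u h
  exact (mem_MfG hΓ).mpr ⟨_, this.1, B, this.2.1, this.2.2⟩

lemma Rp.mul (hΓ : Adm N Γ) {u v : LaurentSeries ℂ} {f g : ℍ → ℂ} {B C : Polynomial ℂ}
    (h : Rp N Γ u f B) (h' : Rp N Γ v g C) : Rp N Γ (u * v) (f * g) (B * C) := by
  refine ⟨h.1.mul_one' h'.1, mul_ne_zero h.2.1 h'.2.1, ?_⟩
  rw [lser_mul (h.1.isP_one hΓ) (h'.1.isP_one hΓ), ← h.2.2, ← h'.2.2, map_mul]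
  ring

lemma Rp.add (hΓ : Adm N Γ) {u v : LaurentSeries ℂ} {f g : ℍ → ℂ} {B C : Polynomial ℂ}
    (h : Rp N Γ u f B) (h' : Rp N Γ v g C) :
    Rp N Γ (u + v) (f * ef (jev ℂ C) + g * ef (jev ℂ B)) (B * C) := by
  refine ⟨(h.1.mul_one' (isXG_jev hΓ C)).add (h'.1.mul_one' (isXG_jev hΓ B)),
    mul_ne_zero h.2.1 h'.2.1, ?_⟩
  rw [lser_add ((h.1.mul_one' (isXG_jev hΓ C)).isP_one hΓ)
    ((h'.1.mul_one' (isXG_jev hΓ B)).isP_one hΓ),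
    lser_mul (h.1.isP_one hΓ) ((isXG_jev hΓ C).isP_one hΓ),
    lser_mul (h'.1.isP_one hΓ) ((isXG_jev hΓ B).isP_one hΓ), lser_ef (jev_mem _),
    lser_ef (jev_mem _), ← h.2.2, ← h'.2.2, map_mul]
  ring

lemma Rp.const (hΓ : Adm N Γ) (c : ℂ) : Rp N Γ (algebraMap ℂ (LaurentSeries ℂ) c) (fun _ => c) 1 :=
  ⟨IsXG.const c, one_ne_zero, by rw [map_one, mul_one, lser_const, C_eq_algebraMap]⟩

/-- diamond automorphisms -/
def dia (g : Gamma0 N) : MfG hΓ →ₐ[ℂ] MfG hΓ where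
  toFun u := ⟨diaF hΓ g u, diaF_mem hΓ g u⟩
  map_one' := by
    apply Subtype.ext
    have h : Rp N Γ ((1 : MfG hΓ) : LaurentSeries ℂ) (fun _ => (1:ℂ)) 1 := by
      have := Rp.const (N := N) hΓ 1
      rwa [map_one] at this
    change diaF hΓ g 1 = 1
    rw [diaF_eq hΓ g 1 h, map_one, div_one]
    exact lser_one
  map_mul' u v := by
    apply Subtype.ext
    obtain ⟨f, B, h⟩ := exists_Rp hΓ u.2
    obtain ⟨f', B', h'⟩ := exists_Rp hΓ v.2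
    change diaF hΓ g (u * v) = diaF hΓ g u * diaF hΓ g v
    rw [diaF_eq hΓ g (u * v) (h.mul hΓ h'), diaF_eq hΓ g u h, diaF_eq hΓ g v h', sl_mul,
      lser_mul ((h.1.sl_one' hΓ g).isP_one hΓ) ((h'.1.sl_one' hΓ g).isP_one hΓ), map_mul]
    field_simp
  map_zero' := by
    apply Subtype.ext
    have h : Rp N Γ ((0 : MfG hΓ) : LaurentSeries ℂ) (fun _ => (0:ℂ)) 1 := by
      have := Rp.const (N := N) hΓ 0
      rwa [map_zero] at this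
    change diaF hΓ g 0 = 0
    rw [diaF_eq hΓ g 0 h, map_one, div_one]
    exact (lser_eq_zero_iff ((h.1.sl_one' hΓ g).isP_one hΓ)).mpr rfl
  map_add' u v := by
    apply Subtype.ext
    obtain ⟨f, B, h⟩ := exists_Rp hΓ u.2
    obtain ⟨f', B', h'⟩ := exists_Rp hΓ v.2
    change diaF hΓ g (u + v) = diaF hΓ g u + diaF hΓ g v
    rw [diaF_eq hΓ g (u + v) (h.add hΓ h'), diaF_eq hΓ g u h, diaF_eq hΓ g v h', sl_add, sl_mul,
      sl_mul, sl_jev, sl_jev]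
    have h1 := h.1.sl_one' hΓ g
    have h2 := h'.1.sl_one' hΓ g
    rw [lser_add ((h1.mul_one' (isXG_jev hΓ B')).isP_one hΓ)
      ((h2.mul_one' (isXG_jev hΓ B)).isP_one hΓ),
      lser_mul (h1.isP_one hΓ) ((isXG_jev hΓ B').isP_one hΓ),
      lser_mul (h2.isP_one hΓ) ((isXG_jev hΓ B).isP_one hΓ), lser_ef (jev_mem _),
      lser_ef (jev_mem _), map_mul]
    have h3 := jev_ne_zero h.2.1
    have h4 := jev_ne_zero h'.2.1
    field_simp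
  commutes' c := by
    apply Subtype.ext
    change diaF hΓ g (algebraMap ℂ (MfG hΓ) c) = algebraMap ℂ (LaurentSeries ℂ) c
    rw [diaF_eq hΓ g (algebraMap ℂ (MfG hΓ) c) (Rp.const hΓ c), map_one, div_one]
    have : sl (fun _ => c) (g : SL(2,ℤ)) = fun _ => c := rfl
    rw [this, lser_const, C_eq_algebraMap]

lemma dia_rp (g : Gamma0 N) {u : MfG hΓ} {f : ℍ → ℂ} {B : Polynomial ℂ}
    (h : Rp N Γ (u : LaurentSeries ℂ) f B) : Rp N Γ (dia hΓ g u : LaurentSeries ℂ) (sl f g) B :=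
  diaF_rp hΓ g u h

lemma Rp.unique (hΓ : Adm N Γ) {u v : LaurentSeries ℂ} {f : ℍ → ℂ} {B : Polynomial ℂ}
    (h : Rp N Γ u f B) (h' : Rp N Γ v f B) : u = v :=
  mul_right_cancel₀ (jev_ne_zero h.2.1) (h.2.2.trans h'.2.2.symm)

lemma dia_eq_of_rp (g : Gamma0 N) {u v : MfG hΓ} {f : ℍ → ℂ} {B : Polynomial ℂ}
    (h : Rp N Γ (u : LaurentSeries ℂ) f B) (h' : Rp N Γ (v : LaurentSeries ℂ) (sl f g) B) :
    dia hΓ g u = v := Subtype.ext ((dia_rp hΓ g h).unique hΓ h')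

lemma dia_dia (g h : Gamma0 N) (u : MfG hΓ) : dia hΓ g (dia hΓ h u) = dia hΓ (g * h) u := by
  obtain ⟨f, B, hr⟩ := exists_Rp hΓ u.2
  have h1 := dia_rp hΓ g (dia_rp hΓ h hr)
  have h2 := dia_rp hΓ (g * h) hr
  rw [sl_sl, hr.1.sl_comm hΓ] at h1
  rw [Subgroup.coe_mul] at h2
  exact Subtype.ext (h1.unique hΓ h2)

lemma dia_one (u : MfG hΓ) : dia hΓ 1 u = u := by
  obtain ⟨f, B, hr⟩ := exists_Rp hΓ u.2
  exact dia_eq_of_rp hΓ 1 hr (by rw [Subgroup.coe_one, sl_one]; exact hr)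

lemma dia_of_mem {g : Gamma0 N} (hg : (g : SL(2,ℤ)) ∈ Γ) (u : MfG hΓ) : dia hΓ g u = u := by
  obtain ⟨f, B, hr⟩ := exists_Rp hΓ u.2
  exact dia_eq_of_rp hΓ g hr (by rw [hr.1.sl_mem hg]; exact hr)

lemma dia_congr {g h : Gamma0 N} (e : (QuotientGroup.mk g : Dl N Γ) = QuotientGroup.mk h)
    (u : MfG hΓ) : dia hΓ g u = dia hΓ h u := by
  obtain ⟨f, B, hr⟩ := exists_Rp hΓ u.2
  exact dia_eq_of_rp hΓ g hr (by rw [hr.1.sl_congr hΓ e]; exact dia_rp hΓ h hr)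

lemma dia_comm (g h : Gamma0 N) (u : MfG hΓ) :
    dia hΓ g (dia hΓ h u) = dia hΓ h (dia hΓ g u) := by
  obtain ⟨f, B, hr⟩ := exists_Rp hΓ u.2
  have h1 := dia_rp hΓ g (dia_rp hΓ h hr)
  have h2 := dia_rp hΓ h (dia_rp hΓ g hr)
  rw [sl_sl, hr.1.sl_comm hΓ] at h1
  rw [sl_sl] at h2
  exact Subtype.ext (h1.unique hΓ h2)

/-- diamond automorphisms as equivalences -/
def diaE (g : Gamma0 N) : MfG hΓ ≃ₐ[ℂ] MfG hΓ := AlgEquiv.ofAlgHom (dia hΓ g) (dia hΓ g⁻¹)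
  (by ext u : 1; change dia hΓ g (dia hΓ g⁻¹ u) = u; rw [dia_dia, mul_inv_cancel, dia_one])
  (by ext u : 1; change dia hΓ g⁻¹ (dia hΓ g u) = u; rw [dia_dia, inv_mul_cancel, dia_one])

lemma diaE_apply (g : Gamma0 N) (u : MfG hΓ) : diaE hΓ g u = dia hΓ g u := rfl

/-- the fixed field -/
lemma mem_FF_of_fixed {u : MfG hΓ} (h : ∀ g, dia hΓ g u = u) : (u : LaurentSeries ℂ) ∈ FF N := by
  obtain ⟨f, B, hr⟩ := exists_Rp hΓ u.2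
  refine mem_FF.mpr ⟨f, hr.1.to_isX fun g hg τ => ?_, B, hr.2⟩
  have h1 := dia_rp hΓ ⟨g, hg⟩ hr
  rw [h] at h1
  have h2 := h1.cross hr hΓ
  have h3 : sl f g = f := by
    have hb := ef_jev_ne_zero hr.2.1
    have h4 : (sl f g - f) * ef (jev ℂ B) = 0 := by
      rw [sub_mul, sub_eq_zero]; exact h2
    have hm : MDiff (sl f g - f) := h1.1.isA.mdiff.sub hr.1.isA.mdiff
    rcases (UpperHalfPlane.mul_eq_zero_iff hm (isXG_jev hΓ B).isA.mdiff).mp h4 with h5 | h5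
    · exact sub_eq_zero.mp h5
    · exact absurd h5 hb
  exact congrFun h3 τ

lemma dia_of_mem_FF {u : MfG hΓ} (h : (u : LaurentSeries ℂ) ∈ FF N) (g : Gamma0 N) :
    dia hΓ g u = u := by
  obtain ⟨f, hf, B, hB, he⟩ := mem_FF.mp h
  have hr : Rp N Γ (u : LaurentSeries ℂ) f B := ⟨IsXG.of_isX_one hΓ hf, hB, he⟩
  refine dia_eq_of_rp hΓ g hr ?_
  have : sl f g = f := by
    ext τ
    exact hf.inv_one g.2 τ
  rw [this]
  exact hr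

end Fermat.Agent.AnJacH
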