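import Fermat.Agent.AnJacH.Gen
import Fermat.Agent.AnJac.Lat

/-!
# Canonical elements and descent, for the field of `Γ\ℍ`
-/

set_option autoImplicit false
set_option linter.unusedSectionVars false

open UpperHalfPlane ModularForm MatrixGroups Matrix.SpecialLinearGroup Filter Function
open scoped Manifold Topology Real

noncomputable section

namespace Fermat.Agent.AnJacH

open Fermat.Agent.AnJac Fermat.Agent.DimS2 Fermat.Agent.ModFun CongruenceSubgroup AlgebraicCurve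
open ModularCurve IntermediateField Fermat.Agent.GenusX0
open Fermat.Agent.Curves

variable {N : ℕ} {Γ : Subgroup SL(2,ℤ)} [NeZero N] (hΓ : Adm N Γ)

/-- bounded poles over the cusps -/
def BdG (n m : ℕ) (w : MfG hΓ) : Prop :=
  ∀ v : Place ℂ (MfG hΓ), -((n * m : ℕ) * max 0 (-v.ord (jG hΓ))) ≤ v.ord w

/-- canonical elements -/
structure IsCanG (n m : ℕ) (w : MfG hΓ) : Prop where
  ne : w ≠ 0
  dvd : ∀ v : Place ℂ (MfG hΓ), (n : ℤ) ∣ v.ord w
  bd : BdG hΓ n m w
  monic : (w : LaurentSeries ℂ).leadingCoeff = 1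
  max : ∀ g : MfG hΓ, g ≠ 0 → BdG hΓ n m (w * g ^ n) → (g : LaurentSeries ℂ).order ≤ 0

variable {hΓ}

section Gal

variable {θ : MfG hΓ} (hθ : IsGen hΓ θ)

lemma bd_galG {n m : ℕ} {w : MfG hΓ} (h : BdG hΓ n m w) (σ : ℂ ≃+* ℂ) :
    BdG hΓ n m (galG hθ σ w) := by
  intro v
  obtain ⟨v', hv'⟩ := exists_place_galG hθ σ v
  have := h v'
  rwa [hv', hv', galG_jG] at this

lemma bd_galG_iff {n m : ℕ} {w : MfG hΓ} (σ : ℂ ≃+* ℂ) :
    BdG hΓ n m (galG hθ σ w) ↔ BdG hΓ n m w := by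
  refine ⟨fun h => ?_, fun h => bd_galG hθ h σ⟩
  have := bd_galG hθ h σ.symm
  have h2 : galG hθ σ.symm (galG hθ σ w) = w := (galG hθ σ).symm_apply_apply w
  rwa [h2] at this

lemma dvd_galG {n : ℕ} {w : MfG hΓ} (h : ∀ v : Place ℂ (MfG hΓ), (n : ℤ) ∣ v.ord w)
    (σ : ℂ ≃+* ℂ) (v : Place ℂ (MfG hΓ)) : (n : ℤ) ∣ v.ord (galG hθ σ w) := by
  obtain ⟨v', hv'⟩ := exists_place_galG hθ σ v
  rw [← hv']
  exact h v'

lemma IsCanG.galG {n m : ℕ} {w : MfG hΓ} (h : IsCanG hΓ n m w) (σ : ℂ ≃+* ℂ) :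
    IsCanG hΓ n m (galG hθ σ w) where
  ne := (map_ne_zero _).mpr h.ne
  dvd := dvd_galG hθ h.dvd σ
  bd := bd_galG hθ h.bd σ
  monic := by rw [coe_galG, leadingCoeff_coeffMap, h.monic, map_one]
  max g hg hb := by
    have h1 : g = AnJacH.galG hθ σ (AnJacH.galG hθ σ.symm g) := (galG_symm hθ σ g).symm
    rw [h1, ← map_pow, ← map_mul, bd_galG_iff] at hb
    have h2 := h.max _ ((map_ne_zero _).mpr hg) hb
    rwa [coe_galG, order_coeffMap] at h2

end Gal

lemma IsCanG.unique {n m : ℕ} (hn : n ≠ 0) {w w' g : MfG hΓ}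
    (h : IsCanG hΓ n m w) (h' : IsCanG hΓ n m w') (hg : g ≠ 0) (hw : w' = w * g ^ n) : w' = w := by
  have hg0 : (g : LaurentSeries ℂ) ≠ 0 := fun h => hg (Subtype.ext h)
  have h1 := h.max g hg (hw ▸ h'.bd)
  have h2 := h'.max g⁻¹ (inv_ne_zero hg) (by
    rw [hw, inv_pow, mul_inv_cancel_right₀ (pow_ne_zero n hg)]
    exact h.bd)
  have h3 : (g : LaurentSeries ℂ).order = 0 := by
    have h4 : ((g⁻¹ : MfG hΓ) : LaurentSeries ℂ) * g = 1 := by
      have := inv_mul_cancel₀ hg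
      exact congrArg Subtype.val this
    have h5 := congrArg HahnSeries.order h4
    rw [HahnSeries.order_mul (fun h => inv_ne_zero hg (Subtype.ext h)) hg0, HahnSeries.order_one] at h5
    omega
  set c := (g : LaurentSeries ℂ).leadingCoeff with hc
  have hc0 : c ≠ 0 := HahnSeries.leadingCoeff_ne_zero.mpr hg0
  set g₁ : MfG hΓ := g - algebraMap ℂ _ c with hg₁
  have hcoe : (g₁ : LaurentSeries ℂ) = (g : LaurentSeries ℂ) - HahnSeries.C c := by
    rw [C_eq_algebraMap]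
    rfl
  by_cases hg1 : g₁ = 0
  · have hgc : g = algebraMap ℂ _ c := sub_eq_zero.mp hg1
    have h5 := congrArg (fun x : MfG hΓ => (x : LaurentSeries ℂ)) hw
    have h6 : (w' : LaurentSeries ℂ) = (w : LaurentSeries ℂ) * (HahnSeries.C c : LaurentSeries ℂ) ^ n := by
      rw [C_eq_algebraMap]
      rw [hgc] at h5
      exact h5
    have h7 := congrArg HahnSeries.leadingCoeff h6
    rw [HahnSeries.leadingCoeff_mul, h.monic, h'.monic, ← map_pow, HahnSeries.C_apply,
      HahnSeries.leadingCoeff_of_single, one_mul] at h7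
    rw [hw, hgc, ← map_pow, ← h7, map_one, mul_one]
  · exfalso
    have h4 := h.max g₁ hg1 (by
      intro v
      have hv1 := h.bd v
      have hv2 := h'.bd v
      rw [hw, v.ord_mul h.ne (pow_ne_zero n hg), ord_pow] at hv2
      rw [v.ord_mul h.ne (pow_ne_zero n hg1), ord_pow]
      have h6 : min (v.ord g) 0 ≤ v.ord g₁ := by
        have h7 := ord_add v (f := g) (g := -algebraMap ℂ _ c) (by
          rw [← sub_eq_add_neg]; exact hg1) hg (neg_ne_zero.mpr (by
            rw [Ne, map_eq_zero]; exact hc0))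
        rw [ord_neg, ord_algebraMap, ← sub_eq_add_neg] at h7
        exact h7
      rcases le_total (v.ord g) 0 with h8 | h8
      · rw [min_eq_left h8] at h6
        nlinarith
      · rw [min_eq_right h8] at h6
        have : 0 ≤ (n : ℤ) * v.ord g₁ := by positivity
        linarith)
    rw [hcoe] at h4
    have h5 := order_sub_lt h3 (by
      rw [← hcoe]; exact fun h => hg1 (Subtype.ext h))
    rw [← hc] at h5
    omega

variable (hΓ) in
lemma transcendental_jG : Transcendental ℂ (jG hΓ) := by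
  intro h
  have h1 : IsAlgebraic ℂ (jqModC ℂ) := by
    have := h.algebraMap (A := LaurentSeries ℂ)
    rw [← coe_jG hΓ]
    exact this
  exact transcendental_je (k := ℂ) (N := N) (by
    rw [← isAlgebraic_algebraMap_iff (R := ℂ) (S := modularFunctionFieldFullC ℂ N)
      (A := LaurentSeries ℂ) (algebraMap (modularFunctionFieldFullC ℂ N) (LaurentSeries ℂ)).injective]
    exact h1)

variable (hΓ) in
lemma exists_vinfG : ∃ v : Place ℂ (MfG hΓ), ∀ f, f ≠ 0 →
    v.ord f = (f : LaurentSeries ℂ).order := by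
  have hj : (jqModC ℂ).order = -1 := by
    apply le_antisymm
    · apply HahnSeries.order_le_of_coeff_ne_zero
      rw [coeff_jqModC_neg_one]
      exact one_ne_zero
    · by_contra hlt
      push Not at hlt
      have h2 := coeff_jqModC_of_lt ℂ hlt
      exact jqModC_ne_zero_of_nontrivial (R := ℂ) (HahnSeries.coeff_order_eq_zero.mp h2)
  obtain ⟨v, ε, hε, h⟩ := exists_place_of_emb (ι := RingHom.id ℂ)
    (MfG hΓ).val.toRingHom (fun c => by
      rw [RingHom.id_apply, C_eq_algebraMap]; rfl) (z := jG hΓ) (by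
      change (jG hΓ : LaurentSeries ℂ).order ≠ 0
      rw [coe_jG, hj]; norm_num)
  have h1 := h (jG hΓ) (fun h => by
    have := congrArg Subtype.val h
    rw [coe_jG] at this
    exact jqModC_ne_zero_of_nontrivial (R := ℂ) this)
  change (jG hΓ : LaurentSeries ℂ).order = _ at h1
  rw [coe_jG, hj] at h1
  have h2 : (ε : ℤ) = 1 := by
    have h3 : (ε : ℤ) ∣ 1 := ⟨-v.ord (jG hΓ), by linarith⟩
    exact Int.eq_one_of_dvd_one (by omega) h3
  refine ⟨v, fun f hf => ?_⟩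
  have h3 := h f hf
  rw [h2, one_mul] at h3
  exact h3.symm

lemma apply_le_degreeG {D : Divisor ℂ (MfG hΓ)} (hD : 0 ≤ D)
    (v : Place ℂ (MfG hΓ)) : D v ≤ Divisor.degree D := by
  classical
  rw [degree_eq_sum, Finsupp.sum]
  by_cases hv : v ∈ D.support
  · exact Finset.single_le_sum (f := fun w => D w) (fun w _ => hD w) hv
  · rw [Finsupp.notMem_support_iff.mp hv]
    exact Finset.sum_nonneg fun w _ => hD w

lemma order_le_of_bdG {n m : ℕ} {w : MfG hΓ} (hw : w ≠ 0) (h : BdG hΓ n m w) :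
    (w : LaurentSeries ℂ).order ≤ (n * m : ℕ) * Divisor.degree (poleDivisor (k := ℂ) (jG hΓ)) := by
  obtain ⟨v, hv⟩ := exists_vinfG hΓ
  rw [← hv w hw]
  set D : Divisor ℂ (MfG hΓ) :=
    divisorOf w + (n * m : ℕ) • poleDivisor (jG hΓ) with hD
  have hDv : ∀ v, D v = v.ord w + (n * m : ℕ) * max 0 (-v.ord (jG hΓ)) := by
    intro v
    rw [hD, Finsupp.add_apply, Finsupp.smul_apply, divisorOf_apply, poleDivisor_apply, nsmul_eq_mul]
  have h0 : 0 ≤ D := by
    intro v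
    have := h v
    rw [hDv]
    change 0 ≤ _
    linarith
  have h1 := apply_le_degreeG h0 v
  have h2 : Divisor.degree D = (n * m : ℕ) * Divisor.degree (poleDivisor (k := ℂ) (jG hΓ)) := by
    rw [hD, map_add, degree_divisorOf, zero_add, map_nsmul, nsmul_eq_mul]
  rw [h2, hDv] at h1
  have h3 : (0:ℤ) ≤ (n * m : ℕ) * max 0 (-v.ord (jG hΓ)) := by positivity
  linarith

/-- bounded representatives -/
lemma exists_bdG {n : ℕ} (hn : n ≠ 0) {w : MfG hΓ} (hw : w ≠ 0) :
    ∃ (m : ℕ) (g : MfG hΓ), g ≠ 0 ∧ BdG hΓ n m (w * g ^ n) := by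
  obtain ⟨p, hp0, hp, -⟩ := exists_clear (transcendental_jG hΓ) hw
  set g := Polynomial.aeval (jG hΓ) p with hg
  have hg0 : g ≠ 0 := fun h => (transcendental_jG hΓ) ⟨p, hp0, h⟩
  set w' := w * g ^ n with hw'
  have hw'0 : w' ≠ 0 := mul_ne_zero hw (pow_ne_zero n hg0)
  refine ⟨∑ v ∈ (divisorOf (k := ℂ) w').support, (v.ord w').natAbs, g, hg0, ?_⟩
  intro v
  have hj0 : jG hΓ ≠ 0 := fun h => (transcendental_jG hΓ) (h ▸ isAlgebraic_zero)
  rcases lt_or_ge (v.ord (jG hΓ)) 0 with h | h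
  · have h1 : (v.ord w').natAbs ≤ ∑ v ∈ (divisorOf (k := ℂ) w').support, (v.ord w').natAbs := by
      by_cases hv : v ∈ (divisorOf (k := ℂ) w').support
      · exact Finset.single_le_sum (f := fun v : Place ℂ (MfG hΓ) =>
          (v.ord w').natAbs) (fun _ _ => Nat.zero_le _) hv
      · have : v.ord w' = 0 := by
          have := Finsupp.notMem_support_iff.mp hv
          rwa [divisorOf_apply] at this
        rw [this]; simp
    set M := ∑ v ∈ (divisorOf (k := ℂ) w').support, (v.ord w').natAbs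
    rw [max_eq_right (by omega)]
    have h2 : (1 : ℤ) ≤ n := by omega
    have h3 : (1 : ℤ) ≤ -v.ord (jG hΓ) := by omega
    have h4 : (M : ℤ) ≤ n * M * -v.ord (jG hΓ) := by
      have h5 : (M : ℤ) ≤ n * M := by nlinarith
      nlinarith
    have h5 : -(M : ℤ) ≤ v.ord w' := by omega
    push_cast
    linarith
  · rw [max_eq_left (by omega), mul_zero, neg_zero, v.ord_mul hw (pow_ne_zero n hg0), ord_pow]
    have h1 := hp v ((mem_iff_ord v hj0).mpr h)
    rw [v.ord_mul hg0 hw] at h1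
    have h3 : 0 ≤ v.ord g := by
      have hint : g ∈ affineRing ℂ (jG hΓ) := by
        rw [hg]
        exact (Algebra.adjoin_le (Set.singleton_subset_iff.mpr (self_mem_affineRing _)))
          (Polynomial.aeval_mem_adjoin_singleton ℂ _)
      exact (mem_iff_ord v hg0).mp (hint v ((mem_iff_ord v hj0).mpr h))
    obtain ⟨l, rfl⟩ := Nat.exists_eq_succ_of_ne_zero hn
    push_cast
    nlinarith

theorem exists_isCanG {n : ℕ} (hn : n ≠ 0) {w : MfG hΓ} (hw : w ≠ 0)
    (hdvd : ∀ v : Place ℂ (MfG hΓ), (n : ℤ) ∣ v.ord w) :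
    ∃ (m : ℕ) (g : MfG hΓ), g ≠ 0 ∧ IsCanG hΓ n m (w * g ^ n) := by
  obtain ⟨m, g₀, hg₀, hbd⟩ := exists_bdG hn hw
  obtain ⟨d, ⟨g, hg, hb, hd⟩, hmax⟩ := Int.exists_greatest_of_bdd
    (P := fun d : ℤ => ∃ g : MfG hΓ, g ≠ 0 ∧ BdG hΓ n m (w * g ^ n) ∧
      (g : LaurentSeries ℂ).order = d)
    ⟨(n * m : ℕ) * Divisor.degree (poleDivisor (k := ℂ) (jG hΓ)) +
      |(w : LaurentSeries ℂ).order|, by
      rintro d ⟨g, hg, hb, rfl⟩
      have h1 := order_le_of_bdG (mul_ne_zero hw (pow_ne_zero n hg)) hb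
      have h2 : ((w * g ^ n : MfG hΓ) : LaurentSeries ℂ).order =
          (w : LaurentSeries ℂ).order + n * (g : LaurentSeries ℂ).order := by
        have e : ((w * g ^ n : MfG hΓ) : LaurentSeries ℂ) =
            (w : LaurentSeries ℂ) * (g : LaurentSeries ℂ) ^ n := rfl
        rw [e, HahnSeries.order_mul (fun h => hw (Subtype.ext h))
          (pow_ne_zero n fun h => hg (Subtype.ext h)), HahnSeries.order_pow, nsmul_eq_mul]
      rw [h2] at h1
      have h3 := neg_abs_le (w : LaurentSeries ℂ).order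
      have h4 : (1 : ℤ) ≤ n := by omega
      have h5 : 0 ≤ (n * m : ℕ) * Divisor.degree (poleDivisor (k := ℂ) (jG hΓ)) :=
        mul_nonneg (by positivity) (pos_of_nonneg_degree _ (poleDivisor_nonneg _))
      rcases le_total (g : LaurentSeries ℂ).order 0 with h | h
      · have := abs_nonneg (w : LaurentSeries ℂ).order
        linarith
      · nlinarith⟩ ⟨_, g₀, hg₀, hbd, rfl⟩
  set w₁ := w * g ^ n with hw₁
  have hw₁0 : w₁ ≠ 0 := mul_ne_zero hw (pow_ne_zero n hg)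
  have hw₁0' : (w₁ : LaurentSeries ℂ) ≠ 0 := fun h => hw₁0 (Subtype.ext h)
  obtain ⟨c, hc⟩ := IsAlgClosed.exists_pow_nat_eq ((w₁ : LaurentSeries ℂ).leadingCoeff)⁻¹
    (Nat.pos_of_ne_zero hn)
  have hlc := HahnSeries.leadingCoeff_ne_zero.mpr hw₁0'
  have hc0 : c ≠ 0 := by
    rintro rfl
    rw [zero_pow hn] at hc
    exact inv_ne_zero hlc hc.symm
  have hcc : algebraMap ℂ (MfG hΓ) c ≠ 0 := by
    rw [Ne, map_eq_zero]; exact hc0
  have hb' : ∀ x : MfG hΓ, x ≠ 0 →
      (BdG hΓ n m (x * (algebraMap ℂ _ c) ^ n) ↔ BdG hΓ n m x) := by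
    intro x hx
    refine forall_congr' fun v => ?_
    rw [v.ord_mul hx (pow_ne_zero n hcc), ord_pow, ord_algebraMap, mul_zero, add_zero]
  have e1 : w * (g * algebraMap ℂ _ c) ^ n = w₁ * (algebraMap ℂ _ c) ^ n := by
    rw [hw₁, mul_pow, mul_assoc]
  refine ⟨m, g * algebraMap ℂ _ c, mul_ne_zero hg hcc, ?_⟩
  rw [e1]
  refine ⟨mul_ne_zero hw₁0 (pow_ne_zero n hcc), ?_, (hb' _ hw₁0).mpr hb, ?_, ?_⟩
  · intro v
    rw [v.ord_mul hw₁0 (pow_ne_zero n hcc), ord_pow, ord_algebraMap, mul_zero, add_zero, hw₁,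
      v.ord_mul hw (pow_ne_zero n hg), ord_pow]
    exact dvd_add (hdvd v) ⟨_, rfl⟩
  · have e : ((w₁ * (algebraMap ℂ _ c) ^ n : MfG hΓ) : LaurentSeries ℂ) =
        (w₁ : LaurentSeries ℂ) * (HahnSeries.C c) ^ n := by
      rw [C_eq_algebraMap]; rfl
    rw [e, HahnSeries.leadingCoeff_mul, ← map_pow, HahnSeries.C_apply,
      HahnSeries.leadingCoeff_of_single, hc, mul_inv_cancel₀ hlc]
  · intro h hh hb2
    have e2 : w₁ * (algebraMap ℂ _ c) ^ n * h ^ n = w * (g * h) ^ n * (algebraMap ℂ _ c) ^ n := by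
      rw [hw₁]; ring
    rw [e2, hb' _ (mul_ne_zero hw (pow_ne_zero n (mul_ne_zero hg hh)))] at hb2
    have h3 := hmax _ ⟨g * h, mul_ne_zero hg hh, hb2, rfl⟩
    have h4 : ((g * h : MfG hΓ) : LaurentSeries ℂ).order =
        (g : LaurentSeries ℂ).order + (h : LaurentSeries ℂ).order := by
      have e : ((g * h : MfG hΓ) : LaurentSeries ℂ) =
        (g : LaurentSeries ℂ) * (h : LaurentSeries ℂ) := rfl
      rw [e, HahnSeries.order_mul (fun h => hg (Subtype.ext h)) fun h' => hh (Subtype.ext h')]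
    omega

/-! ### finiteness -/

lemma Adm.fg (hΓ : Adm N Γ) : Group.FG Γ := by
  have h1 : Γ.relIndex (Gamma0 N) ≠ 0 := hΓ.fin.index_ne_zero
  have h2 : (Gamma0 N).index ≠ 0 := Subgroup.FiniteIndex.index_ne_zero
  have h3 : Γ.index ≠ 0 := by
    rw [← Subgroup.relIndex_mul_index hΓ.le]
    exact mul_ne_zero h1 h2
  have : Γ.FiniteIndex := ⟨h3⟩
  exact Subgroup.fg_of_index_ne_zero _

include hΓ in
lemma finite_charsG {n : ℕ} (hn : n ≠ 0) : {χ : Γ →* ℂˣ | χ ^ n = 1}.Finite := by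
  have : NeZero n := ⟨hn⟩
  have := hΓ.fg
  have h1 : {μ : ℂˣ | μ ^ n = 1}.Finite := by
    have h2 : Finite (rootsOfUnity n ℂ) := inferInstance
    exact Set.Finite.subset (Set.finite_coe_iff.mp h2 : (rootsOfUnity n ℂ : Set ℂˣ).Finite)
      (fun μ hμ => (mem_rootsOfUnity n μ).mpr hμ)
  refine (finite_hom _ h1).subset fun χ hχ g => ?_
  have := DFunLike.congr_fun hχ g
  rwa [MonoidHom.pow_apply] at this

variable {n : ℕ}

lemma finite_canG (hn : n ≠ 0) (m : ℕ) : {w : MfG hΓ | IsCanG hΓ n m w}.Finite := by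
  classical
  choose! χ hχ using fun (w : MfG hΓ) (hw : IsCanG hΓ n m w) => exists_charG hΓ hn hw.ne hw.dvd
  refine Set.Finite.of_finite_image (f := χ) ((finite_charsG (hΓ := hΓ) hn).subset ?_) ?_
  · rintro _ ⟨w, hw, rfl⟩
    exact (hχ w hw).pw
  · intro w hw w' hw' heq
    have h1 := hχ w hw
    have h2 := hχ w' hw'
    rw [← heq] at h2
    have h3 := h2.div hΓ hn h1
    have h4 : χ w / χ w = 1 := by
      ext γ; rw [MonoidHom.div_apply, div_self']; rfl
    rw [h4] at h3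
    obtain ⟨g, hg, hg0, h5⟩ := h3.exists_root hΓ
    have h6 : w' = w * (⟨g, hg⟩ : MfG hΓ) ^ n := by
      apply Subtype.ext
      change (w' : LaurentSeries ℂ) = (w : LaurentSeries ℂ) * g ^ n
      have hw0 : (w : LaurentSeries ℂ) ≠ 0 := fun h => hw.ne (Subtype.ext h)
      rw [h5]
      field_simp
    exact (hw.unique hn hw' (fun h => hg0 (congrArg Subtype.val h)) h6).symm

lemma isAlgebraic_coeff_canG {θ : MfG hΓ} (hθ : IsGen hΓ θ) (hn : n ≠ 0) {m : ℕ} {w : MfG hΓ}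
    (hw : IsCanG hΓ n m w) (i : ℤ) : IsAlgebraic ℚ ((w : LaurentSeries ℂ).coeff i) := by
  apply isAlgebraic_of_finite_orbit
  refine (Set.Finite.image (fun w : MfG hΓ => (w : LaurentSeries ℂ).coeff i)
    (finite_canG (hΓ := hΓ) hn m)).subset ?_
  rintro _ ⟨σ, rfl⟩
  refine ⟨galG hθ σ.toRingEquiv w, hw.galG hθ _, ?_⟩
  change (galG hθ σ.toRingEquiv w : LaurentSeries ℂ).coeff i = _
  rw [coe_galG, coeffMap_coeff]
  rfl

end Fermat.Agent.AnJacH
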