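import Fermat.Agent.AnJacH.Orders

/-!
# Divisors divisible by `n` and characters, for the field of `Γ\ℍ`
-/

set_option autoImplicit false
set_option linter.unusedSectionVars false

open UpperHalfPlane ModularForm MatrixGroups Matrix.SpecialLinearGroup Filter Function
open scoped Manifold Topology Real ComplexConjugate

noncomputable section

namespace Fermat.Agent.AnJacH

open Fermat.Agent.AnJac Fermat.Agent.DimS2 Fermat.Agent.ModFun CongruenceSubgroup AlgebraicCurve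
open ModularCurve IntermediateField Fermat.Agent.GenusX0
open Fermat.Agent.Curves hiding ord_pow

variable {N : ℕ} {Γ : Subgroup SL(2,ℤ)} [NeZero N] (hΓ : Adm N Γ)

/-- `u` has character `χ` -/
structure IsCharG (N : ℕ) (Γ : Subgroup SL(2,ℤ)) (n : ℕ) (u : LaurentSeries ℂ) (χ : Γ →* ℂˣ) :
    Prop where
  nh : IsNHG χ
  pw : χ ^ n = 1
  ex : ∃ G b : ℍ → ℂ, IsXG N Γ χ G ∧ IsXG N Γ 1 b ∧ G ≠ 0 ∧ b ≠ 0 ∧ u * lser b ^ n = lser G ^ n

include hΓ in
/-- **characters give divisible divisors** -/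
theorem dvd_ordG {n : ℕ} {u : MfG hΓ} (hu : u ≠ 0) {χ : Γ →* ℂˣ}
    (hχ : IsCharG N Γ n (u : LaurentSeries ℂ) χ) (w : Place ℂ (MfG hΓ)) : (n : ℤ) ∣ w.ord u := by
  obtain ⟨p, ε, w', hε, h1, h2, h3⟩ := exists_spot_place hΓ (w.restrict (FF N))
  have h4 : w.restrict (FF N) = w'.restrict (FF N) := by
    refine place_eq_of_ord (F := FF N) (one_pos : 0 < 1) (w'.ramificationIndex_pos (F := FF N))
      fun y hy => ?_
    have := h2 y
    rw [w'.ord_restrict] at this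
    rw [this]
    simp
  obtain ⟨g, hg⟩ := exists_dia_conj hΓ h4
  rw [hg]
  have hu' : dia hΓ g u ≠ 0 := by rw [Ne, map_eq_zero]; exact hu
  obtain ⟨f, B, hr⟩ := exists_Rp hΓ u.2
  obtain ⟨G, b, hG, hb, hG0, hb0, heq⟩ := hχ.ex
  -- the translated relation
  have hGP : IsP G := hG.isP hΓ hχ.nh
  have hbP : IsP b := hb.isP_one hΓ
  have hjP := (isXG_jev hΓ B).isP_one hΓ
  have hfP := hr.1.isP_one hΓ
  have e1 : f * b ^ n = G ^ n * ef (jev ℂ B) := by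
    apply lser_inj (hfP.mul (hbP.pow n)) ((hGP.pow n).mul hjP)
    rw [lser_mul hfP (hbP.pow n), lser_mul (hGP.pow n) hjP, lser_pow hbP, lser_pow hGP,
      lser_ef (jev_mem B), ← hr.2.2, ← heq]
    ring
  have e2 := congrArg (fun f => sl f g) e1
  simp only [sl_mul, sl_pow, sl_jev] at e2
  have hG' := hG.sl hΓ g
  have hb' := hb.sl_one' hΓ g
  have hχ' := hχ.nh.conjH hΓ g
  have hG'P : IsP (sl G g) := hG'.isP hΓ hχ'
  have hb'P : IsP (sl b g) := hb'.isP_one hΓ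
  have hr' := dia_rp hΓ g hr
  have e3 : (dia hΓ g u : LaurentSeries ℂ) * lser (sl b g ^ n) = lser (sl G g ^ n) := by
    have h5 := congrArg lser e2
    have hf'P := hr'.1.isP_one hΓ
    rw [lser_mul hf'P (hb'P.pow n), lser_mul (hG'P.pow n) hjP, lser_ef (jev_mem B),
      ← hr'.2.2] at h5
    have h6 := jev_ne_zero hr.2.1
    apply mul_right_cancel₀ h6
    rw [← h5]
    ring
  obtain ⟨r, hr1⟩ := p.ex _ hG'.isA (sl_ne_zero hG0 g)
  obtain ⟨t, ht1⟩ := p.ex _ hb'.isA (sl_ne_zero hb0 g)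
  obtain ⟨r', hr2⟩ := h3 _ _ r hχ' hG' hr1
  obtain ⟨t', ht2⟩ := h3 1 _ t isNHG_one hb' ht1
  have h5 := (rho_spec hΓ (p := p) hu').of_quot hΓ (hG'P.pow n) (hb'P.pow n) e3
    (by rw [sl_pow]; exact hr1.pow n) (by rw [sl_pow]; exact ht1.pow n)
  rw [h1 _ hu', hr2, ht2] at h5
  refine ⟨r' - t', ?_⟩
  have hε0 : (ε : ℤ) ≠ 0 := by omega
  apply mul_left_cancel₀ hε0
  linear_combination h5

lemma IsXG.pow_fun_ne_zero {f : ℍ → ℂ} (hf : f ≠ 0) (m : ℕ) : f ^ m ≠ 0 :=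
  AnJac.pow_fun_ne_zero hf m

/-- multiplier of a transformation which preserves all functions of the function field -/
lemma multiplier_powG {U : UD} {p : Pl N} (hp : p.s = Spot.ud U) {φ : ℍ → ℍ} {μ : ℂ}
    (hμ : μ ≠ 0) (h : ∀ τ, U.u (φ τ) = μ * U.u τ)
    (hinv : ∀ f : ℍ → ℂ, IsXG N Γ 1 f → ∀ τ, f (p.g • φ τ) = f (p.g • τ))
    {t : MfG hΓ} (ht : t ≠ 0) : μ ^ (rho hΓ p t) = 1 := by
  obtain ⟨f, B, a, b, hr, ha, hb, he⟩ := rho_spec hΓ (p := p) ht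
  rw [hp] at ha hb
  have h2 := Spot.ud_transform hμ h ha (c := 1) (fun τ => by
    rw [one_mul]; exact hinv f hr.1 τ)
  have h3 := Spot.ud_transform hμ h hb (c := 1) (fun τ => by
    rw [one_mul]; exact hinv _ (isXG_jev hΓ B) τ)
  rw [he, zpow_sub₀ hμ, ← h2, ← h3, div_one]

/-- the spot at a general point -/
def Pl.gen (N : ℕ) (z : ℍ) : Pl N := Pl.pt N (ptGen z) 1

theorem exists_charG {n : ℕ} (hn : n ≠ 0) {u : MfG hΓ} (hu : u ≠ 0)
    (hord : ∀ v : Place ℂ (MfG hΓ), (n : ℤ) ∣ v.ord u) :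
    ∃ χ : Γ →* ℂˣ, IsCharG N Γ n (u : LaurentSeries ℂ) χ := by
  have hNn : NeZero n := ⟨hn⟩
  obtain ⟨f, B, hr⟩ := exists_Rp hΓ u.2
  obtain ⟨hf, hB, he⟩ := hr
  set b := ef (jev ℂ B) with hb
  have hbX : IsXG N Γ 1 b := isXG_jev hΓ B
  have hb0 : b ≠ 0 := ef_jev_ne_zero hB
  have hf0 : f ≠ 0 := Rp.ne_zero hΓ ⟨hf, hB, he⟩ (fun h => hu (Subtype.ext h))
  set C := f * b ^ (n - 1) with hC
  have hCX : IsXG N Γ 1 C := hf.mul_one' (hbX.pow_one' _)
  have hbn0 : b ^ (n - 1) ≠ 0 := IsXG.pow_fun_ne_zero hb0 _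
  have hC0 : C ≠ 0 := by
    intro h
    rcases (UpperHalfPlane.mul_eq_zero_iff hf.isA.mdiff (hbX.pow_one' _).isA.mdiff).mp h with h | h
    · exact hf0 h
    · exact hbn0 h
  have hCinv : ∀ γ : Γ, ∀ τ, C ((γ : SL(2,ℤ)) • τ) = C τ := fun γ τ => hCX.inv_one' γ.2 τ
  -- order formula
  have key : ∀ (p : Pl N) (t : ℤ), p.s.HasOrd (sl b p.g) t →
      ∃ (e m : ℤ) (t' : MfG hΓ), t' ≠ 0 ∧ rho hΓ p t' = e ∧
        p.s.HasOrd (sl C p.g) (n * (e * m + t)) := by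
    intro p t ht
    obtain ⟨e, m, t', ht'0, ht', hm⟩ := exists_gcd_rho hΓ p hu hord
    refine ⟨e, m, t', ht'0, ht', ?_⟩
    obtain ⟨a, ha⟩ := p.ex f hf.isA hf0
    have h1 : rho hΓ p u = a - t := rho_eq hΓ ⟨f, B, a, t, ⟨hf, hB, he⟩, ha, ht, rfl⟩
    have h2 := ha.mul (ht.pow (n - 1))
    have h3 : sl f p.g * sl b p.g ^ (n - 1) = sl C p.g := rfl
    rw [h3] at h2
    convert h2 using 1
    have h4 : a = n * (e * m) + t := by rw [← hm, h1]; ring
    rw [h4]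
    push_cast [Nat.one_le_iff_ne_zero.mpr hn]
    ring
  obtain ⟨G, hG, hGn⟩ := exists_root_H hn hCX.isA.mdiff hC0 (by
    intro z
    have ht := Spot.hasOrd_ud_pt (ptGen z) hbX.isA.mdiff hb0
    obtain ⟨e, m, _, _, _, h⟩ := key (Pl.gen N z) _ (by
      change (Spot.ud (ptGen z).toUD).HasOrd (sl b 1) _
      rw [sl_one]; exact ht)
    have h2 := Spot.hasOrd_ud_pt (ptGen z) hCX.isA.mdiff hC0
    have h3 : (Spot.ud (ptGen z).toUD).HasOrd C
        (n * (e * m + (analyticOrderNatAt (b ∘ ofComplex) (ptGen z).pt))) := by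
      change (Spot.ud (ptGen z).toUD).HasOrd (sl C 1) _ at h
      rw [sl_one] at h; exact h
    have h4 := h2.unique h3
    have h5 : (n : ℤ) ∣ (analyticOrderNatAt (C ∘ ofComplex) z : ℤ) := ⟨_, h4⟩
    exact_mod_cast h5)
  have hG0 : G ≠ 0 := by
    rintro rfl
    apply hC0
    rw [← hGn, zero_pow hn]
  obtain ⟨τ₁, hτ₁⟩ := exists_ne_zero hG0
  have hμ : ∀ γ : Γ, ∃ μ : ℂˣ, μ ^ n = 1 ∧ ∀ τ, G ((γ : SL(2,ℤ)) • τ) = μ * G τ := by
    intro γ
    refine exists_root_scalar hn (mdiff_comp_smul hG _) hG hG0 ?_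
    ext τ
    rw [Pi.pow_apply]
    have := hCinv γ τ
    rw [← hGn] at this
    exact this
  choose μ hμn hμ using hμ
  have hcancel : ∀ c c' : ℂˣ, (c : ℂ) * G τ₁ = c' * G τ₁ → c = c' := fun c c' h =>
    Units.ext (mul_right_cancel₀ hτ₁ h)
  let χ : Γ →* ℂˣ :=
    { toFun := μ
      map_one' := by
        apply hcancel
        rw [← hμ, Units.val_one, one_mul]
        simp
      map_mul' := by
        intro γ γ'
        apply hcancel
        rw [← hμ, Subgroup.coe_mul, mul_smul, hμ, hμ, Units.val_mul, mul_assoc] }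
  have hχ : ∀ (γ : Γ) (τ : ℍ), G ((γ : SL(2,ℤ)) • τ) = χ γ * G τ := hμ
  have hχn : ∀ γ : Γ, χ γ ^ n = 1 := hμn
  -- moderate growth
  have hGmg : MGA G := by
    intro δ
    refine MG.of_pow hn ?_
    have := hCX.isA.mg δ
    rw [← hGn] at this
    exact this
  have hnh : IsNHG χ := by
    intro γ hγ
    by_cases htr : ((γ : SL(2,ℤ)) : Matrix (Fin 2) (Fin 2) ℤ).trace ^ 2 = 4
    · -- parabolic
      obtain ⟨δ, hδ⟩ := EichlerShimura.exists_fixed_vector (γ : SL(2,ℤ)) htr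
      obtain ⟨j, hj⟩ := ModularGroup.exists_eq_T_zpow_of_c_eq_zero hδ
      have hjτ : ∀ τ : ℍ, δ • (ModularGroup.T ^ j • τ) = (γ : SL(2,ℤ)) • (δ • τ) := by
        intro τ
        rw [← hj, ← mul_smul, ← mul_smul]
        congr 1
        group
      set M := n * N with hM
      have hMz : NeZero M := ⟨mul_ne_zero hn (NeZero.ne N)⟩
      set ζ : ℂ := ((zetaU N : ℂˣ) : ℂ) with hζ
      set ζ' : ℂ := ((zetaU M : ℂˣ) : ℂ) with hζ'
      have hζ0 : ζ ^ j ≠ 0 := zpow_ne_zero _ (Units.ne_zero _)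
      have hζ'0 : ζ' ^ j ≠ 0 := zpow_ne_zero _ (Units.ne_zero _)
      have hζζ : ζ' ^ n = ζ := zetaU_pow n N
      obtain ⟨t, ht⟩ := (Pl.cusp N δ).ex b hbX.isA hb0
      obtain ⟨e, m, t', ht'0, ht', hord'⟩ := key (Pl.cusp N δ) t ht
      have hinv : ∀ f : ℍ → ℂ, IsXG N Γ 1 f →
          ∀ τ, f (δ • (ModularGroup.T ^ j • τ)) = f (δ • τ) := by
        intro f hf τ
        rw [hjτ]
        exact hf.inv_one' γ.2 _
      have h1 : (ζ ^ j) ^ e = 1 := by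
        rw [← ht']
        exact multiplier_powG hΓ (U := (cuspUDN N).toUD) (p := Pl.cusp N δ) rfl hζ0
          (T_pow_smul_cusp N j) hinv ht'0
      have h2 : (ζ ^ j) ^ t = 1 :=
        (Spot.ud_transform hζ0 (T_pow_smul_cusp N j) ht (c := 1)
          (fun τ => by rw [one_mul]; exact hinv b hbX τ)).symm
      -- order of `G`
      have hT : ∀ τ, G (δ • (ModularGroup.T ^ M • τ)) = G (δ • τ) := by
        intro τ
        have hmem := hΓ.conj_T_mem δ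
        have e1 : δ • (ModularGroup.T ^ M • τ) =
            (((⟨_, hmem⟩ : Γ) ^ n : Γ) : SL(2,ℤ)) • (δ • τ) := by
          rw [← mul_smul, ← mul_smul]
          congr 1
          rw [Subgroup.coe_pow, conj_pow]
          rw [hM, mul_comm n N, pow_mul]
          group
        rw [e1, hχ, map_pow, hχn]
        simp
      obtain ⟨r, hr⟩ := Spot.hasOrd_ud_cusp M (mdiff_comp_smul hG δ) hT (hGmg δ)
        (smul_ne_zero_fun hG0 δ)
      have h3 := hasOrd_cusp_mul (n := n) hord'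
      have h4 := hr.pow n
      have h5 : (fun τ => G (δ • τ)) ^ n = sl C δ := by
        rw [← hGn]; rfl
      rw [h5] at h4
      have h6 := h4.unique h3
      have h7 : r = n * (e * m + t) := mul_left_cancel₀ (by exact_mod_cast hn) h6
      have h8 := Spot.ud_transform hζ'0 (T_pow_smul_cusp M j) hr (c := χ γ) (fun τ => by
        rw [hjτ, hχ])
      have h9 : (χ γ : ℂ) = 1 := by
        rw [h8, h7, zpow_mul, zpow_natCast, ← zpow_natCast, zpow_comm ζ' j, zpow_natCast, hζζ,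
          zpow_add₀ hζ0, zpow_mul, h1, _root_.one_zpow, h2, one_mul]
      exact Units.ext h9
    · -- elliptic
      obtain ⟨z, hz⟩ := trace_sq_of_abs_le hγ htr
      set μ' : ℂ := conj (denom ((γ : SL(2,ℤ)) : GL (Fin 2) ℝ) z) /
        denom ((γ : SL(2,ℤ)) : GL (Fin 2) ℝ) z with hμ'
      have hμ'0 : μ' ≠ 0 := cay_smul_ne _
      have hcay : ∀ τ, (ptGen z).toUD.u ((γ : SL(2,ℤ)) • τ) = μ' * (ptGen z).toUD.u τ :=
        fun τ => cay_smul hz τ
      obtain ⟨t, ht⟩ := (Pl.gen N z).ex b hbX.isA hb0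
      obtain ⟨e, m, t', ht'0, ht', hord'⟩ := key (Pl.gen N z) t ht
      have hinv : ∀ f : ℍ → ℂ, IsXG N Γ 1 f → ∀ τ, f ((1 : SL(2,ℤ)) • ((γ : SL(2,ℤ)) • τ)) =
          f ((1 : SL(2,ℤ)) • τ) := by
        intro f hf τ
        rw [one_smul, one_smul]
        exact hf.inv_one' γ.2 _
      have h1 : μ' ^ e = 1 := by
        rw [← ht']
        exact multiplier_powG hΓ (U := (ptGen z).toUD) (p := Pl.gen N z) rfl hμ'0 hcay hinv ht'0
      have h2 : μ' ^ t = 1 :=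
        (Spot.ud_transform hμ'0 hcay ht (c := 1) (fun τ => by
          rw [one_mul]; exact hinv b hbX τ)).symm
      have hr := Spot.hasOrd_ud_pt (ptGen z) hG hG0
      set r := (analyticOrderNatAt (G ∘ ofComplex) (ptGen z).pt : ℤ) with hrdef
      have h4 := hr.pow n
      rw [hGn] at h4
      change (Spot.ud (ptGen z).toUD).HasOrd (sl C 1) _ at hord'
      rw [sl_one] at hord'
      have h6 := h4.unique hord'
      have h7 : r = e * m + t := mul_left_cancel₀ (by exact_mod_cast hn) h6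
      have h8 := Spot.ud_transform hμ'0 hcay hr (c := χ γ) (fun τ => hχ γ τ)
      have h9 : (χ γ : ℂ) = 1 := by
        rw [h8, h7, zpow_add₀ hμ'0, zpow_mul, h1, _root_.one_zpow, h2, one_mul]
      exact Units.ext h9
  refine ⟨χ, hnh, MonoidHom.ext fun γ => hχn γ, G, b, IsXG.of hΓ hnh hG hχ hGmg, hbX, hG0, hb0, ?_⟩
  have hGP : IsP G := (IsXG.of hΓ hnh hG hχ hGmg).isP hΓ hnh
  rw [← lser_pow hGP, hGn, hC, lser_mul (hf.isP_one hΓ) ((hbX.pow_one' _).isP_one hΓ), ← he,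
    lser_pow (hbX.isP_one hΓ), hb, lser_ef (jev_mem B)]
  obtain ⟨m, rfl⟩ := Nat.exists_eq_succ_of_ne_zero hn
  rw [Nat.succ_sub_one, pow_succ]
  ring

/-! ### algebra of characters -/

variable {n : ℕ}

lemma IsXG.ne_zero_mul {χ ψ : Γ →* ℂˣ} {f g : ℍ → ℂ} (hf : IsXG N Γ χ f) (hg : IsXG N Γ ψ g)
    (hf0 : f ≠ 0) (hg0 : g ≠ 0) : f * g ≠ 0 := by
  intro h
  rcases (UpperHalfPlane.mul_eq_zero_iff hf.isA.mdiff hg.isA.mdiff).mp h with h | h
  · exact hf0 h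
  · exact hg0 h

namespace IsCharG

variable {u v : LaurentSeries ℂ} {χ ψ : Γ →* ℂˣ}

include hΓ in
lemma ne_zero (h : IsCharG N Γ n u χ) : u ≠ 0 := by
  rintro rfl
  obtain ⟨G, b, hG, hb, hG0, hb0, he⟩ := h.ex
  rw [zero_mul] at he
  exact pow_ne_zero n (lser_ne_zero (hG.isP hΓ h.nh) hG0) he.symm

include hΓ in
lemma mul (hu : IsCharG N Γ n u χ) (hv : IsCharG N Γ n v ψ) : IsCharG N Γ n (u * v) (χ * ψ) := by
  refine ⟨hu.nh.mul hv.nh, ?_, ?_⟩
  · have h1 := hu.pw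
    have h2 := hv.pw
    ext γ
    have h1' := DFunLike.congr_fun h1 γ
    have h2' := DFunLike.congr_fun h2 γ
    rw [MonoidHom.pow_apply] at h1' h2' ⊢
    rw [MonoidHom.mul_apply, mul_pow, h1', h2', MonoidHom.one_apply, mul_one]
  · obtain ⟨G, b, hG, hb, hG0, hb0, he⟩ := hu.ex
    obtain ⟨G', b', hG', hb', hG'0, hb'0, he'⟩ := hv.ex
    refine ⟨G * G', b * b', hG.mul hG', hb.mul_one' hb', hG.ne_zero_mul hG' hG0 hG'0,
      hb.ne_zero_mul hb' hb0 hb'0, ?_⟩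
    rw [lser_mul (hb.isP_one hΓ) (hb'.isP_one hΓ), lser_mul (hG.isP hΓ hu.nh)
      (hG'.isP hΓ hv.nh), mul_pow, mul_pow, ← he, ← he']
    ring

/-- `n`-th powers have trivial character -/
lemma of_pow {g : LaurentSeries ℂ} (hg : g ∈ MfG hΓ) (hg0 : g ≠ 0) :
    IsCharG N Γ n (g ^ n) 1 := by
  obtain ⟨f, B, hr⟩ := exists_Rp hΓ hg
  have hb := isXG_jev hΓ B
  have hb0 := ef_jev_ne_zero hr.2.1
  refine ⟨isNHG_one, hom_one_pow n, f, ef (jev ℂ B), hr.1, hb, Rp.ne_zero hΓ hr hg0, hb0, ?_⟩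
  rw [lser_ef (jev_mem B), ← mul_pow, hr.2.2]

include hΓ in
lemma one : IsCharG N Γ n (1 : LaurentSeries ℂ) 1 := by
  have := of_pow (n := n) hΓ (one_mem (MfG hΓ)) one_ne_zero
  rwa [one_pow] at this

include hΓ in
lemma pow (hu : IsCharG N Γ n u χ) (m : ℕ) : IsCharG N Γ n (u ^ m) (χ ^ m) := by
  induction m with
  | zero => rw [_root_.pow_zero, hom_pow_zero]; exact one hΓ
  | succ m ih => rw [_root_.pow_succ, hom_pow_succ]; exact ih.mul hΓ hu

/-- functions with characters of order dividing `n` -/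
lemma mem_MfG (hu : IsCharG N Γ n u χ) : u ∈ MfG hΓ := by
  obtain ⟨G, b, hG, hb, hG0, hb0, he⟩ := hu.ex
  have h1 : IsXG N Γ 1 (G ^ n) := by
    have := hG.pow n
    rw [hu.pw] at this
    exact this
  have h2 : u = lser (G ^ n) / lser (b ^ n) := by
    rw [lser_pow (hG.isP hΓ hu.nh), lser_pow (hb.isP_one hΓ), ← he,
      mul_div_cancel_right₀ _ (pow_ne_zero n (lser_ne_zero (hb.isP_one hΓ) hb0))]
  rw [h2]
  exact quot_mem_MfG hΓ h1 (hb.pow_one' n)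

include hΓ in
lemma inv (hn : n ≠ 0) (hu : IsCharG N Γ n u χ) : IsCharG N Γ n u⁻¹ χ⁻¹ := by
  have h1 := (hu.pow hΓ (n - 1)).mul hΓ (of_pow (n := n) hΓ (inv_mem (hu.mem_MfG hΓ))
    (inv_ne_zero (hu.ne_zero hΓ)))
  have h2 : u ^ (n - 1) * u⁻¹ ^ n = u⁻¹ := by
    obtain ⟨m, rfl⟩ := Nat.exists_eq_succ_of_ne_zero hn
    rw [Nat.succ_sub_one, _root_.pow_succ, ← mul_assoc, ← mul_pow,
      mul_inv_cancel₀ (hu.ne_zero hΓ), one_pow, one_mul]
  have h3 : χ ^ (n - 1) * 1 = χ⁻¹ := by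
    rw [hom_mul_one]
    have h4 := hu.pw
    obtain ⟨m, rfl⟩ := Nat.exists_eq_succ_of_ne_zero hn
    rw [Nat.succ_sub_one]
    refine MonoidHom.ext fun γ => ?_
    have := DFunLike.congr_fun h4 γ
    rw [MonoidHom.pow_apply, _root_.pow_succ, MonoidHom.one_apply] at this
    rw [MonoidHom.inv_apply, MonoidHom.pow_apply, eq_inv_iff_mul_eq_one, this]
  rwa [h2, h3] at h1

include hΓ in
lemma div (hn : n ≠ 0) (hu : IsCharG N Γ n u χ) (hv : IsCharG N Γ n v ψ) :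
    IsCharG N Γ n (u / v) (χ / ψ) := by
  rw [div_eq_mul_inv, ← hom_div]
  exact hu.mul hΓ (hv.inv hΓ hn)

/-- trivial characters come from `n`-th powers -/
lemma exists_root (hu : IsCharG N Γ n u 1) : ∃ g ∈ MfG hΓ, g ≠ 0 ∧ g ^ n = u := by
  obtain ⟨G, b, hG, hb, hG0, hb0, he⟩ := hu.ex
  have h1 := lser_ne_zero (hb.isP_one hΓ) hb0
  have h2 := lser_ne_zero (hG.isP_one hΓ) hG0
  refine ⟨lser G / lser b, quot_mem_MfG hΓ hG hb, div_ne_zero h2 h1, ?_⟩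
  rw [div_pow, ← he, mul_div_cancel_right₀ _ (pow_ne_zero n h1)]

include hΓ in
/-- the character is unique -/
lemma unique (hn : n ≠ 0) (hu : IsCharG N Γ n u χ) (hv : IsCharG N Γ n u ψ) : χ = ψ := by
  obtain ⟨G, b, hG, hb, hG0, hb0, he⟩ := hu.ex
  obtain ⟨G', b', hG', hb', hG'0, hb'0, he'⟩ := hv.ex
  have h1 := hG.mul hb'
  have h2 := hG'.mul hb
  have e1 : (G * b') ^ n = (G' * b) ^ n := by
    have hP1 := (hG.isP hΓ hu.nh).mul (hb'.isP_one hΓ)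
    have hP2 := (hG'.isP hΓ hv.nh).mul (hb.isP_one hΓ)
    apply lser_inj (hP1.pow n) (hP2.pow n)
    rw [lser_pow hP1, lser_pow hP2, lser_mul (hG.isP hΓ hu.nh) (hb'.isP_one hΓ),
      lser_mul (hG'.isP hΓ hv.nh) (hb.isP_one hΓ), mul_pow, mul_pow, ← he, ← he']
    ring
  obtain ⟨μ, hμ, h⟩ := exists_root_scalar hn h1.isA.mdiff h2.isA.mdiff
    (hG'.ne_zero_mul hb hG'0 hb0) e1
  obtain ⟨τ, hτ⟩ := exists_ne_zero (hG'.ne_zero_mul hb hG'0 hb0)
  ext γ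
  have h3 := h1.inv γ τ
  have h4 := h2.inv γ τ
  rw [h, h, h4] at h3
  simp only [MonoidHom.mul_apply, MonoidHom.one_apply, mul_one] at h3
  have hμ0 : (μ : ℂ) ≠ 0 := Units.ne_zero _
  have h5 : ((μ : ℂ) * (G' * b) τ) * ((ψ γ : ℂ) - χ γ) = 0 := by linear_combination h3
  rcases mul_eq_zero.mp h5 with h6 | h6
  · exact absurd h6 (mul_ne_zero hμ0 hτ)
  · exact (sub_eq_zero.mp h6).symm

include hΓ in
/-- change of `n` -/
lemma descend {m : ℕ} (hu : IsCharG N Γ (n * m) u χ) : IsCharG N Γ n u (χ ^ m) := by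
  refine ⟨hu.nh.pow m, ?_, ?_⟩
  · rw [← hu.pw, hom_pow_mul]
  · obtain ⟨G, b, hG, hb, hG0, hb0, he⟩ := hu.ex
    refine ⟨G ^ m, b ^ m, hG.pow m, hb.pow_one' m, IsXG.pow_fun_ne_zero hG0 m,
      IsXG.pow_fun_ne_zero hb0 m, ?_⟩
    rw [lser_pow (hb.isP_one hΓ), lser_pow (hG.isP hΓ hu.nh), ← pow_mul, ← pow_mul,
      mul_comm m n, he]

/-- the diamond operators -/
lemma dia (hu : IsCharG N Γ n u χ) (g : Gamma0 N) :
    IsCharG N Γ n (dia hΓ g ⟨u, hu.mem_MfG hΓ⟩ : LaurentSeries ℂ) (χ.comp (conjH hΓ g)) := by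
  obtain ⟨f, B, hr⟩ := exists_Rp hΓ (hu.mem_MfG hΓ)
  obtain ⟨G, b, hG, hb, hG0, hb0, heq⟩ := hu.ex
  have hGP : IsP G := hG.isP hΓ hu.nh
  have hbP : IsP b := hb.isP_one hΓ
  have hjP := (isXG_jev hΓ B).isP_one hΓ
  have hfP := hr.1.isP_one hΓ
  have e1 : f * b ^ n = G ^ n * ef (jev ℂ B) := by
    apply lser_inj (hfP.mul (hbP.pow n)) ((hGP.pow n).mul hjP)
    rw [lser_mul hfP (hbP.pow n), lser_mul (hGP.pow n) hjP, lser_pow hbP, lser_pow hGP,
      lser_ef (jev_mem B), ← hr.2.2, ← heq]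
    ring
  have e2 := congrArg (fun f => AnJacH.sl f g) e1
  simp only [sl_mul, sl_pow, sl_jev] at e2
  have hG' := hG.sl hΓ g
  have hb' := hb.sl_one' hΓ g
  have hχ' := hu.nh.conjH hΓ g
  have hG'P : IsP (AnJacH.sl G g) := hG'.isP hΓ hχ'
  have hb'P : IsP (AnJacH.sl b g) := hb'.isP_one hΓ
  have hr' := dia_rp hΓ g (u := ⟨u, hu.mem_MfG hΓ⟩) hr
  refine ⟨hχ', ?_, _, _, hG', hb', sl_ne_zero hG0 g, sl_ne_zero hb0 g, ?_⟩
  · ext γ
    have := DFunLike.congr_fun hu.pw (conjH hΓ g γ)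
    rw [MonoidHom.pow_apply] at this ⊢
    rw [MonoidHom.comp_apply, this]
    rfl
  · have h5 := congrArg lser e2
    have hf'P := hr'.1.isP_one hΓ
    rw [lser_mul hf'P (hb'P.pow n), lser_mul (hG'P.pow n) hjP, lser_ef (jev_mem B),
      ← hr'.2.2, lser_pow hb'P, lser_pow hG'P] at h5
    have h6 := jev_ne_zero hr.2.1
    apply mul_right_cancel₀ h6
    rw [← h5]
    ring

end IsCharG

include hΓ in
/-- functions with prescribed character of finite order -/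
theorem exists_isXG (hn : n ≠ 0) {χ : Γ →* ℂˣ} (hχ : IsNHG χ) (hpw : χ ^ n = 1) :
    ∃ G, IsXG N Γ χ G ∧ G ≠ 0 := by
  obtain ⟨l, h, h1, h2, h3, h4⟩ := exists_form Γ χ (fun γ => by
    have := DFunLike.congr_fun hpw γ
    rw [MonoidHom.pow_apply, MonoidHom.one_apply] at this
    have h5 : (χ γ : ℂ) ^ n = 1 := by
      rw [← Units.val_pow_eq_pow_val, this, Units.val_one]
    exact Complex.norm_eq_one_of_pow_eq_one h5 hn) hΓ.neg_one_mem (hχ _ (by simp))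
    (Nat.pos_of_ne_zero (NeZero.ne N)) (fun δ => ⟨hΓ.conj_T_mem δ, hχ.conj_T hΓ δ⟩)
  have hG1 : ∀ (g : SL(2,ℤ)) (τ : ℍ), h (g • τ) * (discriminant (g • τ))⁻¹ ^ l =
      (h ∣[(12 * l : ℤ)] g) τ * (discriminant τ)⁻¹ ^ l := by
    intro g τ
    have h5 := disc_isL1.apply_smul g τ
    have h6 := SL_slash_apply (k := (12 * l : ℤ)) h g τ
    have hd := denom_ne_zero (g : GL (Fin 2) ℝ) τ
    rw [h5, h6, mul_inv, mul_pow, _root_.zpow_neg, zpow_mul, inv_pow, zpow_natCast]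
    ring
  refine ⟨fun τ => h τ * (discriminant τ)⁻¹ ^ l, IsXG.of hΓ hχ ?_ ?_ ?_, ?_⟩
  · exact h1.mul (mdiff_pow mdiff_disc_inv l)
  · intro γ τ
    rw [hG1, h3]
    simp [mul_assoc]
  · intro δ
    refine MG.congr (f := (h ∣[(12 * l : ℤ)] δ) * (fun τ => (discriminant τ)⁻¹) ^ l) ?_ ?_
    · exact (MG.of_bdd (h4 δ)).mul (mg_disc_inv.pow l)
    · intro τ
      exact (hG1 δ τ).symm
  · intro h5
    apply h2
    ext τ
    have := congrFun h5 τ
    simp only [Pi.zero_apply] at this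
    rcases mul_eq_zero.mp this with h6 | h6
    · exact h6
    · exact absurd h6 (pow_ne_zero _ (inv_ne_zero (discriminant_ne_zero τ)))

include hΓ in
/-- every character of order dividing `n` comes from a function -/
theorem exists_isCharG (hn : n ≠ 0) {χ : Γ →* ℂˣ} (hχ : IsNHG χ) (hpw : χ ^ n = 1) :
    ∃ u, IsCharG N Γ n u χ := by
  obtain ⟨G, hG, hG0⟩ := exists_isXG hΓ hn hχ hpw
  refine ⟨lser G ^ n, hχ, hpw, G, 1, hG, IsXG.one, hG0, IsChar.one_fun_ne_zero, ?_⟩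
  rw [lser_one, one_pow, mul_one]

end Fermat.Agent.AnJacH
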