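import Fermat.Agent.AnJac.PadicRep

/-!
# Classes of functions modulo `n`-th powers, and operators between Kummer systems
-/

set_option autoImplicit false
set_option linter.unusedSectionVars false

noncomputable section

namespace Fermat.Agent.AnJac

open Matrix

namespace KSys

variable {F G Λ : Type*} [Field F] [Group G] [AddCommGroup Λ] (K : KSys F G Λ)
variable {r : ℕ} (b : Module.Basis (Fin r) ℤ Λ)

/-- `u` has class `x` -/
def Cls (n : ℕ) (u : F) (x : Fin r → ZMod n) : Prop := ∃ φ, K.cl n φ u ∧ red b n φ = x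

variable {K b} {n : ℕ}

lemma Cls.ne_zero {u : F} {x : Fin r → ZMod n} (h : K.Cls b n u x) : u ≠ 0 :=
  K.ne_zero h.choose_spec.1

lemma Cls.mul {u v : F} {x y : Fin r → ZMod n} (h : K.Cls b n u x) (h' : K.Cls b n v y) :
    K.Cls b n (u * v) (x + y) := by
  obtain ⟨φ, h1, rfl⟩ := h
  obtain ⟨ψ, h2, rfl⟩ := h'
  exact ⟨φ + ψ, K.mul h1 h2, map_add _ _ _⟩

lemma Cls.unique (hn : n ≠ 0) {u : F} {x y : Fin r → ZMod n} (h : K.Cls b n u x)
    (h' : K.Cls b n u y) : x = y := by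
  obtain ⟨φ, h1, rfl⟩ := h
  obtain ⟨ψ, h2, rfl⟩ := h'
  exact (red_eq_iff b).mpr (K.uniq hn h1 h2)

lemma cls_pow (hn : n ≠ 0) {g : F} (hg : g ≠ 0) : K.Cls b n (g ^ n) 0 := by
  refine ⟨n • (0 : Λ), K.pow hn hg 0, ?_⟩
  rw [smul_zero, map_zero]

lemma cls_one (hn : n ≠ 0) : K.Cls b n 1 0 := by
  have := cls_pow (K := K) (b := b) hn (one_ne_zero (α := F))
  rwa [one_pow] at this

lemma Cls.mul_pow (hn : n ≠ 0) {u g : F} {x : Fin r → ZMod n} (h : K.Cls b n u x) (hg : g ≠ 0) :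
    K.Cls b n (u * g ^ n) x := by
  have := h.mul (cls_pow (K := K) (b := b) hn hg)
  rwa [add_zero] at this

lemma Cls.inv (hn : n ≠ 0) {u : F} {x : Fin r → ZMod n} (h : K.Cls b n u x) :
    K.Cls b n u⁻¹ (-x) := by
  obtain ⟨φ, h1, rfl⟩ := h
  exact ⟨-φ, K.inv hn h1, map_neg _ _⟩

lemma Cls.div (hn : n ≠ 0) {u v : F} {x y : Fin r → ZMod n} (h : K.Cls b n u x)
    (h' : K.Cls b n v y) : K.Cls b n (u / v) (x - y) := by
  rw [div_eq_mul_inv, sub_eq_add_neg]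
  exact h.mul (h'.inv hn)

lemma Cls.npow (hn : n ≠ 0) {u : F} {x : Fin r → ZMod n} (h : K.Cls b n u x) (m : ℕ) :
    K.Cls b n (u ^ m) (m • x) := by
  obtain ⟨φ, h1, rfl⟩ := h
  exact ⟨m • φ, K.npow hn h1 m, map_nsmul _ _ _⟩

lemma Cls.exists_pow (hn : n ≠ 0) {u v : F} {x : Fin r → ZMod n} (h : K.Cls b n u x)
    (h' : K.Cls b n v x) : ∃ g, g ≠ 0 ∧ u = v * g ^ n := by
  obtain ⟨φ, h1, rfl⟩ := h
  obtain ⟨ψ, h2, h3⟩ := h'
  obtain ⟨χ, hχ⟩ := (red_eq_iff b).mp h3.symm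
  exact K.eq_mul_pow hn h1 h2 hχ

lemma Cls.exists_pow_one (hn : n ≠ 0) {u : F} (h : K.Cls b n u 0) : ∃ g, g ≠ 0 ∧ u = g ^ n := by
  obtain ⟨g, hg, h1⟩ := h.exists_pow hn (cls_one hn)
  exact ⟨g, hg, by rw [h1, one_mul]⟩

lemma red_surj (hn : n ≠ 0) (x : Fin r → ZMod n) : ∃ φ : Λ, red b n φ = x := by
  have : NeZero n := ⟨hn⟩
  refine ⟨∑ i, ((x i).val : ℤ) • b i, ?_⟩
  ext i
  rw [map_sum, Finset.sum_apply, Finset.sum_eq_single i]
  · rw [map_zsmul, Pi.smul_apply, red_basis, Pi.single_eq_same]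
    simp
  · intro j _ hj
    rw [map_zsmul, Pi.smul_apply, red_basis, Pi.single_eq_of_ne hj.symm, smul_zero]
  · intro h
    exact absurd (Finset.mem_univ i) h

variable (K b) in
lemma exists_cls (hn : n ≠ 0) (x : Fin r → ZMod n) : ∃ u, K.Cls b n u x := by
  obtain ⟨φ, rfl⟩ := red_surj (b := b) hn x
  obtain ⟨u, hu⟩ := K.ex hn φ
  exact ⟨u, φ, hu, rfl⟩

lemma Cls.act (hn : n ≠ 0) {u : F} {x : Fin r → ZMod n} (h : K.Cls b n u x) (σ : G) :
    K.Cls b n (K.act σ u) (K.M b hn σ *ᵥ x) := by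
  obtain ⟨φ, h1, rfl⟩ := h
  obtain ⟨ψ, hψ⟩ := K.gal hn σ h1
  exact ⟨ψ, hψ, (K.M_mulVec b hn σ h1 hψ).symm⟩

lemma Cls.compat {t : Λ →+ Λ} {H : F → F} (hc : K.Compat n t H) {u : F} {x : Fin r → ZMod n}
    (h : K.Cls b n u x) :
    K.Cls b n (H u) ((Int.castRingHom (ZMod n)).mapMatrix (tm b t) *ᵥ x) := by
  obtain ⟨φ, h1, rfl⟩ := h
  exact ⟨t φ, hc φ u h1, (tm_mulVec b t n φ).symm⟩

/-! ### operators -/

section Op

variable {F' G' Λ' : Type*} [Field F'] [Group G'] [AddCommGroup Λ'] {K' : KSys F' G' Λ'}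
variable {r' : ℕ} {b' : Module.Basis (Fin r') ℤ Λ'}

variable (K K' b b') in
/-- the matrix `A` describes the operator `H` -/
def IsMat (n : ℕ) (H : F → F') (A : Matrix (Fin r') (Fin r) (ZMod n)) : Prop :=
  ∀ u x, K.Cls b n u x → K'.Cls b' n (H u) (A *ᵥ x)

lemma exists_isMat (hn : n ≠ 0) {H : F → F'} (hmul : ∀ u v, H (u * v) = H u * H v)
    (hne : ∀ u, u ≠ 0 → H u ≠ 0)
    (hcl : ∀ u x, K.Cls b n u x → ∃ y, K'.Cls b' n (H u) y) :
    ∃ A, IsMat K b K' b' n H A := by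
  have : NeZero n := ⟨hn⟩
  have h1 : H 1 = 1 := by
    have h2 := hmul 1 1
    rw [mul_one] at h2
    exact (mul_eq_left₀ (hne 1 one_ne_zero)).mp h2.symm
  have hpow : ∀ g m, H (g ^ m) = H g ^ m := by
    intro g m
    induction m with
    | zero => rw [pow_zero, pow_zero, h1]
    | succ m ih => rw [pow_succ, pow_succ, hmul, ih]
  choose U hU using fun x => K.exists_cls b hn x
  choose Y hY using fun x => hcl _ _ (hU x)
  have key : ∀ u x, K.Cls b n u x → K'.Cls b' n (H u) (Y x) := by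
    intro u x hu
    obtain ⟨g, hg, rfl⟩ := hu.exists_pow hn (hU x)
    rw [hmul, hpow]
    exact (hY x).mul_pow hn (hne g hg)
  let A : (Fin r → ZMod n) →+ (Fin r' → ZMod n) :=
    { toFun := Y
      map_zero' := by
        have h2 := key 1 0 (cls_one hn)
        rw [h1] at h2
        exact h2.unique hn (cls_one hn)
      map_add' := by
        intro x y
        have h2 := key _ _ ((hU x).mul (hU y))
        rw [hmul] at h2
        exact h2.unique hn ((hY x).mul (hY y)) }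
  refine ⟨LinearMap.toMatrix' (A.toZModLinearMap n), fun u x hu => ?_⟩
  have h2 : (LinearMap.toMatrix' (A.toZModLinearMap n)) *ᵥ x = Y x := by
    rw [← Matrix.toLin'_apply, Matrix.toLin'_toMatrix']
    rfl
  rw [h2]
  exact key u x hu

lemma IsMat.eq (hn : n ≠ 0) {H : F → F'} {A B : Matrix (Fin r') (Fin r) (ZMod n)}
    (hA : IsMat K b K' b' n H A) (hB : IsMat K b K' b' n H B) : A = B := by
  have : ∀ x, A *ᵥ x = B *ᵥ x := by
    intro x
    obtain ⟨u, hu⟩ := K.exists_cls b hn x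
    exact (hA u x hu).unique hn (hB u x hu)
  ext i j
  have h1 := congrFun (this (Pi.single j 1)) i
  rwa [Matrix.mulVec_single_one, Matrix.mulVec_single_one] at h1

lemma isMat_act (hn : n ≠ 0) (σ : G) : IsMat K b K b n (fun u => K.act σ u) (K.M b hn σ) :=
  fun _ _ hu => hu.act hn σ

lemma isMat_compat {t : Λ →+ Λ} {H : F → F} (hc : K.Compat n t H) :
    IsMat K b K b n H ((Int.castRingHom (ZMod n)).mapMatrix (tm b t)) :=
  fun _ _ hu => hu.compat hc

lemma IsMat.comp {F'' G'' Λ'' : Type*} [Field F''] [Group G''] [AddCommGroup Λ'']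
    {K'' : KSys F'' G'' Λ''} {r'' : ℕ} {b'' : Module.Basis (Fin r'') ℤ Λ''}
    {H : F → F'} {A : Matrix (Fin r') (Fin r) (ZMod n)} (hA : IsMat K b K' b' n H A)
    {H' : F' → F''} {A' : Matrix (Fin r'') (Fin r') (ZMod n)} (hA' : IsMat K' b' K'' b'' n H' A') :
    IsMat K b K'' b'' n (fun u => H' (H u)) (A' * A) := by
  intro u x hu
  rw [← Matrix.mulVec_mulVec]
  exact hA' _ _ (hA _ _ hu)

/-- comparison of two operators which agree modulo `n`-th powers on functions with classes -/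
lemma IsMat.eq_of_cg (hn : n ≠ 0) {H H' : F → F'} {A B : Matrix (Fin r') (Fin r) (ZMod n)}
    (hA : IsMat K b K' b' n H A) (hB : IsMat K b K' b' n H' B)
    (h : ∀ u x, K.Cls b n u x → ∃ g, g ≠ 0 ∧ H u = H' u * g ^ n) : A = B := by
  apply hA.eq hn
  intro u x hu
  obtain ⟨g, hg, e⟩ := h u x hu
  rw [e]
  exact (hB u x hu).mul_pow hn hg

end Op

end KSys

end Fermat.Agent.AnJac
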