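import Fermat.Agent.AnJacH.QMain

/-!
# Homomorphisms with values in `O` and coordinates
-/

set_option autoImplicit false
set_option linter.unusedSectionVars false

noncomputable section

namespace Fermat.Agent.AnJacH

open Fermat.Agent.AnJac CongruenceSubgroup MatrixGroups Matrix

section Coord

variable {Γ : Subgroup SL(2,ℤ)} {O : Type*} [CommRing O] {r : ℕ}
  (b : Module.Basis (Fin r) ℤ (LatG Γ))

/-- the homomorphism with given coordinates -/
def chO (y : Fin r → O) : Additive Γ →+ O :=
  ∑ i, ((AddMonoidHom.mulLeft (y i)).comp (Int.castAddHom O)).comp (b i : Additive Γ →+ ℤ)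

lemma chO_apply (y : Fin r → O) (γ : Additive Γ) :
    chO b y γ = ∑ i, y i * (((b i : Additive Γ →+ ℤ) γ : ℤ) : O) := by
  rw [chO, AddMonoidHom.finsetSum_apply]
  rfl

lemma chO_smul (c : O) (y : Fin r → O) : chO b (c • y) = (AddMonoidHom.mulLeft c).comp (chO b y) := by
  refine AddMonoidHom.ext fun γ => ?_
  rw [chO_apply]
  change _ = c * chO b y γ
  rw [chO_apply, Finset.mul_sum]
  refine Finset.sum_congr rfl fun i _ => ?_
  rw [Pi.smul_apply, smul_eq_mul, mul_assoc]

/-- operators in coordinates -/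
lemma op_chO {t : LatG Γ →+ LatG Γ} {tO : (Additive Γ →+ O) →+ (Additive Γ →+ O)}
    (ht : ∀ (π : ℤ →+ O) (φ : LatG Γ), tO (π.comp (φ : Additive Γ →+ ℤ)) = π.comp (t φ : Additive Γ →+ ℤ))
    (y : Fin r → O) : tO (chO b y) = chO b (oI O (KSys.tm b t) *ᵥ y) := by
  have h1 : tO (chO b y) = ∑ i, ((AddMonoidHom.mulLeft (y i)).comp (Int.castAddHom O)).comp
      (t (b i) : Additive Γ →+ ℤ) := by
    rw [chO, map_sum]
    exact Finset.sum_congr rfl fun i _ => ht _ _
  rw [h1]
  refine AddMonoidHom.ext fun γ => ?_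
  rw [AddMonoidHom.finsetSum_apply, chO_apply]
  have h2 : ∀ i, ((t (b i) : Additive Γ →+ ℤ) γ) =
      ∑ k, (KSys.tm b t) k i * ((b k : Additive Γ →+ ℤ) γ) := by
    intro i
    have h3 := congrArg (fun x : LatG Γ => (x : Additive Γ →+ ℤ) γ) (b.sum_repr (t (b i)))
    rw [← h3]
    simp only [AddSubmonoidClass.coe_finsetSum, AddMonoidHom.finsetSum_apply]
    rfl
  have h4 : ∀ i, (((AddMonoidHom.mulLeft (y i)).comp (Int.castAddHom O)).comp
      (t (b i) : Additive Γ →+ ℤ)) γ =
      ∑ k, y i * ((KSys.tm b t k i : ℤ) : O) * (((b k : Additive Γ →+ ℤ) γ : ℤ) : O) := by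
    intro i
    change y i * (((t (b i) : Additive Γ →+ ℤ) γ : ℤ) : O) = _
    rw [h2, Int.cast_sum, Finset.mul_sum]
    refine Finset.sum_congr rfl fun k _ => ?_
    rw [Int.cast_mul, mul_assoc]
  simp only [h4]
  rw [Finset.sum_comm]
  refine Finset.sum_congr rfl fun k _ => ?_
  simp only [Matrix.mulVec, dotProduct, oI, Matrix.map_apply]
  rw [Finset.sum_mul]
  refine Finset.sum_congr rfl fun i _ => ?_
  simp only [eq_intCast]
  ring

variable [IsAddTorsionFree O]

lemma chO_injective : Function.Injective (chO (O := O) b) := by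
  have key : ∀ y : Fin r → O, chO b y = 0 → y = 0 := by
    intro y hy
    -- the group generated by the coordinates
    let W : AddSubgroup O := AddSubgroup.closure (Set.range y)
    have hW : Module.Finite ℤ W := by
      rw [Module.Finite.iff_addGroup_fg]
      exact (AddGroup.fg_iff_addSubgroup_fg W).mpr
        ⟨(Set.finite_range y).toFinset, by rw [Set.Finite.coe_toFinset]⟩
    have hT : IsAddTorsionFree W :=
      Function.Injective.isAddTorsionFree (W.subtype) Subtype.val_injective
    have hF : Module.Free ℤ W := inferInstance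
    let e := Module.finBasis ℤ W
    have hyW : ∀ i, y i ∈ W := fun i => AddSubgroup.subset_closure ⟨i, rfl⟩
    set a : Fin r → Fin (Module.finrank ℤ W) → ℤ := fun i j => e.repr ⟨y i, hyW i⟩ j with ha
    have h1 : ∀ γ : Additive Γ, ∑ i, ((b i : Additive Γ →+ ℤ) γ) • (⟨y i, hyW i⟩ : W) = 0 := by
      intro γ
      apply Subtype.ext
      have h2 := DFunLike.congr_fun hy γ
      rw [chO_apply] at h2
      rw [AddSubmonoidClass.coe_finsetSum]
      change _ = (0 : O)
      rw [← show (∑ i, y i * (((b i : Additive Γ →+ ℤ) γ : ℤ) : O)) = 0 from h2]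
      refine Finset.sum_congr rfl fun i _ => ?_
      change ((b i : Additive Γ →+ ℤ) γ) • y i = _
      rw [zsmul_eq_mul, mul_comm]
    have h3 : ∀ j, ∑ i, a i j • b i = 0 := by
      intro j
      apply Subtype.ext
      refine AddMonoidHom.ext fun γ => ?_
      rw [AddSubmonoidClass.coe_finsetSum, AddMonoidHom.finsetSum_apply]
      have h4 := congrArg (fun w => e.repr w j) (h1 γ)
      simp only [map_sum, map_smul, map_zero, Finsupp.coe_zero, Pi.zero_apply,
        Finsupp.coe_finsetSum, Finset.sum_apply, Finsupp.coe_smul, Pi.smul_apply] at h4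
      change ∑ i, (a i j • (b i : Additive Γ →+ ℤ)) γ = 0
      rw [← h4]
      refine Finset.sum_congr rfl fun i _ => ?_
      change a i j • ((b i : Additive Γ →+ ℤ) γ) = _
      rw [smul_eq_mul, smul_eq_mul, mul_comm]
    have h5 : ∀ i j, a i j = 0 := by
      intro i j
      exact Fintype.linearIndependent_iff.mp b.linearIndependent (fun i => a i j) (h3 j) i
    ext i
    have h6 : (⟨y i, hyW i⟩ : W) = 0 := by
      apply e.ext_elem
      intro j
      rw [map_zero]
      exact h5 i j
    exact congrArg Subtype.val h6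
  intro y z h
  have h1 : chO b (y - z) = 0 := by
    refine AddMonoidHom.ext fun γ => ?_
    rw [chO_apply]
    change _ = (0 : O)
    have h2 := DFunLike.congr_fun h γ
    rw [chO_apply, chO_apply] at h2
    simp only [Pi.sub_apply, sub_mul]
    rw [Finset.sum_sub_distrib, h2, sub_self]
  exact sub_eq_zero.mp (key _ h1)

/-- coordinates exist -/
lemma exists_chO [Group.FG Γ] {v : Additive Γ →+ O} (hv : v ∈ NHA Γ O) :
    ∃ y : Fin r → O, chO b y = v := by
  let W : AddSubgroup O := v.range
  have hFG : AddGroup.FG W := by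
    have : AddGroup.FG (Additive Γ) := inferInstance
    exact AddGroup.fg_range v
  have hW : Module.Finite ℤ W := Module.Finite.iff_addGroup_fg.mpr hFG
  have hT : IsAddTorsionFree W :=
    Function.Injective.isAddTorsionFree (W.subtype) Subtype.val_injective
  have hF : Module.Free ℤ W := inferInstance
  let e := Module.finBasis ℤ W
  let c : Fin (Module.finrank ℤ W) → (Additive Γ →+ ℤ) := fun j =>
    ((e.coord j : W →ₗ[ℤ] ℤ) : W →+ ℤ).comp v.rangeRestrict
  have hc : ∀ j, c j ∈ LatG Γ := by
    intro j γ hγ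
    have h1 : v.rangeRestrict (Additive.ofMul γ) = 0 := Subtype.ext (hv γ hγ)
    change e.coord j (v.rangeRestrict (Additive.ofMul γ)) = 0
    rw [h1, map_zero]
  let z : Fin (Module.finrank ℤ W) → Fin r → ℤ := fun j i => b.repr ⟨c j, hc j⟩ i
  have hz : ∀ j γ, c j γ = ∑ i, z j i * ((b i : Additive Γ →+ ℤ) γ) := by
    intro j γ
    have h3 := congrArg (fun x : LatG Γ => (x : Additive Γ →+ ℤ) γ) (b.sum_repr ⟨c j, hc j⟩)
    change _ = c j γ at h3
    rw [← h3]
    simp only [AddSubmonoidClass.coe_finsetSum, AddMonoidHom.finsetSum_apply]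
    rfl
  refine ⟨fun i => ∑ j, (z j i : O) * (e j : O), ?_⟩
  refine AddMonoidHom.ext fun γ => ?_
  rw [chO_apply]
  have h1 : v γ = ∑ j, ((c j γ : ℤ) : O) * (e j : O) := by
    have h2 := congrArg Subtype.val (e.sum_repr (v.rangeRestrict γ))
    have h3 : ((v.rangeRestrict γ : W) : O) = v γ := rfl
    rw [h3] at h2
    rw [← h2, AddSubmonoidClass.coe_finsetSum]
    refine Finset.sum_congr rfl fun j _ => ?_
    change (e.repr (v.rangeRestrict γ) j) • (e j : O) = _
    rw [zsmul_eq_mul]
    rfl
  rw [h1]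
  simp only [Finset.sum_mul]
  rw [Finset.sum_comm]
  refine Finset.sum_congr rfl fun j _ => ?_
  rw [hz, Int.cast_sum, Finset.sum_mul]
  refine Finset.sum_congr rfl fun i _ => ?_
  push_cast
  ring

end Coord

end Fermat.Agent.AnJacH
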