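import Fermat.Agent.AnJacH.KTG

/-!
# Congruence relations modulo classes with trivial reduction; the averaging trick
-/

set_option autoImplicit false
set_option linter.unusedSectionVars false

noncomputable section

namespace Fermat.Agent.AnJacH

open ModularCurve Fermat.Agent.ModFun Fermat.Agent.AnJac AlgebraicCurve IsLocalRing
open Fermat.Agent.HeckeQ CongruenceSubgroup MatrixGroups UpperHalfPlane Matrix
open scoped Pointwise

local notation "Qbar" => AlgebraicClosure ℚ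
local notation "GQ" => Qbar ≃ₐ[ℚ] Qbar

variable {N : ℕ} [NeZero N] {m : ℕ} {h : m ∣ N} {H₀ : Subgroup (ZMod m)ˣ}
  {hΓ : Adm N (GH N m h H₀)} {θ : MfG hΓ} {hθ : IsGen hΓ θ} {A : ValuationSubring Qbar}

lemma heckeW_eq_hW {ℓ : ℕ} [NeZero ℓ] {ζ : Qbarˣ} (hζ : IsPrimitiveRoot ζ ℓ)
    (u : LaurentSeries Qbar) : heckeW ζ ℓ u = hW ℓ u := by
  apply heckeW_eq hζ
  rw [qExpand_hW, prodTwist_eq_range ℓ hζ, AnJac.tprod_apply]
  exact (prod_zmod ℓ fun j => twist (ζ ^ j) u).symm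

/-- integral matrices modulo `n` -/
def im {r : ℕ} (n : ℕ) (T : Matrix (Fin r) (Fin r) ℤ) : Matrix (Fin r) (Fin r) (ZMod n) :=
  (Int.castRingHom (ZMod n)).mapMatrix T

/-- **the congruence relation** modulo classes with trivial reduction -/
theorem KT_frob (hQ : MfG hΓ ≤ QZ ℂ) {ℓ : ℕ} [hℓ : Fact ℓ.Prime] [NeZero ℓ]
    (hA : A.LiesOverPrime ℓ) {τ : GQ}
    (hτ : A.IsFrobeniusAt τ ℓ) (hℓN : ¬ ℓ ∣ N) {g : Gamma0 N}
    (hg : ((dM N m h g : (ZMod m)ˣ) : ZMod m) = ℓ) {n : ℕ} (hn : n ≠ 0)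
    (x : Fin (Module.finrank ℤ (LatG (GH N m h H₀))) → ZMod n) :
    KT hθ A n (im n (KSys.tm (bG hΓ) (LTG N m h H₀ ℓ hℓN g hg)) *ᵥ x -
      ((KG hθ).M (bG hΓ) hn τ *ᵥ x +
        ℓ • (im n (KSys.tm (bG hΓ) (LdG hΓ g)) *ᵥ ((KG hθ).M (bG hΓ) hn τ⁻¹ *ᵥ x)))) := by
  obtain ⟨ζ, hζ⟩ := exists_zeta ℓ
  obtain ⟨u, hu⟩ := (KG hθ).exists_cls (bG hΓ) hn x
  have hu0 : u ≠ 0 := hu.ne_zero
  refine ⟨FTG ιQ hθ hℓN hg hζ u / (actFG ιQ hθ fQ τ u *
    (diaK ιQ hθ g (actFG ιQ hθ fQ τ⁻¹ u)) ^ ℓ), ?_, fun g' => ?_⟩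
  · refine KSys.Cls.div hn (hu.compat (compat_LTG ιQ hθ fQ hℓN hg hζ)) ?_
    refine (hu.act hn τ).mul ?_
    exact KSys.Cls.npow hn ((hu.act hn τ⁻¹).compat (compat_LdG ιQ hθ fQ g)) ℓ
  · rw [map_div₀, map_mul, map_pow, ← FTG_dia, diaK_act, diaK_comm, diaK_act]
    set v := diaK ιQ hθ g' u with hv
    have hv0 : v ≠ 0 := (map_ne_zero _).mpr hu0
    have hgv0 : diaK ιQ hθ g v ≠ 0 := (map_ne_zero _).mpr hv0
    rw [diaK_act]
    change RdC A ((FTG ιQ hθ hℓN hg hζ v : LaurentSeries Qbar) /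
      ((actFG ιQ hθ fQ τ v : LaurentSeries Qbar) *
        (actFG ιQ hθ fQ τ⁻¹ (diaK ιQ hθ g v) : LaurentSeries Qbar) ^ ℓ))
    rw [coe_FTG, coe_actFG, coe_actFG, heckeW_eq_hW hζ, mul_comm (qExpand _ ℓ _),
      mul_div_mul_comm]
    exact (RdC.hW_frob hℓ.out hA hτ (sc_FG hQ ιQ A hv0)).mul
      (RdC.qExpand_frob hℓ.out hA hτ (sc_FG hQ ιQ A hgv0))

/-- **`U_q` is Frobenius** modulo classes with trivial reduction -/
theorem KT_U (hQ : MfG hΓ ≤ QZ ℂ) {q : ℕ} [hq : Fact q.Prime] [NeZero q]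
    (hA : A.LiesOverPrime q) {τ : GQ}
    (hτ : A.IsFrobeniusAt τ q) (hqN : q ∣ N) {n : ℕ} (hn : n ≠ 0)
    (x : Fin (Module.finrank ℤ (LatG (GH N m h H₀))) → ZMod n) :
    KT hθ A n (im n (KSys.tm (bG hΓ) (LUG N m h H₀ q hqN)) *ᵥ x -
      (KG hθ).M (bG hΓ) hn τ *ᵥ x) := by
  obtain ⟨ζ, hζ⟩ := exists_zeta q
  obtain ⟨u, hu⟩ := (KG hθ).exists_cls (bG hΓ) hn x
  have hu0 : u ≠ 0 := hu.ne_zero
  refine ⟨FUG ιQ hqN hζ u / actFG ιQ hθ fQ τ u, ?_, fun g' => ?_⟩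
  · exact KSys.Cls.div hn (hu.compat (compat_LUG ιQ hθ fQ hqN hζ)) (hu.act hn τ)
  · rw [map_div₀, ← FUG_dia, diaK_act]
    set v := diaK ιQ hθ g' u with hv
    have hv0 : v ≠ 0 := (map_ne_zero _).mpr hu0
    change RdC A ((FUG ιQ hqN hζ v : LaurentSeries Qbar) /
      (actFG ιQ hθ fQ τ v : LaurentSeries Qbar))
    rw [coe_FUG, coe_actFG, heckeW_eq_hW hζ]
    exact RdC.hW_frob hq.out hA hτ (sc_FG hQ ιQ A hv0)

/-! ### the averaging trick -/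

section Trick

variable {ℓ : ℕ} [hℓ : Fact ℓ.Prime] [NeZero ℓ] (hℓN : ¬ ℓ ∣ N)
  (hg : ((dM N m h (1 : Gamma0 N) : (ZMod m)ˣ) : ZMod m) = ℓ) {ζ : Qbarˣ}
  (hζ : IsPrimitiveRoot ζ ℓ)

variable (hθ) in
/-- the operator `T_ℓ - 1 - ℓ` on functions -/
def tOp (u : FG hΓ ιQ) : FG hΓ ιQ := FTG ιQ hθ hℓN hg hζ u / u ^ (ℓ + 1)

lemma tOp_mul (u v : FG hΓ ιQ) :
    tOp hθ hℓN hg hζ (u * v) = tOp hθ hℓN hg hζ u * tOp hθ hℓN hg hζ v := by
  rw [tOp, tOp, tOp, FTG_mul, mul_pow, mul_div_mul_comm]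

lemma tOp_one : tOp hθ hℓN hg hζ 1 = 1 := by
  rw [tOp, FTG_one, one_pow, div_one]

lemma tOp_pow (u : FG hΓ ιQ) (n : ℕ) :
    tOp hθ hℓN hg hζ (u ^ n) = tOp hθ hℓN hg hζ u ^ n := by
  induction n with
  | zero => rw [pow_zero, pow_zero, tOp_one]
  | succ n ih => rw [pow_succ, pow_succ, tOp_mul, ih]

lemma tOp_dia (g : Gamma0 N) (u : FG hΓ ιQ) :
    tOp hθ hℓN hg hζ (diaK ιQ hθ g u) = diaK ιQ hθ g (tOp hθ hℓN hg hζ u) := by
  rw [tOp, tOp, FTG_dia, map_div₀, map_pow]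

lemma tOp_ne_zero {u : FG hΓ ιQ} (hu : u ≠ 0) : tOp hθ hℓN hg hζ u ≠ 0 := by
  intro h0
  have h1 := tOp_mul (hθ := hθ) hℓN hg hζ u u⁻¹
  rw [mul_inv_cancel₀ hu, tOp_one, h0, zero_mul] at h1
  exact one_ne_zero h1

lemma coe_tOp (u : FG hΓ ιQ) : (tOp hθ hℓN hg hζ u : LaurentSeries Qbar) =
    qExpand _ ℓ (u : LaurentSeries Qbar) * hW ℓ (u : LaurentSeries Qbar) /
      (u : LaurentSeries Qbar) ^ (ℓ + 1) := by
  change (FTG ιQ hθ hℓN hg hζ u : LaurentSeries Qbar) / (u : LaurentSeries Qbar) ^ (ℓ + 1) = _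
  rw [coe_FTG, diaK_one, heckeW_eq_hW hζ]

lemma tOp_const {c : Qbar} (hc : c ≠ 0) :
    tOp hθ hℓN hg hζ (algebraMap Qbar (FG hΓ ιQ) c) = 1 := by
  apply Subtype.ext
  rw [coe_tOp]
  have h1 : ((algebraMap Qbar (FG hΓ ιQ) c : FG hΓ ιQ) : LaurentSeries Qbar) =
      HahnSeries.C c * 1 := by
    rw [mul_one, C_eq_algebraMap]; rfl
  rw [h1, hW_const, mul_one, hW_one, mul_one, qExpand_C, ← map_mul, ← map_pow, pow_succ', div_self]
  · rfl
  · exact C_ne_zero (mul_ne_zero hc (pow_ne_zero _ hc))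

lemma rd_tOp {u : FG hΓ ιQ} (hu : RdC A (u : LaurentSeries Qbar)) :
    Rd A (tOp hθ hℓN hg hζ u : LaurentSeries Qbar) 1 := by
  obtain ⟨c, hc, h1⟩ := hu
  have h2 : tOp hθ hℓN hg hζ u = tOp hθ hℓN hg hζ (algebraMap Qbar (FG hΓ ιQ) c * u) := by
    rw [tOp_mul, tOp_const hℓN hg hζ hc, one_mul]
  have h3 : ((algebraMap Qbar (FG hΓ ιQ) c * u : FG hΓ ιQ) : LaurentSeries Qbar) =
      HahnSeries.C c * (u : LaurentSeries Qbar) := by
    rw [C_eq_algebraMap]; rfl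
  rw [h2, coe_tOp, h3]
  have h4 := (Rd.qExpand' (ℓ := ℓ) h1).mul (Rd.hW_one' (ℓ := ℓ) h1)
  have h5 := Rd.div' h4 (h1.pow (ℓ + 1)) (pow_ne_zero _ one_ne_zero)
  rwa [map_one, one_mul, one_pow, div_one] at h5

/-- **the averaging trick** -/
theorem ttrick (hQ : MfG hΓ ≤ QZ ℂ) {p : ℕ} (hp : p ≠ 0)
    (hΔ : ((Nat.card (Dl N (GH N m h H₀)) : ℕ) : ResidueField A) ≠ 0)
    {u : FG hΓ ιQ} (hu0 : u ≠ 0) (hu : RdA hθ A u)
    (hinv : ∀ g, ∃ f : FG hΓ ιQ, f ≠ 0 ∧ diaK ιQ hθ g u = u * f ^ p) :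
    ∃ (y : modularFunctionFieldFullC Qbar N) (w : FG hΓ ιQ), w ≠ 0 ∧
      inN hΓ ιQ y = tOp hθ hℓN hg hζ u * w ^ p ∧ RdC A (y : LaurentSeries Qbar) := by
  classical
  have := hΓ.finite
  have := hΓ.normal
  have := Fintype.ofFinite (Dl N (GH N m h H₀))
  choose f hf0 hf using fun x : Dl N (GH N m h H₀) => hinv (Quotient.out x : Gamma0 N)
  have hfg : ∀ g : Gamma0 N, diaK ιQ hθ g u = u * f (QuotientGroup.mk g) ^ p := by
    intro g
    rw [← hf]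
    exact diaK_congr ιQ hθ (Quotient.out_eq _).symm u
  -- reductions
  have hfR : ∀ x, RdC A (f x : LaurentSeries Qbar) := by
    intro x
    have h1 : f x ^ p = diaK ιQ hθ (Quotient.out x : Gamma0 N) u / u := by
      rw [hf, mul_div_cancel_left₀ _ hu0]
    have h2 : RdC A ((f x ^ p : FG hΓ ιQ) : LaurentSeries Qbar) := by
      rw [h1]
      exact (hu _).div (RdA.self hθ hu)
    exact RdC.of_pow hp (sc_FG hQ ιQ A (hf0 x)) h2
  set F : Dl N (GH N m h H₀) → FG hΓ ιQ := fun x => tOp hθ hℓN hg hζ (f x) with hF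
  have hF0 : ∀ x, F x ≠ 0 := fun x => tOp_ne_zero hℓN hg hζ (hf0 x)
  have hFR : ∀ x, Rd A (F x : LaurentSeries Qbar) 1 := fun x => rd_tOp hℓN hg hζ (hfR x)
  -- the cocycle relation
  have hcoc : ∀ g g' : Gamma0 N, F (QuotientGroup.mk (g * g')) =
      F (QuotientGroup.mk g) * diaK ιQ hθ g (F (QuotientGroup.mk g')) := by
    intro g g'
    have h1 : f (QuotientGroup.mk (g * g')) ^ p =
        (f (QuotientGroup.mk g) * diaK ιQ hθ g (f (QuotientGroup.mk g'))) ^ p := by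
      have h2 := hfg (g * g')
      rw [← diaK_diaK, hfg g', map_mul, map_pow, hfg g, mul_assoc] at h2
      rw [← mul_left_cancel₀ hu0 h2, mul_pow]
    set a := f (QuotientGroup.mk (g * g')) with ha
    set b := f (QuotientGroup.mk g) * diaK ιQ hθ g (f (QuotientGroup.mk g')) with hb
    have hb0 : b ≠ 0 := mul_ne_zero (hf0 _) ((map_ne_zero _).mpr (hf0 _))
    have h3 : (a / b) ^ p = 1 := by
      rw [div_pow, h1, div_self (pow_ne_zero p hb0)]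
    have h4 : IsAlgebraic Qbar (a / b) := by
      refine ⟨Polynomial.X ^ p - 1, (Polynomial.monic_X_pow_sub_C (1 : Qbar) hp).ne_zero, ?_⟩
      simp [h3]
    obtain ⟨c, hc⟩ := exists_algebraMap_eq h4
    have hc0 : c ≠ 0 := by
      rintro rfl
      rw [map_zero] at hc
      exact div_ne_zero (hf0 _) hb0 hc.symm
    have h5 : a = algebraMap Qbar _ c * b := by rw [hc, div_mul_cancel₀ _ hb0]
    change tOp hθ hℓN hg hζ a = tOp hθ hℓN hg hζ (f (QuotientGroup.mk g)) *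
      diaK ιQ hθ g (tOp hθ hℓN hg hζ (f (QuotientGroup.mk g')))
    rw [h5, tOp_mul, tOp_const hℓN hg hζ hc0, one_mul, hb, tOp_mul, tOp_dia]
  set β : FG hΓ ιQ := ∑ x : Dl N (GH N m h H₀), F x with hβ
  have hβR : Rd A (β : LaurentSeries Qbar)
      (HahnSeries.C ((Nat.card (Dl N (GH N m h H₀)) : ℕ) : ResidueField A)) := by
    have h1 : (β : LaurentSeries Qbar) = ∑ x : Dl N (GH N m h H₀), (F x : LaurentSeries Qbar) := by
      rw [hβ, AddSubmonoidClass.coe_finsetSum]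
    have h2 : Rd A (∑ x : Dl N (GH N m h H₀), (F x : LaurentSeries Qbar))
        (∑ _x : Dl N (GH N m h H₀), (1 : LaurentSeries (ResidueField A))) :=
      GoodRed.LR.sum _ fun x _ => hFR x
    rw [Finset.sum_const, Finset.card_univ, nsmul_eq_mul, mul_one] at h2
    rw [h1, Nat.card_eq_fintype_card, map_natCast]
    exact h2
  have hβC : RdC A (β : LaurentSeries Qbar) := by
    refine RdC.of_const one_ne_zero hΔ ?_
    rw [map_one, one_mul]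
    exact hβR
  have hβ0 : β ≠ 0 := fun h => hβC.ne_zero (congrArg Subtype.val h)
  have hβdia : ∀ g : Gamma0 N, F (QuotientGroup.mk g) * diaK ιQ hθ g β = β := by
    intro g
    rw [hβ, map_sum, Finset.mul_sum]
    rw [← Equiv.sum_comp (Equiv.mulLeft (QuotientGroup.mk g : Dl N (GH N m h H₀))) F]
    refine Finset.sum_congr rfl fun x _ => ?_
    obtain ⟨g', rfl⟩ := QuotientGroup.mk_surjective x
    rw [← hcoc]
    rfl
  obtain ⟨y, hy⟩ := mem_of_diaK_fixed ιQ hθ (u := tOp hθ hℓN hg hζ u * β ^ p) (fun g => by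
    rw [map_mul, map_pow, ← tOp_dia, hfg g, tOp_mul, tOp_pow, mul_assoc, ← mul_pow]
    congr 2
    exact hβdia g)
  refine ⟨y, β, hβ0, hy, ?_⟩
  have h1 : (y : LaurentSeries Qbar) = (inN hΓ ιQ y : LaurentSeries Qbar) := rfl
  rw [h1, hy]
  exact (RdC.of_rd (rd_tOp hℓN hg hζ (RdA.self hθ hu))).mul (hβC.pow p)

end Trick

end Fermat.Agent.AnJacH
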