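import Fermat.Agent.AnJacH.LinO
import Fermat.Agent.GalRep.Data
import Fermat.Agent.FrobDens.Main

/-!
# Abstract eigenspaces over `O` and density of Frobenius elements
-/

set_option autoImplicit false
set_option linter.unusedSectionVars false

noncomputable section

namespace Fermat.Agent.AnJacH

open Matrix IsLocalRing
open scoped Pointwise

local notation "Qbar" => AlgebraicClosure ℚ
local notation "GQ" => Qbar ≃ₐ[ℚ] Qbar

variable {p : ℕ} [hp : Fact p.Prime] {O : Type*} [CommRing O] [Algebra ℤ_[p] O] {r : ℕ}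

lemma oM_mul {l m n : Type*} [Fintype m] (B : Matrix l m ℤ_[p]) (C : Matrix m n ℤ_[p]) :
    (oM (B * C) : Matrix l n O) = (oM B : Matrix l m O) * (oM C : Matrix m n O) := Matrix.map_mul

lemma oM_one {m : Type*} [DecidableEq m] : (oM (1 : Matrix m m ℤ_[p]) : Matrix m m O) = 1 := by
  unfold oM
  rw [Matrix.map_one _ (map_zero _) (map_one _)]

/-- simultaneous eigenvectors -/
def EigA {J : Type*} (B : J → Matrix (Fin r) (Fin r) ℤ) (c : J → O) : Submodule O (Fin r → O) where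
  carrier := {v | ∀ j, oI O (B j) *ᵥ v = c j • v}
  zero_mem' j := by rw [Matrix.mulVec_zero, smul_zero]
  add_mem' hv hw j := by rw [Matrix.mulVec_add, hv j, hw j, smul_add]
  smul_mem' a v hv j := by rw [Matrix.mulVec_smul, hv j, smul_comm]

variable {J : Type*} {B : J → Matrix (Fin r) (Fin r) ℤ} {c : J → O}

lemma mem_EigA {v : Fin r → O} : v ∈ EigA B c ↔ ∀ j, oI O (B j) *ᵥ v = c j • v := Iff.rfl

lemma EigA.of_smul [IsDomain O] {a : O} (ha : a ≠ 0) {v : Fin r → O}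
    (hv : a • v ∈ EigA B c) : v ∈ EigA B c := by
  intro j
  have h1 := hv j
  rw [Matrix.mulVec_smul, smul_comm (c j)] at h1
  exact smul_right_injective _ ha h1

section Rep

variable {ρ : GQ →* Matrix (Fin r) (Fin r) ℤ_[p]}
  (hcomm : ∀ σ j, ρ σ * oI ℤ_[p] (B j) = oI ℤ_[p] (B j) * ρ σ)

variable (O ρ) in
/-- the action over `O` -/
def aO (σ : GQ) : Matrix (Fin r) (Fin r) O := oM (ρ σ)

lemma aO_mul (σ τ : GQ) : aO O ρ (σ * τ) = aO O ρ σ * aO O ρ τ := by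
  rw [aO, map_mul, oM_mul]; rfl

lemma aO_one : aO O ρ 1 = 1 := by rw [aO, map_one, oM_one]

include hcomm in
lemma EigA.act (σ : GQ) {v : Fin r → O} (hv : v ∈ EigA B c) : aO O ρ σ *ᵥ v ∈ EigA B c := by
  intro j
  have h1 : aO O ρ σ * oI O (B j) = oI O (B j) * aO O ρ σ := by
    rw [← oM_int (p := p), aO, ← oM_mul, hcomm, oM_mul]
  rw [Matrix.mulVec_mulVec, ← h1, ← Matrix.mulVec_mulVec, hv j, Matrix.mulVec_smul]

/-- the restricted Galois action -/
def repA (O : Type*) [CommRing O] [Algebra ℤ_[p] O] {c : J → O} (hcomm : ∀ σ j, ρ σ * oI ℤ_[p] (B j) = oI ℤ_[p] (B j) * ρ σ) :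
    GQ →* Module.End O (EigA B c) where
  toFun σ := (aO O ρ σ).mulVecLin.restrict fun _ hv => EigA.act hcomm σ hv
  map_one' := by
    ext1 v
    apply Subtype.ext
    change aO O ρ 1 *ᵥ (v : Fin r → O) = v
    rw [aO_one, Matrix.one_mulVec]
  map_mul' σ τ := by
    ext1 v
    apply Subtype.ext
    change aO O ρ (σ * τ) *ᵥ (v : Fin r → O) = aO O ρ σ *ᵥ (aO O ρ τ *ᵥ (v : Fin r → O))
    rw [aO_mul, Matrix.mulVec_mulVec]

/-- the quadratic relation for powers -/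
theorem quad_pow {v : Fin r → O} (hv : v ∈ EigA B c) {Φ : GQ} {t d : O}
    (hrel : ∀ w : Fin r → O, w ∈ EigA B c → aO O ρ Φ *ᵥ w + d • (aO O ρ Φ⁻¹ *ᵥ w) = t • w)
    (k : ℕ) (hcomm : ∀ σ j, ρ σ * oI ℤ_[p] (B j) = oI ℤ_[p] (B j) * ρ σ) :
    aO O ρ (Φ ^ k) *ᵥ (aO O ρ (Φ ^ k) *ᵥ v) - GalRep.dk t d k • (aO O ρ (Φ ^ k) *ᵥ v) +
      d ^ k • v = 0 := by
  set R := repA O (c := c) hcomm with hR
  have h1 : R Φ * R Φ⁻¹ = 1 := by rw [← map_mul, mul_inv_cancel, map_one]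
  have h1' : R Φ⁻¹ * R Φ = 1 := by rw [← map_mul, inv_mul_cancel, map_one]
  have h2 : R Φ + d • R Φ⁻¹ = algebraMap O _ t := by
    ext1 w
    apply Subtype.ext
    exact hrel w w.2
  have h3 : R Φ * (d • R Φ⁻¹) = algebraMap O _ d := by
    rw [mul_smul_comm, h1, Algebra.algebraMap_eq_smul_one]
  have h3' : (d • R Φ⁻¹) * R Φ = algebraMap O _ d := by
    rw [smul_mul_assoc, h1', Algebra.algebraMap_eq_smul_one]
  have h4 := GalRep.dk_eq (x := R Φ) (y := d • R Φ⁻¹) (t := algebraMap O _ t) h3 h3' h2 k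
  rw [← GalRep.map_dk, smul_pow, ← map_pow, ← map_pow, inv_pow] at h4
  have h5 : R (Φ ^ k)⁻¹ * R (Φ ^ k) = 1 := by rw [← map_mul, inv_mul_cancel, map_one]
  have h6 : R (Φ ^ k) * R (Φ ^ k) - GalRep.dk t d k • R (Φ ^ k) + d ^ k • 1 = 0 := by
    have h7 : GalRep.dk t d k • R (Φ ^ k) = algebraMap O _ (GalRep.dk t d k) * R (Φ ^ k) := by
      rw [Algebra.smul_def]
    rw [h7, h4, add_mul, smul_mul_assoc, h5]
    abel
  have h8 := congrArg Subtype.val (LinearMap.congr_fun h6 ⟨v, hv⟩)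
  exact h8

end Rep

section Dens

variable [IsDomain O] [IsDiscreteValuationRing O] (hpO : (p : O) ∈ maximalIdeal O)
  {ρ : GQ →* Matrix (Fin r) (Fin r) ℤ_[p]}
  (hcomm : ∀ σ j, ρ σ * oI ℤ_[p] (B j) = oI ℤ_[p] (B j) * ρ σ)
  (hcont : ∀ n, ∃ L : IntermediateField ℚ Qbar, FiniteDimensional ℚ L ∧
    ∀ σ : GQ, (∀ x ∈ L, σ x = x) → (PadicInt.toZModPow n).mapMatrix (ρ σ) = 1)
  {ρ₂ : GQ →* Matrix (Fin 2) (Fin 2) O}
  (hcont₂ : ∀ n, ∃ L : IntermediateField ℚ Qbar, FiniteDimensional ℚ L ∧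
    ∀ σ : GQ, (∀ x ∈ L, σ x = x) → ∀ i j, ρ₂ σ i j - (1 : Matrix (Fin 2) (Fin 2) O) i j ∈
      maximalIdeal O ^ n)

include hpO hcomm hcont hcont₂ in
/-- **density** -/
theorem quad_all {T : Set ℕ} (hT : T.Finite) {v : Fin r → O} (hv : v ∈ EigA B c)
    (hrel : ∀ ℓ : ℕ, ℓ.Prime → ℓ ∉ T → ∀ A : ValuationSubring Qbar, A.LiesOverPrime ℓ →
      ∀ Φ : GQ, A.IsFrobeniusAt Φ ℓ → ∀ w : Fin r → O, w ∈ EigA B c →
        aO O ρ Φ *ᵥ w + (ρ₂ Φ).det • (aO O ρ Φ⁻¹ *ᵥ w) = (ρ₂ Φ).trace • w) (g : GQ) :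
    aO O ρ g *ᵥ (aO O ρ g *ᵥ v) - (ρ₂ g).trace • (aO O ρ g *ᵥ v) + (ρ₂ g).det • v = 0 := by
  -- the matrix polynomial
  set F : GQ → Matrix (Fin r) (Fin r) O := fun σ => aO O ρ σ * aO O ρ σ -
    (ρ₂ σ).trace • aO O ρ σ + (ρ₂ σ).det • 1 with hF
  have hFv : ∀ σ, F σ *ᵥ v = aO O ρ σ *ᵥ (aO O ρ σ *ᵥ v) - (ρ₂ σ).trace • (aO O ρ σ *ᵥ v) +
      (ρ₂ σ).det • v := by
    intro σ
    simp only [hF]
    rw [Matrix.add_mulVec, Matrix.sub_mulVec, Matrix.smul_mulVec, Matrix.smul_mulVec,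
      Matrix.one_mulVec, Matrix.mulVec_mulVec]
  rw [← hFv]
  ext i
  have key : ∀ n : ℕ, (F g *ᵥ v) i ∈ maximalIdeal O ^ n := by
    intro n
    obtain ⟨L₁, hL₁, h₁⟩ := hcont n
    obtain ⟨L₂, hL₂, h₂⟩ := hcont₂ n
    obtain ⟨ℓ, hℓ, hℓT, A, hA, Φ, hΦ, k, -, hk, -⟩ :=
      FrobDens.exists_frobenius (L₁ ⊔ L₂) T hT g
    set π := Ideal.Quotient.mk (maximalIdeal O ^ n) with hπ
    -- the relation for the power
    have h3 : F (Φ ^ k) *ᵥ v = 0 := by
      rw [hFv]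
      have := quad_pow hv (hrel ℓ hℓ hℓT A hA Φ hΦ) k hcomm
      rw [← GalRep.trace_pow_two, ← Matrix.det_pow, ← map_pow] at this
      exact this
    -- closeness
    have h4 : (π.mapMatrix (aO O ρ (Φ ^ k)) : Matrix (Fin r) (Fin r) _) =
        π.mapMatrix (aO O ρ g) := by
      have e1 : (PadicInt.toZModPow n).mapMatrix (ρ ((Φ ^ k)⁻¹ * g)) = 1 := by
        refine h₁ _ fun x hx => ?_
        rw [AlgEquiv.mul_apply, ← hk x (le_sup_left (a := L₁) hx)]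
        exact inv_smul_smul (Φ ^ k) x
      have e2 : (PadicInt.toZModPow n).mapMatrix (ρ g) =
          (PadicInt.toZModPow n).mapMatrix (ρ (Φ ^ k)) := by
        have : g = Φ ^ k * ((Φ ^ k)⁻¹ * g) := by group
        conv_lhs => rw [this]
        rw [map_mul, map_mul, e1, mul_one]
      ext i j
      change π (algebraMap ℤ_[p] O (ρ (Φ ^ k) i j)) = π (algebraMap ℤ_[p] O (ρ g i j))
      rw [← sub_eq_zero, ← map_sub, ← map_sub, Ideal.Quotient.eq_zero_iff_mem]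
      have e3 : ρ (Φ ^ k) i j - ρ g i j ∈ RingHom.ker (PadicInt.toZModPow (p := p) n) := by
        rw [RingHom.mem_ker, map_sub, sub_eq_zero]
        exact (congrFun (congrFun e2 i) j).symm
      rw [PadicInt.ker_toZModPow, Ideal.mem_span_singleton] at e3
      obtain ⟨z, hz⟩ := e3
      rw [hz, map_mul, map_pow, map_natCast]
      exact Ideal.mul_mem_right _ _ (Ideal.pow_mem_pow hpO n)
    have h5 : (π.mapMatrix (ρ₂ (Φ ^ k)) : Matrix (Fin 2) (Fin 2) _) = π.mapMatrix (ρ₂ g) := by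
      have e1 : (π.mapMatrix (ρ₂ ((Φ ^ k)⁻¹ * g)) : Matrix (Fin 2) (Fin 2) _) = 1 := by
        ext i j
        have := h₂ ((Φ ^ k)⁻¹ * g) (fun x hx => by
          rw [AlgEquiv.mul_apply, ← hk x (le_sup_right (a := L₁) hx)]
          exact inv_smul_smul (Φ ^ k) x) i j
        rw [← Ideal.Quotient.eq_zero_iff_mem, map_sub, sub_eq_zero] at this
        change π _ = _
        rw [this]
        have e2 := congrFun (congrFun (map_one π.mapMatrix :
          (π.mapMatrix (1 : Matrix (Fin 2) (Fin 2) O)) = 1) i) j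
        exact e2
      have : g = Φ ^ k * ((Φ ^ k)⁻¹ * g) := by group
      conv_rhs => rw [this]
      rw [map_mul, map_mul, e1, mul_one]
    have h6 : π (ρ₂ (Φ ^ k)).trace = π (ρ₂ g).trace := by
      have e : ∀ i j, π (ρ₂ (Φ ^ k) i j) = π (ρ₂ g i j) := fun i j => congrFun (congrFun h5 i) j
      rw [Matrix.trace_fin_two, Matrix.trace_fin_two, map_add, map_add, e, e]
    have h7 : π (ρ₂ (Φ ^ k)).det = π (ρ₂ g).det := by
      rw [RingHom.map_det, RingHom.map_det, h5]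
    have h8 : (π.mapMatrix (F (Φ ^ k)) : Matrix (Fin r) (Fin r) _) = π.mapMatrix (F g) := by
      have hsm : ∀ (a : O) (M : Matrix (Fin r) (Fin r) O),
          (π.mapMatrix (a • M) : Matrix (Fin r) (Fin r) _) = π a • π.mapMatrix M := by
        intro a M
        ext i j
        simp
      simp only [hF]
      rw [map_add, map_sub, map_mul, hsm, hsm, map_add, map_sub, map_mul, hsm, hsm, h4, h6, h7]
    have h9 : ∀ M : Matrix (Fin r) (Fin r) O, π ((M *ᵥ v) i) =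
        ((π.mapMatrix M : Matrix (Fin r) (Fin r) _) *ᵥ (fun i => π (v i))) i := by
      intro M
      simp only [Matrix.mulVec, dotProduct, RingHom.mapMatrix_apply, Matrix.map_apply]
      rw [map_sum]
      refine Finset.sum_congr rfl fun j _ => ?_
      rw [map_mul]
    rw [← Ideal.Quotient.eq_zero_iff_mem, ← hπ, h9, ← h8, ← h9, h3]
    exact map_zero π
  have h10 : (F g *ᵥ v) i ∈ (⨅ n, maximalIdeal O ^ n : Ideal O) := by
    rw [Ideal.mem_iInf]
    exact key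
  rw [Ideal.iInf_pow_eq_bot_of_isLocalRing _ (maximalIdeal.isMaximal O).ne_top] at h10
  exact h10

end Dens

end Fermat.Agent.AnJacH
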