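import Fermat.Agent.AnJacH.PadG
import Fermat.Agent.AnJacH.EigA

/-!
# Eigenvectors with coefficients in `O`
-/

set_option autoImplicit false
set_option linter.unusedSectionVars false

noncomputable section

namespace Fermat.Agent.AnJacH

open ModularCurve Fermat.Agent.ModFun Fermat.Agent.AnJac AlgebraicCurve IsLocalRing
open Fermat.Agent.HeckeQ CongruenceSubgroup MatrixGroups UpperHalfPlane Matrix
open Fermat.Agent.SSMod
open scoped Pointwise Manifold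

local notation "Qbar" => AlgebraicClosure ℚ
local notation "GQ" => Qbar ≃ₐ[ℚ] Qbar

/-- elements of `Γ₀(N)` with given lower right entry -/
lemma exists_g (N m : ℕ) (h : m ∣ N) {ℓ : ℕ} (hℓ : ℓ.Prime) (hℓN : ¬ ℓ ∣ N) :
    ∃ g : Gamma0 N, ((dM N m h g : (ZMod m)ˣ) : ZMod m) = ℓ := by
  have h1 : IsCoprime (ℓ : ℤ) (N : ℤ) :=
    Nat.isCoprime_iff_coprime.mpr ((Nat.Prime.coprime_iff_not_dvd hℓ).mpr hℓN)
  obtain ⟨a, b, hab⟩ := h1
  let γ : SL(2,ℤ) := ⟨!![a, -b; (N : ℤ), (ℓ : ℤ)], by rw [Matrix.det_fin_two_of]; linarith⟩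
  have h2 : γ ∈ Gamma0 N := by
    rw [Gamma0_mem]
    change (((N : ℤ) : ℤ) : ZMod N) = 0
    simp
  refine ⟨⟨γ, h2⟩, ?_⟩
  rw [coe_dM]
  change (((ℓ : ℤ) : ℤ) : ZMod m) = ℓ
  simp

/-- labels of operators -/
inductive HOp (N m : ℕ) (h : m ∣ N) (S : Set ℕ) : Type
  | D (g : Gamma0 N)
  | T (ℓ : ℕ) (hℓ : ℓ.Prime) (hℓN : ¬ ℓ ∣ N) (hS : ℓ ∉ S) (g : Gamma0 N)
      (hg : ((dM N m h g : (ZMod m)ˣ) : ZMod m) = ℓ)
  | U

variable {p : ℕ} [hp : Fact p.Prime]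
  {A : ValuationSubring Qbar} {N : ℕ} [NeZero N] {m : ℕ} {h : m ∣ N} {H₀ : Subgroup (ZMod m)ˣ}

/-- the operators -/
def opL (hΓ : Adm N (GH N m h H₀)) (S : Set ℕ) {q : ℕ} [NeZero q] (hqN : q ∣ N) :
    HOp N m h S → (LatG (GH N m h H₀) →+ LatG (GH N m h H₀))
  | .D g => LdG hΓ g
  | .T ℓ hℓ hℓN _ g hg => haveI : Fact ℓ.Prime := ⟨hℓ⟩; LTG N m h H₀ ℓ hℓN g hg
  | .U => LUG N m h H₀ q hqN

/-- the matrices of the operators -/
def bM (hΓ : Adm N (GH N m h H₀)) (S : Set ℕ) {q : ℕ} [NeZero q] (hqN : q ∣ N) (j : HOp N m h S) :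
    Matrix (Fin (Module.finrank ℤ (LatG (GH N m h H₀))))
    (Fin (Module.finrank ℤ (LatG (GH N m h H₀)))) ℤ := KSys.tm (bG hΓ) (opL hΓ S hqN j)

/-- the eigenvalues -/
def evO {O : Type*} (χ : Gamma0 N → O) (t : ℕ → O) (S : Set ℕ) (a : O) : HOp N m h S → O
  | .D g => χ g
  | .T ℓ _ _ _ _ _ => t ℓ
  | .U => a

variable {hΓ : Adm N (GH N m h H₀)} {θ : MfG hΓ} {hθ : IsGen hΓ θ} {S : Set ℕ} {q : ℕ} [NeZero q]
  {hqN : q ∣ N}

lemma rG_comm (σ : GQ) (j : HOp N m h S) :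
    rG p hθ σ * oI ℤ_[p] (bM hΓ S hqN j) = oI ℤ_[p] (bM hΓ S hqN j) * rG p hθ σ := by
  cases j with
  | D g =>
    exact (KG hθ).rho_comm (p := p) (bG hΓ) (H := diaK ιQ hθ g)
      (fun n _ => compat_LdG ιQ hθ fQ g) σ fun u => diaK_act ιQ hθ fQ g σ u
  | T ℓ hℓ hℓN hS g hg =>
    have : Fact ℓ.Prime := ⟨hℓ⟩
    have : NeZero ℓ := ⟨hℓ.ne_zero⟩
    obtain ⟨ζ, hζ⟩ := exists_zeta ℓ
    exact (KG hθ).rho_comm (p := p) (bG hΓ) (H := FTG ιQ hθ hℓN hg hζ)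
      (fun n _ => compat_LTG ιQ hθ fQ hℓN hg hζ) σ fun u => FTG_act ιQ hθ fQ hℓN hg hζ σ u
  | U =>
    obtain ⟨ζ, hζ⟩ := exists_zeta q
    exact (KG hθ).rho_comm (p := p) (bG hΓ) (H := FUG ιQ hqN hζ)
      (fun n _ => compat_LUG ιQ hθ fQ hqN hζ) σ fun u => FUG_act ιQ hθ fQ hqN hζ σ u

/-! ### reduction modulo the maximal ideal -/

lemma toZMod_pow_one (z : ℤ_[p]) (hd : p ∣ p ^ 1) :
    ZMod.castHom hd (ZMod p) (PadicInt.toZModPow 1 z) = PadicInt.toZMod z := by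
  have h1 : z - ((PadicInt.toZMod z).val : ℤ_[p]) ∈ RingHom.ker (PadicInt.toZMod (p := p)) := by
    rw [RingHom.mem_ker, map_sub, map_natCast, ZMod.natCast_zmod_val, sub_self]
  rw [PadicInt.ker_toZMod, PadicInt.maximalIdeal_eq_span_p, Ideal.mem_span_singleton] at h1
  obtain ⟨d, hd'⟩ := h1
  have h2 : z = ((PadicInt.toZMod z).val : ℤ_[p]) + p * d := by rw [← hd']; ring
  have h3 : ((p : ℕ) : ZMod p) = 0 := ZMod.natCast_self p
  conv_lhs => rw [h2]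
  rw [map_add, map_mul, map_natCast, map_natCast, map_add, map_mul, map_natCast, map_natCast,
    h3, zero_mul, add_zero, ZMod.natCast_zmod_val]

lemma KT_of_VT {v : Fin (Module.finrank ℤ (LatG (GH N m h H₀))) → ℤ_[p]} (hv : VT hθ A v) :
    KT hθ A p (fun i => PadicInt.toZMod (v i)) := by
  have hd : p ∣ p ^ 1 := by rw [pow_one]
  have h1 := KT.of_dvd (KSys.pn0 p 1) hd (hv 1)
  have h2 : (fun i => ZMod.castHom hd (ZMod p) (rv 1 v i)) = fun i => PadicInt.toZMod (v i) := by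
    ext i
    rw [← toZMod_pow_one (v i) hd]
    rfl
  rwa [h2] at h1

lemma rG_toZMod (σ : GQ) (i j) :
    PadicInt.toZMod (rG p hθ σ i j) = (KG hθ).M (bG hΓ) hp.out.ne_zero σ i j := by
  have hd : p ∣ p ^ 1 := by rw [pow_one]
  rw [← toZMod_pow_one _ hd]
  have h1 := congrFun (congrFun (rG_spec (p := p) (hθ := hθ) σ 1) i) j
  change PadicInt.toZModPow 1 (rG p hθ σ i j) = _ at h1
  rw [h1]
  have h2 : ∀ (n n' : ℕ) (hn : n ≠ 0) (hn' : n' ≠ 0) (hd : n' ∣ n),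
      ZMod.castHom hd (ZMod n') ((KG hθ).M (bG hΓ) hn σ i j) = (KG hθ).M (bG hΓ) hn' σ i j := by
    rintro n n' hn hn' ⟨m', rfl⟩
    exact (KG hθ).M_lev (bG hΓ) hn' (right_ne_zero_of_mul hn) σ i j
  exact h2 _ _ _ _ hd

section Red

variable {O : Type*} [CommRing O] [Algebra ℤ_[p] O] [IsLocalRing O]
  (hpO : (p : O) ∈ maximalIdeal O) [Algebra (ZMod p) (ResidueField O)]

/-- reduction of vectors -/
def rs {r : ℕ} (y : Fin r → O) : Fin r → ResidueField O := fun i => residue O (y i)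

lemma rs_add {r : ℕ} (y z : Fin r → O) : rs (y + z) = rs y + rs z := by ext i; simp [rs]

lemma rs_sub {r : ℕ} (y z : Fin r → O) : rs (y - z) = rs y - rs z := by ext i; simp [rs]

lemma rs_smul {r : ℕ} (c : O) (y : Fin r → O) : rs (c • y) = residue O c • rs y := by
  ext i; simp [rs]

lemma rs_int {r : ℕ} (Bm : Matrix (Fin r) (Fin r) ℤ) (y : Fin r → O) :
    rs (oI O Bm *ᵥ y) = (kM (im p Bm) : Matrix _ _ (ResidueField O)) *ᵥ rs y := by
  ext i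
  simp only [rs, Matrix.mulVec, dotProduct, oI, kM, im, RingHom.mapMatrix_apply, Matrix.map_apply]
  rw [map_sum]
  refine Finset.sum_congr rfl fun j _ => ?_
  rw [map_mul]
  simp

include hpO in
lemma rs_aO (σ : GQ) (y : Fin (Module.finrank ℤ (LatG (GH N m h H₀))) → O) :
    rs (aO O (rG p hθ) σ *ᵥ y) = kG p (ResidueField O) hθ σ *ᵥ rs y := by
  ext i
  simp only [rs, Matrix.mulVec, dotProduct, aO, oM, kG, kM, Matrix.map_apply]
  rw [map_sum]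
  refine Finset.sum_congr rfl fun j _ => ?_
  rw [map_mul, residue_algebraMap hpO, rG_toZMod]

include hpO in
lemma Ex_KT [Module.Free ℤ_[p] O] [Module.Finite ℤ_[p] O]
    {y : Fin (Module.finrank ℤ (LatG (GH N m h H₀))) → O} (hy : Eo (p := p) (VT hθ A) y) :
    Ex (KT hθ A p) (rs y) := by
  intro μ
  obtain ⟨ν, hν⟩ := exists_lift_functional hpO μ
  have h1 := KT_of_VT (hy ν)
  have h2 : (fun i => PadicInt.toZMod (fo ν y i)) = fc μ (rs y) := by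
    ext i
    exact hν (y i)
  rwa [h2] at h1

end Red

end Fermat.Agent.AnJacH
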