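import Fermat.Agent.AnJacH.EigO

/-!
# Non-Eisenstein eigenvectors with trivial reduction vanish
-/

set_option autoImplicit false
set_option linter.unusedSectionVars false

noncomputable section

namespace Fermat.Agent.AnJacH

open ModularCurve Fermat.Agent.ModFun Fermat.Agent.AnJac AlgebraicCurve IsLocalRing
open Fermat.Agent.HeckeQ CongruenceSubgroup MatrixGroups UpperHalfPlane Matrix
open Fermat.Agent.SSMod
open scoped Pointwise Manifold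

local notation "Qbar" => AlgebraicClosure ℚ
local notation "GQ" => Qbar ≃ₐ[ℚ] Qbar

lemma pow_ne_zero_res {A : ValuationSubring Qbar} {p ℓ : ℕ} (hℓ : ℓ.Prime) (hp : p.Prime)
    (hA : A.LiesOverPrime ℓ) (hpℓ : ℓ ≠ p) (e : ℕ) : ((p ^ e : ℕ) : ResidueField A) ≠ 0 := by
  have : CharP (ResidueField A) ℓ := FrobDens.charP_residueField A hℓ hA
  rw [Ne, CharP.cast_eq_zero_iff (ResidueField A) ℓ]
  intro h
  exact hpℓ ((Nat.prime_dvd_prime_iff_eq hℓ hp).mp (hℓ.dvd_of_dvd_pow h))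

variable {p : ℕ} [hp : Fact p.Prime]
  {A : ValuationSubring Qbar} {N : ℕ} [NeZero N] {m : ℕ} {h : m ∣ N} {H₀ : Subgroup (ZMod m)ˣ}
  {hΓ : Adm N (GH N m h H₀)} {θ : MfG hΓ} {hθ : IsGen hΓ θ} {S : Set ℕ} {q : ℕ} [NeZero q]
  {hqN : q ∣ N}
  {O : Type*} [CommRing O] [Algebra ℤ_[p] O]

lemma evD {χ : Gamma0 N → O} {t : ℕ → O} {a : O}
    {y : Fin (Module.finrank ℤ (LatG (GH N m h H₀))) → O}
    (hy : y ∈ EigA (bM hΓ S hqN) (evO χ t S a)) (g : Gamma0 N) :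
    oI O (KSys.tm (bG hΓ) (LdG hΓ g)) *ᵥ y = χ g • y := hy (.D g)

lemma evT {χ : Gamma0 N → O} {t : ℕ → O} {a : O}
    {y : Fin (Module.finrank ℤ (LatG (GH N m h H₀))) → O}
    (hy : y ∈ EigA (bM hΓ S hqN) (evO χ t S a)) {ℓ : ℕ} [hℓ : Fact ℓ.Prime] (hℓN : ¬ ℓ ∣ N)
    (hS : ℓ ∉ S) {g : Gamma0 N} (hg : ((dM N m h g : (ZMod m)ˣ) : ZMod m) = ℓ) :
    oI O (KSys.tm (bG hΓ) (LTG N m h H₀ ℓ hℓN g hg)) *ᵥ y = t ℓ • y :=
  hy (.T ℓ hℓ.out hℓN hS g hg)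

lemma evU {χ : Gamma0 N → O} {t : ℕ → O} {a : O}
    {y : Fin (Module.finrank ℤ (LatG (GH N m h H₀))) → O}
    (hy : y ∈ EigA (bM hΓ S hqN) (evO χ t S a)) :
    oI O (KSys.tm (bG hΓ) (LUG N m h H₀ q hqN)) *ᵥ y = a • y := hy .U

section Eis

variable [IsDomain O] [IsDiscreteValuationRing O]
  (hpO : (p : O) ∈ maximalIdeal O) [Algebra (ZMod p) (ResidueField O)]

lemma rsD {χ : Gamma0 N → O} {t : ℕ → O} {a : O} (hχ : ∀ g, residue O (χ g) = 1)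
    {y : Fin (Module.finrank ℤ (LatG (GH N m h H₀))) → O}
    (hy : y ∈ EigA (bM hΓ S hqN) (evO χ t S a)) (g : Gamma0 N) :
    (kM (im p (KSys.tm (bG hΓ) (LdG hΓ g))) : Matrix _ _ (ResidueField O)) *ᵥ rs y = rs y := by
  rw [← rs_int, evD hy, rs_smul, hχ, one_smul]

lemma rsT {χ : Gamma0 N → O} {t : ℕ → O} {a : O}
    {y : Fin (Module.finrank ℤ (LatG (GH N m h H₀))) → O}
    (hy : y ∈ EigA (bM hΓ S hqN) (evO χ t S a)) {ℓ : ℕ} [hℓ : Fact ℓ.Prime] (hℓN : ¬ ℓ ∣ N)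
    (hS : ℓ ∉ S) {g : Gamma0 N} (hg : ((dM N m h g : (ZMod m)ˣ) : ZMod m) = ℓ) :
    (kM (im p (KSys.tm (bG hΓ) (LTG N m h H₀ ℓ hℓN g hg))) : Matrix _ _ (ResidueField O)) *ᵥ
      rs y = residue O (t ℓ) • rs y := by
  rw [← rs_int, evT hy hℓN hS hg, rs_smul]

lemma rsU {χ : Gamma0 N → O} {t : ℕ → O} {a : O}
    {y : Fin (Module.finrank ℤ (LatG (GH N m h H₀))) → O}
    (hy : y ∈ EigA (bM hΓ S hqN) (evO χ t S a)) :
    (kM (im p (KSys.tm (bG hΓ) (LUG N m h H₀ q hqN))) : Matrix _ _ (ResidueField O)) *ᵥ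
      rs y = residue O a • rs y := by
  rw [← rs_int, evU hy, rs_smul]

variable [Module.Free ℤ_[p] O] [Module.Finite ℤ_[p] O]

include hpO in
/-- **Non-Eisenstein eigenvectors with trivial reduction vanish** (good primes) -/
theorem eis_vanish (hQ : MfG hΓ ≤ QZ ℂ) {e : ℕ}
    (hΔ : Nat.card (Dl N (GH N m h H₀)) = p ^ e)
    {ℓ₀ : ℕ} (hℓ₀ : ℓ₀.Prime) (hA : A.LiesOverPrime ℓ₀) (hN : ¬ ℓ₀ ∣ N) (hpℓ : ℓ₀ ≠ p)
    {χ : Gamma0 N → O} {t : ℕ → O} {a : O} (hχ : ∀ g, residue O (χ g) = 1)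
    {ℓ : ℕ} [hℓ : Fact ℓ.Prime] (hℓN : ¬ ℓ ∣ N) (hS : ℓ ∉ S)
    (hg : ((dM N m h (1 : Gamma0 N) : (ZMod m)ˣ) : ZMod m) = ℓ)
    (ht : residue O (t ℓ) ≠ ℓ + 1)
    {v : Fin (Module.finrank ℤ (LatG (GH N m h H₀))) → O}
    (hv : v ∈ EigA (bM hΓ S hqN) (evO χ t S a)) (hvt : Eo (p := p) (VT hθ A) v) : v = 0 := by
  by_contra hv0
  have : NeZero ℓ := ⟨hℓ.out.ne_zero⟩
  obtain ⟨c, y, hc, hcy, i, hi⟩ := exists_primitive hv0
  rw [hcy] at hv hvt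
  have hy := EigA.of_smul hc hv
  have hyt := Eo.sat hpO (clO_VT hQ) hc hvt
  have hK := Ex_KT hpO hyt
  have hpℓ' : ¬ ℓ₀ ∣ p := fun h => hpℓ ((Nat.prime_dvd_prime_iff_eq hℓ₀ hp.out).mp h)
  have h1 : residue O (t ℓ) • rs y = (ℓ + 1) • rs y := by
    apply fc_ext (p := p)
    intro μ
    have h2 := (hK μ).eisenstein hℓN hg hQ hp.out.ne_zero
      (by rw [hΔ]; exact pow_ne_zero_res hℓ₀ hp.out hA hpℓ e) hℓ₀ hA hN hpℓ' (fun g => by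
        rw [← fc_mulVec, rsD hχ hy g])
    rw [← fc_mulVec, rsT hy hℓN hS hg, ← fc_nsmul] at h2
    exact h2
  have h3 := congrFun h1 i
  simp only [Pi.smul_apply, smul_eq_mul, nsmul_eq_mul] at h3
  have h4 := mul_right_cancel₀ (show rs y i ≠ 0 from hi) h3
  apply ht
  rw [h4]
  push_cast
  rfl

end Eis

end Fermat.Agent.AnJacH
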