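import Fermat.Agent.AnJacH.Basic
import Fermat.Agent.GenusX0.Ram

/-!
# The function field of `Γ\ℍ`
-/

set_option autoImplicit false
set_option linter.unusedSectionVars false

open UpperHalfPlane ModularForm MatrixGroups Matrix.SpecialLinearGroup Filter Function
open scoped Manifold Topology Real

noncomputable section

namespace Fermat.Agent.AnJacH

open Fermat.Agent.AnJac Fermat.Agent.DimS2 Fermat.Agent.ModFun CongruenceSubgroup AlgebraicCurve
open ModularCurve IntermediateField Fermat.Agent.Curves Fermat.Agent.GenusX0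

theorem finiteDimensional_of_fixed {F F' G : Type*} [Field F] [Field F'] [Algebra F F'] [Group G]
    [Finite G] [MulSemiringAction G F']
    (h1 : ∀ x : F', (∀ g : G, g • x = x) → ∃ y, algebraMap F F' y = x)
    (h2 : ∀ (y : F) (g : G), g • algebraMap F F' y = algebraMap F F' y) :
    FiniteDimensional F F' := by
  let φ : F →+* FixedPoints.subfield G F' :=
    (algebraMap F F').codRestrict (FixedPoints.subfield G F') (fun y g => h2 y g)
  have hφ : Function.Bijective φ := by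
    refine ⟨φ.injective, fun x => ?_⟩
    obtain ⟨y, hy⟩ := h1 x x.2
    exact ⟨y, Subtype.ext hy⟩
  let e : FixedPoints.subfield G F' ≃+* F := (RingEquiv.ofBijective φ hφ).symm
  refine Module.Finite.of_equiv_equiv e (RingEquiv.refl F') ?_
  ext x
  obtain ⟨y, rfl⟩ := hφ.2 x
  have : e (φ y) = y := RingEquiv.symm_apply_apply (RingEquiv.ofBijective φ hφ) y
  change algebraMap F F' (e (φ y)) = _
  rw [this]
  rfl

variable {N : ℕ} {Γ : Subgroup SL(2,ℤ)} [NeZero N] (hΓ : Adm N Γ)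

/-- diamond automorphisms as a homomorphism -/
def diaHom : Gamma0 N →* (MfG hΓ ≃ₐ[ℂ] MfG hΓ) where
  toFun := diaE hΓ
  map_one' := by ext u : 1; exact dia_one hΓ u
  map_mul' g h := by ext u : 1; exact (dia_dia hΓ g h u).symm

/-- the group of diamond automorphisms -/
abbrev DG : Subgroup (MfG hΓ ≃ₐ[ℂ] MfG hΓ) := (diaHom hΓ).range

instance finite_DG : Finite (DG hΓ) := by
  have := hΓ.finite
  let f : Dl N Γ → DG hΓ := fun x => ⟨diaE hΓ (Quotient.out x), ⟨_, rfl⟩⟩
  refine Finite.of_surjective f ?_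
  rintro ⟨_, g, rfl⟩
  refine ⟨QuotientGroup.mk g, Subtype.ext ?_⟩
  ext u : 1
  exact dia_congr hΓ (Quotient.out_eq _) u

instance algFF : Algebra (FF N) (MfG hΓ) :=
  (IntermediateField.inclusion (FF_le_MfG hΓ)).toRingHom.toAlgebra

instance (priority := 2000) modFF : Module (FF N) (MfG hΓ) := (algFF hΓ).toModule

lemma coe_algFF (u : FF N) : ((algebraMap (FF N) (MfG hΓ) u : MfG hΓ) : LaurentSeries ℂ) = u := rfl

instance towerFF : IsScalarTower ℂ (FF N) (MfG hΓ) := IsScalarTower.of_algebraMap_eq fun _ => rfl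

lemma exists_of_fixed {u : MfG hΓ} (h : ∀ g, dia hΓ g u = u) :
    ∃ y : FF N, algebraMap (FF N) (MfG hΓ) y = u := ⟨⟨u, mem_FF_of_fixed hΓ h⟩, rfl⟩

lemma dia_algebraMap (y : FF N) (g : Gamma0 N) :
    dia hΓ g (algebraMap (FF N) (MfG hΓ) y) = algebraMap (FF N) (MfG hΓ) y :=
  dia_of_mem_FF hΓ y.2 g

instance finFF : FiniteDimensional (FF N) (MfG hΓ) := by
  refine finiteDimensional_of_fixed (G := DG hΓ) ?_ ?_
  · intro x hx
    exact exists_of_fixed hΓ fun g => hx ⟨diaE hΓ g, ⟨g, rfl⟩⟩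
  · rintro y ⟨_, g, rfl⟩
    exact dia_algebraMap hΓ y g

instance isFunctionField_MfG : IsFunctionField ℂ (MfG hΓ) :=
  IsFunctionField.of_finite ℂ (FF N) (MfG hΓ)

/-- the element `j` -/
def jG : MfG hΓ := ⟨jev ℂ Polynomial.X, FF_le_MfG hΓ (by
  rw [jev_X]
  exact jmodle ℂ (NeZero.ne N) (mem_adjoin_simple_self ℂ _))⟩

lemma coe_jG : (jG hΓ : LaurentSeries ℂ) = jqModC ℂ := jev_X ..

/-- places of the function field are conjugate over places of `Γ₀(N)` -/
theorem exists_dia_conj {w w' : Place ℂ (MfG hΓ)}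
    (hww : w.restrict (FF N) = w'.restrict (FF N)) :
    ∃ g : Gamma0 N, ∀ x, w.ord x = w'.ord (dia hΓ g x) := by
  obtain ⟨⟨_, g, rfl⟩, h⟩ := exists_conj (k := ℂ) (F := FF N) (F' := MfG hΓ) (G := DG hΓ)
    (fun g => (g : MfG hΓ ≃ₐ[ℂ] MfG hΓ)) rfl (fun _ _ _ => rfl)
    (fun x hx => exists_of_fixed hΓ fun g => hx ⟨diaE hΓ g, ⟨g, rfl⟩⟩)
    (w := w) (w' := w') (w'.ramificationIndex (FF N)) (w.ramificationIndex (FF N))
    (w'.ramificationIndex_pos) (w.ramificationIndex_pos) (fun y _ => by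
      rw [w.ord_restrict, w'.ord_restrict, hww]; ring)
  exact ⟨g, h⟩

end Fermat.Agent.AnJacH
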