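import Fermat.Agent.AnJacH.ResH

/-!
# Local-global compatibility at the primes dividing the level, for classes on `Γ_H`
-/

set_option autoImplicit false
set_option linter.unusedSectionVars false

noncomputable section

namespace Fermat.Agent.AnJacH

open ModularCurve Fermat.Agent.ModFun Fermat.Agent.AnJac AlgebraicCurve IsLocalRing
open CongruenceSubgroup MatrixGroups Matrix

local notation "Qbar" => AlgebraicClosure ℚ
local notation "GQ" => Qbar ≃ₐ[ℚ] Qbar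

/-- admissibility -/
theorem adm_of_pow12 {M c : ℕ} [NeZero c] {hc : c ∣ M} {H₀ : Subgroup (ZMod c)ˣ}
    (hsq : Squarefree c) (hH : ∀ u : (ZMod c)ˣ, u ^ 12 = 1 → u ∈ H₀) :
    Adm M (GH M c hc H₀) := by
  refine adm_GH fun γ hγ => hH _ ?_
  set u := dM M c hc γ with hu
  set t : ℤ := (γ : SL(2, ℤ)) 0 0 + (γ : SL(2, ℤ)) 1 1 with ht
  have h3 : (((γ : SL(2, ℤ)) 1 0 : ℤ) : ZMod c) = 0 := entry_cast M γ hc
  have h4 : (((γ : SL(2, ℤ)) 0 0 : ℤ) : ZMod c) * (((γ : SL(2, ℤ)) 1 1 : ℤ) : ZMod c) = 1 := by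
    have h5 := Matrix.det_fin_two ((γ : SL(2, ℤ)) : Matrix (Fin 2) (Fin 2) ℤ)
    rw [Matrix.SpecialLinearGroup.det_coe] at h5
    have h6 := congrArg (fun t : ℤ => (t : ZMod c)) h5
    push_cast at h6
    rw [h3, mul_zero, sub_zero] at h6
    exact h6.symm
  have hd : (u : ZMod c) = ((γ : SL(2, ℤ)) 1 1 : ℤ) := coe_dM _ _ _ _
  have h5 : (u : ZMod c) ^ 2 - t * u + 1 = 0 := by
    rw [hd, ht]
    push_cast
    linear_combination -h4
  have htb : t = 0 ∨ t = 1 ∨ t = -1 ∨ t = 2 ∨ t = -2 := by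
    rw [abs_le] at hγ
    obtain ⟨h1, h2⟩ := hγ
    interval_cases t <;> simp
  have hred : ∀ x : ZMod c, x ^ 2 = 0 → x = 0 := by
    intro x hx
    have hcc : ((x.val : ℕ) : ZMod c) = x := ZMod.natCast_zmod_val x
    rw [← hcc, ← Nat.cast_pow, ZMod.natCast_eq_zero_iff] at hx
    have := (hsq.dvd_pow_iff_dvd (two_ne_zero)).1 hx
    rw [← hcc, ZMod.natCast_eq_zero_iff]
    exact this
  apply Units.ext
  rw [Units.val_pow_eq_pow_val, Units.val_one]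
  rcases htb with h | h | h | h | h <;> rw [h] at h5 <;> push_cast at h5
  · have e : (u : ZMod c) ^ 2 = -1 := by linear_combination h5
    calc (u : ZMod c) ^ 12 = ((u : ZMod c) ^ 2) ^ 6 := by ring
      _ = 1 := by rw [e]; ring
  · have e : (u : ZMod c) ^ 3 = -1 := by linear_combination ((u : ZMod c) + 1) * h5
    calc (u : ZMod c) ^ 12 = ((u : ZMod c) ^ 3) ^ 4 := by ring
      _ = 1 := by rw [e]; ring
  · have e : (u : ZMod c) ^ 3 = 1 := by linear_combination ((u : ZMod c) - 1) * h5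
    calc (u : ZMod c) ^ 12 = ((u : ZMod c) ^ 3) ^ 4 := by ring
      _ = 1 := by rw [e]; ring
  · have e : (u : ZMod c) = 1 := by
      have := hred ((u : ZMod c) - 1) (by linear_combination h5)
      linear_combination this
    rw [e, one_pow]
  · have e : (u : ZMod c) = -1 := by
      have := hred ((u : ZMod c) + 1) (by linear_combination h5)
      linear_combination this
    rw [e]
    ring

variable {p : ℕ} [hp : Fact p.Prime] {O : Type*} [CommRing O] [IsDomain O]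
  [IsDiscreteValuationRing O] [Algebra ℤ_[p] O]

lemma finite_res_O [Module.Finite ℤ_[p] O] (hpO : (p : O) ∈ maximalIdeal O)
    [Algebra (ZMod p) (ResidueField O)] : Finite (ResidueField O) := by
  obtain ⟨n, f, hf⟩ := Module.Finite.exists_fin (R := ℤ_[p]) (M := O)
  have h1 : Submodule.span (ZMod p) (Set.range fun i => residue O (f i)) = ⊤ := by
    rw [eq_top_iff]
    rintro x -
    obtain ⟨x, rfl⟩ := residue_surjective x
    have hx : x ∈ Submodule.span ℤ_[p] (Set.range f) := by rw [hf]; trivial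
    induction hx using Submodule.span_induction with
    | mem x hx =>
      obtain ⟨i, rfl⟩ := hx
      exact Submodule.subset_span ⟨i, rfl⟩
    | zero => rw [map_zero]; exact Submodule.zero_mem _
    | add x y _ _ hx hy => rw [map_add]; exact Submodule.add_mem _ hx hy
    | smul c x _ hx =>
      rw [Algebra.smul_def, map_mul, residue_algebraMap hpO, ← Algebra.smul_def]
      exact Submodule.smul_mem _ _ hx
  have : Module.Finite (ZMod p) (ResidueField O) := by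
    refine ⟨⟨(Set.finite_range fun i => residue O (f i)).toFinset, ?_⟩⟩
    rw [Set.Finite.coe_toFinset]
    exact h1
  exact Module.finite_of_finite (ZMod p)

section Vec

variable {N m : ℕ} [NeZero N] {h : m ∣ N} {H₀ : Subgroup (ZMod m)ˣ}
  {hΓ : Adm N (GH N m h H₀)} [IsAddTorsionFree O]

set_option maxHeartbeats 1600000 in
/-- eigenvectors in coordinates -/
theorem exists_EigA {S : Set ℕ} {q : ℕ} [NeZero q] {hqN : q ∣ N}
    {v : Additive (GH N m h H₀) →+ O} (hv : v ∈ NHA (GH N m h H₀) O) (hv0 : v ≠ 0)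
    {χ : Gamma0 N → O} (hχ : ∀ g, dHom hΓ O g v = (AddMonoidHom.mulLeft (χ g)).comp v)
    {t : ℕ → O} (hT : ∀ (ℓ : ℕ) (_ : Fact ℓ.Prime) (hℓN : ¬ ℓ ∣ N), ℓ ∉ S → ∀ (g : Gamma0 N)
      (hg : ((dM N m h g : (ZMod m)ˣ) : ZMod m) = ℓ),
      (hfTG N m h H₀ ℓ hℓN g hg).T v = (AddMonoidHom.mulLeft (t ℓ)).comp v)
    {a : O} (hU : (hfUG N m h H₀ q hqN).T v = (AddMonoidHom.mulLeft a).comp v) :
    ∃ y : Fin (Module.finrank ℤ (LatG (GH N m h H₀))) → O, y ≠ 0 ∧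
      y ∈ EigA (bM hΓ S hqN) (evO χ t S a) := by
  have := hΓ.fg
  obtain ⟨y, rfl⟩ := exists_chO (bG hΓ) hv
  refine ⟨y, ?_, ?_⟩
  · rintro rfl
    apply hv0
    refine AddMonoidHom.ext fun γ => ?_
    rw [chO_apply]
    exact Finset.sum_eq_zero fun i _ => by rw [Pi.zero_apply, zero_mul]
  · intro j
    apply chO_injective (bG hΓ)
    rw [chO_smul]
    cases j with
    | D g =>
      exact (op_chO (bG hΓ) (t := LdG hΓ g) (tO := dHom hΓ O g) (fun π φ => rfl) y).symm.trans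
        (hχ g)
    | T ℓ hℓ hℓN hS g hg =>
      have : Fact ℓ.Prime := ⟨hℓ⟩
      exact (op_chO (bG hΓ) (t := LTG N m h H₀ ℓ hℓN g hg)
        (tO := (hfTG N m h H₀ ℓ hℓN g hg).T) (fun π φ => HF.T_comp _ π _) y).symm.trans
        (hT ℓ ⟨hℓ⟩ hℓN hS g hg)
    | U =>
      exact (op_chO (bG hΓ) (t := LUG N m h H₀ q hqN)
        (tO := (hfUG N m h H₀ q hqN).T) (fun π φ => HF.T_comp _ π _) y).symm.trans hU

end Vec

set_option maxHeartbeats 1600000 in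
/-- **Local-global compatibility at `q`** for classes on `Γ_H` -/
theorem lgc [Module.Finite ℤ_[p] O] [IsAddTorsionFree O] (hpO : (p : O) ∈ maximalIdeal O)
    {L m : ℕ} [NeZero L] [NeZero m] {h : m ∣ L} (hsq : Squarefree m)
    {H₀ : Subgroup (ZMod m)ˣ} (h12 : ∀ u : (ZMod m)ˣ, u ^ 12 = 1 → u ∈ H₀) {e : ℕ}
    (hH : H₀.index = p ^ e) {q : ℕ} [hq : Fact q.Prime] [NeZero q] (hqL : q ∣ L) (hqp : q ≠ p)
    (hq1 : (q : ResidueField O) = 1)
    {v : Additive (GH L m h H₀) →+ O} (hv : v ∈ NHA (GH L m h H₀) O) (hv0 : v ≠ 0)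
    {χ : Gamma0 L → O} (hχ : ∀ (g : Gamma0 L) (γ γ' : GH L m h H₀),
      (γ' : SL(2,ℤ)) = g * γ * (g : SL(2,ℤ))⁻¹ →
      v (Additive.ofMul γ') = χ g * v (Additive.ofMul γ))
    (hχ1 : ∀ g, residue O (χ g) = 1)
    {S : Set ℕ} (hS : S.Finite) {t : ℕ → O}
    (hT : ∀ (ℓ : ℕ) (_ : Fact ℓ.Prime) (hℓL : ¬ ℓ ∣ L), ℓ ∉ S → ∀ (g : Gamma0 L)
      (hg : ((dM L m h g : (ZMod m)ˣ) : ZMod m) = ℓ),
      (hfTG L m h H₀ ℓ hℓL g hg).T v = t ℓ • v)
    {a : O} (hU : (hfUG L m h H₀ q hqL).T v = a • v)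
    (ha : residue O a ^ 2 ≠ 1) (ha0 : residue O a ≠ 0)
    {ρ : GQ →* Matrix (Fin 2) (Fin 2) O}
    (hcont : ∀ n, ∃ K : IntermediateField ℚ Qbar, FiniteDimensional ℚ K ∧
      ∀ σ : GQ, (∀ x ∈ K, σ x = x) → ∀ i j, ρ σ i j - (1 : Matrix (Fin 2) (Fin 2) O) i j ∈
        maximalIdeal O ^ n)
    (htr : ∀ ℓ : ℕ, ℓ.Prime → ¬ ℓ ∣ L * p → ℓ ∉ S → ∀ A : ValuationSubring Qbar,
      A.LiesOverPrime ℓ → ∀ Φ : GQ, A.IsFrobeniusAt Φ ℓ → (ρ Φ).trace = t ℓ)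
    (hdet : ∀ ℓ : ℕ, ℓ.Prime → ¬ ℓ ∣ L * p → ℓ ∉ S → ∀ A : ValuationSubring Qbar,
      A.LiesOverPrime ℓ → ∀ Φ : GQ, A.IsFrobeniusAt Φ ℓ → ∀ g : Gamma0 L,
      ((dM L m h g : (ZMod m)ˣ) : ZMod m) = ℓ → (ρ Φ).det = ℓ * χ g)
    {ℓ₁ : ℕ} (hℓ₁ : ℓ₁.Prime) (hℓ₁L : ¬ ℓ₁ ∣ L) (hℓ₁S : ℓ₁ ∉ S) (hℓ₁m : (ℓ₁ : ZMod m) = 1)
    (ht₁ : residue O (t ℓ₁) ≠ ℓ₁ + 1)
    {g₀ h₀ : GQ} (hne : residue O (ρ (g₀ * h₀ * g₀⁻¹ * h₀⁻¹)).trace ≠ 2)
    {A : ValuationSubring Qbar} (hA : A.LiesOverPrime q) {Φ : GQ} (hΦ : A.IsFrobeniusAt Φ q) :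
    a ^ 2 - (ρ Φ).trace * a + (ρ Φ).det = 0 := by
  -- the residue field
  have hchar : CharP (ResidueField O) p := by
    refine (CharP.charP_iff_prime_eq_zero hp.out).mpr ?_
    have h1 := (residue_eq_zero_iff _).mpr hpO
    rwa [map_natCast] at h1
  let alg : Algebra (ZMod p) (ResidueField O) := ZMod.algebra (ResidueField O) p
  have : Finite (ResidueField O) := finite_res_O hpO
  have hp0 : (p : O) ≠ 0 := by
    intro h0
    have h1 : p • (1 : O) = 0 := by rw [nsmul_eq_mul, h0, zero_mul]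
    exact one_ne_zero ((nsmul_eq_zero_iff_right hp.out.ne_zero).mp h1)
  have : Module.Free ℤ_[p] O := by
    have : Module.IsTorsionFree ℤ_[p] O := by
      rw [Module.isTorsionFree_iff_algebraMap_injective, injective_iff_map_eq_zero]
      intro c hc
      by_contra hc0
      rw [PadicInt.unitCoeff_spec hc0, map_mul, map_pow, map_natCast, mul_eq_zero] at hc
      rcases hc with hc | hc
      · exact ((PadicInt.unitCoeff hc0).isUnit.map (algebraMap ℤ_[p] O)).ne_zero hc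
      · exact pow_ne_zero _ hp0 hc
    infer_instance
  -- the level
  have hm' : m ∣ L * m := dvd_mul_left m L
  have hΓ : Adm (L * m) (GH (L * m) m hm' H₀) := adm_of_pow12 hsq h12
  obtain ⟨θ, hθ, hQ⟩ := exists_isGen_QZ H₀ (mul_dvd_mul_right h m) hm' hΓ (fun u hu => h12 u (by
    rw [show (12 : ℕ) = 2 * 6 from rfl, pow_mul, hu, one_pow]))
  obtain ⟨e', -, he'⟩ : ∃ e' ≤ e, Nat.card (Dl (L * m) (GH (L * m) m hm' H₀)) = p ^ e' := by
    rw [← Nat.dvd_prime_pow hp.out, ← hH]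
    exact card_Dl_dvd (L * m) m hm' H₀
  have hmL : ∀ ℓ : ℕ, ℓ.Prime → (¬ ℓ ∣ L * m ↔ ¬ ℓ ∣ L) := by
    intro ℓ hℓ
    rw [not_iff_not, hℓ.dvd_mul]
    exact ⟨fun h1 => h1.elim id fun h2 => h2.trans h, Or.inl⟩
  have hmLp : ∀ ℓ : ℕ, ℓ.Prime → ¬ ℓ ∣ L * m * p → ¬ ℓ ∣ L * p := by
    intro ℓ hℓ h1 h2
    apply h1
    rw [mul_assoc, mul_comm m p, ← mul_assoc]
    exact h2.mul_right m
  -- the vector
  set v' := resM h v with hv'
  have hv'0 : v' ≠ 0 := resV_ne_zero _ (relIndex_GH h) hv0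
  obtain ⟨y, hy0, hy⟩ := exists_EigA (hΓ := hΓ) (S := S) (q := q) (hqN := hqL.mul_right m)
    (v := v') (resV_mem _ hv) hv'0 (χ := fun g => χ (incl0 g)) (fun g => by
      refine AddMonoidHom.ext fun γ => ?_
      exact hχ (incl0 g) (Subgroup.inclusion (GH_mul_le h) (Additive.toMul γ)) _ rfl)
    (t := t) (fun ℓ hℓ hℓN hℓS g hg => by
      have hℓL : ¬ ℓ ∣ L := (hmL ℓ hℓ.out).mp hℓN
      have hg' : ((dM L m h (incl0 g) : (ZMod m)ˣ) : ZMod m) = ℓ := by rw [dM_incl0, hg]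
      rw [hv', resM_TG h ℓ hℓL hℓN g hg hg', hT ℓ hℓ hℓL hℓS _ hg']
      rfl)
    (a := a) (by
      rw [hv', resM_UG h q hqL, hU]
      rfl)
  -- the Galois side
  have G : GalD p (L * m) m hm' S (fun g => χ (incl0 g)) t ρ := by
    refine ⟨fun g => hχ1 _, hcont, ?_, ?_⟩
    · intro ℓ hℓ hℓN hℓS A hA Φ hΦ
      exact htr ℓ hℓ (hmLp ℓ hℓ hℓN) hℓS A hA Φ hΦ
    · intro ℓ hℓ hℓN hℓS A hA Φ hΦ g hg
      exact hdet ℓ hℓ (hmLp ℓ hℓ hℓN) hℓS A hA Φ hΦ (incl0 g) (by rw [dM_incl0, hg])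
  have : Fact ℓ₁.Prime := ⟨hℓ₁⟩
  exact lgcG (hθ := hθ) hpO hQ he' hS G ((hmL ℓ₁ hℓ₁).mpr hℓ₁L) hℓ₁S (by
    rw [map_one, Units.val_one, hℓ₁m]) ht₁ hqp hA hq1 ha ha0 hne hy hy0 hΦ

end Fermat.Agent.AnJacH
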