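import Fermat.Agent.AnJacH.Chars
import Fermat.Agent.AnJac.Descent

/-!
# Automorphisms of the coefficients
-/

set_option autoImplicit false
set_option linter.unusedSectionVars false

open UpperHalfPlane ModularForm MatrixGroups Matrix.SpecialLinearGroup Filter Function
open scoped Manifold Topology Real

noncomputable section

namespace Fermat.Agent.AnJacH

open Fermat.Agent.AnJac Fermat.Agent.DimS2 Fermat.Agent.ModFun CongruenceSubgroup AlgebraicCurve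
open ModularCurve IntermediateField

variable {N : ℕ} {Γ : Subgroup SL(2,ℤ)} [NeZero N] (hΓ : Adm N Γ)

/-- a generator compatible with automorphisms of `ℂ` -/
structure IsGen (θ : MfG hΓ) : Prop where
  inj : ∀ g : Gamma0 N, dia hΓ g θ = θ → (g : SL(2,ℤ)) ∈ Γ
  aut : ∀ σ : ℂ ≃+* ℂ, ∃ ξ : MfG hΓ, coeffMap (σ : ℂ →+* ℂ) (θ : LaurentSeries ℂ) = ξ ∧
    ∀ g : Gamma0 N, coeffMap (σ : ℂ →+* ℂ) (dia hΓ g θ : LaurentSeries ℂ) = dia hΓ g ξ

variable {hΓ}

/-- interpolation -/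
theorem IsGen.exists_sum {θ : MfG hΓ} (hθ : IsGen hΓ θ) (u : MfG hΓ) :
    ∃ (d : ℕ) (c : ℕ → FF N), u = ∑ i ∈ Finset.range d, algebraMap (FF N) (MfG hΓ) (c i) * θ ^ i := by
  classical
  have := hΓ.finite
  have := hΓ.normal
  have := Fintype.ofFinite (Dl N Γ)
  set v : Dl N Γ → MfG hΓ := fun x => dia hΓ (Quotient.out x : Gamma0 N) θ with hv
  set r : Dl N Γ → MfG hΓ := fun x => dia hΓ (Quotient.out x : Gamma0 N) u with hr
  have hvmk : ∀ g : Gamma0 N, v (QuotientGroup.mk g) = dia hΓ g θ := fun g =>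
    dia_congr hΓ (Quotient.out_eq _) θ
  have hrmk : ∀ g : Gamma0 N, r (QuotientGroup.mk g) = dia hΓ g u := fun g =>
    dia_congr hΓ (Quotient.out_eq _) u
  have hinj : Injective v := by
    intro x y hxy
    obtain ⟨g, rfl⟩ := QuotientGroup.mk_surjective x
    obtain ⟨h, rfl⟩ := QuotientGroup.mk_surjective y
    rw [hvmk, hvmk] at hxy
    have h1 : dia hΓ (g⁻¹ * h) θ = θ := by
      rw [← dia_dia, ← hxy, dia_dia, inv_mul_cancel, dia_one]
    rw [QuotientGroup.eq, Subgroup.mem_subgroupOf]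
    exact hθ.inj _ h1
  set L := Lagrange.interpolate Finset.univ v r with hL
  have hev : ∀ x, L.eval (v x) = r x := fun x =>
    Lagrange.eval_interpolate_at_node r hinj.injOn (Finset.mem_univ x)
  have hdeg : L.degree < (Finset.univ : Finset (Dl N Γ)).card :=
    Lagrange.degree_interpolate_lt r hinj.injOn
  have hfix : ∀ g : Gamma0 N, L.map (dia hΓ g : MfG hΓ →+* MfG hΓ) = L := by
    intro g
    refine Polynomial.eq_of_degrees_lt_of_eval_index_eq (s := Finset.univ) (v := v)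
      hinj.injOn ?_ hdeg ?_
    · exact lt_of_le_of_lt Polynomial.degree_map_le hdeg
    · intro x _
      obtain ⟨h, rfl⟩ := QuotientGroup.mk_surjective x
      have h1 : dia hΓ h θ = dia hΓ g (dia hΓ (g⁻¹ * h) θ) := by
        rw [dia_dia]; congr 1; group
      have h2 : dia hΓ h u = dia hΓ g (dia hΓ (g⁻¹ * h) u) := by
        rw [dia_dia]; congr 1; group
      rw [hev, hvmk, hrmk, h1, h2]
      have h3 := Polynomial.eval_map_apply (p := L) (dia hΓ g : MfG hΓ →+* MfG hΓ)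
        (dia hΓ (g⁻¹ * h) θ)
      refine h3.trans ?_
      have h4 := hev (QuotientGroup.mk (g⁻¹ * h))
      rw [hvmk, hrmk] at h4
      rw [h4]
      rfl
  have hc : ∀ i, ∃ y : FF N, algebraMap (FF N) (MfG hΓ) y = L.coeff i := by
    intro i
    apply exists_of_fixed hΓ
    intro g
    have h1 := congrArg (fun P => Polynomial.coeff P i) (hfix g)
    simp only [Polynomial.coeff_map] at h1
    exact h1
  choose c hc using hc
  refine ⟨L.natDegree + 1, c, ?_⟩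
  have h1 : L.eval θ = u := by
    have h2 := hev (QuotientGroup.mk 1)
    rw [hvmk, hrmk, dia_one, dia_one] at h2
    exact h2
  rw [Polynomial.eval_eq_sum_range] at h1
  rw [← h1]
  exact Finset.sum_congr rfl fun i _ => by rw [hc]

lemma coe_sum_pow {θ : MfG hΓ} (d : ℕ) (c : ℕ → FF N) :
    ((∑ i ∈ Finset.range d, algebraMap (FF N) (MfG hΓ) (c i) * θ ^ i : MfG hΓ) :
      LaurentSeries ℂ) = ∑ i ∈ Finset.range d, (c i : LaurentSeries ℂ) * (θ : LaurentSeries ℂ) ^ i := by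
  rw [AddSubmonoidClass.coe_finsetSum]
  rfl

/-- automorphisms of the coefficients -/
theorem IsGen.aut_mem {θ : MfG hΓ} (hθ : IsGen hΓ θ) (σ : ℂ ≃+* ℂ) (u : MfG hΓ) :
    ∃ w : MfG hΓ, coeffMap (σ : ℂ →+* ℂ) (u : LaurentSeries ℂ) = w ∧
      ∀ g : Gamma0 N, coeffMap (σ : ℂ →+* ℂ) (dia hΓ g u : LaurentSeries ℂ) = dia hΓ g w := by
  obtain ⟨d, c, hu⟩ := hθ.exists_sum u
  obtain ⟨ξ, hξ, hξ'⟩ := hθ.aut σ
  have hval : ∀ (x : MfG hΓ), coeffMap (σ : ℂ →+* ℂ)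
      ((∑ i ∈ Finset.range d, algebraMap (FF N) (MfG hΓ) (c i) * x ^ i : MfG hΓ) : LaurentSeries ℂ) =
      ∑ i ∈ Finset.range d, (galF N σ (c i) : LaurentSeries ℂ) *
        (coeffMap (σ : ℂ →+* ℂ) (x : LaurentSeries ℂ)) ^ i := by
    intro x
    rw [coe_sum_pow, map_sum]
    exact Finset.sum_congr rfl fun i _ => by rw [map_mul, map_pow, ← coe_galF]
  refine ⟨∑ i ∈ Finset.range d, algebraMap (FF N) (MfG hΓ) (galF N σ (c i)) * ξ ^ i, ?_, fun g => ?_⟩
  · rw [hu, hval, coe_sum_pow, hξ]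
  · have h1 : dia hΓ g u = ∑ i ∈ Finset.range d, algebraMap (FF N) (MfG hΓ) (c i) *
        (dia hΓ g θ) ^ i := by
      rw [hu, map_sum]
      exact Finset.sum_congr rfl fun i _ => by rw [map_mul, map_pow, dia_algebraMap]
    have h2 : dia hΓ g (∑ i ∈ Finset.range d, algebraMap (FF N) (MfG hΓ) (galF N σ (c i)) * ξ ^ i) =
        ∑ i ∈ Finset.range d, algebraMap (FF N) (MfG hΓ) (galF N σ (c i)) * (dia hΓ g ξ) ^ i := by
      rw [map_sum]
      exact Finset.sum_congr rfl fun i _ => by rw [map_mul, map_pow, dia_algebraMap]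
    rw [h1, h2, hval, coe_sum_pow, hξ']

lemma IsGen.galG_mem {θ : MfG hΓ} (hθ : IsGen hΓ θ) (σ : ℂ ≃+* ℂ) (u : MfG hΓ) :
    coeffMap (σ : ℂ →+* ℂ) (u : LaurentSeries ℂ) ∈ MfG hΓ := by
  obtain ⟨w, hw, -⟩ := hθ.aut_mem σ u
  rw [hw]; exact w.2

/-- the automorphism of the function field induced by an automorphism of `ℂ` -/
def galG {θ : MfG hΓ} (hθ : IsGen hΓ θ) (σ : ℂ ≃+* ℂ) : MfG hΓ ≃+* MfG hΓ :=
  RingEquiv.ofRingHom
    (((coeffMap (σ : ℂ →+* ℂ)).comp (MfG hΓ).val.toRingHom).codRestrict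
      (MfG hΓ).toSubfield.toSubring (fun x => hθ.galG_mem σ x))
    (((coeffMap (σ.symm : ℂ →+* ℂ)).comp (MfG hΓ).val.toRingHom).codRestrict
      (MfG hΓ).toSubfield.toSubring (fun x => hθ.galG_mem σ.symm x))
    (by
      ext x : 2
      change coeffMap (σ : ℂ →+* ℂ) (coeffMap (σ.symm : ℂ →+* ℂ) (x : LaurentSeries ℂ)) = x
      rw [coeffMap_coeffMap]
      simp)
    (by
      ext x : 2
      change coeffMap (σ.symm : ℂ →+* ℂ) (coeffMap (σ : ℂ →+* ℂ) (x : LaurentSeries ℂ)) = x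
      rw [coeffMap_coeffMap]
      simp)

variable {θ : MfG hΓ} (hθ : IsGen hΓ θ)

lemma coe_galG (σ : ℂ ≃+* ℂ) (u : MfG hΓ) :
    (galG hθ σ u : LaurentSeries ℂ) = coeffMap (σ : ℂ →+* ℂ) (u : LaurentSeries ℂ) := rfl

lemma galG_const (σ : ℂ ≃+* ℂ) (c : ℂ) :
    galG hθ σ (algebraMap ℂ _ c) = algebraMap ℂ _ (σ c) := by
  apply Subtype.ext
  rw [coe_galG]
  change coeffMap (σ : ℂ →+* ℂ) (algebraMap ℂ (LaurentSeries ℂ) c) =
    algebraMap ℂ (LaurentSeries ℂ) (σ c)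
  rw [← C_eq_algebraMap, coeffMap_C, C_eq_algebraMap]
  rfl

lemma galG_jG (σ : ℂ ≃+* ℂ) : galG hθ σ (jG hΓ) = jG hΓ := by
  apply Subtype.ext
  rw [coe_galG, coe_jG]
  exact coeffMap_jqModC _

lemma galG_symm (σ : ℂ ≃+* ℂ) (x : MfG hΓ) : galG hθ σ (galG hθ σ.symm x) = x :=
  (galG hθ σ).apply_symm_apply x

lemma galG_dia (σ : ℂ ≃+* ℂ) (g : Gamma0 N) (u : MfG hΓ) :
    galG hθ σ (dia hΓ g u) = dia hΓ g (galG hθ σ u) := by
  obtain ⟨w, hw, hw'⟩ := hθ.aut_mem σ u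
  have h1 : galG hθ σ u = w := Subtype.ext hw
  rw [h1]
  exact Subtype.ext (hw' g)

lemma exists_place_galG (σ : ℂ ≃+* ℂ) (v : Place ℂ (MfG hΓ)) :
    ∃ w : Place ℂ (MfG hΓ), ∀ f, w.ord f = v.ord (galG hθ σ f) :=
  exists_place_comap (galG hθ σ) (fun c => ⟨σ c, galG_const hθ σ c⟩) v

end Fermat.Agent.AnJacH
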