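import Fermat.Agent.AnJacH.Gen
import Fermat.Agent.AnJac.HeckeFun

/-!
# The groups `Γ_H` and their generators
-/

set_option autoImplicit false
set_option linter.unusedSectionVars false

open UpperHalfPlane ModularForm MatrixGroups Matrix.SpecialLinearGroup Filter Function
open scoped Manifold Topology Real

noncomputable section

namespace Fermat.Agent.AnJacH

open Fermat.Agent.AnJac Fermat.Agent.DimS2 Fermat.Agent.ModFun CongruenceSubgroup AlgebraicCurve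
open ModularCurve IntermediateField
open Fermat.Agent.GenusX0 (zetaU zetaU_prim)

section Grp

variable (N m : ℕ) (h : m ∣ N)

/-- reduction of the lower right entry -/
def dM : Gamma0 N →* (ZMod m)ˣ :=
  (Units.map ((ZMod.castHom h (ZMod m) : ZMod N →+* ZMod m) : ZMod N →* ZMod m)).comp
    (Gamma0Map N).toHomUnits

lemma coe_dM (γ : Gamma0 N) : ((dM N m h γ : (ZMod m)ˣ) : ZMod m) = ((γ : SL(2,ℤ)) 1 1 : ℤ) := by
  change ZMod.castHom h (ZMod m) (Gamma0Map N γ) = _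
  change ZMod.castHom h (ZMod m) (((γ : SL(2,ℤ)) 1 1 : ℤ) : ZMod N) = _
  rw [map_intCast]

/-- the group `Γ_H` -/
def GH (H₀ : Subgroup (ZMod m)ˣ) : Subgroup SL(2,ℤ) := (H₀.comap (dM N m h)).map (Gamma0 N).subtype

variable {N m h}

lemma mem_GH {H₀ : Subgroup (ZMod m)ˣ} {γ : SL(2,ℤ)} :
    γ ∈ GH N m h H₀ ↔ ∃ hγ : γ ∈ Gamma0 N, dM N m h ⟨γ, hγ⟩ ∈ H₀ := by
  unfold GH
  rw [Subgroup.mem_map]
  constructor
  · rintro ⟨γ, hγ, rfl⟩
    exact ⟨γ.2, hγ⟩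
  · rintro ⟨hγ, h'⟩
    exact ⟨⟨γ, hγ⟩, h', rfl⟩

lemma GH_le {H₀ : Subgroup (ZMod m)ˣ} : GH N m h H₀ ≤ Gamma0 N := fun _ hγ => (mem_GH.mp hγ).1

lemma mem_GH' {H₀ : Subgroup (ZMod m)ˣ} (γ : Gamma0 N) :
    (γ : SL(2,ℤ)) ∈ GH N m h H₀ ↔ dM N m h γ ∈ H₀ := by
  rw [mem_GH]
  exact ⟨fun ⟨_, h⟩ => h, fun h => ⟨γ.2, h⟩⟩

theorem adm_GH [NeZero m] {H₀ : Subgroup (ZMod m)ˣ}
    (hH : ∀ γ : Gamma0 N, |(γ : SL(2,ℤ)) 0 0 + (γ : SL(2,ℤ)) 1 1| ≤ 2 → dM N m h γ ∈ H₀) :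
    Adm N (GH N m h H₀) where
  le := GH_le
  nh γ hγ htr := mem_GH.mpr ⟨hγ, hH ⟨γ, hγ⟩ htr⟩
  conj g hg γ hγ := by
    obtain ⟨h1, h2⟩ := mem_GH.mp hγ
    have e : dM N m h (⟨g, hg⟩ * ⟨γ, h1⟩ * (⟨g, hg⟩)⁻¹) = dM N m h ⟨γ, h1⟩ := by
      rw [map_mul, map_mul, map_inv, mul_comm, inv_mul_cancel_left]
    have := (mem_GH' (h := h) (H₀ := H₀) (⟨g, hg⟩ * ⟨γ, h1⟩ * (⟨g, hg⟩)⁻¹)).mpr (by rw [e]; exact h2)
    exact this
  comm g hg k hk := by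
    have e : dM N m h (⟨g, hg⟩ * ⟨k, hk⟩ * (⟨g, hg⟩)⁻¹ * (⟨k, hk⟩)⁻¹) = 1 := by
      rw [map_mul, map_mul, map_mul, map_inv, map_inv]
      rw [mul_comm (dM N m h ⟨g, hg⟩), mul_assoc (dM N m h ⟨k, hk⟩), mul_inv_cancel, mul_one,
        mul_inv_cancel]
    have := (mem_GH' (h := h) (H₀ := H₀) (⟨g, hg⟩ * ⟨k, hk⟩ * (⟨g, hg⟩)⁻¹ * (⟨k, hk⟩)⁻¹)).mpr
      (by rw [e]; exact one_mem _)
    exact this
  fin := by
    have e : (GH N m h H₀).subgroupOf (Gamma0 N) = H₀.comap (dM N m h) := by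
      ext γ
      rw [Subgroup.mem_subgroupOf, mem_GH', Subgroup.mem_comap]
    rw [e]
    have h1 : (dM N m h).ker.FiniteIndex := Subgroup.finiteIndex_ker (dM N m h)
    exact Subgroup.finiteIndex_of_le (H := (dM N m h).ker) (fun x hx => by
      rw [Subgroup.mem_comap, MonoidHom.mem_ker.mp hx]; exact one_mem _)

end Grp

/-! ### the functions `j(τ + s/m)` -/

/-- `j(τ + s/m)` -/
def js (m s : ℕ) (τ : ℍ) : ℂ := jfun (heckeMatrix m s • (heckeDiagMatrix m • τ))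

lemma js_smul {N m : ℕ} [NeZero m] (hm : m * m ∣ N) (γ : Gamma0 N) {s s' : ℕ}
    (hs : (s' : ZMod m) = s * (((γ : SL(2,ℤ)) 1 1 : ℤ) : ZMod m) ^ 2) (τ : ℍ) :
    js m s ((γ : SL(2,ℤ)) • τ) = js m s' τ := by
  have hm0 : m ≠ 0 := NeZero.ne m
  have hγ := γ.2
  rw [Gamma0_mem, ZMod.intCast_zmod_eq_zero_iff_dvd] at hγ
  obtain ⟨c, hc⟩ : ((m * m : ℕ) : ℤ) ∣ (γ : SL(2,ℤ)) 1 0 := (Int.natCast_dvd_natCast.mpr hm).trans hγ
  have hdet := Matrix.SpecialLinearGroup.det_coe (γ : SL(2,ℤ))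
  rw [Matrix.det_fin_two] at hdet
  set A := (γ : SL(2,ℤ)) 0 0 with hA
  set B := (γ : SL(2,ℤ)) 0 1 with hB
  set C := (γ : SL(2,ℤ)) 1 0 with hC
  set D := (γ : SL(2,ℤ)) 1 1 with hD
  push_cast at hc
  obtain ⟨e, he⟩ : (m : ℤ) ∣ s * D - (A + s * m * c) * s' := by
    rw [← ZMod.intCast_zmod_eq_zero_iff_dvd]
    push_cast
    have h1 : (A : ZMod m) * D = 1 := by
      have := congrArg (fun z : ℤ => (z : ZMod m)) hdet
      push_cast at this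
      rw [hc] at this
      push_cast at this
      rw [ZMod.natCast_self] at this
      simpa using this
    rw [hs, ZMod.natCast_self]
    linear_combination (-(s : ZMod m) * D) * h1
  let g : SL(2,ℤ) := ⟨!![A + s * m * c, B + e; C, D - m * c * s'], by
    rw [Matrix.det_fin_two_of]
    rw [hc] at hdet ⊢
    linear_combination hdet + (m * c) * he⟩
  have h1 : heckeMatrix m s • (heckeDiagMatrix m • ((γ : SL(2,ℤ)) • τ)) =
      g • (heckeMatrix m s' • (heckeDiagMatrix m • τ)) := by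
    apply UpperHalfPlane.ext
    rw [coe_heckeMatrix_smul hm0, coe_heckeDiagMatrix_smul hm0,
      UpperHalfPlane.coe_specialLinearGroup_apply,
      UpperHalfPlane.coe_specialLinearGroup_apply, coe_heckeMatrix_smul hm0,
      coe_heckeDiagMatrix_smul hm0]
    have e00 : g 0 0 = A + s * m * c := rfl
    have e01 : g 0 1 = B + e := rfl
    have e10 : g 1 0 = C := rfl
    have e11 : g 1 1 = D - m * c * s' := rfl
    simp only [algebraMap_int_eq, Int.coe_castRingHom, Complex.ofReal_intCast, e00, e01, e10, e11]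
    rw [← hA, ← hB, ← hC, ← hD]
    have hmC : (m : ℂ) ≠ 0 := by exact_mod_cast hm0
    have hd0 : (C : ℂ) * τ + D ≠ 0 := by
      have := denom_ne_zero ((γ : SL(2,ℤ)) : GL (Fin 2) ℝ) τ
      rwa [ModularGroup.denom_apply] at this
    have heC : (s : ℂ) * D - (A + s * m * c) * s' = m * e := by exact_mod_cast he
    have hcC : (C : ℂ) = m * m * c := by exact_mod_cast hc
    have h2 : ((C : ℤ) : ℂ) * ((m * (τ : ℂ) + s') / m) + ((D - m * c * s' : ℤ) : ℂ) = C * τ + D := by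
      push_cast
      rw [hcC]
      field_simp
      ring
    have h3 : ((A + s * m * c : ℤ) : ℂ) * ((m * (τ : ℂ) + s') / m) + ((B + e : ℤ) : ℂ) =
        (A * τ + B) + (s / m) * (C * τ + D) := by
      push_cast
      rw [hcC]
      field_simp
      linear_combination -heC
    rw [h2, h3]
    generalize ((C : ℂ) * τ + D) = w at hd0 ⊢
    generalize ((A : ℂ) * τ + B) = v
    field_simp
  unfold js
  rw [h1, jfun_smul]

lemma js_congr {m : ℕ} [NeZero m] {s s' : ℕ} (hs : (s' : ZMod m) = s) : js m s = js m s' := by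
  funext τ
  have := js_smul (N := m * m) dvd_rfl (1 : Gamma0 (m * m)) (s := s) (s' := s') (by simp [hs]) τ
  simpa using this

lemma isP_js (m : ℕ) [NeZero m] (s : ℕ) :
    IsP (js m s) ∧ lser (js m s) = twist (zetaU m ^ s) (jqModC ℂ) := by
  have hm0 : m ≠ 0 := NeZero.ne m
  have hmC : (m : ℂ) ≠ 0 := by exact_mod_cast hm0
  have h1 : js m s = ef (twist (zetaU m ^ s) (jqModC ℂ)) := by
    funext τ
    rw [ef, evf_twist]
    have h2 : ((zetaU m ^ s : ℂˣ) : ℂ) * Periodic.qParam 1 τ =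
        Periodic.qParam 1 (heckeMatrix m s • (heckeDiagMatrix m • τ) : ℍ) := by
      rw [coe_heckeMatrix_smul hm0, coe_heckeDiagMatrix_smul hm0, zetaU, Units.val_pow_eq_pow_val,
        Units.val_mk0]
      simp only [Periodic.qParam]
      rw [← Complex.exp_nat_mul, ← Complex.exp_add]
      congr 1
      push_cast
      field_simp
      ring
    rw [h2, evf_jqModC]
    rfl
  have h2 : twist (zetaU m ^ s) (jqModC ℂ) ∈ convLaurent :=
    twist_mem_convLaurent _ (norm_zetaU_pow (p := m) s) jqModC_mem_convLaurent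
  rw [h1]
  exact ⟨isP_ef h2, lser_ef h2⟩

lemma js_mga (m : ℕ) [NeZero m] (s : ℕ) : MGA (js m s) := by
  have hm0 : m ≠ 0 := NeZero.ne m
  have h1 := MGA.comp_int jfun_mga (det_heckeMatrix_pos m s) (isInt_hecke hm0 s)
  exact MGA.comp_int h1 (det_heckeDiagMatrix_pos m) (isInt_heckeDiag hm0)

/-! ### the generator -/

section Gen

variable {m : ℕ} [NeZero m] (H₀ : Subgroup (ZMod m)ˣ)

instance : Fintype H₀ := Fintype.ofFinite _

/-- the product over `H₀` -/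
def Fc (c : ℕ) (s : (ZMod m)ˣ) : ℍ → ℂ :=
  ∏ h : H₀, fun τ => ((c : ℂ) - js m ((s * (h : (ZMod m)ˣ) ^ 2 : (ZMod m)ˣ) : ZMod m).val τ)

lemma Fc_apply (c : ℕ) (s : (ZMod m)ˣ) (τ : ℍ) : Fc H₀ c s τ =
    ∏ h : H₀, ((c : ℂ) - js m ((s * (h : (ZMod m)ˣ) ^ 2 : (ZMod m)ˣ) : ZMod m).val τ) := by
  unfold Fc
  rw [Finset.prod_apply]

lemma Fc_mul_sq (c : ℕ) (s : (ZMod m)ˣ) {h : (ZMod m)ˣ} (hh : h ∈ H₀) :
    Fc H₀ c (s * h ^ 2) = Fc H₀ c s := by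
  funext τ
  rw [Fc_apply, Fc_apply]
  rw [← Equiv.prod_comp (Equiv.mulLeft (⟨h, hh⟩ : H₀)) (fun x : H₀ =>
    ((c : ℂ) - js m ((s * (x : (ZMod m)ˣ) ^ 2 : (ZMod m)ˣ) : ZMod m).val τ))]
  refine Finset.prod_congr rfl fun x _ => ?_
  rw [Equiv.coe_mulLeft, Subgroup.coe_mul, mul_pow, mul_assoc]

lemma Fc_smul {N : ℕ} (hm : m * m ∣ N) (h : m ∣ N) (c : ℕ) (s : (ZMod m)ˣ) (γ : Gamma0 N) (τ : ℍ) :
    Fc H₀ c s ((γ : SL(2,ℤ)) • τ) = Fc H₀ c (s * dM N m h γ ^ 2) τ := by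
  rw [Fc_apply, Fc_apply]
  refine Finset.prod_congr rfl fun x _ => ?_
  have hs : ((((s * dM N m h γ ^ 2 * (x : (ZMod m)ˣ) ^ 2 : (ZMod m)ˣ) : ZMod m).val : ℕ) : ZMod m) =
      ((((s * (x : (ZMod m)ˣ) ^ 2 : (ZMod m)ˣ) : ZMod m).val : ℕ) : ZMod m) *
        (((γ : SL(2,ℤ)) 1 1 : ℤ) : ZMod m) ^ 2 := by
    rw [ZMod.natCast_zmod_val, ZMod.natCast_zmod_val, ← coe_dM N m h, Units.val_mul, Units.val_mul,
      Units.val_mul, Units.val_pow_eq_pow_val, Units.val_pow_eq_pow_val]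
    ring
  rw [js_smul hm γ hs τ]

/-- the polynomial -/
def Pc (s : (ZMod m)ˣ) : Polynomial (LaurentSeries ℂ) :=
  ∏ h : H₀, (Polynomial.X - Polynomial.C (twist
    (zetaU m ^ ((s * (h : (ZMod m)ˣ) ^ 2 : (ZMod m)ˣ) : ZMod m).val) (jqModC ℂ)))

lemma isP_factor (c s : ℕ) : IsP (fun τ => (c : ℂ) - js m s τ) ∧
    lser (fun τ => (c : ℂ) - js m s τ) = (c : LaurentSeries ℂ) - twist (zetaU m ^ s) (jqModC ℂ) := by
  obtain ⟨h1, h2⟩ := isP_js m s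
  have h3 : (fun τ => (c : ℂ) - js m s τ) = (fun _ => (c : ℂ)) + (fun _ => (-1 : ℂ)) * js m s := by
    funext τ
    simp only [Pi.add_apply, Pi.mul_apply]
    ring
  rw [h3]
  have h4 := (isP_const (-1)).mul h1
  refine ⟨(isP_const _).add h4, ?_⟩
  rw [lser_add (isP_const _) h4, lser_mul (isP_const _) h1, lser_const, lser_const, h2]
  rw [map_neg, map_one, map_natCast]
  ring

lemma isP_Fc (c : ℕ) (s : (ZMod m)ˣ) : IsP (Fc H₀ c s) ∧
    lser (Fc H₀ c s) = (Pc H₀ s).eval (c : LaurentSeries ℂ) := by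
  have key : ∀ t : Finset H₀, IsP (∏ h ∈ t, fun τ => ((c : ℂ) -
      js m ((s * (h : (ZMod m)ˣ) ^ 2 : (ZMod m)ˣ) : ZMod m).val τ)) ∧
      lser (∏ h ∈ t, fun τ => ((c : ℂ) -
        js m ((s * (h : (ZMod m)ˣ) ^ 2 : (ZMod m)ˣ) : ZMod m).val τ)) =
      (∏ h ∈ t, (Polynomial.X - Polynomial.C (twist
    (zetaU m ^ ((s * (h : (ZMod m)ˣ) ^ 2 : (ZMod m)ˣ) : ZMod m).val) (jqModC ℂ)))).eval
      (c : LaurentSeries ℂ) := by
    classical
    intro t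
    induction t using Finset.induction_on with
    | empty => exact ⟨isP_const 1, by rw [Finset.prod_empty, Finset.prod_empty, lser_one,
        Polynomial.eval_one]⟩
    | insert a t ha ih =>
      rw [Finset.prod_insert ha, Finset.prod_insert ha]
      obtain ⟨h1, h2⟩ := isP_factor (m := m) c ((s * (a : (ZMod m)ˣ) ^ 2 : (ZMod m)ˣ) : ZMod m).val
      refine ⟨h1.mul ih.1, ?_⟩
      rw [lser_mul h1 ih.1, ih.2, h2, Polynomial.eval_mul, Polynomial.eval_sub, Polynomial.eval_X,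
        Polynomial.eval_C]
  exact key Finset.univ

lemma Fc_mga (c : ℕ) (s : (ZMod m)ˣ) : MGA (Fc H₀ c s) := by
  refine MGA.prod _ fun h _ => ?_
  intro δ
  have h1 := js_mga m ((s * (h : (ZMod m)ˣ) ^ 2 : (ZMod m)ˣ) : ZMod m).val δ
  have h2 := (mg_const (c : ℂ)).add (h1.const_mul (-1))
  refine h2.congr fun τ => ?_
  simp only [Pi.add_apply]
  ring

lemma isXG_Fc {N : ℕ} [NeZero N] (hm : m * m ∣ N) (h : m ∣ N) (hΓ : Adm N (GH N m h H₀)) (c : ℕ)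
    (s : (ZMod m)ˣ) : IsXG N (GH N m h H₀) 1 (Fc H₀ c s) := by
  refine IsXG.of hΓ isNHG_one (isP_Fc H₀ c s).1.mdiff (fun γ τ => ?_) (Fc_mga H₀ c s)
  obtain ⟨h1, h2⟩ := mem_GH.mp γ.2
  have h3 := Fc_smul H₀ hm h c s ⟨γ, h1⟩ τ
  rw [Fc_mul_sq H₀ c s h2] at h3
  rw [MonoidHom.one_apply, Units.val_one, one_mul]
  exact h3

lemma twist_jq_inj {s s' : (ZMod m)ˣ} (h : twist (zetaU m ^ (s : ZMod m).val) (jqModC ℂ) =
    twist (zetaU m ^ (s' : ZMod m).val) (jqModC ℂ)) : s = s' := by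
  have h1 := congrArg (fun F => HahnSeries.coeff F (-1)) h
  simp only [twist_coeff, coeff_jqModC_neg_one, mul_one] at h1
  have h2 : (zetaU m ^ (s : ZMod m).val) ^ (-1 : ℤ) = (zetaU m ^ (s' : ZMod m).val) ^ (-1 : ℤ) :=
    Units.ext h1
  rw [zpow_neg_one, zpow_neg_one, inv_inj] at h2
  have h3 := (zetaU_prim m).pow_inj (ZMod.val_lt _) (ZMod.val_lt _) h2
  exact Units.ext (ZMod.val_injective m h3)

lemma Pc_inj {s s' : (ZMod m)ˣ} (h : Pc H₀ s = Pc H₀ s') : ∃ k ∈ H₀, s = s' * k ^ 2 := by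
  have h1 : (Pc H₀ s).eval (twist (zetaU m ^ (s : ZMod m).val) (jqModC ℂ)) = 0 := by
    rw [Pc, Polynomial.eval_prod]
    apply Finset.prod_eq_zero (Finset.mem_univ (1 : H₀))
    rw [Polynomial.eval_sub, Polynomial.eval_X, Polynomial.eval_C, Subgroup.coe_one, one_pow,
      mul_one, sub_self]
  rw [h, Pc, Polynomial.eval_prod, Finset.prod_eq_zero_iff] at h1
  obtain ⟨k, -, hk⟩ := h1
  rw [Polynomial.eval_sub, Polynomial.eval_X, Polynomial.eval_C, sub_eq_zero] at hk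
  exact ⟨k, k.2, twist_jq_inj hk⟩

lemma exists_c : ∃ c : ℕ, ∀ s s' : (ZMod m)ˣ,
    (Pc H₀ s).eval (c : LaurentSeries ℂ) = (Pc H₀ s').eval (c : LaurentSeries ℂ) →
      Pc H₀ s = Pc H₀ s' := by
  classical
  by_contra hcon
  push Not at hcon
  set Q : Polynomial (LaurentSeries ℂ) := ∏ x ∈ (Finset.univ : Finset ((ZMod m)ˣ × (ZMod m)ˣ)).filter
    (fun x => Pc H₀ x.1 ≠ Pc H₀ x.2), (Pc H₀ x.1 - Pc H₀ x.2) with hQ
  have h0 : Q ≠ 0 := by
    rw [hQ]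
    refine Finset.prod_induction _ (fun P : Polynomial (LaurentSeries ℂ) => P ≠ 0)
      (fun a b ha hb => mul_ne_zero ha hb) one_ne_zero ?_
    intro x hx
    rw [Finset.mem_filter] at hx
    exact sub_ne_zero.mpr hx.2
  apply h0
  apply Polynomial.eq_zero_of_infinite_isRoot
  have hz : CharZero (LaurentSeries ℂ) :=
    charZero_of_injective_algebraMap (algebraMap ℂ (LaurentSeries ℂ)).injective
  have h1 : (Set.range fun n : ℕ => (n : LaurentSeries ℂ)).Infinite :=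
    Set.infinite_range_of_injective Nat.cast_injective
  refine h1.mono ?_
  rintro _ ⟨n, rfl⟩
  obtain ⟨s, s', h2, h3⟩ := hcon n
  change Q.eval _ = 0
  rw [hQ, Polynomial.eval_prod]
  apply Finset.prod_eq_zero (i := (s, s'))
  · rw [Finset.mem_filter]
    exact ⟨Finset.mem_univ _, h3⟩
  · rw [Polynomial.eval_sub, h2, sub_self]

lemma exists_cyc (σ : ℂ ≃+* ℂ) : ∃ χ : (ZMod m)ˣ, ∀ s : (ZMod m)ˣ,
    Units.map ((σ : ℂ →+* ℂ) : ℂ →* ℂ) (zetaU m ^ (s : ZMod m).val) =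
      zetaU m ^ ((χ * s : (ZMod m)ˣ) : ZMod m).val := by
  have h1 : IsPrimitiveRoot (Units.map ((σ : ℂ →+* ℂ) : ℂ →* ℂ) (zetaU m)) m :=
    (zetaU_prim m).map_of_injective (Units.map_injective (σ : ℂ →+* ℂ).injective)
  obtain ⟨a, -, ha, h2⟩ := ((zetaU_prim m).isPrimitiveRoot_iff').mp h1
  refine ⟨ZMod.unitOfCoprime a ha, fun s => ?_⟩
  rw [map_pow, ← h2, Units.val_mul, pow_val_mul (zetaU_prim m).pow_eq_one]
  congr 1
  rw [ZMod.coe_unitOfCoprime, ZMod.val_natCast, ← pow_eq_pow_mod _ (zetaU_prim m).pow_eq_one]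

lemma coeffMap_Pc_eval (σ : ℂ ≃+* ℂ) {χ : (ZMod m)ˣ} (hχ : ∀ s : (ZMod m)ˣ,
    Units.map ((σ : ℂ →+* ℂ) : ℂ →* ℂ) (zetaU m ^ (s : ZMod m).val) =
      zetaU m ^ ((χ * s : (ZMod m)ˣ) : ZMod m).val) (c : ℕ) (s : (ZMod m)ˣ) :
    coeffMap (σ : ℂ →+* ℂ) ((Pc H₀ s).eval (c : LaurentSeries ℂ)) =
      (Pc H₀ (χ * s)).eval (c : LaurentSeries ℂ) := by
  rw [Pc, Pc, Polynomial.eval_prod, Polynomial.eval_prod, map_prod]
  refine Finset.prod_congr rfl fun x _ => ?_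
  rw [Polynomial.eval_sub, Polynomial.eval_sub, Polynomial.eval_X, Polynomial.eval_C,
    Polynomial.eval_C, map_sub, map_natCast, coeffMap_twist, hχ, coeffMap_jqModC, mul_assoc]

theorem exists_isGen' {N : ℕ} [NeZero N] (hm : m * m ∣ N) (h : m ∣ N)
    (hΓ : Adm N (GH N m h H₀)) (h2 : ∀ a : (ZMod m)ˣ, a ^ 2 = 1 → a ∈ H₀) :
    ∃ θ : MfG hΓ, IsGen hΓ θ ∧ ∃ (c : ℕ) (s : (ZMod m)ˣ),
      (θ : LaurentSeries ℂ) = (Pc H₀ s).eval (c : LaurentSeries ℂ) := by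
  obtain ⟨c, hc⟩ := exists_c H₀
  let E : (ZMod m)ˣ → MfG hΓ := fun s => ⟨lser (Fc H₀ c s), lser_mem_MfG hΓ (isXG_Fc H₀ hm h hΓ c s)⟩
  have hE : ∀ s, Rp N (GH N m h H₀) (E s : LaurentSeries ℂ) (Fc H₀ c s) 1 := fun s =>
    ⟨isXG_Fc H₀ hm h hΓ c s, one_ne_zero, by rw [map_one, mul_one]⟩
  have hcoe : ∀ s, (E s : LaurentSeries ℂ) = (Pc H₀ s).eval (c : LaurentSeries ℂ) := fun s =>
    (isP_Fc H₀ c s).2
  have hdia : ∀ g s, dia hΓ g (E s) = E (s * dM N m h g ^ 2) := by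
    intro g s
    refine dia_eq_of_rp hΓ g (hE s) ?_
    have : sl (Fc H₀ c s) g = Fc H₀ c (s * dM N m h g ^ 2) := by
      funext τ
      exact Fc_smul H₀ hm h c s g τ
    rw [this]
    exact hE _
  refine ⟨E 1, ⟨fun g hg => ?_, fun σ => ?_⟩, c, 1, hcoe 1⟩
  · rw [hdia, one_mul] at hg
    have h3 : (E (dM N m h g ^ 2) : LaurentSeries ℂ) = E 1 := congrArg Subtype.val hg
    rw [hcoe, hcoe] at h3
    obtain ⟨k, hk, h4⟩ := Pc_inj H₀ (hc _ _ h3)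
    rw [one_mul] at h4
    rw [mem_GH']
    have h5 : (dM N m h g * k⁻¹) ^ 2 = 1 := by
      rw [mul_pow, h4, inv_pow, mul_inv_cancel]
    have h6 := mul_mem (h2 _ h5) hk
    rwa [inv_mul_cancel_right] at h6
  · obtain ⟨χ, hχ⟩ := exists_cyc (m := m) σ
    refine ⟨E χ, ?_, fun g => ?_⟩
    · rw [hcoe, hcoe, coeffMap_Pc_eval H₀ σ hχ, mul_one]
    · rw [hdia, hdia, hcoe, hcoe, coeffMap_Pc_eval H₀ σ hχ, one_mul]

theorem exists_isGen {N : ℕ} [NeZero N] (hm : m * m ∣ N) (h : m ∣ N)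
    (hΓ : Adm N (GH N m h H₀)) (h2 : ∀ a : (ZMod m)ˣ, a ^ 2 = 1 → a ∈ H₀) :
    ∃ θ : MfG hΓ, IsGen hΓ θ :=
  let ⟨θ, hθ, _⟩ := exists_isGen' H₀ hm h hΓ h2
  ⟨θ, hθ⟩

end Gen

end Fermat.Agent.AnJacH
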