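import Fermat.Agent.AnJacH.HeckeG

/-!
# Hecke operators on the function field of `Γ_H`
-/

set_option autoImplicit false
set_option linter.unusedSectionVars false

open UpperHalfPlane ModularForm MatrixGroups Matrix.SpecialLinearGroup Filter Function
open scoped Manifold Topology

noncomputable section

namespace Fermat.Agent.AnJacH

open Fermat.Agent.AnJac Fermat.Agent.DimS2 Fermat.Agent.ModFun CongruenceSubgroup AlgebraicCurve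
open ModularCurve IntermediateField
open Fermat.Agent.GenusX0 (zetaU zetaU_prim)
open P2MW.S_ModularForm_heckeT_slash_eq_self_of_mem_Gamma0.ModularForm.HeckeSlashInvariance

variable {N : ℕ} [NeZero N]

/-- `dia` on witnesses -/
lemma wit_dia {Γ : Subgroup SL(2,ℤ)} (hΓ : Adm N Γ) {n : ℕ} {u : MfG hΓ} {χ : Γ →* ℂˣ} (hχ : IsNHG χ) {G b : ℍ → ℂ}
    (hG : IsXG N Γ χ G) (hb : IsXG N Γ 1 b)
    (heq : (u : LaurentSeries ℂ) * lser b ^ n = lser G ^ n) (g : Gamma0 N) :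
    (dia hΓ g u : LaurentSeries ℂ) * lser (sl b g) ^ n = lser (sl G g) ^ n := by
  obtain ⟨f, B, hr⟩ := exists_Rp hΓ u.2
  have hGP : IsP G := hG.isP hΓ hχ
  have hbP : IsP b := hb.isP_one hΓ
  have hjP := (isXG_jev hΓ B).isP_one hΓ
  have hfP := hr.1.isP_one hΓ
  have e1 : f * b ^ n = G ^ n * ef (jev ℂ B) := by
    apply lser_inj (hfP.mul (hbP.pow n)) ((hGP.pow n).mul hjP)
    rw [lser_mul hfP (hbP.pow n), lser_mul (hGP.pow n) hjP, lser_pow hbP, lser_pow hGP,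
      lser_ef (jev_mem B), ← hr.2.2, ← heq]
    ring
  have e2 := congrArg (fun f => AnJacH.sl f g) e1
  simp only [sl_mul, sl_pow, sl_jev] at e2
  have hG' := hG.sl hΓ g
  have hb' := hb.sl_one' hΓ g
  have hχ' := hχ.conjH hΓ g
  have hG'P : IsP (AnJacH.sl G g) := hG'.isP hΓ hχ'
  have hb'P : IsP (AnJacH.sl b g) := hb'.isP_one hΓ
  have hr' := dia_rp hΓ g hr
  have h5 := congrArg lser e2
  have hf'P := hr'.1.isP_one hΓ
  rw [lser_mul hf'P (hb'P.pow n), lser_mul (hG'P.pow n) hjP, lser_ef (jev_mem B),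
    ← hr'.2.2, lser_pow hb'P, lser_pow hG'P] at h5
  have h6 := jev_ne_zero hr.2.1
  apply mul_right_cancel₀ h6
  rw [← h5]
  ring

section Fam

variable {m : ℕ} {h : m ∣ N} {H₀ : Subgroup (ZMod m)ˣ} (hΓ : Adm N (GH N m h H₀))

lemma NmG_hfUG (p : ℕ) [NeZero p] (hpN : p ∣ N) (G : ℍ → ℂ) :
    NmG (hfUG N m h H₀ p hpN) G = Wfun p G := by
  ext τ
  rw [NmG_apply]
  unfold Wfun
  refine Finset.prod_congr rfl fun x _ => ?_
  congr 1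
  change (gl ((1 : Gamma0 N) : SL(2,ℤ)) * heckeMatrix p x.val) • τ = _
  have : gl ((1 : Gamma0 N) : SL(2,ℤ)) = 1 := by simp [gl]
  rw [this, one_mul]

lemma NmG_hfTG (q : ℕ) [hq : Fact q.Prime] (hqN : ¬ q ∣ N) (g : Gamma0 N)
    (hg : ((dM N m h g : (ZMod m)ˣ) : ZMod m) = q) (G : ℍ → ℂ) :
    haveI : NeZero q := ⟨hq.out.ne_zero⟩
    NmG (hfTG N m h H₀ q hqN g hg) G =
      (fun τ => sl G g (heckeDiagMatrix q • τ)) * Wfun q G := by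
  ext τ
  rw [NmG_apply, Pi.mul_apply]
  refine (Fintype.prod_option (fun x : OnePoint (ZMod q) =>
    G ((hfTG N m h H₀ q hqN g hg).A x • τ))).trans ?_
  congr 1
  · rw [sl_apply, SL_smul_eq, ← mul_smul]
    congr 2
    change gl (sgT q g OnePoint.infty : SL(2,ℤ)) * heckeRep q OnePoint.infty = _
    rw [sgT, if_pos rfl]
    rfl
  · unfold Wfun
    refine Finset.prod_congr rfl fun x _ => ?_
    congr 1
    change (gl (sgT q g (x : OnePoint (ZMod q)) : SL(2,ℤ)) * heckeMatrix q x.val) • τ = _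
    have : gl (sgT q g (x : OnePoint (ZMod q)) : SL(2,ℤ)) = 1 := by
      rw [sgT, if_neg (OnePoint.coe_ne_infty x)]
      simp [gl]
    rw [this, one_mul]

lemma neg_one_pow_n {κ : Type*} [Fintype κ] {Γ : Subgroup SL(2,ℤ)} (F : HF Γ κ) {n : ℕ}
    {χ : Γ →* ℂˣ} (h : χ ^ n = 1) : F.Tm χ ^ n = 1 := by
  ext γ
  rw [MonoidHom.pow_apply, HF.Tm_apply, ← Finset.prod_pow, MonoidHom.one_apply]
  rw [Finset.prod_eq_one]
  intro i _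
  have := DFunLike.congr_fun h (F.g γ i)
  rwa [MonoidHom.pow_apply] at this

include hΓ in
lemma wit_U {n : ℕ} {u : LaurentSeries ℂ} {χ : GH N m h H₀ →* ℂˣ} (hχ : IsNHG χ)
    {G b : ℍ → ℂ} (hG : IsXG N (GH N m h H₀) χ G) (hb : IsXG N (GH N m h H₀) 1 b)
    (he : u * lser b ^ n = lser G ^ n) (p : ℕ) [NeZero p] (hpN : p ∣ N) {ζ : ℂˣ}
    (hζ : IsPrimitiveRoot ζ p) :
    heckeW ζ p u * lser (NmG (hfUG N m h H₀ p hpN) b) ^ n =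
      lser (NmG (hfUG N m h H₀ p hpN) G) ^ n := by
  rw [heckeW_congr hζ (zetaU_prim p)]
  rw [NmG_hfUG, NmG_hfUG, (isP_Wfun (hG.isP hΓ hχ)).2, (isP_Wfun (hb.isP_one hΓ)).2]
  have h1 := congrArg (heckeWHom (zetaU_prim p)) he
  simp only [map_mul, map_pow, heckeWHom_apply] at h1
  exact h1

lemma wit_T {n : ℕ} {u : MfG hΓ} {χ : GH N m h H₀ →* ℂˣ} (hχ : IsNHG χ)
    {G b : ℍ → ℂ} (hG : IsXG N (GH N m h H₀) χ G) (hb : IsXG N (GH N m h H₀) 1 b)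
    (he : (u : LaurentSeries ℂ) * lser b ^ n = lser G ^ n)
    {q : ℕ} [hq : Fact q.Prime] [NeZero q]
    (hqN : ¬ q ∣ N) {g : Gamma0 N} (hg : ((dM N m h g : (ZMod m)ˣ) : ZMod m) = q)
    {ζ : ℂˣ} (hζ : IsPrimitiveRoot ζ q) :
    (qExpand ℂ q (AnJacH.dia hΓ g u : LaurentSeries ℂ) * heckeW ζ q (u : LaurentSeries ℂ)) *
      lser (NmG (hfTG N m h H₀ q hqN g hg) b) ^ n =
      lser (NmG (hfTG N m h H₀ q hqN g hg) G) ^ n := by
  rw [heckeW_congr hζ (zetaU_prim q)]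
  have hGs := (hG.sl hΓ g).isP hΓ (hχ.conjH hΓ g)
  have hbs := (hb.sl_one' hΓ g).isP_one hΓ
  have hGP := hG.isP hΓ hχ
  have hbP := hb.isP_one hΓ
  rw [NmG_hfTG, NmG_hfTG, lser_mul (lser_diag hGs).1 (isP_Wfun hGP).1, (lser_diag hGs).2,
    lser_mul (lser_diag hbs).1 (isP_Wfun hbP).1, (lser_diag hbs).2,
    (isP_Wfun hGP).2, (isP_Wfun hbP).2]
  have h1 := congrArg (heckeWHom (zetaU_prim q)) he
  simp only [map_mul, map_pow, heckeWHom_apply] at h1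
  have h2 := congrArg (qExpand ℂ q) (wit_dia hΓ hχ hG hb he g)
  simp only [map_mul, map_pow] at h2
  rw [mul_pow, mul_pow, ← h1, ← h2]
  ring

include hΓ in
/-- `U_p` on functions with characters -/
theorem IsCharG.heckeU {n : ℕ} {u : LaurentSeries ℂ} {χ : GH N m h H₀ →* ℂˣ}
    (hu : IsCharG N (GH N m h H₀) n u χ) {p : ℕ} [NeZero p] (hpN : p ∣ N)
    (hnh : IsNHG ((hfUG N m h H₀ p hpN).Tm χ)) {ζ : ℂˣ} (hζ : IsPrimitiveRoot ζ p) :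
    IsCharG N (GH N m h H₀) n (heckeW ζ p u) ((hfUG N m h H₀ p hpN).Tm χ) := by
  obtain ⟨G, b, hG, hb, hG0, hb0, he⟩ := hu.ex
  have hb' := isXG_Nm_one hΓ (hfUG N m h H₀ p hpN) hb
  exact ⟨hnh, neg_one_pow_n _ hu.pw, NmG (hfUG N m h H₀ p hpN) G, NmG (hfUG N m h H₀ p hpN) b,
    isXG_Nm hΓ _ hG hnh, hb', NmG_ne_zero _ hG.isA.mdiff hG0, NmG_ne_zero _ hb.isA.mdiff hb0,
    wit_U hΓ hu.nh hG hb he p hpN hζ⟩

/-- `T_q` on functions with characters -/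
theorem IsCharG.heckeT {n : ℕ} {u : MfG hΓ} {χ : GH N m h H₀ →* ℂˣ}
    (hu : IsCharG N (GH N m h H₀) n (u : LaurentSeries ℂ) χ) {q : ℕ} [hq : Fact q.Prime] [NeZero q]
    (hqN : ¬ q ∣ N) {g : Gamma0 N} (hg : ((dM N m h g : (ZMod m)ˣ) : ZMod m) = q)
    (hnh : IsNHG ((hfTG N m h H₀ q hqN g hg).Tm χ)) {ζ : ℂˣ} (hζ : IsPrimitiveRoot ζ q) :
    IsCharG N (GH N m h H₀) n
      (qExpand ℂ q (AnJacH.dia hΓ g u : LaurentSeries ℂ) * heckeW ζ q (u : LaurentSeries ℂ))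
      ((hfTG N m h H₀ q hqN g hg).Tm χ) := by
  obtain ⟨G, b, hG, hb, hG0, hb0, he⟩ := hu.ex
  have hb' := isXG_Nm_one hΓ (hfTG N m h H₀ q hqN g hg) hb
  exact ⟨hnh, neg_one_pow_n _ hu.pw, NmG (hfTG N m h H₀ q hqN g hg) G,
    NmG (hfTG N m h H₀ q hqN g hg) b,
    isXG_Nm hΓ _ hG hnh, hb', NmG_ne_zero _ hG.isA.mdiff hG0, NmG_ne_zero _ hb.isA.mdiff hb0,
    wit_T hΓ hu.nh hG hb he hqN hg hζ⟩

lemma heckeW_zero {K : Type*} [Field K] {p : ℕ} [NeZero p] {ζ : Kˣ} (hζ : IsPrimitiveRoot ζ p) :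
    heckeW ζ p (0 : LaurentSeries K) = 0 := by
  have h1 := qExpand_heckeW hζ (0 : LaurentSeries K)
  have h2 : tprod p ζ (0 : LaurentSeries K) = 0 := by
    rw [AnJac.tprod_apply]
    exact Finset.prod_eq_zero (Finset.mem_univ (0 : ZMod p)) (map_zero _)
  rw [h2] at h1
  exact (qExpand K p).injective (by rw [h1, map_zero])

lemma heckeW_mem_MfG {p : ℕ} [NeZero p] (hpN : p ∣ N) {ζ : ℂˣ} (hζ : IsPrimitiveRoot ζ p)
    {u : LaurentSeries ℂ} (hu : u ∈ MfG hΓ) : heckeW ζ p u ∈ MfG hΓ := by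
  rcases eq_or_ne u 0 with rfl | hu0
  · rw [heckeW_zero hζ]
    exact zero_mem _
  · have h1 := IsCharG.of_pow (n := 1) hΓ hu hu0
    rw [pow_one] at h1
    exact (h1.heckeU hΓ hpN (by rw [Tm_oneG]; exact isNHG_one) hζ).mem_MfG hΓ

lemma heckeT_mem_MfG {q : ℕ} [hq : Fact q.Prime] [NeZero q]
    (hqN : ¬ q ∣ N) {g : Gamma0 N} (hg : ((dM N m h g : (ZMod m)ˣ) : ZMod m) = q)
    {ζ : ℂˣ} (hζ : IsPrimitiveRoot ζ q) (u : MfG hΓ) :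
    qExpand ℂ q (dia hΓ g u : LaurentSeries ℂ) * heckeW ζ q (u : LaurentSeries ℂ) ∈ MfG hΓ := by
  rcases eq_or_ne u 0 with rfl | hu0
  · rw [map_zero, ZeroMemClass.coe_zero, map_zero, zero_mul]
    exact zero_mem _
  · have h1 := IsCharG.of_pow (n := 1) hΓ u.2 (fun h => hu0 (Subtype.ext h))
    rw [pow_one] at h1
    exact (IsCharG.heckeT hΓ h1 hqN hg (by rw [Tm_oneG]; exact isNHG_one) hζ).mem_MfG hΓ


/-- commutation of operators with `dia` -/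
lemma dia_op {Γ : Subgroup SL(2,ℤ)} (hΓ : Adm N Γ) {κ : Type*} [Fintype κ] (F : HF Γ κ)
    (H : MfG hΓ → MfG hΓ)
    (hH : ∀ (u : MfG hΓ) (f b : ℍ → ℂ), IsXG N Γ 1 f → IsXG N Γ 1 b →
      (u : LaurentSeries ℂ) * lser b ^ 1 = lser f ^ 1 →
      (H u : LaurentSeries ℂ) * lser (NmG F b) ^ 1 = lser (NmG F f) ^ 1)
    (hs : ∀ (f : ℍ → ℂ), IsXG N Γ 1 f → ∀ g : Gamma0 N, NmG F (sl f g) = sl (NmG F f) g)
    (g : Gamma0 N) (u : MfG hΓ) : H (dia hΓ g u) = dia hΓ g (H u) := by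
  obtain ⟨f, B, hr⟩ := exists_Rp hΓ u.2
  have hb := isXG_jev hΓ B
  have hb0 := ef_jev_ne_zero hr.2.1
  have e1 : (u : LaurentSeries ℂ) * lser (ef (jev ℂ B)) ^ 1 = lser f ^ 1 := by
    rw [pow_one, pow_one, lser_ef (jev_mem B)]; exact hr.2.2
  have e2 := wit_dia hΓ isNHG_one hr.1 hb e1 g
  have e3 := hH _ _ _ (hr.1.sl_one' hΓ g) (hb.sl_one' hΓ g) e2
  have e4 := wit_dia hΓ isNHG_one (isXG_Nm_one hΓ F hr.1) (isXG_Nm_one hΓ F hb)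
    (hH _ _ _ hr.1 hb e1) g
  rw [hs f hr.1, hs _ hb, ← e4, pow_one] at e3
  have h0 : lser (sl (NmG F (ef (jev ℂ B))) g) ≠ 0 :=
    lser_ne_zero (((isXG_Nm_one hΓ F hb).sl_one' hΓ g).isP_one hΓ)
      (sl_ne_zero (NmG_ne_zero F hb.isA.mdiff hb0) _)
  exact Subtype.ext (mul_right_cancel₀ h0 e3)

lemma mk_eq_of_dM {γ γ' : Gamma0 N} (e : dM N m h γ = dM N m h γ') :
    (QuotientGroup.mk γ : Dl N (GH N m h H₀)) = QuotientGroup.mk γ' := by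
  rw [QuotientGroup.eq, Subgroup.mem_subgroupOf, mem_GH', map_mul, map_inv, e, inv_mul_cancel]
  exact one_mem _

include hΓ in
lemma sl_NmU {p : ℕ} [NeZero p] (hpN : p ∣ N) {f : ℍ → ℂ} (hf : IsXG N (GH N m h H₀) 1 f)
    (g : Gamma0 N) : NmG (hfUG N m h H₀ p hpN) (sl f g) = sl (NmG (hfUG N m h H₀ p hpN) f) g :=
  sl_NmG_tw hΓ _ _ _ _ (fun γ i => by
    rw [one_mul, inv_one, mul_one]
    exact mk_eq_of_dM (dM_U p hpN γ i)) hf g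

include hΓ in
lemma sl_NmT {q : ℕ} [Fact q.Prime] (hqN : ¬ q ∣ N) {g₀ : Gamma0 N}
    (hg : ((dM N m h g₀ : (ZMod m)ˣ) : ZMod m) = q) {f : ℍ → ℂ} (hf : IsXG N (GH N m h H₀) 1 f)
    (g : Gamma0 N) :
    NmG (hfTG N m h H₀ q hqN g₀ hg) (sl f g) = sl (NmG (hfTG N m h H₀ q hqN g₀ hg) f) g :=
  sl_NmG_tw hΓ _ _ _ _ (fun γ i => mk_eq_of_dM (dM_T q hqN hg γ i)) hf g

/-- `U_p` over `ℂ` -/
def UC {p : ℕ} [NeZero p] (hpN : p ∣ N) {ζ : ℂˣ} (hζ : IsPrimitiveRoot ζ p) (u : MfG hΓ) :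
    MfG hΓ := ⟨heckeW ζ p (u : LaurentSeries ℂ), heckeW_mem_MfG hΓ hpN hζ u.2⟩

/-- `T_q` over `ℂ` -/
def TC {q : ℕ} [Fact q.Prime] [NeZero q] (hqN : ¬ q ∣ N) {g : Gamma0 N}
    (hg : ((dM N m h g : (ZMod m)ˣ) : ZMod m) = q) {ζ : ℂˣ} (hζ : IsPrimitiveRoot ζ q)
    (u : MfG hΓ) : MfG hΓ :=
  ⟨qExpand ℂ q (dia hΓ g u : LaurentSeries ℂ) * heckeW ζ q (u : LaurentSeries ℂ),
    heckeT_mem_MfG hΓ hqN hg hζ u⟩

lemma coe_UC {p : ℕ} [NeZero p] (hpN : p ∣ N) {ζ : ℂˣ} (hζ : IsPrimitiveRoot ζ p) (u : MfG hΓ) :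
    (UC hΓ hpN hζ u : LaurentSeries ℂ) = heckeW ζ p (u : LaurentSeries ℂ) := rfl

lemma coe_TC {q : ℕ} [Fact q.Prime] [NeZero q] (hqN : ¬ q ∣ N) {g : Gamma0 N}
    (hg : ((dM N m h g : (ZMod m)ˣ) : ZMod m) = q) {ζ : ℂˣ} (hζ : IsPrimitiveRoot ζ q)
    (u : MfG hΓ) : (TC hΓ hqN hg hζ u : LaurentSeries ℂ) =
      qExpand ℂ q (dia hΓ g u : LaurentSeries ℂ) * heckeW ζ q (u : LaurentSeries ℂ) := rfl

lemma UC_dia {p : ℕ} [NeZero p] (hpN : p ∣ N) {ζ : ℂˣ} (hζ : IsPrimitiveRoot ζ p)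
    (g : Gamma0 N) (u : MfG hΓ) : UC hΓ hpN hζ (dia hΓ g u) = dia hΓ g (UC hΓ hpN hζ u) := by
  refine dia_op hΓ (hfUG N m h H₀ p hpN) (UC hΓ hpN hζ) ?_ ?_ g u
  · intro u f b hf hb he
    rw [coe_UC]
    exact wit_U hΓ isNHG_one hf hb he p hpN hζ
  · intro f hf g
    exact sl_NmU hΓ hpN hf g

lemma TC_dia {q : ℕ} [Fact q.Prime] [NeZero q] (hqN : ¬ q ∣ N) {g₀ : Gamma0 N}
    (hg : ((dM N m h g₀ : (ZMod m)ˣ) : ZMod m) = q) {ζ : ℂˣ} (hζ : IsPrimitiveRoot ζ q)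
    (g : Gamma0 N) (u : MfG hΓ) :
    TC hΓ hqN hg hζ (dia hΓ g u) = dia hΓ g (TC hΓ hqN hg hζ u) := by
  refine dia_op hΓ (hfTG N m h H₀ q hqN g₀ hg) (TC hΓ hqN hg hζ) ?_ ?_ g u
  · intro u f b hf hb he
    rw [coe_TC]
    exact wit_T hΓ isNHG_one hf hb he hqN hg hζ
  · intro f hf g
    exact sl_NmT hΓ hqN hg hf g

end Fam

end Fermat.Agent.AnJacH
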