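import Fermat.Agent.AnJacH.KX
import Fermat.Agent.AnJacH.GenH

/-!
# Hecke operators for `Γ`
-/

set_option autoImplicit false
set_option linter.unusedSectionVars false

open UpperHalfPlane ModularForm MatrixGroups Matrix.SpecialLinearGroup Filter Function
open scoped Manifold Topology

noncomputable section

namespace Fermat.Agent.AnJacH

open Fermat.Agent.AnJac Fermat.Agent.DimS2 Fermat.Agent.ModFun CongruenceSubgroup AlgebraicCurve
open ModularCurve IntermediateField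
open Fermat.Agent.GenusX0 (zetaU zetaU_prim)
open P2MW.S_ModularForm_heckeT_slash_eq_self_of_mem_Gamma0.ModularForm.HeckeSlashInvariance

variable {N : ℕ} {Γ : Subgroup SL(2,ℤ)} [NeZero N] (hΓ : Adm N Γ)

section HFG

variable {κ : Type*} [Fintype κ] (F : HF Γ κ)

/-- norm along a Hecke family -/
def NmG (G : ℍ → ℂ) : ℍ → ℂ := ∏ i, fun τ => G (F.A i • τ)

lemma NmG_apply (G : ℍ → ℂ) (τ : ℍ) : NmG F G τ = ∏ i, G (F.A i • τ) := by
  rw [NmG, Finset.prod_apply]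

/-- trace along a Hecke family -/
def SmG (G : ℍ → ℂ) : ℍ → ℂ := ∑ i, fun τ => G (F.A i • τ)

lemma SmG_apply (G : ℍ → ℂ) (τ : ℍ) : SmG F G τ = ∑ i, G (F.A i • τ) := by
  rw [SmG, Finset.sum_apply]

lemma comp_A {χ : Γ →* ℂˣ} {G : ℍ → ℂ} (hG : IsXG N Γ χ G) (γ : Γ) (i : κ) (τ : ℍ) :
    G (F.A i • ((γ : SL(2,ℤ)) • τ)) = (χ (F.g γ i) : ℂ) * G (F.A (F.s γ i) • τ) := by
  rw [← hG.inv]
  congr 1
  rw [SL_smul_eq, SL_smul_eq, ← mul_smul, ← mul_smul]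
  exact congrArg (fun B : GL (Fin 2) ℝ => B • τ) (F.spec γ i)

include hΓ in
theorem isXG_Nm {χ : Γ →* ℂˣ} {G : ℍ → ℂ} (hG : IsXG N Γ χ G) (hnh : IsNHG (F.Tm χ)) :
    IsXG N Γ (F.Tm χ) (NmG F G) := by
  refine IsXG.of hΓ hnh ?_ ?_ ?_
  · exact mdiff_prod _ fun i _ => mdiff_comp_GL hG.isA.mdiff (F.pos i)
  · intro γ τ
    rw [NmG_apply, NmG_apply, HF.Tm_apply]
    simp only [comp_A F hG]
    rw [Finset.prod_mul_distrib, Units.coe_prod]
    congr 1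
    exact Equiv.prod_comp (F.sE γ) (fun i => G (F.A i • τ))
  · exact MGA.prod _ fun i _ => MGA.comp_int hG.isA.mga (F.pos i) (F.int i)

lemma MGA.sum {κ : Type*} (s : Finset κ) {f : κ → ℍ → ℂ} (hf : ∀ i ∈ s, MGA (f i)) :
    MGA (∑ i ∈ s, f i) := by
  classical
  induction s using Finset.induction_on with
  | empty => exact fun δ => mg_const 0
  | insert a s ha ih =>
    rw [Finset.sum_insert ha]
    exact fun δ => (hf a (Finset.mem_insert_self _ _) δ).add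
      (ih (fun i hi => hf i (Finset.mem_insert_of_mem hi)) δ)

lemma mdiff_sum {κ : Type*} (s : Finset κ) {f : κ → ℍ → ℂ} (hf : ∀ i ∈ s, MDiff (f i)) :
    MDiff (∑ i ∈ s, f i) := by
  classical
  induction s using Finset.induction_on with
  | empty => exact mdifferentiable_const
  | insert a s ha ih =>
    rw [Finset.sum_insert ha]
    exact (hf a (Finset.mem_insert_self _ _)).add (ih fun i hi => hf i (Finset.mem_insert_of_mem hi))

lemma Tm_oneG {M : Type*} [CommGroup M] : F.Tm (1 : Γ →* M) = 1 := by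
  ext γ
  rw [HF.Tm_apply]
  simp

include hΓ in
theorem isXG_Nm_one {G : ℍ → ℂ} (hG : IsXG N Γ 1 G) : IsXG N Γ 1 (NmG F G) := by
  have := isXG_Nm hΓ F hG (by rw [Tm_oneG]; exact isNHG_one)
  rwa [Tm_oneG] at this

include hΓ in
theorem isXG_Sm {G : ℍ → ℂ} (hG : IsXG N Γ 1 G) : IsXG N Γ 1 (SmG F G) := by
  refine IsXG.of hΓ isNHG_one ?_ ?_ ?_
  · exact mdiff_sum _ fun i _ => mdiff_comp_GL hG.isA.mdiff (F.pos i)
  · intro γ τ
    rw [SmG_apply, SmG_apply, MonoidHom.one_apply, Units.val_one, one_mul]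
    have h1 : ∀ i, G (F.A i • ((γ : SL(2,ℤ)) • τ)) = G (F.A (F.s γ i) • τ) := by
      intro i
      rw [comp_A F hG]
      simp
    simp only [h1]
    exact Equiv.sum_comp (F.sE γ) (fun i => G (F.A i • τ))
  · exact MGA.sum _ fun i _ => MGA.comp_int hG.isA.mga (F.pos i) (F.int i)

lemma NmG_mul (G H : ℍ → ℂ) : NmG F (G * H) = NmG F G * NmG F H := by
  ext τ
  rw [Pi.mul_apply, NmG_apply, NmG_apply, NmG_apply, ← Finset.prod_mul_distrib]
  rfl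

lemma NmG_ne_zero {G : ℍ → ℂ} (hG : MDiff G) (h0 : G ≠ 0) : NmG F G ≠ 0 := by
  intro h
  rw [NmG, prod_eq_zero_iff (fun i _ => mdiff_comp_GL hG (F.pos i))] at h
  obtain ⟨i, _, hi⟩ := h
  exact comp_GL_ne_zero h0 _ hi

end HFG

/-! ### twisting families for `Γ₀(N)` -/

/-- twist of a Hecke family -/
def twHF {κ : Type*} (F : HF (Gamma0 N) κ) (σ : κ → Gamma0 N) (hle : Γ ≤ Gamma0 N)
    (h : ∀ γ : Gamma0 N, (γ : SL(2,ℤ)) ∈ Γ → ∀ i,
      ((σ i * F.g γ i * (σ (F.s γ i))⁻¹ : Gamma0 N) : SL(2,ℤ)) ∈ Γ) : HF Γ κ where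
  A i := gl (σ i : SL(2,ℤ)) * F.A i
  pos i := by
    have h1 : (gl (σ i : SL(2,ℤ))).det = 1 := by
      ext
      simp [gl]
    rw [map_mul, h1, one_mul]
    exact F.pos i
  int i := by
    obtain ⟨M, hM⟩ := F.int i
    refine ⟨(σ i : SL(2,ℤ)) * M, ?_⟩
    rw [Units.val_mul, hM]
    have h1 := Matrix.map_mul (L := ((σ i : SL(2,ℤ)) : Matrix (Fin 2) (Fin 2) ℤ)) (M := M)
      (f := Int.castRingHom ℝ)
    exact h1.symm
  tr γ i := by
    set γ' : Gamma0 N := ⟨γ, hle γ.2⟩ with hγ'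
    refine ⟨⟨_, h γ' γ.2 i⟩, F.s γ' i, ?_⟩
    have h1 := F.spec γ' i
    have h2 : gl (γ : SL(2,ℤ)) = gl (γ' : SL(2,ℤ)) := rfl
    rw [h2, mul_assoc, h1]
    simp only [Subgroup.coe_mul, Subgroup.coe_inv]
    rw [← mul_assoc, ← gl_mul, ← mul_assoc, ← gl_mul, inv_mul_cancel_right]
  uniq i j g e := by
    apply F.uniq i j ((σ i : SL(2,ℤ))⁻¹ * g * σ j)
    rw [gl_mul, gl_mul, mul_assoc, mul_assoc, ← e, ← mul_assoc, ← gl_mul, inv_mul_cancel]
    simp [gl]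

/-- norms along twisted families commute with translations -/
lemma sl_NmG_tw {κ : Type*} [Fintype κ] (hΓ : Adm N Γ) (F : HF (Gamma0 N) κ) (σ : κ → Gamma0 N)
    (hle : Γ ≤ Gamma0 N)
    (h : ∀ γ : Gamma0 N, (γ : SL(2,ℤ)) ∈ Γ → ∀ i,
      ((σ i * F.g γ i * (σ (F.s γ i))⁻¹ : Gamma0 N) : SL(2,ℤ)) ∈ Γ)
    (h' : ∀ (γ : Gamma0 N) i,
      (QuotientGroup.mk (σ i * F.g γ i * (σ (F.s γ i))⁻¹) : Dl N Γ) = QuotientGroup.mk γ)
    {f : ℍ → ℂ} (hf : IsXG N Γ 1 f) (g : Gamma0 N) :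
    NmG (twHF F σ hle h) (sl f g) = sl (NmG (twHF F σ hle h) f) g := by
  ext τ
  rw [sl_apply, NmG_apply, NmG_apply]
  have h1 : ∀ i, f ((twHF F σ hle h).A i • ((g : SL(2,ℤ)) • τ)) =
      sl f g ((twHF F σ hle h).A (F.s g i) • τ) := by
    intro i
    rw [← hf.sl_congr hΓ (h' g i), sl_apply]
    congr 1
    rw [SL_smul_eq, SL_smul_eq, ← mul_smul, ← mul_smul]
    refine congrArg (fun B : GL (Fin 2) ℝ => B • τ) ?_
    change gl (σ i : SL(2,ℤ)) * F.A i * gl (g : SL(2,ℤ)) =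
      gl ((σ i * F.g g i * (σ (F.s g i))⁻¹ : Gamma0 N) : SL(2,ℤ)) *
        (gl (σ (F.s g i) : SL(2,ℤ)) * F.A (F.s g i))
    rw [mul_assoc, F.spec g i]
    simp only [Subgroup.coe_mul, Subgroup.coe_inv]
    rw [← mul_assoc, ← gl_mul, ← mul_assoc, ← gl_mul, inv_mul_cancel_right]
  simp only [h1]
  exact (Equiv.prod_comp (F.sE g) (fun i => sl f g ((twHF F σ hle h).A i • τ))).symm

section GHfam

variable {m : ℕ} {h : m ∣ N} {H₀ : Subgroup (ZMod m)ˣ}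

lemma mem_GH_of_dM {γ γ' : Gamma0 N} (e : dM N m h γ = dM N m h γ')
    (hγ : (γ' : SL(2,ℤ)) ∈ GH N m h H₀) : (γ : SL(2,ℤ)) ∈ GH N m h H₀ := by
  rw [mem_GH'] at hγ ⊢
  rwa [e]

lemma entry_cast (N : ℕ) (γ : Gamma0 N) {m : ℕ} (h : m ∣ N) :
    (((γ : SL(2,ℤ)) 1 0 : ℤ) : ZMod m) = 0 := by
  rw [ZMod.intCast_zmod_eq_zero_iff_dvd]
  have hγ := γ.2
  rw [Gamma0_mem, ZMod.intCast_zmod_eq_zero_iff_dvd] at hγ
  exact (Int.natCast_dvd_natCast.mpr h).trans hγ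

/-- entries in a relation between upper triangular matrices -/
lemma entry_int {a b d a' b' d' : ℤ} {A A' : GL (Fin 2) ℝ} {γ g : SL(2,ℤ)}
    (hA : (A : Matrix (Fin 2) (Fin 2) ℝ) = !![(a : ℝ), b; 0, d])
    (hA' : (A' : Matrix (Fin 2) (Fin 2) ℝ) = !![(a' : ℝ), b'; 0, d'])
    (e : A * gl γ = gl g * A') :
    d * γ 1 0 = g 1 0 * a' ∧ d * γ 1 1 = g 1 0 * b' + g 1 1 * d' := by
  have h0 := congrArg (fun B : GL (Fin 2) ℝ => (B : Matrix (Fin 2) (Fin 2) ℝ) 1 0) e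
  have h1 := congrArg (fun B : GL (Fin 2) ℝ => (B : Matrix (Fin 2) (Fin 2) ℝ) 1 1) e
  simp only [Units.val_mul, hA, hA', Matrix.mul_apply, Fin.sum_univ_two] at h0 h1
  simp [gl] at h0 h1
  exact ⟨by exact_mod_cast h0, by exact_mod_cast h1⟩

/-- entries in a relation between upper triangular matrices -/
lemma entry_rel {a b d a' b' d' : ℤ} {A A' : GL (Fin 2) ℝ} {γ g : Gamma0 N}
    (hA : (A : Matrix (Fin 2) (Fin 2) ℝ) = !![(a : ℝ), b; 0, d])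
    (hA' : (A' : Matrix (Fin 2) (Fin 2) ℝ) = !![(a' : ℝ), b'; 0, d'])
    (e : A * gl γ = gl g * A') (h : m ∣ N) :
    ((d : ℤ) : ZMod m) * (((γ : SL(2,ℤ)) 1 1 : ℤ) : ZMod m) =
      (((g : SL(2,ℤ)) 1 1 : ℤ) : ZMod m) * ((d' : ℤ) : ZMod m) := by
  have h2 := (entry_int hA hA' e).2
  have h3 := congrArg (fun z : ℤ => (z : ZMod m)) h2
  push_cast at h3
  rw [entry_cast N g h, zero_mul, zero_add] at h3
  exact h3

lemma val_heckeM {p : ℕ} (hp : p ≠ 0) (j : ℕ) : ((heckeMatrix p j : GL (Fin 2) ℝ) :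
    Matrix (Fin 2) (Fin 2) ℝ) = !![((1 : ℤ) : ℝ), ((j : ℤ) : ℝ); 0, ((p : ℤ) : ℝ)] := by
  rw [val_heckeMatrix hp]; simp

lemma val_heckeD {p : ℕ} (hp : p ≠ 0) : ((heckeDiagMatrix p : GL (Fin 2) ℝ) :
    Matrix (Fin 2) (Fin 2) ℝ) = !![((p : ℤ) : ℝ), ((0 : ℤ) : ℝ); 0, ((1 : ℤ) : ℝ)] := by
  rw [val_heckeDiagMatrix hp]; simp

/-- the family `U_p` preserves the lower right entry -/
lemma dM_U (p : ℕ) [hp : NeZero p] (hpN : p ∣ N) (γ : Gamma0 N) (i : ZMod p) :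
    dM N m h ((hfU N p hpN).g γ i) = dM N m h γ := by
  have hA : ∀ j : ZMod p, (((hfU N p hpN).A j : GL (Fin 2) ℝ) : Matrix (Fin 2) (Fin 2) ℝ) =
    !![((1 : ℤ) : ℝ), ((j.val : ℤ) : ℝ); 0, ((p : ℤ) : ℝ)] := fun j => val_heckeM hp.out _
  obtain ⟨h0, h1⟩ := entry_int (hA i) (hA _) ((hfU N p hpN).spec γ i)
  have hp0 : (p : ℤ) ≠ 0 := by exact_mod_cast hp.out
  have h2 : ((hfU N p hpN).g γ i : SL(2,ℤ)) 1 1 =
      (γ : SL(2,ℤ)) 1 1 - (γ : SL(2,ℤ)) 1 0 * (((hfU N p hpN).s γ i).val : ℤ) := by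
    apply mul_left_cancel₀ hp0
    rw [mul_one] at h0
    rw [← h0] at h1
    linear_combination -h1
  apply Units.ext
  rw [coe_dM, coe_dM, h2]
  push_cast
  rw [entry_cast N γ h, zero_mul, sub_zero]

variable (N m h) in
/-- the family `U_p` for `Γ_H` -/
def hfUG (H₀ : Subgroup (ZMod m)ˣ) (p : ℕ) [hp : NeZero p] (hpN : p ∣ N) :
    HF (GH N m h H₀) (ZMod p) :=
  twHF (hfU N p hpN) (fun _ => 1) GH_le (fun γ hγ i => by
    rw [one_mul, inv_one, mul_one]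
    exact mem_GH_of_dM (dM_U p hpN γ i) hγ)

open Classical in
/-- the lower right entry of the representatives of `T_q` -/
def dlow (q : ℕ) (i : OnePoint (ZMod q)) : ℤ := if i = OnePoint.infty then 1 else q

lemma exists_val_heckeRep {q : ℕ} (hq : q ≠ 0) (i : OnePoint (ZMod q)) : ∃ a b : ℤ,
    ((heckeRep q i : GL (Fin 2) ℝ) : Matrix (Fin 2) (Fin 2) ℝ) =
      !![(a : ℝ), b; 0, (dlow q i : ℤ)] := by
  induction i using OnePoint.rec with
  | infty => exact ⟨q, 0, by rw [dlow, if_pos rfl]; exact val_heckeD hq⟩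
  | coe x => exact ⟨1, x.val, by
      rw [dlow, if_neg (OnePoint.coe_ne_infty x)]; exact val_heckeM hq x.val⟩

open Classical in
/-- twisting elements for `T_q` -/
def sgT (q : ℕ) (g : Gamma0 N) (i : OnePoint (ZMod q)) : Gamma0 N :=
  if i = OnePoint.infty then g else 1

lemma sgT_dlow {q : ℕ} {g : Gamma0 N} (hg : ((dM N m h g : (ZMod m)ˣ) : ZMod m) = q)
    (i : OnePoint (ZMod q)) :
    ((dM N m h (sgT q g i) : (ZMod m)ˣ) : ZMod m) * ((dlow q i : ℤ) : ZMod m) = q := by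
  unfold sgT dlow
  split_ifs with hi
  · rw [hg]; push_cast; rw [mul_one]
  · rw [map_one]; push_cast; rw [one_mul]

/-- the family `T_q` preserves the lower right entry -/
lemma dM_T (q : ℕ) [hq : Fact q.Prime] (hqN : ¬ q ∣ N) {g : Gamma0 N}
    (hg : ((dM N m h g : (ZMod m)ˣ) : ZMod m) = q) (γ : Gamma0 N) (i : OnePoint (ZMod q)) :
    dM N m h (sgT q g i * (hfT N q hqN).g γ i * (sgT q g ((hfT N q hqN).s γ i))⁻¹) =
      dM N m h γ := by
  have hq0 : q ≠ 0 := hq.out.ne_zero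
  obtain ⟨a, b, hA⟩ := exists_val_heckeRep hq0 i
  obtain ⟨a', b', hA'⟩ := exists_val_heckeRep hq0 ((hfT N q hqN).s γ i)
  have h1 := entry_rel (m := m) hA hA' ((hfT N q hqN).spec γ i) h
  have h2 := sgT_dlow (h := h) hg i
  have h3 := sgT_dlow (h := h) hg ((hfT N q hqN).s γ i)
  have hu : IsUnit (q : ZMod m) := by rw [← hg]; exact Units.isUnit _
  rw [map_mul, map_mul, map_inv, mul_inv_eq_iff_eq_mul]
  apply Units.ext
  have h4 : IsUnit ((dlow q ((hfT N q hqN).s γ i) : ℤ) : ZMod m) :=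
    isUnit_of_mul_isUnit_right (by rw [h3]; exact hu)
  rw [Units.val_mul, Units.val_mul]
  apply h4.mul_right_cancel
  rw [mul_assoc ((dM N m h γ : (ZMod m)ˣ) : ZMod m), h3, ← h2]
  rw [coe_dM N m h ((hfT N q hqN).g γ i), coe_dM N m h γ] at *
  rw [mul_assoc, ← h1]
  ring

variable (N m h) in
/-- the family `T_q` for `Γ_H` -/
def hfTG (H₀ : Subgroup (ZMod m)ˣ) (q : ℕ) [hq : Fact q.Prime] (hqN : ¬ q ∣ N) (g : Gamma0 N)
    (hg : ((dM N m h g : (ZMod m)ˣ) : ZMod m) = q) :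
    HF (GH N m h H₀) (OnePoint (ZMod q)) :=
  twHF (hfT N q hqN) (sgT q g) GH_le (fun γ hγ i => mem_GH_of_dM (dM_T q hqN hg γ i) hγ)

end GHfam

end Fermat.Agent.AnJacH
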