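import Fermat.Agent.AnJacH.HeckeFG

/-!
# Hecke operators on the Kummer system of `Γ_H`
-/

set_option autoImplicit false
set_option linter.unusedSectionVars false

open UpperHalfPlane ModularForm MatrixGroups Matrix.SpecialLinearGroup Filter Function
open scoped Manifold Topology

noncomputable section

namespace Fermat.Agent.AnJacH

open Fermat.Agent.AnJac Fermat.Agent.DimS2 Fermat.Agent.ModFun CongruenceSubgroup AlgebraicCurve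
open ModularCurve IntermediateField
open Fermat.Agent.GenusX0 (zetaU zetaU_prim)

variable {N : ℕ} [NeZero N] {m : ℕ} {h : m ∣ N} {H₀ : Subgroup (ZMod m)ˣ}
  {hΓ : Adm N (GH N m h H₀)}
variable {k : Type*} [Field k] [IsAlgClosed k] [CharZero k] (ι : k →+* ℂ)
  {θ : MfG hΓ} (hθ : IsGen hΓ θ)

/-- `U_p` on the function field over `k` -/
def FUG {p : ℕ} [NeZero p] (hpN : p ∣ N) {ζ : kˣ} (hζ : IsPrimitiveRoot ζ p) (u : FG hΓ ι) :
    FG hΓ ι :=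
  ⟨heckeW ζ p (u : LaurentSeries k), by
    rw [mem_FG, coeffMap_heckeW ι hζ]
    exact heckeW_mem_MfG hΓ hpN (isPrimitiveRoot_map ι hζ) u.2⟩

lemma coe_FUG {p : ℕ} [NeZero p] (hpN : p ∣ N) {ζ : kˣ} (hζ : IsPrimitiveRoot ζ p) (u : FG hΓ ι) :
    (FUG ι hpN hζ u : LaurentSeries k) = heckeW ζ p (u : LaurentSeries k) := rfl

lemma toC_FUG {p : ℕ} [NeZero p] (hpN : p ∣ N) {ζ : kˣ} (hζ : IsPrimitiveRoot ζ p) (u : FG hΓ ι) :
    toC hΓ ι (FUG ι hpN hζ u) = UC hΓ hpN (isPrimitiveRoot_map ι hζ) (toC hΓ ι u) := by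
  apply Subtype.ext
  rw [coe_toC, coe_FUG, coe_UC, coe_toC, coeffMap_heckeW ι hζ]

lemma coeffMap_TG {q : ℕ} [NeZero q] (g : Gamma0 N) {ζ : kˣ} (hζ : IsPrimitiveRoot ζ q)
    (u : FG hΓ ι) :
    coeffMap ι (qExpand k q (diaK ι hθ g u : LaurentSeries k) * heckeW ζ q (u : LaurentSeries k)) =
      qExpand ℂ q (dia hΓ g (toC hΓ ι u) : LaurentSeries ℂ) *
        heckeW (Units.map (ι : k →* ℂ) ζ) q (toC hΓ ι u : LaurentSeries ℂ) := by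
  rw [map_mul, coeffMap_heckeW ι hζ, coeffMap_qExpand, ← toC_diaK ι hθ]
  rfl

/-- `T_q` on the function field over `k` -/
def FTG {q : ℕ} [Fact q.Prime] [NeZero q] (hqN : ¬ q ∣ N) {g : Gamma0 N}
    (hg : ((dM N m h g : (ZMod m)ˣ) : ZMod m) = q) {ζ : kˣ} (hζ : IsPrimitiveRoot ζ q)
    (u : FG hΓ ι) : FG hΓ ι :=
  ⟨qExpand k q (diaK ι hθ g u : LaurentSeries k) * heckeW ζ q (u : LaurentSeries k), by
    rw [mem_FG, coeffMap_TG ι hθ g hζ]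
    exact heckeT_mem_MfG hΓ hqN hg (isPrimitiveRoot_map ι hζ) (toC hΓ ι u)⟩

lemma coe_FTG {q : ℕ} [Fact q.Prime] [NeZero q] (hqN : ¬ q ∣ N) {g : Gamma0 N}
    (hg : ((dM N m h g : (ZMod m)ˣ) : ZMod m) = q) {ζ : kˣ} (hζ : IsPrimitiveRoot ζ q)
    (u : FG hΓ ι) : (FTG ι hθ hqN hg hζ u : LaurentSeries k) =
      qExpand k q (diaK ι hθ g u : LaurentSeries k) * heckeW ζ q (u : LaurentSeries k) := rfl

lemma toC_FTG {q : ℕ} [Fact q.Prime] [NeZero q] (hqN : ¬ q ∣ N) {g : Gamma0 N}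
    (hg : ((dM N m h g : (ZMod m)ˣ) : ZMod m) = q) {ζ : kˣ} (hζ : IsPrimitiveRoot ζ q)
    (u : FG hΓ ι) :
    toC hΓ ι (FTG ι hθ hqN hg hζ u) = TC hΓ hqN hg (isPrimitiveRoot_map ι hζ) (toC hΓ ι u) := by
  apply Subtype.ext
  rw [coe_toC, coe_FTG, coe_TC, coeffMap_TG ι hθ g hζ]

lemma FUG_dia {p : ℕ} [NeZero p] (hpN : p ∣ N) {ζ : kˣ} (hζ : IsPrimitiveRoot ζ p)
    (g : Gamma0 N) (u : FG hΓ ι) :
    FUG ι hpN hζ (diaK ι hθ g u) = diaK ι hθ g (FUG ι hpN hζ u) := by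
  apply toC_inj hΓ ι
  rw [toC_FUG, toC_diaK, toC_diaK, toC_FUG, UC_dia]

lemma FTG_dia {q : ℕ} [Fact q.Prime] [NeZero q] (hqN : ¬ q ∣ N) {g₀ : Gamma0 N}
    (hg : ((dM N m h g₀ : (ZMod m)ˣ) : ZMod m) = q) {ζ : kˣ} (hζ : IsPrimitiveRoot ζ q)
    (g : Gamma0 N) (u : FG hΓ ι) :
    FTG ι hθ hqN hg hζ (diaK ι hθ g u) = diaK ι hθ g (FTG ι hθ hqN hg hζ u) := by
  apply toC_inj hΓ ι
  rw [toC_FTG, toC_diaK, toC_diaK, toC_FTG, TC_dia]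

lemma FUG_mul {p : ℕ} [NeZero p] (hpN : p ∣ N) {ζ : kˣ} (hζ : IsPrimitiveRoot ζ p)
    (u v : FG hΓ ι) : FUG ι hpN hζ (u * v) = FUG ι hpN hζ u * FUG ι hpN hζ v :=
  Subtype.ext (heckeW_mul hζ _ _)

lemma FTG_mul {q : ℕ} [Fact q.Prime] [NeZero q] (hqN : ¬ q ∣ N) {g : Gamma0 N}
    (hg : ((dM N m h g : (ZMod m)ˣ) : ZMod m) = q) {ζ : kˣ} (hζ : IsPrimitiveRoot ζ q)
    (u v : FG hΓ ι) : FTG ι hθ hqN hg hζ (u * v) = FTG ι hθ hqN hg hζ u * FTG ι hθ hqN hg hζ v := by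
  apply Subtype.ext
  rw [coe_FTG, map_mul]
  change qExpand k q ((diaK ι hθ g u : LaurentSeries k) * (diaK ι hθ g v : LaurentSeries k)) *
    heckeW ζ q ((u : LaurentSeries k) * (v : LaurentSeries k)) =
    (qExpand k q (diaK ι hθ g u : LaurentSeries k) * heckeW ζ q (u : LaurentSeries k)) *
    (qExpand k q (diaK ι hθ g v : LaurentSeries k) * heckeW ζ q (v : LaurentSeries k))
  rw [map_mul, heckeW_mul hζ]
  ring

lemma FUG_one {p : ℕ} [NeZero p] (hpN : p ∣ N) {ζ : kˣ} (hζ : IsPrimitiveRoot ζ p) :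
    FUG ι hpN hζ (1 : FG hΓ ι) = 1 := Subtype.ext (heckeW_one hζ)

lemma FTG_one {q : ℕ} [Fact q.Prime] [NeZero q] (hqN : ¬ q ∣ N) {g : Gamma0 N}
    (hg : ((dM N m h g : (ZMod m)ˣ) : ZMod m) = q) {ζ : kˣ} (hζ : IsPrimitiveRoot ζ q) :
    FTG ι hθ hqN hg hζ (1 : FG hΓ ι) = 1 := by
  apply Subtype.ext
  rw [coe_FTG, map_one]
  change qExpand k q (1 : LaurentSeries k) * heckeW ζ q (1 : LaurentSeries k) = 1
  rw [map_one, heckeW_one hζ, one_mul]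

section Act

variable {G : Type*} [Group G] (f : G →* RingAut k)

lemma FUG_act {p : ℕ} [NeZero p] (hpN : p ∣ N) {ζ : kˣ} (hζ : IsPrimitiveRoot ζ p) (σ : G)
    (u : FG hΓ ι) :
    FUG ι hpN hζ (actFG ι hθ f σ u) = actFG ι hθ f σ (FUG ι hpN hζ u) := by
  apply Subtype.ext
  exact (coeffMap_heckeW' ((f σ : RingAut k) : k →+* k) hζ hζ (u : LaurentSeries k)).symm

lemma diaK_act (g : Gamma0 N) (σ : G) (u : FG hΓ ι) :
    diaK ι hθ g (actFG ι hθ f σ u) = actFG ι hθ f σ (diaK ι hθ g u) := diaK_galK ι hθ (f σ) g u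

lemma FTG_act {q : ℕ} [Fact q.Prime] [NeZero q] (hqN : ¬ q ∣ N) {g : Gamma0 N}
    (hg : ((dM N m h g : (ZMod m)ˣ) : ZMod m) = q) {ζ : kˣ} (hζ : IsPrimitiveRoot ζ q) (σ : G)
    (u : FG hΓ ι) :
    FTG ι hθ hqN hg hζ (actFG ι hθ f σ u) = actFG ι hθ f σ (FTG ι hθ hqN hg hζ u) := by
  apply Subtype.ext
  rw [coe_FTG, diaK_act, coe_actFG, coe_actFG, coe_actFG, coe_FTG, map_mul,
    coeffMap_heckeW' ((f σ : RingAut k) : k →+* k) hζ hζ, coeffMap_qExpand]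

/-! ### the lattice operators -/

variable (N m h H₀) in
/-- `U_p` on the lattice -/
def LUG (p : ℕ) [NeZero p] (hpN : p ∣ N) : LatG (GH N m h H₀) →+ LatG (GH N m h H₀) :=
  ((hfUG N m h H₀ p hpN).T.comp (LatG (GH N m h H₀)).subtype).codRestrict _
    fun φ => (hfUG N m h H₀ p hpN).T_mem φ.2

variable (N m h H₀) in
/-- `T_q` on the lattice -/
def LTG (q : ℕ) [Fact q.Prime] (hqN : ¬ q ∣ N) (g : Gamma0 N)
    (hg : ((dM N m h g : (ZMod m)ˣ) : ZMod m) = q) :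
    LatG (GH N m h H₀) →+ LatG (GH N m h H₀) :=
  ((hfTG N m h H₀ q hqN g hg).T.comp (LatG (GH N m h H₀)).subtype).codRestrict _
    fun φ => (hfTG N m h H₀ q hqN g hg).T_mem φ.2

end Act

/-- `dia` on homomorphisms -/
def dHom {Γ : Subgroup SL(2,ℤ)} (hΓ : Adm N Γ) (M : Type*) [AddCommGroup M] (g : Gamma0 N) :
    (Additive Γ →+ M) →+ (Additive Γ →+ M) where
  toFun φ := φ.comp (MonoidHom.toAdditive (conjH hΓ g))
  map_zero' := rfl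
  map_add' _ _ := rfl

lemma dHom_apply {Γ : Subgroup SL(2,ℤ)} (hΓ : Adm N Γ) {M : Type*} [AddCommGroup M] (g : Gamma0 N)
    (φ : Additive Γ →+ M) (γ : Γ) :
    dHom hΓ M g φ (Additive.ofMul γ) = φ (Additive.ofMul (conjH hΓ g γ)) := rfl

lemma dHom_mem {Γ : Subgroup SL(2,ℤ)} (hΓ : Adm N Γ) {M : Type*} [AddCommGroup M] (g : Gamma0 N)
    {φ : Additive Γ →+ M} (hφ : φ ∈ NHA Γ M) : dHom hΓ M g φ ∈ NHA Γ M := by
  have h1 : IsNHG (AddMonoidHom.toMultiplicativeRight φ : Γ →* Multiplicative M) := fun γ hγ =>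
    hφ γ hγ
  exact fun γ hγ => h1.conjH hΓ g γ hγ

lemma ech_dHom {Γ : Subgroup SL(2,ℤ)} (hΓ : Adm N Γ) (g : Gamma0 N) (n : ℕ)
    (φ : Additive Γ →+ ℤ) : ech n (dHom hΓ ℤ g φ) = (ech n φ).comp (conjH hΓ g) := rfl

/-- `dia` on the lattice -/
def LdG {Γ : Subgroup SL(2,ℤ)} (hΓ : Adm N Γ) (g : Gamma0 N) : LatG Γ →+ LatG Γ :=
  ((dHom hΓ ℤ g).comp (LatG Γ).subtype).codRestrict _ fun φ => dHom_mem hΓ g φ.2

section Compat

variable {G : Type*} [Group G] (f : G →* RingAut k)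

lemma compat_LUG {p : ℕ} [NeZero p] (hpN : p ∣ N) {ζ : kˣ} (hζ : IsPrimitiveRoot ζ p) {n : ℕ} :
    (kXG ι hθ f).Compat n (LUG N m h H₀ p hpN) (FUG ι hpN hζ) := by
  intro φ u hu
  change IsCharG N _ n (coeffMap ι (heckeW ζ p (u : LaurentSeries k)))
    (ech n ((hfUG N m h H₀ p hpN).T (φ : Additive (GH N m h H₀) →+ ℤ)))
  rw [← Tm_ech, coeffMap_heckeW ι hζ]
  refine IsCharG.heckeU hΓ hu hpN ?_ (isPrimitiveRoot_map ι hζ)
  rw [Tm_ech]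
  exact isNHG_ech (LUG N m h H₀ p hpN φ).2

lemma compat_LTG {q : ℕ} [Fact q.Prime] [NeZero q] (hqN : ¬ q ∣ N) {g : Gamma0 N}
    (hg : ((dM N m h g : (ZMod m)ˣ) : ZMod m) = q) {ζ : kˣ} (hζ : IsPrimitiveRoot ζ q) {n : ℕ} :
    (kXG ι hθ f).Compat n (LTG N m h H₀ q hqN g hg) (FTG ι hθ hqN hg hζ) := by
  intro φ u hu
  change IsCharG N _ n (coeffMap ι (qExpand k q (diaK ι hθ g u : LaurentSeries k) *
    heckeW ζ q (u : LaurentSeries k)))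
    (ech n ((hfTG N m h H₀ q hqN g hg).T (φ : Additive (GH N m h H₀) →+ ℤ)))
  rw [← Tm_ech, coeffMap_TG ι hθ g hζ]
  refine IsCharG.heckeT hΓ (u := toC hΓ ι u) hu hqN hg ?_ (isPrimitiveRoot_map ι hζ)
  rw [Tm_ech]
  exact isNHG_ech (LTG N m h H₀ q hqN g hg φ).2

lemma compat_LdG (g : Gamma0 N) {n : ℕ} :
    (kXG ι hθ f).Compat n (LdG hΓ g) (diaK ι hθ g) := by
  intro φ u hu
  have h1 := IsCharG.dia hΓ (u := coeffMap ι (u : LaurentSeries k)) hu g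
  change IsCharG N _ n (toC hΓ ι (diaK ι hθ g u) : LaurentSeries ℂ) _
  rw [toC_diaK]
  exact h1

end Compat

end Fermat.Agent.AnJacH
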