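import Fermat.Agent.AnJacH.RdG
import Fermat.Agent.AnJacH.ClsOp

/-!
# Classes with trivial reduction, and the averaging trick
-/

set_option autoImplicit false
set_option linter.unusedSectionVars false

noncomputable section

namespace Fermat.Agent.AnJacH

open ModularCurve Fermat.Agent.ModFun Fermat.Agent.AnJac AlgebraicCurve IsLocalRing
open Fermat.Agent.HeckeQ CongruenceSubgroup MatrixGroups UpperHalfPlane Matrix
open scoped Pointwise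

local notation "Qbar" => AlgebraicClosure ℚ
local notation "GQ" => Qbar ≃ₐ[ℚ] Qbar

variable {N : ℕ} [NeZero N]

/-! ### restriction of homomorphisms -/

section Res

variable {Γ : Subgroup SL(2,ℤ)} (hΓ : Adm N Γ)

/-- restriction of homomorphisms -/
def resL : Lat N →+ LatG Γ where
  toFun φ := ⟨(φ : Additive (Gamma0 N) →+ ℤ).comp
    (MonoidHom.toAdditive (Subgroup.inclusion hΓ.le)), fun γ hγ => φ.2 _ hγ⟩
  map_zero' := rfl
  map_add' _ _ := rfl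

lemma IsChar.res {n : ℕ} {u : LaurentSeries ℂ} {χ : Gamma0 N →* ℂˣ} (hu : IsChar N n u χ) :
    IsCharG N Γ n u (χ.comp (Subgroup.inclusion hΓ.le)) := by
  obtain ⟨G, b, hG, hb, hG0, hb0, he⟩ := hu.ex
  refine ⟨fun γ hγ => hu.nh _ hγ, ?_, G, b, IsXG.of_isX hΓ hG, IsXG.of_isX_one hΓ hb, hG0, hb0, he⟩
  ext γ
  have := DFunLike.congr_fun hu.pw (Subgroup.inclusion hΓ.le γ)
  rw [MonoidHom.pow_apply] at this ⊢
  rw [MonoidHom.comp_apply, this]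
  rfl

lemma ClX.res {k : Type*} [Field k] [IsAlgClosed k] [CharZero k] (ι : k →+* ℂ) {n : ℕ} {φ : Lat N}
    {u : modularFunctionFieldFullC k N} (hu : ClX N ι n φ u) :
    ClG hΓ ι n (resL hΓ φ) (inN hΓ ι u) := IsChar.res hΓ hu

end Res

section Sc

variable {Γ : Subgroup SL(2,ℤ)} {hΓ : Adm N Γ} (hQ : MfG hΓ ≤ QZ ℂ) (ι : Qbar →+* ℂ)
  (A : ValuationSubring Qbar)

include hQ in
lemma sc_FG {u : FG hΓ ι} (hu : u ≠ 0) : Sc A (u : LaurentSeries Qbar) :=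
  exists_scale_FG ι hQ (residue A) hu

end Sc

variable {m : ℕ} {h : m ∣ N} {H₀ : Subgroup (ZMod m)ˣ} {hΓ : Adm N (GH N m h H₀)}
  {θ : MfG hΓ} (hθ : IsGen hΓ θ)

/-- the Kummer system -/
abbrev KG : KSys (FG hΓ ιQ) GQ (LatG (GH N m h H₀)) := kXG ιQ hθ fQ

/-- all translates have constant reduction -/
def RdA (A : ValuationSubring Qbar) (u : FG hΓ ιQ) : Prop :=
  ∀ g : Gamma0 N, RdC A (diaK ιQ hθ g u : LaurentSeries Qbar)

variable {A : ValuationSubring Qbar}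

lemma RdA.self {u : FG hΓ ιQ} (h : RdA hθ A u) : RdC A (u : LaurentSeries Qbar) := by
  have := h 1
  rwa [diaK_one] at this

lemma RdA.mul {u v : FG hΓ ιQ} (h : RdA hθ A u) (h' : RdA hθ A v) : RdA hθ A (u * v) := fun g => by
  rw [map_mul]; exact (h g).mul (h' g)

lemma RdA.inv {u : FG hΓ ιQ} (h : RdA hθ A u) : RdA hθ A u⁻¹ := fun g => by
  rw [map_inv₀]; exact (h g).inv

lemma RdA.div {u v : FG hΓ ιQ} (h : RdA hθ A u) (h' : RdA hθ A v) : RdA hθ A (u / v) := by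
  rw [div_eq_mul_inv]; exact h.mul hθ (h'.inv hθ)

lemma RdA.one : RdA hθ A 1 := fun g => by rw [map_one]; exact RdC.one

lemma RdA.pow {u : FG hΓ ιQ} (h : RdA hθ A u) (n : ℕ) : RdA hθ A (u ^ n) := fun g => by
  rw [map_pow]; exact (h g).pow n

lemma RdA.dia {u : FG hΓ ιQ} (h : RdA hθ A u) (g : Gamma0 N) : RdA hθ A (diaK ιQ hθ g u) :=
  fun g' => by rw [diaK_diaK]; exact h _

lemma RdA.of_pow (hQ : MfG hΓ ≤ QZ ℂ) {n : ℕ} (hn : n ≠ 0) {u : FG hΓ ιQ} (hu : u ≠ 0)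
    (h : RdA hθ A (u ^ n)) : RdA hθ A u := fun g => by
  have h1 := h g
  rw [map_pow] at h1
  exact RdC.of_pow hn (sc_FG hQ ιQ A ((map_ne_zero _).mpr hu)) h1

lemma RdC.gal {u : LaurentSeries Qbar} (h : RdC A u) {σ : GQ} (hσ : σ • A = A) :
    RdC A (coeffMap (σ : Qbar →+* Qbar) u) := by
  obtain ⟨c, hc, h1⟩ := h
  refine ⟨(σ : Qbar →+* Qbar) c, (map_ne_zero _).mpr hc, ?_⟩
  have h2 := h1.gal σ hσ
  rwa [map_one, map_mul, coeffMap_C] at h2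

lemma RdA.act {u : FG hΓ ιQ} (h : RdA hθ A u) {σ : GQ} (hσ : σ • A = A) :
    RdA hθ A (actFG ιQ hθ fQ σ u) := fun g => by
  rw [diaK_act, coe_actFG]
  exact (h g).gal hσ

variable (A) in
/-- classes with trivial reduction -/
def KT (n : ℕ) (x : Fin (Module.finrank ℤ (LatG (GH N m h H₀))) → ZMod n) : Prop :=
  ∃ u : FG hΓ ιQ, (KG hθ).Cls (bG hΓ) n u x ∧ RdA hθ A u

variable {hθ}

lemma KT.zero {n : ℕ} (hn : n ≠ 0) : KT hθ A n 0 := ⟨1, KSys.cls_one hn, RdA.one hθ⟩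

lemma KT.add {n : ℕ} {x y} (hx : KT hθ A n x) (hy : KT hθ A n y) : KT hθ A n (x + y) := by
  obtain ⟨u, hu, hu'⟩ := hx
  obtain ⟨v, hv, hv'⟩ := hy
  exact ⟨u * v, hu.mul hv, hu'.mul hθ hv'⟩

lemma KT.neg {n : ℕ} (hn : n ≠ 0) {x} (hx : KT hθ A n x) : KT hθ A n (-x) := by
  obtain ⟨u, hu, hu'⟩ := hx
  exact ⟨u⁻¹, hu.inv hn, hu'.inv hθ⟩

lemma KT.act {n : ℕ} (hn : n ≠ 0) {x} (hx : KT hθ A n x) {σ : GQ} (hσ : σ • A = A) :
    KT hθ A n ((KG hθ).M (bG hΓ) hn σ *ᵥ x) := by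
  obtain ⟨u, hu, hu'⟩ := hx
  exact ⟨_, hu.act hn σ, hu'.act hθ hσ⟩

lemma red_castHom {Λ : Type*} [AddCommGroup Λ] {r : ℕ} (b : Module.Basis (Fin r) ℤ Λ) (n m : ℕ)
    (φ : Λ) : (fun i => ZMod.castHom (dvd_mul_right n m) (ZMod n) (KSys.red b (n * m) φ i)) =
      KSys.red b n φ := by
  ext i
  rw [KSys.red_apply, KSys.red_apply, map_intCast]

lemma KT.lev {n m' : ℕ} (hn : n ≠ 0) (hm' : m' ≠ 0) {x} (hx : KT hθ A (n * m') x) :
    KT hθ A n (fun i => ZMod.castHom (dvd_mul_right n m') (ZMod n) (x i)) := by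
  obtain ⟨u, ⟨φ, hφ, rfl⟩, hu'⟩ := hx
  exact ⟨u, ⟨φ, (KG hθ).lev hn hm' hφ, (red_castHom _ n m' φ).symm⟩, hu'⟩

/-- saturation -/
lemma KT.sat (hQ : MfG hΓ ≤ QZ ℂ) {n p : ℕ} (hn : n ≠ 0) (hp : p ≠ 0) {x}
    (hx : KT hθ A (n * p) (p • x)) :
    KT hθ A n (fun i => ZMod.castHom (dvd_mul_right n p) (ZMod n) (x i)) := by
  have hnp := mul_ne_zero hn hp
  obtain ⟨φ, rfl⟩ := KSys.red_surj (b := bG hΓ) hnp x
  obtain ⟨u, hu, hu'⟩ := hx
  obtain ⟨w, hw⟩ := (KG hθ).ex hnp φ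
  have hwc : (KG hθ).Cls (bG hΓ) (n * p) (w ^ p) (p • KSys.red (bG hΓ) (n * p) φ) :=
    KSys.Cls.npow hnp ⟨φ, hw, rfl⟩ p
  obtain ⟨g, hg, e⟩ := hu.exists_pow hnp hwc
  have hw0 : w ≠ 0 := (KG hθ).ne_zero hw
  have e2 : (w * g ^ n) ^ p = u := by
    rw [e, mul_pow, ← pow_mul]
  refine ⟨w * g ^ n, ⟨φ + n • 0, ?_, ?_⟩, ?_⟩
  · exact (KG hθ).mul ((KG hθ).lev hn hp hw) (by
      have := (KG hθ).pow hn hg 0
      exact this)
  · rw [smul_zero, add_zero]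
    exact (red_castHom _ n p φ).symm
  · rw [← e2] at hu'
    exact hu'.of_pow hθ hQ hp (mul_ne_zero hw0 (pow_ne_zero n hg))

end Fermat.Agent.AnJacH
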