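import Fermat.Agent.AnJac.AutC

/-!
# Lifting automorphisms to an algebraically closed extension
-/

set_option autoImplicit false

noncomputable section

namespace Fermat.Agent.AnJacH

section

variable {R K : Type*} [Field R] [Field K] [Algebra R K] [IsAlgClosed K]

theorem exists_lift_aut (s : R ≃+* R) :
    ∃ σ : K ≃+* K, ∀ x : R, σ (algebraMap R K x) = algebraMap R K (s x) := by
  classical
  obtain ⟨ι, x, hx⟩ := exists_isTranscendenceBasis' R K
  have hi := hx.1
  let := IsAlgClosed.isAlgClosure_of_transcendence_basis x hx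
  let e : Algebra.adjoin R (Set.range x) ≃+* Algebra.adjoin R (Set.range x) :=
    (hi.aevalEquiv.symm.toRingEquiv.trans (MvPolynomial.mapEquiv ι s)).trans
      hi.aevalEquiv.toRingEquiv
  refine ⟨IsAlgClosure.equivOfEquiv K K e, fun r => ?_⟩
  have h5 : algebraMap R K r = algebraMap (Algebra.adjoin R (Set.range x)) K
      (algebraMap R _ r) := rfl
  have h6 : e (algebraMap R _ r) = algebraMap R _ (s r) := by
    change hi.aevalEquiv (MvPolynomial.mapEquiv ι s (hi.aevalEquiv.symm (algebraMap R _ r))) = _
    rw [AlgEquiv.commutes]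
    have : MvPolynomial.mapEquiv ι s (algebraMap R (MvPolynomial ι R) r) =
        algebraMap R (MvPolynomial ι R) (s r) := by
      rw [MvPolynomial.algebraMap_eq]
      exact MvPolynomial.map_C _ _
    rw [this, AlgEquiv.commutes]
  conv_lhs => rw [h5, IsAlgClosure.equivOfEquiv_algebraMap, h6]
  rfl

end

end Fermat.Agent.AnJacH
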