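import Fermat.Agent.AnJacH.CanG
import Fermat.Agent.AnJacH.LiftAut
import Fermat.Agent.AnJac.HeckeF

/-!
# The Kummer system of the field of `Γ\ℍ` over an algebraically closed field `k ⊆ ℂ`
-/

set_option autoImplicit false
set_option linter.unusedSectionVars false

open UpperHalfPlane ModularForm MatrixGroups Matrix.SpecialLinearGroup Filter Function
open scoped Manifold Topology

noncomputable section

namespace Fermat.Agent.AnJacH

open Fermat.Agent.AnJac Fermat.Agent.DimS2 Fermat.Agent.ModFun CongruenceSubgroup AlgebraicCurve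
open ModularCurve IntermediateField Fermat.Agent.GenusX0
open Fermat.Agent.Curves

variable {N : ℕ} {Γ : Subgroup SL(2,ℤ)} [NeZero N] (hΓ : Adm N Γ)
variable {k : Type*} [Field k] [IsAlgClosed k] [CharZero k] (ι : k →+* ℂ)

/-- the function field over `k` -/
def FG : IntermediateField k (LaurentSeries k) where
  carrier := {u | coeffMap ι u ∈ MfG hΓ}
  mul_mem' := by
    intro u v hu hv
    rw [Set.mem_ofPred_eq, map_mul]
    exact mul_mem hu hv
  add_mem' := by
    intro u v hu hv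
    rw [Set.mem_ofPred_eq, map_add]
    exact add_mem hu hv
  algebraMap_mem' c := by
    rw [Set.mem_ofPred_eq, ← C_eq_algebraMap, coeffMap_C, C_eq_algebraMap]
    exact (MfG hΓ).algebraMap_mem _
  inv_mem' := by
    intro u hu
    rw [Set.mem_ofPred_eq, map_inv₀]
    exact inv_mem hu

lemma mem_FG {u : LaurentSeries k} : u ∈ FG hΓ ι ↔ coeffMap ι u ∈ MfG hΓ := Iff.rfl

/-- the embedding into the field over `ℂ` -/
def toC : FG hΓ ι →+* MfG hΓ :=
  ((coeffMap ι).comp (FG hΓ ι).val.toRingHom).codRestrict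
    (MfG hΓ).toSubfield.toSubring (fun x => x.2)

lemma coe_toC (u : FG hΓ ι) : (toC hΓ ι u : LaurentSeries ℂ) = coeffMap ι (u : LaurentSeries k) := rfl

lemma toC_const (c : k) : toC hΓ ι (algebraMap k _ c) = algebraMap ℂ _ (ι c) := by
  apply Subtype.ext
  rw [coe_toC]
  change coeffMap ι (algebraMap k (LaurentSeries k) c) = algebraMap ℂ (LaurentSeries ℂ) (ι c)
  rw [← C_eq_algebraMap, coeffMap_C, C_eq_algebraMap]

lemma toC_inj {u v : FG hΓ ι} (h : toC hΓ ι u = toC hΓ ι v) : u = v := (toC hΓ ι).injective h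

lemma FN_le_FG : modularFunctionFieldFullC k N ≤ FG hΓ ι := fun _ hu =>
  FF_le_MfG hΓ (coeffMap_mem_FF ι hu)

/-- the inclusion of the field of `Γ₀(N)` -/
def inN : modularFunctionFieldFullC k N →ₐ[k] FG hΓ ι := IntermediateField.inclusion (FN_le_FG hΓ ι)

lemma coe_inN (u : modularFunctionFieldFullC k N) : (inN hΓ ι u : LaurentSeries k) = u := rfl

section Gal

variable {hΓ} {θ : MfG hΓ} (hθ : IsGen hΓ θ)

include hθ in
lemma galK_mem (s : k ≃+* k) {u : LaurentSeries k} (hu : u ∈ FG hΓ ι) :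
    coeffMap (s : k →+* k) u ∈ FG hΓ ι := by
  let _ := ι.toAlgebra
  obtain ⟨σ, hσ⟩ := exists_lift_aut (K := ℂ) s
  have h1 : ι.comp (s : k →+* k) = (σ : ℂ →+* ℂ).comp ι := by
    ext x
    exact (hσ x).symm
  rw [mem_FG, coeffMap_coeffMap, h1, ← coeffMap_coeffMap]
  exact hθ.galG_mem σ ⟨_, hu⟩

/-- the automorphism of the function field induced by an automorphism of `k` -/
def galK (s : k ≃+* k) : FG hΓ ι ≃+* FG hΓ ι :=
  RingEquiv.ofRingHom
    (((coeffMap (s : k →+* k)).comp (FG hΓ ι).val.toRingHom).codRestrict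
      (FG hΓ ι).toSubfield.toSubring (fun x => galK_mem ι hθ s x.2))
    (((coeffMap (s.symm : k →+* k)).comp (FG hΓ ι).val.toRingHom).codRestrict
      (FG hΓ ι).toSubfield.toSubring (fun x => galK_mem ι hθ s.symm x.2))
    (by
      ext x : 2
      change coeffMap (s : k →+* k) (coeffMap (s.symm : k →+* k) (x : LaurentSeries k)) = x
      rw [coeffMap_coeffMap]
      simp)
    (by
      ext x : 2
      change coeffMap (s.symm : k →+* k) (coeffMap (s : k →+* k) (x : LaurentSeries k)) = x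
      rw [coeffMap_coeffMap]
      simp)

lemma coe_galK (s : k ≃+* k) (u : FG hΓ ι) :
    (galK ι hθ s u : LaurentSeries k) = coeffMap (s : k →+* k) (u : LaurentSeries k) := rfl

/-- compatibility with lifts -/
lemma toC_galK (s : k ≃+* k) : ∃ σ : ℂ ≃+* ℂ, ∀ u : FG hΓ ι,
    toC hΓ ι (galK ι hθ s u) = galG hθ σ (toC hΓ ι u) := by
  let _ := ι.toAlgebra
  obtain ⟨σ, hσ⟩ := exists_lift_aut (K := ℂ) s
  have h1 : ι.comp (s : k →+* k) = (σ : ℂ →+* ℂ).comp ι := by
    ext x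
    exact (hσ x).symm
  refine ⟨σ, fun u => Subtype.ext ?_⟩
  rw [coe_toC, coe_galK, coe_galG, coe_toC, coeffMap_coeffMap, h1, ← coeffMap_coeffMap]

include hθ in
lemma exists_diaK (g : Gamma0 N) (u : FG hΓ ι) :
    ∃ v : FG hΓ ι, toC hΓ ι v = dia hΓ g (toC hΓ ι u) := by
  let _ := ι.toAlgebra
  have h1 : ∀ i, ∃ y : k, ι y = (dia hΓ g (toC hΓ ι u) : LaurentSeries ℂ).coeff i := by
    intro i
    apply exists_algebraMap_eq
    apply isAlgebraic_of_finite_orbit
    refine (Set.finite_singleton ((dia hΓ g (toC hΓ ι u) : LaurentSeries ℂ).coeff i)).subset ?_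
    rintro _ ⟨σ, rfl⟩
    have hσ : (σ : ℂ →+* ℂ).comp ι = ι := RingHom.ext fun x => σ.commutes x
    have h2 : galG hθ σ.toRingEquiv (toC hΓ ι u) = toC hΓ ι u := by
      apply Subtype.ext
      rw [coe_galG, coe_toC, coeffMap_coeffMap]
      exact congrArg (fun φ => coeffMap φ (u : LaurentSeries k)) hσ
    have h3 := galG_dia hθ σ.toRingEquiv g (toC hΓ ι u)
    rw [h2] at h3
    have h4 := congrArg (fun x : MfG hΓ => (x : LaurentSeries ℂ).coeff i) h3
    simp only [coe_galG, coeffMap_coeff] at h4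
    exact h4
  obtain ⟨w, hw⟩ := exists_coeffMap_eq ι h1
  refine ⟨⟨w, by rw [mem_FG, hw]; exact (dia hΓ g (toC hΓ ι u)).2⟩, Subtype.ext ?_⟩
  exact hw

/-- diamond automorphisms over `k` -/
def diaK (g : Gamma0 N) : FG hΓ ι →ₐ[k] FG hΓ ι where
  toFun u := (exists_diaK ι hθ g u).choose
  map_one' := toC_inj hΓ ι (by rw [(exists_diaK ι hθ g 1).choose_spec, map_one, map_one])
  map_mul' u v := toC_inj hΓ ι (by
    rw [(exists_diaK ι hθ g _).choose_spec, map_mul, map_mul, map_mul,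
      (exists_diaK ι hθ g u).choose_spec, (exists_diaK ι hθ g v).choose_spec])
  map_zero' := toC_inj hΓ ι (by rw [(exists_diaK ι hθ g 0).choose_spec, map_zero, map_zero])
  map_add' u v := toC_inj hΓ ι (by
    rw [(exists_diaK ι hθ g _).choose_spec, map_add, map_add, map_add,
      (exists_diaK ι hθ g u).choose_spec, (exists_diaK ι hθ g v).choose_spec])
  commutes' c := toC_inj hΓ ι (by
    rw [(exists_diaK ι hθ g _).choose_spec, toC_const, AlgHom.commutes])

lemma toC_diaK (g : Gamma0 N) (u : FG hΓ ι) :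
    toC hΓ ι (diaK ι hθ g u) = dia hΓ g (toC hΓ ι u) := (exists_diaK ι hθ g u).choose_spec

lemma diaK_diaK (g h : Gamma0 N) (u : FG hΓ ι) :
    diaK ι hθ g (diaK ι hθ h u) = diaK ι hθ (g * h) u := toC_inj hΓ ι (by
  rw [toC_diaK, toC_diaK, toC_diaK, dia_dia])

lemma diaK_one (u : FG hΓ ι) : diaK ι hθ 1 u = u := toC_inj hΓ ι (by
  rw [toC_diaK, dia_one])

lemma diaK_of_mem {g : Gamma0 N} (hg : (g : SL(2,ℤ)) ∈ Γ) (u : FG hΓ ι) : diaK ι hθ g u = u :=
  toC_inj hΓ ι (by rw [toC_diaK, dia_of_mem hΓ hg])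

lemma diaK_comm (g h : Gamma0 N) (u : FG hΓ ι) :
    diaK ι hθ g (diaK ι hθ h u) = diaK ι hθ h (diaK ι hθ g u) := toC_inj hΓ ι (by
  rw [toC_diaK, toC_diaK, toC_diaK, toC_diaK, dia_comm])

lemma diaK_congr {g h : Gamma0 N} (e : (QuotientGroup.mk g : Dl N Γ) = QuotientGroup.mk h)
    (u : FG hΓ ι) : diaK ι hθ g u = diaK ι hθ h u := toC_inj hΓ ι (by
  rw [toC_diaK, toC_diaK, dia_congr hΓ e])

lemma diaK_galK (s : k ≃+* k) (g : Gamma0 N) (u : FG hΓ ι) :
    diaK ι hθ g (galK ι hθ s u) = galK ι hθ s (diaK ι hθ g u) := by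
  obtain ⟨σ, hσ⟩ := toC_galK ι hθ s
  apply toC_inj hΓ ι
  rw [toC_diaK, hσ, hσ, toC_diaK, galG_dia]

lemma diaK_inN (g : Gamma0 N) (u : modularFunctionFieldFullC k N) :
    diaK ι hθ g (inN hΓ ι u) = inN hΓ ι u := by
  apply toC_inj hΓ ι
  rw [toC_diaK]
  exact dia_of_mem_FF hΓ (coeffMap_mem_FF ι u.2) g

/-- fixed elements come from the field of `Γ₀(N)` -/
lemma mem_of_diaK_fixed {u : FG hΓ ι} (h : ∀ g, diaK ι hθ g u = u) :
    ∃ y : modularFunctionFieldFullC k N, inN hΓ ι y = u := by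
  let _ := ι.toAlgebra
  have h1 : coeffMap (algebraMap k ℂ) (u : LaurentSeries k) ∈ FF N := by
    refine mem_FF_of_fixed hΓ (u := toC hΓ ι u) fun g => ?_
    rw [← toC_diaK ι hθ, h]
  exact ⟨⟨u, mem_of_coeffs h1⟩, rfl⟩

end Gal

/-! ### roots -/

include ι in
/-- trivial characters come from `n`-th powers over `k` -/
theorem exists_root_FG {n : ℕ} (hn : n ≠ 0) {u : FG hΓ ι}
    (hu : IsCharG N Γ n (coeffMap ι (u : LaurentSeries k)) 1) :
    ∃ g : FG hΓ ι, g ≠ 0 ∧ g ^ n = u := by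
  let _ := ι.toAlgebra
  obtain ⟨g, hg, hg0, hgn⟩ := hu.exists_root hΓ
  have h1 : ∀ i, ∃ y : k, ι y = g.coeff i := by
    intro i
    apply exists_algebraMap_eq
    apply isAlgebraic_of_finite_orbit
    have hfin : {μ : ℂ | μ ^ n = 1}.Finite := by
      have : NeZero n := ⟨hn⟩
      have h2 : {μ : ℂ | μ ^ n = 1} = (Polynomial.nthRootsFinset n (1:ℂ) : Set ℂ) := by
        ext μ
        simp [Polynomial.mem_nthRootsFinset (Nat.pos_of_ne_zero hn)]
      rw [h2]
      exact Finset.finite_toSet _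
    refine (hfin.image fun μ => μ * g.coeff i).subset ?_
    rintro _ ⟨σ, rfl⟩
    have hσ : (σ : ℂ →+* ℂ).comp ι = ι := RingHom.ext fun x => σ.commutes x
    have h3 : (coeffMap (σ : ℂ →+* ℂ) g) ^ n = g ^ n := by
      rw [← map_pow, hgn, coeffMap_coeffMap, hσ]
    have h4 : (coeffMap (σ : ℂ →+* ℂ) g / g) ^ n = 1 := by
      rw [div_pow, h3, div_self (pow_ne_zero n hg0)]
    obtain ⟨μ, hμ, h5⟩ : ∃ μ : ℂ, μ ^ n = 1 ∧ coeffMap (σ : ℂ →+* ℂ) g / g = HahnSeries.C μ := by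
      have h6 : IsAlgebraic ℂ (coeffMap (σ : ℂ →+* ℂ) g / g) := by
        refine ⟨Polynomial.X ^ n - 1, (Polynomial.monic_X_pow_sub_C (1:ℂ) hn).ne_zero, ?_⟩
        simp [h4]
      obtain ⟨μ, hμ⟩ := exists_algebraMap_eq h6
      refine ⟨μ, ?_, by rw [C_eq_algebraMap, hμ]⟩
      rw [← hμ, ← map_pow] at h4
      apply (algebraMap ℂ (LaurentSeries ℂ)).injective
      rw [h4, map_one]
    refine ⟨μ, hμ, ?_⟩
    have h6 : coeffMap (σ : ℂ →+* ℂ) g = HahnSeries.C μ * g := by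
      rw [← h5, div_mul_cancel₀ _ hg0]
    have h7 := congrArg (fun F => HahnSeries.coeff F i) h6
    simp only [coeffMap_coeff, HahnSeries.C_mul_eq_smul, HahnSeries.coeff_smul, smul_eq_mul] at h7
    exact h7.symm
  obtain ⟨g', hg'⟩ := exists_coeffMap_eq ι h1
  refine ⟨⟨g', by rw [mem_FG, hg']; exact hg⟩, ?_, ?_⟩
  · intro h
    have : g' = 0 := congrArg Subtype.val h
    rw [this, map_zero] at hg'
    exact hg0 hg'.symm
  · apply Subtype.ext
    apply coeffMap_injective ι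
    change coeffMap ι (g' ^ n) = _
    rw [map_pow, hg', hgn]

/-- **Descent**: every character of finite order comes from a function over `k`. -/
theorem exists_isCharG_descent {θ : MfG hΓ} (hθ : IsGen hΓ θ) {n : ℕ} (hn : n ≠ 0) {χ : Γ →* ℂˣ}
    (hχ : IsNHG χ) (hpw : χ ^ n = 1) :
    ∃ w : FG hΓ ι, w ≠ 0 ∧ IsCharG N Γ n (coeffMap ι (w : LaurentSeries k)) χ := by
  obtain ⟨u, hu⟩ := exists_isCharG hΓ hn hχ hpw
  set u' : MfG hΓ := ⟨u, hu.mem_MfG hΓ⟩ with hu'
  have hu0 : u' ≠ 0 := fun h => hu.ne_zero hΓ (congrArg Subtype.val h)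
  have hdvd : ∀ v : Place ℂ (MfG hΓ), (n : ℤ) ∣ v.ord u' := fun v =>
    dvd_ordG hΓ hu0 (χ := χ) hu v
  obtain ⟨m, g, hg, hcan⟩ := exists_isCanG hn hu0 hdvd
  have h1 : IsCharG N Γ n ((u' * g ^ n : MfG hΓ) : LaurentSeries ℂ) χ := by
    have h2 := hu.mul hΓ (IsCharG.of_pow (n := n) hΓ g.2 (fun h => hg (Subtype.ext h)))
    rw [hom_mul_one] at h2
    exact h2
  obtain ⟨w', hw'⟩ := exists_coeffMap_eq ι (w := ((u' * g ^ n : MfG hΓ) : LaurentSeries ℂ))
    (fun i => exists_of_isAlgebraic ι (isAlgebraic_coeff_canG hθ hn hcan i))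
  refine ⟨⟨w', by rw [mem_FG, hw']; exact (u' * g ^ n : MfG hΓ).2⟩, ?_, ?_⟩
  · intro h
    have : w' = 0 := congrArg Subtype.val h
    rw [this, map_zero] at hw'
    exact h1.ne_zero hΓ hw'.symm
  · change IsCharG N Γ n (coeffMap ι w') χ
    rw [hw']
    exact h1

/-! ### the lattice -/

variable (Γ) in
/-- the lattice -/
abbrev LatG := NHA Γ ℤ

lemma Adm.finiteIndex (hΓ : Adm N Γ) : Γ.FiniteIndex := by
  have h1 : Γ.relIndex (Gamma0 N) ≠ 0 := hΓ.fin.index_ne_zero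
  have h2 : (Gamma0 N).index ≠ 0 := Subgroup.FiniteIndex.index_ne_zero
  refine ⟨?_⟩
  rw [← Subgroup.relIndex_mul_index hΓ.le]
  exact mul_ne_zero h1 h2

instance : IsAddTorsionFree (LatG Γ) :=
  Function.Injective.isAddTorsionFree ((LatG Γ).subtype) Subtype.val_injective

include hΓ in
lemma finite_LatG : Module.Finite ℤ (LatG Γ) := by
  have := hΓ.fg
  exact Module.Finite.of_injective ((LatG Γ).subtype.toIntLinearMap) Subtype.val_injective

/-- a basis of the lattice -/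
def bG : Module.Basis (Fin (Module.finrank ℤ (LatG Γ))) ℤ (LatG Γ) :=
  haveI := finite_LatG hΓ
  Module.finBasis ℤ (LatG Γ)

lemma isNHG_ech {n : ℕ} {φ : Additive Γ →+ ℤ} (h : φ ∈ NHA Γ ℤ) : IsNHG (ech n φ) := fun γ hγ => by
  rw [ech_apply, h γ hγ, zpow_zero]

include hΓ in
/-- characters of order `n` are exponentials of integral homomorphisms -/
theorem exists_echG {n : ℕ} (hn : n ≠ 0) {χ : Γ →* ℂˣ} (hχ : IsNHG χ) (hpw : χ ^ n = 1) :
    ∃ φ ∈ NHA Γ ℤ, ech n φ = χ := by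
  have hNn : NeZero n := ⟨hn⟩
  have := hΓ.finiteIndex
  have hmem : ∀ γ, χ γ ∈ Subgroup.zpowers (zetaU n) := by
    intro γ
    rw [(zetaU_prim n).zpowers_eq, mem_rootsOfUnity]
    have := DFunLike.congr_fun hpw γ
    rwa [MonoidHom.pow_apply] at this
  let π : ℤ →+ Additive (Subgroup.zpowers (zetaU n)) :=
    zmultiplesHom _ (Additive.ofMul ⟨zetaU n, Subgroup.mem_zpowers _⟩)
  have hπ : Function.Surjective π := by
    intro x
    obtain ⟨m, hm⟩ := Subgroup.mem_zpowers_iff.mp (Additive.toMul x).2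
    refine ⟨m, ?_⟩
    apply Additive.toMul.injective
    apply Subtype.ext
    rw [← hm]
    simp [π]
  let φ : Additive Γ →+ Additive (Subgroup.zpowers (zetaU n)) :=
    MonoidHom.toAdditive (χ.codRestrict _ hmem)
  obtain ⟨ψ, hψ, h⟩ := SL2Pres.exists_lift_hom hΓ.neg_one_mem π hπ φ (by
    intro γ hγ
    apply Additive.toMul.injective
    apply Subtype.ext
    exact hχ γ ((trace_sq_le_iff _).mp hγ))
  refine ⟨ψ, fun γ hγ => hψ γ ((trace_sq_le_iff _).mpr hγ), ?_⟩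
  refine MonoidHom.ext fun γ => ?_
  have h1 := congrArg (fun x => ((Additive.toMul x : Subgroup.zpowers (zetaU n)) : ℂˣ))
    (h (Additive.ofMul γ))
  rw [ech_apply]
  simpa [π, φ] using h1

/-! ### the Kummer system -/

section KX

variable {hΓ} {θ : MfG hΓ} (hθ : IsGen hΓ θ) {G : Type*} [Group G]

/-- the action on the function field -/
def actFG (f : G →* RingAut k) : G →* RingAut (FG hΓ ι) where
  toFun σ := galK ι hθ (f σ)
  map_one' := by
    rw [map_one]
    ext u : 2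
    rw [coe_galK]
    exact coeffMap_id' _
  map_mul' σ τ := by
    rw [map_mul]
    ext u : 2
    change coeffMap ((f σ * f τ : RingAut k) : k →+* k) (u : LaurentSeries k) =
      coeffMap (f σ : k →+* k) (coeffMap (f τ : k →+* k) (u : LaurentSeries k))
    rw [coeffMap_coeffMap]
    rfl

lemma coe_actFG (f : G →* RingAut k) (σ : G) (u : FG hΓ ι) :
    (actFG ι hθ f σ u : LaurentSeries k) =
      coeffMap ((f σ : RingAut k) : k →+* k) (u : LaurentSeries k) := rfl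

variable (hΓ) in
/-- the relation between homomorphisms and functions -/
def ClG (n : ℕ) (φ : LatG Γ) (u : FG hΓ ι) : Prop :=
  IsCharG N Γ n (coeffMap ι (u : LaurentSeries k)) (ech n (φ : Additive Γ →+ ℤ))

lemma ClG.ne_zero {n : ℕ} {φ : LatG Γ} {u : FG hΓ ι} (h : ClG hΓ ι n φ u) : u ≠ 0 := by
  rintro rfl
  apply IsCharG.ne_zero hΓ h
  exact map_zero _

lemma ClG.dvd_ord {n : ℕ} {φ : LatG Γ} {u : FG hΓ ι} (h : ClG hΓ ι n φ u)
    (v : Place ℂ (MfG hΓ)) : (n : ℤ) ∣ v.ord (toC hΓ ι u) :=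
  dvd_ordG hΓ (by rw [Ne, map_eq_zero]; exact ClG.ne_zero ι h) (χ := ech n (φ : Additive Γ →+ ℤ))
    (show IsCharG N Γ n ((toC hΓ ι u : MfG hΓ) : LaurentSeries ℂ) _ from h) v

lemma exists_ClG {n : ℕ} (hn : n ≠ 0) {u : FG hΓ ι} (hu : u ≠ 0)
    (h : ∀ v : Place ℂ (MfG hΓ), (n : ℤ) ∣ v.ord (toC hΓ ι u)) : ∃ φ : LatG Γ, ClG hΓ ι n φ u := by
  obtain ⟨χ, hχ⟩ := exists_charG hΓ hn (by rw [Ne, map_eq_zero]; exact hu) h
  obtain ⟨φ, hφ, he⟩ := exists_echG hΓ hn hχ.nh hχ.pw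
  refine ⟨⟨φ, hφ⟩, ?_⟩
  rw [ClG, he]
  exact hχ

/-- the Kummer system of `Γ\ℍ` -/
def kXG (f : G →* RingAut k) : KSys (FG hΓ ι) G (LatG Γ) where
  act := actFG ι hθ f
  cl := ClG hΓ ι
  ne_zero h := ClG.ne_zero ι h
  mul {n φ ψ u v} hu hv := by
    have := IsCharG.mul hΓ hu hv
    rw [← ech_add, ← map_mul] at this
    exact this
  ex {n} hn φ := by
    obtain ⟨w, -, hw⟩ := exists_isCharG_descent hΓ ι hθ hn (isNHG_ech φ.2) (ech_pow_self hn φ.1)
    exact ⟨w, hw⟩
  gal {n} hn {φ u} σ hu := by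
    apply exists_ClG ι hn
    · exact (map_ne_zero _).mpr (ClG.ne_zero ι hu)
    · intro v
      obtain ⟨σ', hσ'⟩ := toC_galK ι hθ (f σ)
      have : toC hΓ ι (actFG ι hθ f σ u) = galG hθ σ' (toC hΓ ι u) := hσ' u
      rw [this]
      exact dvd_galG hθ (fun v => ClG.dvd_ord ι hu v) σ' v
  root {n} hn {φ u} hu := by
    have h : IsCharG N Γ n (coeffMap ι (u : LaurentSeries k)) 1 := by
      have h1 : ech n ((n • φ : LatG Γ) : Additive Γ →+ ℤ) = 1 := ech_nsmul hn φ.1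
      rw [← h1]; exact hu
    obtain ⟨g, -, hg⟩ := exists_root_FG hΓ ι hn h
    exact ⟨g, hg⟩
  pow {n} hn {g} hg φ := by
    have h1 : ech n ((n • φ : LatG Γ) : Additive Γ →+ ℤ) = 1 := ech_nsmul hn φ.1
    change IsCharG N Γ n _ (ech n ((n • φ : LatG Γ) : Additive Γ →+ ℤ))
    rw [h1]
    change IsCharG N Γ n (coeffMap ι ((g : LaurentSeries k) ^ n)) 1
    rw [map_pow]
    refine IsCharG.of_pow hΓ g.2 ?_
    rw [Ne, map_eq_zero_iff _ (coeffMap_injective ι)]
    exact fun h => hg (Subtype.ext h)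
  uniq {n} hn {φ ψ u} hu hv := by
    have h1 := (ech_eq_iff hn).mp (IsCharG.unique hΓ hn hu hv)
    choose c hc using h1
    have hinj : Function.Injective fun m : ℤ => (n : ℤ) * m :=
      mul_right_injective₀ (by exact_mod_cast hn)
    let χ : Additive Γ →+ ℤ :=
      { toFun := c
        map_zero' := hinj (by simp only [← hc, map_zero, mul_zero, sub_zero])
        map_add' := fun x y => hinj (by
          simp only [mul_add, ← hc, map_add]
          ring) }
    refine ⟨⟨χ, fun γ hγ => hinj ?_⟩, ?_⟩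
    · change (n : ℤ) * c (Additive.ofMul γ) = (n : ℤ) * 0
      rw [← hc, φ.2 γ hγ, ψ.2 γ hγ, mul_zero, sub_zero]
    · apply Subtype.ext
      refine AddMonoidHom.ext fun x => ?_
      change (φ : Additive Γ →+ ℤ) x - (ψ : Additive Γ →+ ℤ) x = n • c x
      rw [hc, nsmul_eq_mul]
  lev {n m} _ hm {φ u} hu := by
    have := IsCharG.descend hΓ hu
    rw [ech_lev hm] at this
    exact this

end KX

end Fermat.Agent.AnJacH
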