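import Fermat.Agent.AnJacH.ESG

/-!
# Comparison with the level `Γ₀(N)`
-/

set_option autoImplicit false
set_option linter.unusedSectionVars false

noncomputable section

namespace Fermat.Agent.AnJacH

open ModularCurve Fermat.Agent.ModFun Fermat.Agent.AnJac AlgebraicCurve IsLocalRing
open Fermat.Agent.HeckeQ CongruenceSubgroup MatrixGroups UpperHalfPlane Matrix
open scoped Pointwise

local notation "Qbar" => AlgebraicClosure ℚ
local notation "GQ" => Qbar ≃ₐ[ℚ] Qbar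

variable {N : ℕ} [NeZero N]

section Gen

variable {Γ : Subgroup SL(2,ℤ)} (hΓ : Adm N Γ)

/-- functions on `X₀(N)` with a character on `Γ` have a character on `Γ₀(N)` -/
theorem exists_ClX_of_inN {k : Type*} [Field k] [IsAlgClosed k] [CharZero k] (ι : k →+* ℂ)
    {n : ℕ} (hn : n ≠ 0) {y : modularFunctionFieldFullC k N} {φ : LatG Γ}
    (h : ClG hΓ ι n φ (inN hΓ ι y)) : ∃ ψ : Lat N, ClX N ι n ψ y := by
  have hy : y ≠ 0 := by
    rintro rfl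
    exact ClG.ne_zero ι h (map_zero _)
  set w : FF N := ⟨coeffMap ι (y : LaurentSeries k), coeffMap_mem_FF ι y.2⟩ with hw
  have hw0 : w ≠ 0 := by
    intro h0
    apply hy
    apply Subtype.ext
    exact coeffMap_injective ι ((congrArg Subtype.val h0).trans (map_zero _).symm)
  have hdvd : ∀ v : Place ℂ (FF N), (n : ℤ) ∣ v.ord w := by
    intro v
    obtain ⟨p, ε, w', -, -, h1, -⟩ := exists_spot_place hΓ v
    rw [← h1]
    exact ClG.dvd_ord ι h w'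
  obtain ⟨χ, hχ⟩ := exists_char_C hn hw0 hdvd
  obtain ⟨ψ, hψ, he⟩ := exists_ech hn hχ.nh hχ.pw
  refine ⟨⟨ψ, hψ⟩, ?_⟩
  rw [ClX, he]
  exact hχ

end Gen

variable {m : ℕ} {h : m ∣ N} {H₀ : Subgroup (ZMod m)ˣ}
  {hΓ : Adm N (GH N m h H₀)} {θ : MfG hΓ} {hθ : IsGen hΓ θ} {A : ValuationSubring Qbar}

variable (N A) in
/-- classes of functions on `X₀(N)` with constant reduction -/
def KN (n : ℕ) (y : Fin (Module.finrank ℤ (Lat N)) → ZMod n) : Prop :=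
  ∃ u : modularFunctionFieldFullC Qbar N, (KQ N).Cls (bL N) n u y ∧ RdC A (u : LaurentSeries Qbar)

variable (hθ) in
/-- the restriction matrix -/
lemma exists_resMat {n : ℕ} (hn : n ≠ 0) :
    ∃ R, KSys.IsMat (KQ N) (bL N) (KG hθ) (bG hΓ) n (inN hΓ ιQ) R :=
  KSys.exists_isMat hn (fun u v => map_mul _ u v) (fun u hu => (map_ne_zero _).mpr hu)
    (fun u x hu => by
      obtain ⟨φ, h1, -⟩ := hu
      exact ⟨_, resL hΓ φ, ClX.res hΓ ιQ h1, rfl⟩)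

lemma KN.zero {n : ℕ} (hn : n ≠ 0) : KN N A n 0 := ⟨1, KSys.cls_one hn, RdC.one⟩

lemma KN.add {n : ℕ} {x y} (hx : KN N A n x) (hy : KN N A n y) : KN N A n (x + y) := by
  obtain ⟨u, hu, hu'⟩ := hx
  obtain ⟨v, hv, hv'⟩ := hy
  exact ⟨u * v, hu.mul hv, hu'.mul hv'⟩

lemma KN.neg {n : ℕ} (hn : n ≠ 0) {x} (hx : KN N A n x) : KN N A n (-x) := by
  obtain ⟨u, hu, hu'⟩ := hx
  exact ⟨u⁻¹, hu.inv hn, hu'.inv⟩

lemma KN.nsmul {n : ℕ} (hn : n ≠ 0) {x} (hx : KN N A n x) (a : ℕ) : KN N A n (a • x) := by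
  obtain ⟨u, hu, hu'⟩ := hx
  exact ⟨u ^ a, hu.npow hn a, hu'.pow a⟩

/-- constants have trivial class -/
lemma cls_const {n : ℕ} (hn : n ≠ 0) {c : Qbar} (hc : c ≠ 0) :
    (KQ N).Cls (bL N) n (algebraMap Qbar (modularFunctionFieldFullC Qbar N) c) 0 := by
  obtain ⟨d, hd⟩ := IsAlgClosed.exists_pow_nat_eq c (Nat.pos_of_ne_zero hn)
  have hd0 : d ≠ 0 := by
    rintro rfl
    rw [zero_pow hn] at hd
    exact hc hd.symm
  rw [← hd, map_pow]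
  exact KSys.cls_pow hn ((map_ne_zero _).mpr hd0)

/-- **the Kummer lemma** at primes not dividing the level -/
theorem KN.eq_zero {ℓ : ℕ} (hℓ : ℓ.Prime) (hA : A.LiesOverPrime ℓ) (hN : ¬ ℓ ∣ N) {n : ℕ}
    (hn : ¬ ℓ ∣ n) {y} (hy : KN N A n y) : y = 0 := by
  have hn0 : n ≠ 0 := fun h => hn (h ▸ dvd_zero ℓ)
  obtain ⟨u, hu, c, hc, h1⟩ := hy
  have hu0 : u ≠ 0 := hu.ne_zero
  have H := redHyp_all hℓ hA hN hn
  set cF : modularFunctionFieldFullC Qbar N := algebraMap Qbar _ c with hcF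
  have hcF0 : cF ≠ 0 := by rw [hcF, Ne, map_eq_zero]; exact hc
  have hcu : (KQ N).Cls (bL N) n (cF * u) y := by
    have := (cls_const (N := N) hn0 hc).mul hu
    rwa [zero_add] at this
  obtain ⟨w, hw⟩ := H.kl (cF * u) (by
      obtain ⟨φ, hφ, -⟩ := hcu
      exact fun P => ClX.dvd_ord ιQ hφ P) 1 one_ne_zero (by
      have e1 : ((cF * u : modularFunctionFieldFullC Qbar N) : LaurentSeries Qbar) =
          HahnSeries.C c * (u : LaurentSeries Qbar) := by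
        rw [C_eq_algebraMap]; rfl
      rw [e1]
      have e2 : ((1 : modularFunctionFieldFullC (ResidueField A) N) :
          LaurentSeries (ResidueField A)) ^ n = 1 := one_pow n
      rw [e2]
      exact h1)
  have hw0 : w ≠ 0 := by
    rintro rfl
    rw [zero_pow hn0] at hw
    exact mul_ne_zero hcF0 hu0 hw
  rw [hw] at hcu
  exact hcu.unique hn0 (KSys.cls_pow hn0 hw0)

section Trick

variable {ℓ : ℕ} [hℓ : Fact ℓ.Prime] [NeZero ℓ] (hℓN : ¬ ℓ ∣ N)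
  (hg : ((dM N m h (1 : Gamma0 N) : (ZMod m)ˣ) : ZMod m) = ℓ)

/-- **averaging**, in terms of classes -/
theorem KT.descend (hQ : MfG hΓ ≤ QZ ℂ) {p : ℕ} (hp : p ≠ 0)
    (hΔ : ((Nat.card (Dl N (GH N m h H₀)) : ℕ) : ResidueField A) ≠ 0) {R}
    (hR : KSys.IsMat (KQ N) (bL N) (KG hθ) (bG hΓ) p (inN hΓ ιQ) R)
    {x} (hx : KT hθ A p x) (hinv : ∀ g, im p (KSys.tm (bG hΓ) (LdG hΓ g)) *ᵥ x = x) :
    ∃ y, KN N A p y ∧ R *ᵥ y =
      im p (KSys.tm (bG hΓ) (LTG N m h H₀ ℓ hℓN 1 hg)) *ᵥ x - (ℓ + 1) • x := by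
  obtain ⟨ζ, hζ⟩ := exists_zeta ℓ
  obtain ⟨u, hu, hu'⟩ := hx
  have hcl : (KG hθ).Cls (bG hΓ) p (tOp hθ hℓN hg hζ u)
      (im p (KSys.tm (bG hΓ) (LTG N m h H₀ ℓ hℓN 1 hg)) *ᵥ x - (ℓ + 1) • x) :=
    KSys.Cls.div hp (hu.compat (compat_LTG ιQ hθ fQ hℓN hg hζ)) (hu.npow hp (ℓ + 1))
  obtain ⟨y, w, hw, hy, hyR⟩ := ttrick hℓN hg hζ hQ hp hΔ hu.ne_zero hu' (fun g => by
    have h1 := hu.compat (compat_LdG ιQ hθ fQ g)
    have h2 := hinv g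
    unfold im at h2
    rw [h2] at h1
    exact h1.exists_pow hp hu)
  have h1 : (KG hθ).Cls (bG hΓ) p (inN hΓ ιQ y)
      (im p (KSys.tm (bG hΓ) (LTG N m h H₀ ℓ hℓN 1 hg)) *ᵥ x - (ℓ + 1) • x) := by
    rw [hy]; exact hcl.mul_pow hp hw
  obtain ⟨φ, hφ, h2⟩ := h1
  obtain ⟨ψ, hψ⟩ := exists_ClX_of_inN hΓ ιQ hp hφ
  refine ⟨KSys.red (bL N) p ψ, ⟨y, ⟨ψ, hψ, rfl⟩, hyR⟩, ?_⟩
  have h3 := hR y _ ⟨ψ, hψ, rfl⟩
  rw [← h2]
  exact h3.unique hp ⟨φ, hφ, rfl⟩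

include hg in
/-- the kernel of restriction is killed by `T_ℓ - 1 - ℓ` -/
theorem res_ker {p : ℕ} (hp : p ≠ 0) {R}
    (hR : KSys.IsMat (KQ N) (bL N) (KG hθ) (bG hΓ) p (inN hΓ ιQ) R)
    {y} (hy : R *ᵥ y = 0) : im p (KSys.tm (bL N) (LT N ℓ hℓN)) *ᵥ y = (ℓ + 1) • y := by
  obtain ⟨ζ, hζ⟩ := exists_zeta ℓ
  obtain ⟨u, hu⟩ := (KQ N).exists_cls (bL N) hp y
  have h1 := hR u y hu
  rw [hy] at h1
  obtain ⟨g, hg0, hgu⟩ := h1.exists_pow_one hp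
  -- `tOp g` is fixed by the diamond automorphisms
  have h2 : ∀ g' : Gamma0 N, diaK ιQ hθ g' (tOp hθ hℓN hg hζ g) = tOp hθ hℓN hg hζ g := by
    intro g'
    rw [← tOp_dia]
    have h3 : (diaK ιQ hθ g' g / g) ^ p = 1 := by
      rw [div_pow, ← map_pow, ← hgu, diaK_inN, div_self ((map_ne_zero _).mpr hu.ne_zero)]
    have h4 : IsAlgebraic Qbar (diaK ιQ hθ g' g / g) := by
      refine ⟨Polynomial.X ^ p - 1, (Polynomial.monic_X_pow_sub_C (1 : Qbar) hp).ne_zero, ?_⟩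
      simp [h3]
    obtain ⟨c, hc⟩ := exists_algebraMap_eq h4
    have hc0 : c ≠ 0 := by
      rintro rfl
      rw [map_zero] at hc
      exact div_ne_zero ((map_ne_zero _).mpr hg0) hg0 hc.symm
    have h5 : diaK ιQ hθ g' g = algebraMap Qbar _ c * g := by rw [hc, div_mul_cancel₀ _ hg0]
    rw [h5, tOp_mul, tOp_const hℓN hg hζ hc0, one_mul]
  obtain ⟨w, hw⟩ := mem_of_diaK_fixed ιQ hθ h2
  have hw0 : w ≠ 0 := by
    rintro rfl
    rw [map_zero] at hw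
    exact tOp_ne_zero hℓN hg hζ hg0 hw.symm
  have h3 : FT ιQ hℓN hζ u = u ^ (ℓ + 1) * w ^ p := by
    have hinj : Function.Injective (inN hΓ ιQ) := (inN hΓ ιQ).toRingHom.injective
    apply hinj
    rw [map_mul, map_pow, map_pow, hw, ← tOp_pow, ← hgu]
    have h4 : FTG ιQ hθ hℓN hg hζ (inN hΓ ιQ u) = inN hΓ ιQ (FT ιQ hℓN hζ u) := by
      apply Subtype.ext
      rw [coe_FTG, diaK_inN]
      rfl
    rw [← h4, tOp, mul_div_cancel₀]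
    exact pow_ne_zero _ ((map_ne_zero _).mpr hu.ne_zero)
  have h4 := hu.compat (compat_LT ιQ fQ hℓN hζ)
  rw [h3] at h4
  exact h4.unique hp ((hu.npow hp (ℓ + 1)).mul_pow hp hw0)

/-- **triviality of non-Eisenstein classes with trivial reduction** at primes not dividing `N` -/
theorem KT.eisenstein (hQ : MfG hΓ ≤ QZ ℂ) {p : ℕ} (hp : p ≠ 0)
    (hΔ : ((Nat.card (Dl N (GH N m h H₀)) : ℕ) : ResidueField A) ≠ 0)
    {ℓ₀ : ℕ} (hℓ₀ : ℓ₀.Prime) (hA : A.LiesOverPrime ℓ₀) (hN : ¬ ℓ₀ ∣ N) (hpℓ : ¬ ℓ₀ ∣ p)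
    {x} (hx : KT hθ A p x) (hinv : ∀ g, im p (KSys.tm (bG hΓ) (LdG hΓ g)) *ᵥ x = x) :
    im p (KSys.tm (bG hΓ) (LTG N m h H₀ ℓ hℓN 1 hg)) *ᵥ x = (ℓ + 1) • x := by
  obtain ⟨R, hR⟩ := exists_resMat hθ hp
  obtain ⟨y, hy, h1⟩ := hx.descend hℓN hg hQ hp hΔ hR hinv
  rw [hy.eq_zero hℓ₀ hA hN hpℓ, Matrix.mulVec_zero] at h1
  exact (sub_eq_zero.mp h1.symm)

end Trick

end Fermat.Agent.AnJacH
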