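import Fermat.Agent.AnJac.PadicRep
import Mathlib.LinearAlgebra.FreeModule.Finite.Basic

/-!
# Extension of scalars from `𝔽_p` to `k`
-/

set_option autoImplicit false
set_option linter.unusedSectionVars false

noncomputable section

namespace Fermat.Agent.AnJacH

open Matrix

variable {p : ℕ} [hp : Fact p.Prime] {k : Type*} [Field k] [Algebra (ZMod p) k]

/-- extension of scalars of a matrix -/
def kM {m n : Type*} (A : Matrix m n (ZMod p)) : Matrix m n k := A.map (algebraMap (ZMod p) k)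

lemma kM_mul {l m n : Type*} [Fintype m] (A : Matrix l m (ZMod p)) (B : Matrix m n (ZMod p)) :
    (kM (A * B) : Matrix l n k) = (kM A : Matrix l m k) * (kM B : Matrix m n k) := Matrix.map_mul

lemma kM_one {m : Type*} [DecidableEq m] : (kM (1 : Matrix m m (ZMod p)) : Matrix m m k) = 1 := by
  unfold kM
  rw [Matrix.map_one _ (map_zero _) (map_one _)]

lemma kM_nsmul {m n : Type*} (c : ℕ) (A : Matrix m n (ZMod p)) :
    (kM (c • A) : Matrix m n k) = c • kM A := by
  ext i j
  simp [kM]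

/-- coordinates -/
def fc {n : Type*} (μ : k →ₗ[ZMod p] ZMod p) (x : n → k) : n → ZMod p := fun i => μ (x i)

lemma fc_mulVec {m n : Type*} [Fintype n] (μ : k →ₗ[ZMod p] ZMod p) (A : Matrix m n (ZMod p))
    (x : n → k) : fc μ (kM A *ᵥ x) = A *ᵥ fc μ x := by
  ext i
  simp only [fc, kM, Matrix.mulVec, dotProduct, Matrix.map_apply]
  rw [map_sum]
  refine Finset.sum_congr rfl fun j _ => ?_
  rw [← Algebra.smul_def, map_smul, smul_eq_mul]

lemma fc_add {n : Type*} (μ : k →ₗ[ZMod p] ZMod p) (x y : n → k) :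
    fc μ (x + y) = fc μ x + fc μ y := by
  ext i; simp [fc]

lemma fc_sub {n : Type*} (μ : k →ₗ[ZMod p] ZMod p) (x y : n → k) :
    fc μ (x - y) = fc μ x - fc μ y := by
  ext i; simp [fc]

lemma fc_zero {n : Type*} (μ : k →ₗ[ZMod p] ZMod p) : fc μ (0 : n → k) = 0 := by
  ext i; simp [fc]

lemma fc_nsmul {n : Type*} (μ : k →ₗ[ZMod p] ZMod p) (c : ℕ) (x : n → k) :
    fc μ (c • x) = c • fc μ x := by
  ext i; exact map_nsmul μ c (x i)

lemma fc_smul {n : Type*} (μ : k →ₗ[ZMod p] ZMod p) (c : k) (x : n → k) :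
    fc μ (c • x) = fc (μ ∘ₗ (LinearMap.mulLeft (ZMod p) c)) x := by
  ext i; simp [fc]

/-- functionals separate points -/
lemma fc_ext {n : Type*} {x y : n → k} (h : ∀ μ : k →ₗ[ZMod p] ZMod p, fc μ x = fc μ y) :
    x = y := by
  ext i
  let b := Module.Free.chooseBasis (ZMod p) k
  apply b.ext_elem
  intro j
  exact congrFun (h (b.coord j)) i

/-- extension of a condition -/
def Ex {n : Type*} (S : (n → ZMod p) → Prop) (x : n → k) : Prop :=
  ∀ μ : k →ₗ[ZMod p] ZMod p, S (fc μ x)

/-- closed conditions -/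
structure Cl {n : Type*} (S : (n → ZMod p) → Prop) : Prop where
  zero : S 0
  add : ∀ x y, S x → S y → S (x + y)

lemma Cl.nsmul {n : Type*} {S : (n → ZMod p) → Prop} (h : Cl S) {x} (hx : S x) (c : ℕ) :
    S (c • x) := by
  induction c with
  | zero => rw [zero_smul]; exact h.zero
  | succ c ih => rw [succ_nsmul]; exact h.add _ _ ih hx

lemma Cl.smul {n : Type*} {S : (n → ZMod p) → Prop} (h : Cl S) {x} (hx : S x) (c : ZMod p) :
    S (c • x) := by
  have h1 : c • x = c.val • x := by
    ext i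
    simp
  rw [h1]
  exact h.nsmul hx _

lemma Cl.sum {n ι : Type*} {S : (n → ZMod p) → Prop} (h : Cl S) (s : Finset ι)
    {f : ι → n → ZMod p} (hf : ∀ i ∈ s, S (f i)) : S (∑ i ∈ s, f i) := by
  classical
  induction s using Finset.induction_on with
  | empty => rw [Finset.sum_empty]; exact h.zero
  | insert a s ha ih =>
    rw [Finset.sum_insert ha]
    exact h.add _ _ (hf a (Finset.mem_insert_self a s))
      (ih fun i hi => hf i (Finset.mem_insert_of_mem hi))

namespace Ex

variable {m n : Type*} {S : (n → ZMod p) → Prop}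

lemma zero (h : Cl S) : Ex S (0 : n → k) := fun μ => by rw [fc_zero]; exact h.zero

lemma add (h : Cl S) {x y : n → k} (hx : Ex S x) (hy : Ex S y) : Ex S (x + y) := fun μ => by
  rw [fc_add]; exact h.add _ _ (hx μ) (hy μ)

lemma smul {x : n → k} (hx : Ex S x) (c : k) : Ex S (c • x) := fun μ => by
  rw [fc_smul]; exact hx _

lemma neg {x : n → k} (hx : Ex S x) : Ex S (-x) := by
  have := hx.smul (-1)
  rwa [neg_one_smul] at this

lemma sub (h : Cl S) {x y : n → k} (hx : Ex S x) (hy : Ex S y) : Ex S (x - y) := by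
  rw [sub_eq_add_neg]
  exact hx.add h hy.neg

/-- transport of a condition along a matrix -/
lemma mulVec [Fintype n] {S' : (m → ZMod p) → Prop} {A : Matrix m n (ZMod p)}
    (h : ∀ x, S x → S' (A *ᵥ x)) {x : n → k} (hx : Ex S x) : Ex S' (kM A *ᵥ x) := fun μ => by
  rw [fc_mulVec]; exact h _ (hx μ)

/-- equations -/
lemma eq [Fintype n] {A B : Matrix m n (ZMod p)} (h : ∀ x, S x → A *ᵥ x = B *ᵥ x)
    {x : n → k} (hx : Ex S x) : (kM A : Matrix m n k) *ᵥ x = kM B *ᵥ x :=
  fc_ext fun μ => by rw [fc_mulVec, fc_mulVec]; exact h _ (hx μ)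

/-- lifting -/
lemma lift {l : Type*} [Fintype n] [Fintype m] [Finite k] {S' : (m → ZMod p) → Prop} (hS' : Cl S')
    {P : (n → ZMod p) → Prop}
    {R : Matrix l m (ZMod p)} {C : Matrix l n (ZMod p)}
    (h : ∀ x, S x → P x → ∃ y, S' y ∧ R *ᵥ y = C *ᵥ x) {x : n → k} (hx : Ex S x) (hP : Ex P x) :
    ∃ y : m → k, Ex S' y ∧ (kM R : Matrix l m k) *ᵥ y = kM C *ᵥ x := by
  have : Module.Finite (ZMod p) k := Module.Finite.of_finite
  let b := Module.finBasis (ZMod p) k
  choose y hy hyR using fun j => h (fc (b.coord j) x) (hx _) (hP _)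
  let z : m → k := fun i => ∑ j, y j i • b j
  have hz : ∀ μ : k →ₗ[ZMod p] ZMod p, fc μ z = ∑ j, μ (b j) • y j := by
    intro μ
    ext i
    change μ (∑ j, y j i • b j) = _
    rw [map_sum, Finset.sum_apply]
    refine Finset.sum_congr rfl fun j _ => ?_
    rw [map_smul, Pi.smul_apply, smul_eq_mul, smul_eq_mul, mul_comm]
  have hzc : ∀ j, fc (b.coord j) z = y j := by
    intro j
    rw [hz, Finset.sum_eq_single j]
    · rw [Module.Basis.coord_apply, Module.Basis.repr_self, Finsupp.single_eq_same, one_smul]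
    · intro i _ hij
      rw [Module.Basis.coord_apply, Module.Basis.repr_self, Finsupp.single_eq_of_ne hij.symm,
        zero_smul]
    · intro hj
      exact absurd (Finset.mem_univ j) hj
  refine ⟨z, fun μ => ?_, ?_⟩
  · rw [hz]
    exact hS'.sum _ fun j _ => hS'.smul (hy j) _
  · ext i
    apply b.ext_elem
    intro j
    have h1 : fc (b.coord j) ((kM R : Matrix l m k) *ᵥ z) = fc (b.coord j) (kM C *ᵥ x) := by
      rw [fc_mulVec, fc_mulVec, hzc, hyR]
    exact congrFun h1 i

end Ex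

end Fermat.Agent.AnJacH
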