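import Fermat.Agent.AnJacH.LinK
import Mathlib.RingTheory.DiscreteValuationRing.Basic
import Mathlib.RingTheory.LocalRing.ResidueField.Basic
import Mathlib.NumberTheory.Padics.RingHoms
import Mathlib.RingTheory.Filtration

/-!
# Extension of scalars from `ℤ_p` to `O`
-/

set_option autoImplicit false
set_option linter.unusedSectionVars false

noncomputable section

namespace Fermat.Agent.AnJacH

open Matrix IsLocalRing

variable {p : ℕ} [hp : Fact p.Prime] {O : Type*} [CommRing O] [Algebra ℤ_[p] O]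

/-- extension of scalars of a matrix -/
def oM {m n : Type*} (A : Matrix m n ℤ_[p]) : Matrix m n O := A.map (algebraMap ℤ_[p] O)

/-- integral matrices -/
def oI (O : Type*) [CommRing O] {m n : Type*} (A : Matrix m n ℤ) : Matrix m n O :=
  A.map (Int.castRingHom O)

/-- coordinates -/
def fo {n : Type*} (μ : O →ₗ[ℤ_[p]] ℤ_[p]) (x : n → O) : n → ℤ_[p] := fun i => μ (x i)

lemma fo_mulVec {m n : Type*} [Fintype n] (μ : O →ₗ[ℤ_[p]] ℤ_[p]) (A : Matrix m n ℤ_[p])
    (x : n → O) : fo μ (oM A *ᵥ x) = A *ᵥ fo μ x := by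
  ext i
  simp only [fo, oM, Matrix.mulVec, dotProduct, Matrix.map_apply]
  rw [map_sum]
  refine Finset.sum_congr rfl fun j _ => ?_
  rw [← Algebra.smul_def, map_smul, smul_eq_mul]

lemma oM_int {m n : Type*} (A : Matrix m n ℤ) :
    (oM (oI ℤ_[p] A) : Matrix m n O) = oI O A := by
  ext i j
  simp [oM, oI]

lemma fo_mulVec_int {m n : Type*} [Fintype n] (μ : O →ₗ[ℤ_[p]] ℤ_[p]) (A : Matrix m n ℤ)
    (x : n → O) : fo μ (oI O A *ᵥ x) = oI ℤ_[p] A *ᵥ fo μ x := by
  rw [← oM_int (p := p), fo_mulVec]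

lemma fo_add {n : Type*} (μ : O →ₗ[ℤ_[p]] ℤ_[p]) (x y : n → O) :
    fo μ (x + y) = fo μ x + fo μ y := by
  ext i; simp [fo]

lemma fo_sub {n : Type*} (μ : O →ₗ[ℤ_[p]] ℤ_[p]) (x y : n → O) :
    fo μ (x - y) = fo μ x - fo μ y := by
  ext i; simp [fo]

lemma fo_zero {n : Type*} (μ : O →ₗ[ℤ_[p]] ℤ_[p]) : fo μ (0 : n → O) = 0 := by
  ext i; simp [fo]

lemma fo_smul {n : Type*} (μ : O →ₗ[ℤ_[p]] ℤ_[p]) (c : O) (x : n → O) :
    fo μ (c • x) = fo (μ ∘ₗ (LinearMap.mulLeft ℤ_[p] c)) x := by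
  ext i; simp [fo]

lemma fo_nsmul {n : Type*} (μ : O →ₗ[ℤ_[p]] ℤ_[p]) (c : ℕ) (x : n → O) :
    fo μ (c • x) = c • fo μ x := by
  ext i; exact map_nsmul μ c (x i)

/-- extension of a condition -/
def Eo {n : Type*} (S : (n → ℤ_[p]) → Prop) (x : n → O) : Prop :=
  ∀ μ : O →ₗ[ℤ_[p]] ℤ_[p], S (fo μ x)

/-- closed and saturated conditions -/
structure ClO {n : Type*} (S : (n → ℤ_[p]) → Prop) : Prop where
  zero : S 0
  add : ∀ x y, S x → S y → S (x + y)
  sat : ∀ x, S (p • x) → S x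

namespace Eo

variable {n : Type*} {S : (n → ℤ_[p]) → Prop}

lemma zero (h : ClO S) : Eo S (0 : n → O) := fun μ => by rw [fo_zero]; exact h.zero

lemma add (h : ClO S) {x y : n → O} (hx : Eo S x) (hy : Eo S y) : Eo S (x + y) := fun μ => by
  rw [fo_add]; exact h.add _ _ (hx μ) (hy μ)

lemma smul {x : n → O} (hx : Eo S x) (c : O) : Eo S (c • x) := fun μ => by
  rw [fo_smul]; exact hx _

lemma neg {x : n → O} (hx : Eo S x) : Eo S (-x) := by
  have := hx.smul (-1)
  rwa [neg_one_smul] at this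

lemma sub (h : ClO S) {x y : n → O} (hx : Eo S x) (hy : Eo S y) : Eo S (x - y) := by
  rw [sub_eq_add_neg]
  exact hx.add h hy.neg

lemma sat_p (h : ClO S) {x : n → O} (hx : Eo S (p • x)) : Eo S x := fun μ => by
  have := hx μ
  rw [fo_nsmul] at this
  exact h.sat _ this

lemma sat_pow (h : ClO S) {x : n → O} (k : ℕ) (hx : Eo S (p ^ k • x)) : Eo S x := by
  induction k with
  | zero => rwa [pow_zero, one_smul] at hx
  | succ k ih =>
    rw [pow_succ', mul_smul] at hx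
    exact ih (hx.sat_p h)

end Eo

section DVR

variable [IsDomain O] [IsDiscreteValuationRing O] (hpO : (p : O) ∈ maximalIdeal O)

include hpO in
/-- nonzero elements divide powers of `p` -/
lemma exists_dvd_pow {c : O} (hc : c ≠ 0) : ∃ k : ℕ, c ∣ (p : O) ^ k := by
  obtain ⟨ϖ, hϖ⟩ := IsDiscreteValuationRing.exists_irreducible O
  obtain ⟨k, u, hu⟩ := IsDiscreteValuationRing.eq_unit_mul_pow_irreducible hc hϖ
  refine ⟨k, ?_⟩
  rw [hu]
  have h1 : ϖ ∣ (p : O) := by
    rw [hϖ.maximalIdeal_eq, Ideal.mem_span_singleton] at hpO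
    exact hpO
  rw [Units.mul_left_dvd]
  exact pow_dvd_pow_of_dvd h1 k

include hpO in
lemma Eo.sat {n : Type*} {S : (n → ℤ_[p]) → Prop} (h : ClO S) {x : n → O} {c : O} (hc : c ≠ 0)
    (hx : Eo S (c • x)) : Eo S x := by
  obtain ⟨k, d, hd⟩ := exists_dvd_pow hpO hc
  refine Eo.sat_pow h k ?_
  have h1 := hx.smul d
  rw [smul_smul, mul_comm, ← hd] at h1
  have h2 : (p ^ k : ℕ) • x = ((p : O) ^ k) • x := by
    rw [← Nat.cast_smul_eq_nsmul O, Nat.cast_pow]
  rw [h2]
  exact h1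

/-- nonzero vectors are multiples of primitive ones -/
lemma exists_primitive {n : Type*} [Finite n] {x : n → O} (hx : x ≠ 0) :
    ∃ (c : O) (y : n → O), c ≠ 0 ∧ x = c • y ∧ ∃ i, residue O (y i) ≠ 0 := by
  classical
  have := Fintype.ofFinite n
  obtain ⟨ϖ, hϖ⟩ := IsDiscreteValuationRing.exists_irreducible O
  have key : ∀ k : ℕ, ∀ x : n → O, x ≠ 0 → (∃ i, ¬ ϖ ^ k ∣ x i) →
      ∃ (c : O) (y : n → O), c ≠ 0 ∧ x = c • y ∧ ∃ i, residue O (y i) ≠ 0 := by
    intro k
    induction k with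
    | zero =>
      rintro x hx ⟨i, hi⟩
      rw [pow_zero] at hi
      exact absurd (one_dvd _) hi
    | succ k ih =>
      intro x hx hi
      by_cases h1 : ∀ i, ϖ ∣ x i
      · choose y hy using h1
        have hxy : x = ϖ • y := funext hy
        have hy0 : y ≠ 0 := by
          rintro rfl
          rw [smul_zero] at hxy
          exact hx hxy
        obtain ⟨i, hi⟩ := hi
        obtain ⟨c, z, hc, hz, hzi⟩ := ih y hy0 ⟨i, fun h => hi (by
          rw [pow_succ', hy i]; exact mul_dvd_mul_left _ h)⟩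
        exact ⟨ϖ * c, z, mul_ne_zero hϖ.ne_zero hc, by rw [hxy, hz, smul_smul], hzi⟩
      · push Not at h1
        obtain ⟨i, hi⟩ := h1
        refine ⟨1, x, one_ne_zero, (one_smul _ _).symm, i, ?_⟩
        rw [Ne, residue_eq_zero_iff, hϖ.maximalIdeal_eq, Ideal.mem_span_singleton]
        exact hi
  obtain ⟨i, hi⟩ : ∃ i, x i ≠ 0 := by
    by_contra h
    push Not at h
    exact hx (funext h)
  obtain ⟨k, u, hu⟩ := IsDiscreteValuationRing.eq_unit_mul_pow_irreducible hi hϖ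
  refine key (k + 1) x hx ⟨i, fun h => ?_⟩
  rw [hu, pow_succ] at h
  obtain ⟨d, hd⟩ := h
  have h2 : ϖ ^ k * (u : O) = ϖ ^ k * (ϖ * d) := by rw [mul_comm, hd]; ring
  have h3 := mul_left_cancel₀ (pow_ne_zero k hϖ.ne_zero) h2
  exact hϖ.not_isUnit (isUnit_of_dvd_unit (Dvd.intro d h3.symm) u.isUnit)

end DVR

section Residue

variable [IsLocalRing O] (hpO : (p : O) ∈ maximalIdeal O) [Algebra (ZMod p) (ResidueField O)]

include hpO in
lemma residue_algebraMap (c : ℤ_[p]) :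
    residue O (algebraMap ℤ_[p] O c) = algebraMap (ZMod p) (ResidueField O) (PadicInt.toZMod c) := by
  have h1 : c - ((PadicInt.toZMod c).val : ℤ_[p]) ∈ RingHom.ker (PadicInt.toZMod (p := p)) := by
    rw [RingHom.mem_ker, map_sub, map_natCast, ZMod.natCast_zmod_val, sub_self]
  rw [PadicInt.ker_toZMod, PadicInt.maximalIdeal_eq_span_p, Ideal.mem_span_singleton] at h1
  obtain ⟨d, hd⟩ := h1
  have h2 : c = ((PadicInt.toZMod c).val : ℤ_[p]) + p * d := by rw [← hd]; ring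
  have h3 : residue O (p : O) = 0 := (residue_eq_zero_iff _).mpr hpO
  conv_lhs => rw [h2]
  rw [map_add, map_mul, map_natCast, map_natCast, map_add, map_mul, map_natCast, h3, zero_mul,
    add_zero]
  conv_rhs => rw [← ZMod.natCast_zmod_val (PadicInt.toZMod c)]
  rw [map_natCast]

include hpO in
/-- functionals lift -/
lemma exists_lift_functional [Module.Free ℤ_[p] O] [Module.Finite ℤ_[p] O]
    (μ : ResidueField O →ₗ[ZMod p] ZMod p) :
    ∃ ν : O →ₗ[ℤ_[p]] ℤ_[p], ∀ x, PadicInt.toZMod (ν x) = μ (residue O x) := by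
  let b := Module.finBasis ℤ_[p] O
  let ν : O →ₗ[ℤ_[p]] ℤ_[p] := b.constr ℤ_[p] fun i => ((μ (residue O (b i))).val : ℤ_[p])
  refine ⟨ν, fun x => ?_⟩
  have h1 : x = ∑ i, b.repr x i • b i := (b.sum_repr x).symm
  rw [h1]
  simp only [map_sum, map_smul]
  refine Finset.sum_congr rfl fun i _ => ?_
  rw [Module.Basis.constr_basis, smul_eq_mul, map_mul, map_natCast, ZMod.natCast_zmod_val,
    Algebra.smul_def, map_mul, residue_algebraMap hpO, ← Algebra.smul_def, map_smul, smul_eq_mul]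

end Residue

end Fermat.Agent.AnJacH
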