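import Fermat.Agent.AnJacH.LevN

/-!
# Lowering the level by `U_q`
-/

set_option autoImplicit false
set_option linter.unusedSectionVars false

noncomputable section

namespace Fermat.Agent.AnJacH

open ModularCurve Fermat.Agent.ModFun Fermat.Agent.AnJac AlgebraicCurve IsLocalRing
open Fermat.Agent.HeckeQ CongruenceSubgroup MatrixGroups UpperHalfPlane Matrix
open Fermat.Agent.GenusX0 (zetaU zetaU_prim)
open P2MW.S_ModularForm_heckeT_slash_eq_self_of_mem_Gamma0.ModularForm.HeckeSlashInvariance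
open scoped Pointwise Manifold

local notation "Qbar" => AlgebraicClosure ℚ
local notation "GQ" => Qbar ≃ₐ[ℚ] Qbar

section Low

variable {q M : ℕ} [hq : NeZero q] [NeZero M] (hqM : q ∣ M)

lemma g_mem_low (γ : Gamma0 M) (i : ZMod q) :
    ((hfU M q hqM).g γ i : SL(2,ℤ)) ∈ Gamma0 (q * M) := by
  have hA : ∀ j : ZMod q, (((hfU M q hqM).A j : GL (Fin 2) ℝ) : Matrix (Fin 2) (Fin 2) ℝ) =
    !![((1 : ℤ) : ℝ), ((j.val : ℤ) : ℝ); 0, ((q : ℤ) : ℝ)] := fun j => val_heckeM hq.out _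
  obtain ⟨h0, -⟩ := entry_int (hA i) (hA _) ((hfU M q hqM).spec γ i)
  have hγ := γ.2
  rw [Gamma0_mem, ZMod.intCast_zmod_eq_zero_iff_dvd] at hγ ⊢
  rw [mul_one] at h0
  rw [← h0]
  push_cast
  exact mul_dvd_mul_left _ hγ

/-- the cocycle with values in `Γ₀(qM)` -/
def gL (γ : Gamma0 M) (i : ZMod q) : Gamma0 (q * M) := ⟨_, g_mem_low hqM γ i⟩

lemma gL_mul (γ γ' : Gamma0 M) (i : ZMod q) :
    gL hqM (γ * γ') i = gL hqM γ i * gL hqM γ' ((hfU M q hqM).s γ i) :=
  Subtype.ext (congrArg (fun g : Gamma0 M => (g : SL(2,ℤ))) ((hfU M q hqM).g_mul γ γ' i))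

lemma gL_one (i : ZMod q) : gL hqM 1 i = 1 :=
  Subtype.ext (congrArg (fun g : Gamma0 M => (g : SL(2,ℤ))) ((hfU M q hqM).one_spec i).2)

/-- `U_q` from level `qM` to level `M` -/
def Tlow : (Additive (Gamma0 (q * M)) →+ ℤ) →+ (Additive (Gamma0 M) →+ ℤ) where
  toFun φ :=
    { toFun := fun x => ∑ i, φ (Additive.ofMul (gL hqM (Additive.toMul x) i))
      map_zero' := by
        refine Finset.sum_eq_zero fun i _ => ?_
        rw [toMul_zero, gL_one, ofMul_one, map_zero]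
      map_add' := by
        intro x y
        rw [toMul_add]
        simp only [gL_mul, ofMul_mul, map_add]
        rw [Finset.sum_add_distrib]
        congr 1
        exact Equiv.sum_comp ((hfU M q hqM).sE (Additive.toMul x))
          (fun i => φ (Additive.ofMul (gL hqM (Additive.toMul y) i))) }
  map_zero' := by
    ext x
    simp
  map_add' φ ψ := by
    ext x
    change ∑ i, (φ + ψ) _ = ∑ i, φ _ + ∑ i, ψ _
    rw [← Finset.sum_add_distrib]
    rfl

lemma Tlow_apply (φ : Additive (Gamma0 (q * M)) →+ ℤ) (γ : Gamma0 M) :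
    Tlow hqM φ (Additive.ofMul γ) = ∑ i, φ (Additive.ofMul (gL hqM γ i)) := rfl

lemma Tlow_mem {φ : Additive (Gamma0 (q * M)) →+ ℤ} (hφ : φ ∈ NHA (Gamma0 (q * M)) ℤ) :
    Tlow hqM φ ∈ NHA (Gamma0 M) ℤ := by
  intro γ hγ
  set F := hfU M q hqM with hF
  have hs : ∀ (m : ℕ) (i : ZMod q), F.s (γ ^ m) i = ((F.sE γ) ^ m) i := by
    intro m
    induction m with
    | zero => intro i; rw [pow_zero, (F.one_spec i).1, pow_zero]; rfl
    | succ m ih =>
      intro i
      rw [pow_succ, F.s_mul, ih, pow_succ']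
      rfl
  set m := orderOf (F.sE γ : Equiv.Perm (ZMod q)) with hm
  have hm0 : m ≠ 0 := (orderOf_pos _).ne'
  have hs' : ∀ i, F.s (γ ^ m) i = i := by
    intro i
    rw [hs, pow_orderOf_eq_one]
    rfl
  have h1 : Tlow hqM φ (Additive.ofMul (γ ^ m)) = 0 := by
    rw [Tlow_apply]
    refine Finset.sum_eq_zero fun i _ => ?_
    apply hφ
    have h2 := F.spec (γ ^ m) i
    rw [hs'] at h2
    change |(F.g (γ ^ m) i : SL(2,ℤ)) 0 0 + (F.g (γ ^ m) i : SL(2,ℤ)) 1 1| ≤ 2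
    rw [trace_gl_conj h2]
    exact abs_trace_pow_le hγ m
  rw [ofMul_pow, map_nsmul] at h1
  exact (nsmul_eq_zero_iff_right hm0).mp h1

lemma isX_low {n : ℕ} {φ : Additive (Gamma0 (q * M)) →+ ℤ} (hφ : φ ∈ NHA (Gamma0 (q * M)) ℤ)
    {G : ℍ → ℂ} (hG : IsX (q * M) (ech n φ) G) : IsX M (ech n (Tlow hqM φ)) (Wfun q G) := by
  have hW : Wfun q G = ∏ i : ZMod q, fun τ => G ((hfU M q hqM).A i • τ) := by
    ext τ
    rw [Finset.prod_apply]
    rfl
  rw [hW]
  refine IsX.of (isNH_ech (Tlow_mem hqM hφ)) ?_ ?_ ?_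
  · exact mdiff_prod _ fun i _ => mdiff_comp_GL hG.isA.mdiff ((hfU M q hqM).pos i)
  · intro γ τ
    rw [Finset.prod_apply, Finset.prod_apply, ech_apply, Tlow_apply]
    have h1 : ∀ i, G ((hfU M q hqM).A i • ((γ : SL(2,ℤ)) • τ)) =
        (ech n φ (gL hqM γ i) : ℂ) * G ((hfU M q hqM).A ((hfU M q hqM).s γ i) • τ) := by
      intro i
      rw [← hG.inv]
      congr 1
      rw [SL_smul_eq, SL_smul_eq, ← mul_smul, ← mul_smul]
      exact congrArg (fun B : GL (Fin 2) ℝ => B • τ) ((hfU M q hqM).spec γ i)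
    simp only [h1]
    rw [Finset.prod_mul_distrib]
    congr 1
    · simp only [ech_apply]
      rw [← Units.coe_prod]
      congr 1
      exact (map_sum (zmultiplesHom (Additive ℂˣ) (Additive.ofMul (zetaU n))) _ _).symm
    · exact Equiv.prod_comp ((hfU M q hqM).sE γ) (fun i => G ((hfU M q hqM).A i • τ))
  · exact MGA.prod _ fun i _ => MGA.comp_int hG.isA.mga ((hfU M q hqM).pos i)
      ((hfU M q hqM).int i)

lemma isChar_low {n : ℕ} (hn : n ≠ 0) {φ : Additive (Gamma0 (q * M)) →+ ℤ}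
    (hφ : φ ∈ NHA (Gamma0 (q * M)) ℤ)
    {u : LaurentSeries ℂ} (hu : IsChar (q * M) n u (ech n φ)) {ζ : ℂˣ}
    (hζ : IsPrimitiveRoot ζ q) : IsChar M n (heckeW ζ q u) (ech n (Tlow hqM φ)) := by
  rw [heckeW_congr hζ (zetaU_prim q)]
  obtain ⟨G, b, hG, hb, hG0, hb0, he⟩ := hu.ex
  have hG' := isX_low hqM hφ hG
  have h0 : ech n (0 : Additive (Gamma0 (q * M)) →+ ℤ) = 1 := by
    ext γ; rw [ech_apply]; simp
  have h0' : ech n (0 : Additive (Gamma0 M) →+ ℤ) = 1 := by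
    ext γ; rw [ech_apply]; simp
  have hb' : IsX M 1 (Wfun q b) := by
    have := isX_low hqM (n := n) (φ := 0) (zero_mem _) (G := b) (by rw [h0]; exact hb)
    rwa [map_zero, h0'] at this
  have hne : ∀ {G : ℍ → ℂ}, MDiff G → G ≠ 0 → Wfun q G ≠ 0 := by
    intro G hG hG0
    have := (hfU M q hqM).Nm_ne_zero hG hG0
    rwa [Nm_hfU] at this
  refine ⟨isNH_ech (Tlow_mem hqM hφ), ech_pow_self hn _, Wfun q G, Wfun q b, hG', hb',
    hne hG.isA.mdiff hG0, hne hb.isA.mdiff hb0, ?_⟩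
  rw [(isP_Wfun (hG.isP hu.nh)).2, (isP_Wfun (hb.isP isNH_one)).2]
  have h1 := congrArg (heckeWHom (zetaU_prim q)) he
  simp only [map_mul, map_pow, heckeWHom_apply] at h1
  exact h1

include hqM in
/-- `U_q` on functions, from level `qM` to level `M` -/
lemma heckeW_mem_low {k : Type*} [Field k] [IsAlgClosed k] [CharZero k] (ι : k →+* ℂ)
    {ζ : kˣ} (hζ : IsPrimitiveRoot ζ q) {u : LaurentSeries k}
    (hu : u ∈ modularFunctionFieldFullC k (q * M)) :
    heckeW ζ q u ∈ modularFunctionFieldFullC k M := by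
  have : NeZero (q * M) := ⟨Nat.mul_ne_zero hq.out (NeZero.ne M)⟩
  let _ := ι.toAlgebra
  rcases eq_or_ne u 0 with rfl | hu0
  · rw [heckeW_zero hζ]; exact zero_mem _
  apply mem_of_coeffs
  change coeffMap ι (heckeW ζ q u) ∈ FF M
  rw [coeffMap_heckeW ι hζ]
  have h1 : IsChar (q * M) 1 (coeffMap ι u) (ech 1 0) := by
    have h2 := IsChar.of_pow (n := 1) (coeffMap_mem_FF ι hu) (by
      rw [Ne, map_eq_zero_iff _ (coeffMap_injective ι)]; exact hu0)
    rw [pow_one] at h2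
    have h0 : ech 1 (0 : Additive (Gamma0 (q * M)) →+ ℤ) = 1 := by
      ext γ; rw [ech_apply]; simp
    rwa [h0]
  exact (isChar_low hqM one_ne_zero (zero_mem _) h1 (isPrimitiveRoot_map ι hζ)).mem_FF'

/-- `U_q` on functions, from level `qM` to level `M` -/
def Flow {ζ : Qbarˣ} (hζ : IsPrimitiveRoot ζ q) (u : modularFunctionFieldFullC Qbar (q * M)) :
    modularFunctionFieldFullC Qbar M :=
  ⟨heckeW ζ q (u : LaurentSeries Qbar), heckeW_mem_low hqM ιQ hζ u.2⟩

end Low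

end Fermat.Agent.AnJacH
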