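import Fermat.Agent.AnJacH.ALq

/-!
# Relations between the operators of different levels; stability of trivial reduction
-/

set_option autoImplicit false
set_option linter.unusedSectionVars false

noncomputable section

namespace Fermat.Agent.AnJacH

open ModularCurve Fermat.Agent.ModFun Fermat.Agent.AnJac AlgebraicCurve IsLocalRing
open Fermat.Agent.HeckeQ CongruenceSubgroup MatrixGroups UpperHalfPlane Matrix
open scoped Pointwise Manifold

local notation "Qbar" => AlgebraicClosure ℚ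
local notation "GQ" => Qbar ≃ₐ[ℚ] Qbar

variable {A : ValuationSubring Qbar}

lemma RdC.hW' {u : LaurentSeries Qbar} (hu : RdC A u) (ℓ : ℕ) [NeZero ℓ] : RdC A (hW ℓ u) := by
  obtain ⟨c, hc, h3⟩ := hu
  have h4 := Rd.hW_one' (ℓ := ℓ) h3
  rw [hW_const] at h4
  exact ⟨c ^ ℓ, pow_ne_zero _ hc, h4⟩

lemma RdC.qExpand' {u : LaurentSeries Qbar} (hu : RdC A u) (ℓ : ℕ) [NeZero ℓ] :
    RdC A (qExpand Qbar ℓ u) := by
  obtain ⟨c, hc, h3⟩ := hu
  have h4 := Rd.qExpand' (ℓ := ℓ) h3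
  rw [map_mul, qExpand_C, map_one] at h4
  exact ⟨c, hc, h4⟩

lemma KN.T {N : ℕ} [NeZero N] {n : ℕ} {ℓ : ℕ} [Fact ℓ.Prime] (hℓN : ¬ ℓ ∣ N) {x}
    (hx : KN N A n x) : KN N A n (TmN N n ℓ hℓN *ᵥ x) := by
  have : NeZero ℓ := ⟨(Fact.out : ℓ.Prime).ne_zero⟩
  obtain ⟨ξ, hξ⟩ := exists_zeta ℓ
  obtain ⟨u, hu, hu'⟩ := hx
  refine ⟨_, isMat_T (n := n) hℓN hξ u x hu, ?_⟩
  change RdC A (heckeMul ξ ℓ (u : LaurentSeries Qbar))
  rw [heckeMul, heckeW_eq_hW hξ]
  exact (hu'.qExpand' ℓ).mul (hu'.hW' ℓ)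

section Low

variable {q M : ℕ} [hq : NeZero q] [NeZero M] [NeZero (q * M)] {n : ℕ} (hqM : q ∣ M) {ζ : Qbarˣ}
  (hζ : IsPrimitiveRoot ζ q)
  {L : Matrix (Fin (Module.finrank ℤ (Lat M))) (Fin (Module.finrank ℤ (Lat (q * M)))) (ZMod n)}
  (hL : KSys.IsMat (KQ (q * M)) (bL (q * M)) (KQ M) (bL M) n (Flow hqM hζ) L)
  {I : Matrix (Fin (Module.finrank ℤ (Lat (q * M)))) (Fin (Module.finrank ℤ (Lat M))) (ZMod n)}
  (hI : KSys.IsMat (KQ M) (bL M) (KQ (q * M)) (bL (q * M)) n (inQ q M) I)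

include hL in
lemma KN.low {x} (hx : KN (q * M) A n x) : KN M A n (L *ᵥ x) := by
  obtain ⟨u, hu, hu'⟩ := hx
  refine ⟨_, hL u x hu, ?_⟩
  change RdC A (heckeW ζ q (u : LaurentSeries Qbar))
  rw [heckeW_eq_hW hζ]
  exact hu'.hW' q

include hL hI in
lemma in_low (hn : n ≠ 0) : I * L = UmN (q * M) n q (dvd_mul_right q M) := by
  refine (hL.comp hI).eq hn ?_
  have h2 := isMat_U (n := n) (dvd_mul_right q M) hζ
  have h3 : (fun u => inQ q M (Flow hqM hζ u)) = FU ιQ (dvd_mul_right q M) hζ := by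
    funext u
    apply Subtype.ext
    rw [coe_inQ]
    rfl
  rw [h3]
  exact h2

include hL in
lemma low_U (hn : n ≠ 0) :
    L * UmN (q * M) n q (dvd_mul_right q M) = UmN M n q hqM * L := by
  refine ((isMat_U (n := n) (dvd_mul_right q M) hζ).comp hL).eq hn ?_
  have h2 := hL.comp (isMat_U (n := n) hqM hζ)
  exact h2

include hL in
lemma low_M (hn : n ≠ 0) (σ : GQ) :
    L * (KQ (q * M)).M (bL (q * M)) hn σ = (KQ M).M (bL M) hn σ * L := by
  refine ((KSys.isMat_act hn σ).comp hL).eq hn ?_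
  have h1 := hL.comp (KSys.isMat_act (b := bL M) hn σ)
  have h2 : (fun u => Flow hqM hζ ((KQ (q * M)).act σ u)) =
      fun u => (KQ M).act σ (Flow hqM hζ u) := by
    funext u
    apply Subtype.ext
    change heckeW ζ q (coeffMap ((fQ σ : RingAut Qbar) : Qbar →+* Qbar)
      (u : LaurentSeries Qbar)) = coeffMap ((fQ σ : RingAut Qbar) : Qbar →+* Qbar)
        (heckeW ζ q (u : LaurentSeries Qbar))
    rw [coeffMap_heckeW' ((fQ σ : RingAut Qbar) : Qbar →+* Qbar) hζ hζ]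
  rw [h2]
  exact h1

end Low

end Fermat.Agent.AnJacH
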