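import Fermat.Agent.AnJacH.Low

/-!
# Matrices of the operators between levels, and their commutation
-/

set_option autoImplicit false
set_option linter.unusedSectionVars false

noncomputable section

namespace Fermat.Agent.AnJacH

open ModularCurve Fermat.Agent.ModFun Fermat.Agent.AnJac AlgebraicCurve IsLocalRing
open Fermat.Agent.HeckeQ CongruenceSubgroup MatrixGroups UpperHalfPlane Matrix
open scoped Pointwise Manifold

local notation "Qbar" => AlgebraicClosure ℚ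
local notation "GQ" => Qbar ≃ₐ[ℚ] Qbar

/-! ### commutation of the operators on Laurent series -/

section Comm

variable {K : Type*} [Field K]

lemma tprod_qExpand {q ℓ : ℕ} [NeZero q] [NeZero ℓ] {ζ : Kˣ} (hζ : ζ ^ q = 1)
    (hco : ℓ.Coprime q) (u : LaurentSeries K) :
    tprod q ζ (qExpand K ℓ u) = qExpand K ℓ (tprod q ζ u) := by
  conv_rhs => rw [← tprod_pow hζ hco]
  rw [AnJac.tprod_apply, AnJac.tprod_apply, map_prod]
  refine Finset.prod_congr rfl fun x _ => ?_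
  ext n
  rw [twist_coeff]
  by_cases hn : (ℓ : ℤ) ∣ n
  · obtain ⟨c, rfl⟩ := hn
    rw [qExpand_coeff_mul, qExpand_coeff_mul, twist_coeff]
    congr 2
    rw [← pow_mul, ← zpow_natCast, ← zpow_natCast, ← _root_.zpow_mul, ← _root_.zpow_mul]
    congr 1
    push_cast
    ring
  · rw [qExpand_coeff_of_not_dvd ℓ _ hn, qExpand_coeff_of_not_dvd ℓ _ hn, mul_zero]

lemma heckeW_qExpand {q ℓ : ℕ} [NeZero q] [NeZero ℓ] {ζ : Kˣ} (hζ : IsPrimitiveRoot ζ q)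
    (hco : ℓ.Coprime q) (u : LaurentSeries K) :
    heckeW ζ q (qExpand K ℓ u) = qExpand K ℓ (heckeW ζ q u) := by
  apply (qExpand K q).injective
  rw [qExpand_heckeW hζ, tprod_qExpand hζ.pow_eq_one hco, ← qExpand_heckeW hζ]
  ext n
  by_cases hq : (q : ℤ) ∣ n
  · obtain ⟨c, rfl⟩ := hq
    rw [qExpand_coeff_mul q]
    by_cases hl : (ℓ : ℤ) ∣ c
    · obtain ⟨d, rfl⟩ := hl
      rw [qExpand_coeff_mul ℓ, show (q : ℤ) * (ℓ * d) = ℓ * (q * d) by ring,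
        qExpand_coeff_mul ℓ, qExpand_coeff_mul q]
    · rw [qExpand_coeff_of_not_dvd ℓ _ hl, qExpand_coeff_of_not_dvd ℓ]
      intro h
      apply hl
      have h1 : IsCoprime (ℓ : ℤ) (q : ℤ) := Nat.isCoprime_iff_coprime.mpr hco
      exact h1.dvd_of_dvd_mul_left h
  · rw [qExpand_coeff_of_not_dvd q _ hq]
    by_cases hl : (ℓ : ℤ) ∣ n
    · obtain ⟨d, rfl⟩ := hl
      rw [qExpand_coeff_mul ℓ, qExpand_coeff_of_not_dvd q]
      intro h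
      exact hq (Dvd.dvd.mul_left h _)
    · rw [qExpand_coeff_of_not_dvd ℓ _ hl]

lemma tprod_tprod {q ℓ : ℕ} [NeZero q] [NeZero ℓ] (ζ ξ : Kˣ) (u : LaurentSeries K) :
    tprod q ζ (tprod ℓ ξ u) = tprod ℓ ξ (tprod q ζ u) := by
  simp only [AnJac.tprod_apply, map_prod]
  rw [Finset.prod_comm]
  refine Finset.prod_congr rfl fun x _ => Finset.prod_congr rfl fun y _ => ?_
  rw [twist_twist, twist_twist, mul_comm]

lemma heckeW_heckeW {q ℓ : ℕ} [NeZero q] [NeZero ℓ] {ζ ξ : Kˣ} (hζ : IsPrimitiveRoot ζ q)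
    (hξ : IsPrimitiveRoot ξ ℓ) (hco : ℓ.Coprime q) (u : LaurentSeries K) :
    heckeW ζ q (heckeW ξ ℓ u) = heckeW ξ ℓ (heckeW ζ q u) := by
  apply (qExpand K q).injective
  apply (qExpand K ℓ).injective
  rw [qExpand_heckeW hζ, ← tprod_qExpand hζ.pow_eq_one hco, qExpand_heckeW hξ,
    ← heckeW_qExpand hξ hco.symm, qExpand_heckeW hξ, qExpand_heckeW hζ, tprod_tprod]

lemma heckeMul_heckeW {q ℓ : ℕ} [NeZero q] [NeZero ℓ] {ζ ξ : Kˣ} (hζ : IsPrimitiveRoot ζ q)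
    (hξ : IsPrimitiveRoot ξ ℓ) (hco : ℓ.Coprime q) (u : LaurentSeries K) :
    heckeW ζ q (heckeMul ξ ℓ u) = heckeMul ξ ℓ (heckeW ζ q u) := by
  rw [heckeMul, heckeMul, heckeW_mul hζ, heckeW_qExpand hζ hco, heckeW_heckeW hζ hξ hco]

end Comm

/-! ### matrices -/

section Mat

variable {N : ℕ} [NeZero N] {n : ℕ}

/-- `T_ℓ` modulo `n` -/
def TmN (N : ℕ) [NeZero N] (n ℓ : ℕ) [Fact ℓ.Prime] (hℓN : ¬ ℓ ∣ N) := im n (KSys.tm (bL N) (LT N ℓ hℓN))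

/-- `U_q` modulo `n` -/
def UmN (N : ℕ) [NeZero N] (n q : ℕ) [NeZero q] (hqN : q ∣ N) := im n (KSys.tm (bL N) (LU N q hqN))

lemma isMat_T {ℓ : ℕ} [Fact ℓ.Prime] [NeZero ℓ] (hℓN : ¬ ℓ ∣ N) {ζ : Qbarˣ}
    (hζ : IsPrimitiveRoot ζ ℓ) :
    KSys.IsMat (KQ N) (bL N) (KQ N) (bL N) n (FT ιQ hℓN hζ) (TmN N n ℓ hℓN) :=
  KSys.isMat_compat (compat_LT ιQ fQ hℓN hζ)

lemma isMat_U {q : ℕ} [NeZero q] (hqN : q ∣ N) {ζ : Qbarˣ} (hζ : IsPrimitiveRoot ζ q) :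
    KSys.IsMat (KQ N) (bL N) (KQ N) (bL N) n (FU ιQ hqN hζ) (UmN N n q hqN) :=
  KSys.isMat_compat (compat_LU ιQ fQ hqN hζ)

lemma T_comm_U (hn : n ≠ 0) {ℓ q : ℕ} [hℓ : Fact ℓ.Prime] (hq : q.Prime) [NeZero q] (hℓN : ¬ ℓ ∣ N)
    (hqN : q ∣ N) : UmN N n q hqN * TmN N n ℓ hℓN = TmN N n ℓ hℓN * UmN N n q hqN := by
  have : NeZero ℓ := ⟨hℓ.out.ne_zero⟩
  obtain ⟨ζ, hζ⟩ := exists_zeta q
  obtain ⟨ξ, hξ⟩ := exists_zeta ℓ
  have hco : ℓ.Coprime q := by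
    rw [Nat.coprime_primes hℓ.out hq]
    rintro rfl
    exact hℓN hqN
  have h1 := (isMat_T (n := n) hℓN hξ).comp (isMat_U (n := n) hqN hζ)
  have h2 := (isMat_U (n := n) hqN hζ).comp (isMat_T (n := n) hℓN hξ)
  refine h1.eq hn ?_
  convert h2 using 2 with u
  exact Subtype.ext (heckeMul_heckeW hζ hξ hco _)

lemma M_comm_T (hn : n ≠ 0) {ℓ : ℕ} [hℓ : Fact ℓ.Prime] (hℓN : ¬ ℓ ∣ N) (σ : GQ) :
    (KQ N).M (bL N) hn σ * TmN N n ℓ hℓN = TmN N n ℓ hℓN * (KQ N).M (bL N) hn σ := by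
  have : NeZero ℓ := ⟨hℓ.out.ne_zero⟩
  obtain ⟨ξ, hξ⟩ := exists_zeta ℓ
  exact (KQ N).M_comm (bL N) hn (compat_LT ιQ fQ hℓN hξ) σ (fun u => FT_act ιQ fQ hℓN hξ σ u)

lemma M_comm_U (hn : n ≠ 0) {q : ℕ} [NeZero q] (hqN : q ∣ N) (σ : GQ) :
    (KQ N).M (bL N) hn σ * UmN N n q hqN = UmN N n q hqN * (KQ N).M (bL N) hn σ := by
  obtain ⟨ζ, hζ⟩ := exists_zeta q
  exact (KQ N).M_comm (bL N) hn (compat_LU ιQ fQ hqN hζ) σ (fun u => FU_act ιQ fQ hqN hζ σ u)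

end Mat

/-! ### restriction to `Γ_H` -/

section ResG

variable {N : ℕ} [NeZero N] {m : ℕ} {h : m ∣ N} {H₀ : Subgroup (ZMod m)ˣ}
  {hΓ : Adm N (GH N m h H₀)} {θ : MfG hΓ} {hθ : IsGen hΓ θ} {n : ℕ} {R}
  (hR : KSys.IsMat (KQ N) (bL N) (KG hθ) (bG hΓ) n (inN hΓ ιQ) R)

include hR

lemma res_M (hn : n ≠ 0) (σ : GQ) :
    R * (KQ N).M (bL N) hn σ = (KG hθ).M (bG hΓ) hn σ * R :=
  ((KSys.isMat_act hn σ).comp hR).eq hn (hR.comp (KSys.isMat_act hn σ))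

lemma res_T (hn : n ≠ 0) {ℓ : ℕ} [hℓ : Fact ℓ.Prime] (hℓN : ¬ ℓ ∣ N) {g : Gamma0 N}
    (hg : ((dM N m h g : (ZMod m)ˣ) : ZMod m) = ℓ) :
    R * TmN N n ℓ hℓN = im n (KSys.tm (bG hΓ) (LTG N m h H₀ ℓ hℓN g hg)) * R := by
  have : NeZero ℓ := ⟨hℓ.out.ne_zero⟩
  obtain ⟨ξ, hξ⟩ := exists_zeta ℓ
  refine ((isMat_T (n := n) hℓN hξ).comp hR).eq hn ?_
  have h2 := hR.comp (KSys.isMat_compat (b := bG hΓ) (compat_LTG ιQ hθ fQ hℓN hg hξ (n := n)))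
  have h3 : (fun u => FTG ιQ hθ hℓN hg hξ (inN hΓ ιQ u)) =
      fun u => inN hΓ ιQ (FT ιQ hℓN hξ u) := by
    funext u
    apply Subtype.ext
    rw [coe_FTG, diaK_inN]
    rfl
  rw [h3] at h2
  exact h2

lemma res_U (hn : n ≠ 0) {q : ℕ} [NeZero q] (hqN : q ∣ N) :
    R * UmN N n q hqN = im n (KSys.tm (bG hΓ) (LUG N m h H₀ q hqN)) * R := by
  obtain ⟨ζ, hζ⟩ := exists_zeta q
  refine ((isMat_U (n := n) hqN hζ).comp hR).eq hn ?_
  exact hR.comp (KSys.isMat_compat (b := bG hΓ) (compat_LUG ιQ hθ fQ hqN hζ (n := n)))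

end ResG

/-! ### lowering the level -/

section Low

variable {q M : ℕ} [hq : NeZero q] [NeZero M] [NeZero (q * M)] {n : ℕ}

lemma exists_lowMat (hqM : q ∣ M) (hn : n ≠ 0) {ζ : Qbarˣ} (hζ : IsPrimitiveRoot ζ q) :
    ∃ L, KSys.IsMat (KQ (q * M)) (bL (q * M)) (KQ M) (bL M) n (Flow hqM hζ) L :=
  KSys.exists_isMat hn (fun u v => Subtype.ext (heckeW_mul hζ _ _))
    (fun u hu h0 => by
      have h1 : heckeW ζ q (u : LaurentSeries Qbar) = 0 := congrArg Subtype.val h0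
      rw [heckeW_eq_hW hζ] at h1
      exact hW_ne_zero q (fun h => hu (Subtype.ext h)) h1)
    (fun u x hu => by
      obtain ⟨φ, h1, -⟩ := hu
      refine ⟨_, ⟨Tlow hqM φ, Tlow_mem hqM φ.2⟩, ?_, rfl⟩
      change IsChar M n (coeffMap ιQ (heckeW ζ q (u : LaurentSeries Qbar))) _
      rw [coeffMap_heckeW ιQ hζ]
      exact isChar_low hqM hn φ.2 h1 (isPrimitiveRoot_map ιQ hζ))

/-- inclusion of levels -/
def inQ (q M : ℕ) [NeZero M] [NeZero (q * M)] : modularFunctionFieldFullC Qbar M →ₐ[Qbar] modularFunctionFieldFullC Qbar (q * M) :=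
  IntermediateField.inclusion (full_degeneracyC_le (K := Qbar) (Dvd.intro_left q rfl))

lemma coe_inQ (u : modularFunctionFieldFullC Qbar M) :
    (inQ q M u : LaurentSeries Qbar) = (u : LaurentSeries Qbar) :=
  IntermediateField.coe_inclusion _ u

omit [NeZero q] in
lemma exists_inMat (hn : n ≠ 0) :
    ∃ L, KSys.IsMat (KQ M) (bL M) (KQ (q * M)) (bL (q * M)) n (inQ q M) L :=
  KSys.exists_isMat hn (fun u v => map_mul _ u v) (fun u hu => (map_ne_zero _).mpr hu)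
    (fun u x hu => by
      have hu' := hu
      obtain ⟨φ, h1, -⟩ := hu'
      obtain ⟨ψ, hψ⟩ := exists_ClX (N := q * M) ιQ hn
        (u := inQ q M u) ((map_ne_zero _).mpr hu.ne_zero) (fun v => by
          exact GoodRed.ord_level (K := Qbar) (Dvd.intro_left q rfl) u.2 _
            (fun P => ClX.dvd_ord ιQ h1 P) v)
      exact ⟨_, ψ, hψ, rfl⟩)

end Low

end Fermat.Agent.AnJacH
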