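import Fermat.Agent.AnJacH.Low2
import Fermat.Agent.AnJacH.LinK

/-!
# The residual theorem at `q`
-/

set_option autoImplicit false
set_option linter.unusedSectionVars false

noncomputable section

namespace Fermat.Agent.AnJacH

open ModularCurve Fermat.Agent.ModFun Fermat.Agent.AnJac AlgebraicCurve IsLocalRing
open Fermat.Agent.HeckeQ CongruenceSubgroup MatrixGroups UpperHalfPlane Matrix
open Fermat.Agent.SSMod
open scoped Pointwise Manifold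

local notation "Qbar" => AlgebraicClosure ℚ
local notation "GQ" => Qbar ≃ₐ[ℚ] Qbar

variable {p : ℕ} [hp : Fact p.Prime] {k : Type*} [Field k] [Algebra (ZMod p) k]
  {A : ValuationSubring Qbar}

/-- the action on classes with coefficients in `k` -/
def kA (p : ℕ) [hp : Fact p.Prime] (k : Type*) [Field k] [Algebra (ZMod p) k] (N : ℕ) [NeZero N]
    (σ : GQ) :
    Matrix (Fin (Module.finrank ℤ (Lat N))) (Fin (Module.finrank ℤ (Lat N))) k :=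
  kM ((KQ N).M (bL N) hp.out.ne_zero σ)

lemma kA_mul (N : ℕ) [NeZero N] (σ τ : GQ) : kA p k N (σ * τ) = kA p k N σ * kA p k N τ := by
  rw [kA, (KQ N).M_mul, kM_mul]; rfl

lemma kA_one (N : ℕ) [NeZero N] : kA p k N 1 = 1 := by
  rw [kA, (KQ N).M_one, kM_one]

lemma cl_KN (N : ℕ) [NeZero N] : Cl (KN N A p) :=
  ⟨KN.zero hp.out.ne_zero, fun _ _ hx hy => hx.add hy⟩

/-- stable spaces of classes with trivial reduction on which Frobenius satisfies quadratic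
equations -/
structure GX (p : ℕ) [hp : Fact p.Prime] {k : Type*} [Field k] [Algebra (ZMod p) k]
    (A : ValuationSubring Qbar) (q N : ℕ) [NeZero q] [NeZero N] (hqN : q ∣ N)
    (τ δ : GQ → k) (α : k)
    (X : Submodule k (Fin (Module.finrank ℤ (Lat N)) → k)) : Prop where
  ne : ∃ x ∈ X, x ≠ 0
  stab : ∀ σ, ∀ x ∈ X, kA p k N σ *ᵥ x ∈ X
  rel : ∀ σ, ∀ x ∈ X, kA p k N σ *ᵥ (kA p k N σ *ᵥ x) - τ σ • (kA p k N σ *ᵥ x) + δ σ • x = 0
  U : ∀ x ∈ X, kM (UmN N p q hqN) *ᵥ x = α • x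
  kn : ∀ x ∈ X, Ex (KN N A p) x

/-! ### scalar action -/

/-- abstract form of the final contradiction -/
theorem scalar_aux {V : Type*} [AddCommGroup V] [Module k V] {G : Type*} [Group G]
    (ρ : G → V → V) (h1 : ∀ x, ρ 1 x = x) (hmul : ∀ g h x, ρ (g * h) x = ρ g (ρ h x))
    (hsm : ∀ g (c : k) x, ρ g (c • x) = c • ρ g x)
    {Y : Set V} (hY : ∀ g, ∀ x ∈ Y, ρ g x ∈ Y) {z₀ : V} (hz₀ : z₀ ∈ Y) (hz : z₀ ≠ 0)
    {τ : G → k} {δ : G →* k} (hrel : ∀ g, ∀ x ∈ Y, ρ g (ρ g x) - τ g • ρ g x + δ g • x = 0)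
    {Φ : G} {c : k} (hΦ : ∀ x ∈ Y, ρ Φ x = c • x) (hδ : δ Φ ≠ c ^ 2) :
    ∀ g h : G, τ (g * h * g⁻¹ * h⁻¹) = 2 := by
  have hδ0 : ∀ g, δ g ≠ 0 := by
    intro g h0
    have h2 : δ g * δ g⁻¹ = 1 := by rw [← map_mul, mul_inv_cancel, map_one]
    rw [h0, zero_mul] at h2
    exact zero_ne_one h2
  have key : ∀ g, ∀ x ∈ Y, (c ^ 2 * τ g - c * τ (g * Φ)) • ρ g x +
      (δ g * (δ Φ - c ^ 2)) • x = 0 := by
    intro g x hx
    have e1 := hrel g x hx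
    have e2 := hrel (g * Φ) x hx
    have e0 : ρ (g * Φ) x = c • ρ g x := by rw [hmul, hΦ x hx, hsm]
    rw [e0, hsm, hmul, hΦ _ (hY g x hx), hsm, map_mul] at e2
    have e3 : c ^ 2 • (ρ g (ρ g x) - τ g • ρ g x + δ g • x) = 0 := by rw [e1, smul_zero]
    have e4 : (c • c • ρ g (ρ g x) - τ (g * Φ) • c • ρ g x + (δ g * δ Φ) • x) -
        c ^ 2 • (ρ g (ρ g x) - τ g • ρ g x + δ g • x) = 0 := by rw [e3, e2, sub_zero]
    rw [← e4]
    module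
  have key2 : ∀ g, ∃ η : k, ∀ x ∈ Y, ρ g x = η • x := by
    intro g
    have he : c ^ 2 * τ g - c * τ (g * Φ) ≠ 0 := by
      intro h0
      have h2 := key g z₀ hz₀
      rw [h0, zero_smul, zero_add, smul_eq_zero, or_iff_left hz] at h2
      exact mul_ne_zero (hδ0 g) (sub_ne_zero.mpr hδ) h2
    refine ⟨-(c ^ 2 * τ g - c * τ (g * Φ))⁻¹ * (δ g * (δ Φ - c ^ 2)), fun x hx => ?_⟩
    have h2 := key g x hx
    have h3 : (c ^ 2 * τ g - c * τ (g * Φ)) • ρ g x = -((δ g * (δ Φ - c ^ 2)) • x) :=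
      eq_neg_of_add_eq_zero_left h2
    have h4 : ρ g x = (c ^ 2 * τ g - c * τ (g * Φ))⁻¹ • ((c ^ 2 * τ g - c * τ (g * Φ)) • ρ g x) := by
      rw [smul_smul, inv_mul_cancel₀ he, one_smul]
    rw [h4, h3, smul_neg, smul_smul, neg_mul, _root_.neg_smul]
  intro g h
  obtain ⟨a, ha⟩ := key2 g
  obtain ⟨b, hb⟩ := key2 h
  have hcomm : ρ (g * h * g⁻¹ * h⁻¹) z₀ = z₀ := by
    have e1 : g * h = (g * h * g⁻¹ * h⁻¹) * (h * g) := by group
    have hw : ρ (h * g) z₀ = (b * a) • z₀ := by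
      rw [hmul, ha z₀ hz₀, hsm, hb z₀ hz₀, smul_smul, mul_comm]
    have hw' : ρ (g * h) z₀ = (b * a) • z₀ := by
      rw [hmul, hb z₀ hz₀, hsm, ha z₀ hz₀, smul_smul]
    have hab : b * a ≠ 0 := by
      intro h0
      rw [h0, zero_smul] at hw
      have h3 : ρ (h * g)⁻¹ (ρ (h * g) z₀) = z₀ := by rw [← hmul, inv_mul_cancel, h1]
      rw [hw] at h3
      have h4 := hsm (h * g)⁻¹ (0 : k) 0
      rw [zero_smul, zero_smul] at h4
      rw [h4] at h3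
      exact hz h3.symm
    rw [e1, hmul, hw, hsm] at hw'
    exact smul_right_injective _ hab hw'
  have h2 := hrel (g * h * g⁻¹ * h⁻¹) z₀ hz₀
  rw [hcomm, hcomm] at h2
  have h3 : δ (g * h * g⁻¹ * h⁻¹) = 1 := by
    have e1 : g * h = (g * h * g⁻¹ * h⁻¹) * (h * g) := by group
    have e2 := congrArg δ e1
    rw [map_mul, map_mul δ _ (h * g), map_mul δ h g, mul_comm (δ h) (δ g)] at e2
    exact (mul_eq_right₀ (mul_ne_zero (hδ0 g) (hδ0 h))).mp e2.symm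
  rw [h3, one_smul] at h2
  have h4 : (2 - τ (g * h * g⁻¹ * h⁻¹)) • z₀ = 0 := by rw [← h2]; module
  rw [smul_eq_zero, or_iff_left hz, sub_eq_zero] at h4
  exact h4.symm

lemma kM_mulVec_mul {l m n : Type*} [Fintype m] [Fintype n] (B : Matrix l m (ZMod p))
    (C : Matrix m n (ZMod p)) (x : n → k) :
    (kM (B * C) : Matrix l n k) *ᵥ x = (kM B : Matrix l m k) *ᵥ ((kM C : Matrix m n k) *ᵥ x) := by
  rw [kM_mul, Matrix.mulVec_mulVec]

lemma rel_push {m n : Type*} [Fintype m] [Fintype n] {B : Matrix m n k} {C : Matrix n n k}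
    {C' : Matrix m m k} (h : ∀ x, C' *ᵥ (B *ᵥ x) = B *ᵥ (C *ᵥ x)) {t d : k} {x : n → k}
    (hx : C *ᵥ (C *ᵥ x) - t • (C *ᵥ x) + d • x = 0) :
    C' *ᵥ (C' *ᵥ (B *ᵥ x)) - t • (C' *ᵥ (B *ᵥ x)) + d • (B *ᵥ x) = 0 := by
  have e : B *ᵥ (C *ᵥ (C *ᵥ x) - t • (C *ᵥ x) + d • x) = 0 := by
    rw [hx, Matrix.mulVec_zero]
  rw [Matrix.mulVec_add, Matrix.mulVec_sub, Matrix.mulVec_smul, Matrix.mulVec_smul] at e
  rw [h, h, e]

lemma comm_push {m n : Type*} [Fintype m] [Fintype n] {B : Matrix m n (ZMod p)}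
    {C : Matrix n n (ZMod p)} {C' : Matrix m m (ZMod p)} (h : B * C = C' * B) (x : n → k) :
    (kM C' : Matrix m m k) *ᵥ ((kM B : Matrix m n k) *ᵥ x) =
      (kM B : Matrix m n k) *ᵥ ((kM C : Matrix n n k) *ᵥ x) := by
  rw [← kM_mulVec_mul, ← kM_mulVec_mul, h]

lemma kM_sq_one {n : Type*} [Fintype n] [DecidableEq n] {W : Matrix n n (ZMod p)}
    (h : W * W = 1) (x : n → k) : (kM W : Matrix n n k) *ᵥ ((kM W : Matrix n n k) *ᵥ x) = x := by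
  rw [← kM_mulVec_mul, h, kM_one, Matrix.one_mulVec]

/-- images of submodules under matrices -/
def mapM {m n : Type*} [Fintype n] (B : Matrix m n k) (X : Submodule k (n → k)) :
    Submodule k (m → k) := X.map B.mulVecLin

lemma mem_mapM {m n : Type*} [Fintype n] {B : Matrix m n k} {X : Submodule k (n → k)} {y : m → k} :
    y ∈ mapM B X ↔ ∃ x ∈ X, B *ᵥ x = y := Iff.rfl

/-! ### the level `qM`, `q ∤ M` -/

section Base

variable {q M : ℕ} [hq : Fact q.Prime] [NeZero q] [NeZero M] [NeZero (q * M)]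

set_option maxHeartbeats 1600000 in
theorem GX.base (hqM : Nat.Coprime q M) (hqp : q ≠ p) (hA : A.LiesOverPrime q)
    {τ : GQ → k} {δ : GQ →* k} {α : k} {X : Submodule k (Fin (Module.finrank ℤ (Lat (q * M))) → k)}
    (hX : GX p A q (q * M) (dvd_mul_right q M) τ δ α X) (hq1 : (q : k) = 1) (hα : α ^ 2 ≠ 1)
    (hα0 : α ≠ 0) {Φ : GQ} (hΦ : A.IsFrobeniusAt Φ q) (hδ : δ Φ = 1) :
    ∀ g h : GQ, τ (g * h * g⁻¹ * h⁻¹) = 2 := by
  have hn0 : p ≠ 0 := hp.out.ne_zero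
  have hqn : ¬ q ∣ p := fun h => hqp ((Nat.prime_dvd_prime_iff_eq hq.out hp.out).mp h)
  obtain ⟨Am, hAm⟩ := exists_NqMat q M hn0
  obtain ⟨Wm, hWm⟩ := exists_alMat hqM hn0
  -- the norm relation
  have h1 : ∀ x ∈ X, (kM Am : Matrix _ _ k) *ᵥ x = kA p k M Φ *ᵥ (kM (Am * Wm) *ᵥ x) := by
    intro x hx
    have h2 : ∀ y, KN (q * M) A p y → Am *ᵥ y = ((KQ M).M (bL M) hn0 Φ * (Am * Wm)) *ᵥ y := by
      intro y hy
      rw [← Matrix.mulVec_mulVec]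
      exact A_frob hqM hAm hWm hn0 hqn hA hΦ hy
    rw [Ex.eq h2 (hX.kn x hx), kM_mulVec_mul]
    rfl
  have h2 : ∀ x ∈ X, kM (Am * Wm) *ᵥ x = α • ((kM Am : Matrix _ _ k) *ᵥ x) := by
    intro x hx
    have h3 : (kM (Am * UmN (q * M) p q (dvd_mul_right q M)) : Matrix _ _ k) *ᵥ x =
        kM (q • (Am * Wm)) *ᵥ x := by rw [A_U hqM hAm hWm hn0]
    rw [kM_mulVec_mul, hX.U x hx, Matrix.mulVec_smul, kM_nsmul, Matrix.smul_mulVec,
      ← Nat.cast_smul_eq_nsmul k, hq1, one_smul] at h3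
    exact h3.symm
  have hinj : ∀ x ∈ X, (kM (Am * Wm) : Matrix _ _ k) *ᵥ x = 0 → x = 0 := by
    intro x hx h0
    have h3' : (kM Wm : Matrix _ _ k) *ᵥ x + kM (UmN (q * M) p q (dvd_mul_right q M)) *ᵥ x = 0 := by
      apply fc_ext (p := p)
      intro μ
      rw [fc_add, fc_mulVec, fc_mulVec, fc_zero]
      refine ker_AW hqM hAm hWm hn0 ?_
      rw [← fc_mulVec, h0, fc_zero]
    rw [hX.U x hx] at h3'
    have h3 : (kM Wm : Matrix _ _ k) *ᵥ x = -(α • x) := eq_neg_of_add_eq_zero_left h3'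
    have h4 := kM_sq_one (W_sq hqM hWm hn0) x
    rw [h3, Matrix.mulVec_neg, Matrix.mulVec_smul, h3, smul_neg, neg_neg,
      smul_smul, ← pow_two] at h4
    have h5 : (α ^ 2 - 1) • x = 0 := by rw [sub_smul, h4, one_smul, sub_self]
    rw [smul_eq_zero] at h5
    exact h5.resolve_left (sub_ne_zero.mpr hα)
  have hcomm : ∀ σ, ∀ x, kA p k M σ *ᵥ ((kM (Am * Wm) : Matrix _ _ k) *ᵥ x) =
      kM (Am * Wm) *ᵥ (kA p k (q * M) σ *ᵥ x) := by
    intro σ x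
    have e1 := W_M hqM hWm hn0 σ
    have e2 := A_M hqM hAm hn0 σ
    have e3 : (Am * Wm) * (KQ (q * M)).M (bL (q * M)) hn0 σ =
        (KQ M).M (bL M) hn0 σ * (Am * Wm) := by
      rw [Matrix.mul_assoc, e1, ← Matrix.mul_assoc, e2, Matrix.mul_assoc]
    exact comm_push e3 x
  obtain ⟨x₀, hx₀, hx0⟩ := hX.ne
  refine scalar_aux (V := Fin (Module.finrank ℤ (Lat M)) → k) (fun σ x => kA p k M σ *ᵥ x)
    (fun x => by change kA p k M 1 *ᵥ x = x; rw [kA_one, Matrix.one_mulVec])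
    (fun g h x => by
      change kA p k M (g * h) *ᵥ x = kA p k M g *ᵥ (kA p k M h *ᵥ x)
      rw [kA_mul, ← Matrix.mulVec_mulVec])
    (fun g c x => Matrix.mulVec_smul _ _ _)
    (Y := {y | ∃ x ∈ X, (kM (Am * Wm) : Matrix _ _ k) *ᵥ x = y})
    ?_ (z₀ := (kM (Am * Wm) : Matrix _ _ k) *ᵥ x₀) ⟨x₀, hx₀, rfl⟩ ?_ (δ := δ) ?_
    (Φ := Φ) (c := α⁻¹) ?_ ?_
  · rintro σ y ⟨x, hx, rfl⟩
    exact ⟨_, hX.stab σ x hx, (hcomm σ x).symm⟩
  · exact fun h0 => hx0 (hinj x₀ hx₀ h0)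
  · rintro σ y ⟨x, hx, rfl⟩
    exact rel_push (hcomm σ) (hX.rel σ x hx)
  · rintro y ⟨x, hx, rfl⟩
    change kA p k M Φ *ᵥ ((kM (Am * Wm) : Matrix _ _ k) *ᵥ x) =
      α⁻¹ • ((kM (Am * Wm) : Matrix _ _ k) *ᵥ x)
    rw [← h1 x hx, h2 x hx, smul_smul, inv_mul_cancel₀ hα0, one_smul]
  · rw [hδ]
    intro h3
    apply hα
    rw [inv_pow] at h3
    rw [← inv_inv (α ^ 2), ← h3, inv_one]

end Base

/-! ### lowering the level -/

section Lower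

variable {q M : ℕ} [hq : NeZero q] [NeZero M] [NeZero (q * M)]

theorem GX.low (hqM : q ∣ M) {τ δ : GQ → k} {α : k} (hα0 : α ≠ 0)
    {X : Submodule k (Fin (Module.finrank ℤ (Lat (q * M))) → k)}
    (hX : GX p A q (q * M) (dvd_mul_right q M) τ δ α X) :
    ∃ X', GX p A q M hqM τ δ α X' := by
  have hn0 : p ≠ 0 := hp.out.ne_zero
  obtain ⟨ζ, hζ⟩ := exists_zeta q
  obtain ⟨L, hL⟩ := exists_lowMat hqM hn0 hζ
  obtain ⟨I, hI⟩ := exists_inMat (q := q) (M := M) hn0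
  have hcomm : ∀ σ, ∀ x, kA p k M σ *ᵥ ((kM L : Matrix _ _ k) *ᵥ x) =
      kM L *ᵥ (kA p k (q * M) σ *ᵥ x) := by
    intro σ x
    exact comm_push (low_M hqM hζ hL hn0 σ) x
  refine ⟨mapM (kM L) X, ?_, ?_, ?_, ?_, ?_⟩
  · obtain ⟨x₀, hx₀, hx0⟩ := hX.ne
    refine ⟨_, ⟨x₀, hx₀, rfl⟩, fun h0 => ?_⟩
    change (kM L : Matrix _ _ k) *ᵥ x₀ = 0 at h0
    have h1 := hX.U x₀ hx₀
    rw [← in_low hqM hζ hL hI hn0, kM_mulVec_mul, h0, Matrix.mulVec_zero] at h1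
    exact smul_ne_zero hα0 hx0 h1.symm
  · rintro σ y ⟨x, hx, rfl⟩
    exact ⟨_, hX.stab σ x hx, (hcomm σ x).symm⟩
  · rintro σ y ⟨x, hx, rfl⟩
    exact rel_push (hcomm σ) (hX.rel σ x hx)
  · rintro y ⟨x, hx, rfl⟩
    change kM (UmN M p q hqM) *ᵥ ((kM L : Matrix _ _ k) *ᵥ x) = α • ((kM L : Matrix _ _ k) *ᵥ x)
    rw [comm_push (low_U hqM hζ hL hn0), hX.U x hx, Matrix.mulVec_smul]
  · rintro y ⟨x, hx, rfl⟩
    exact Ex.mulVec (fun z hz => hz.low hqM hζ hL) (hX.kn x hx)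

end Lower

theorem GX.all {q : ℕ} [hq : Fact q.Prime] [NeZero q] {M : ℕ} [NeZero M]
    (hqM : Nat.Coprime q M) (hqp : q ≠ p) (hA : A.LiesOverPrime q)
    {τ : GQ → k} {δ : GQ →* k} {α : k} (hq1 : (q : k) = 1) (hα : α ^ 2 ≠ 1)
    (hα0 : α ≠ 0) {Φ : GQ} (hΦ : A.IsFrobeniusAt Φ q) (hδ : δ Φ = 1) (s : ℕ) :
    ∀ (N : ℕ) [NeZero N] (_ : N = q ^ s * (q * M)) (hqN : q ∣ N)
      (X : Submodule k (Fin (Module.finrank ℤ (Lat N)) → k)), GX p A q N hqN τ δ α X →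
      ∀ g h : GQ, τ (g * h * g⁻¹ * h⁻¹) = 2 := by
  induction s with
  | zero =>
    intro N _ hN hqN X hX
    rw [pow_zero, one_mul] at hN
    subst hN
    exact hX.base hqM hqp hA hq1 hα hα0 hΦ hδ
  | succ s ih =>
    intro N _ hN hqN X hX
    rw [pow_succ', mul_assoc] at hN
    subst hN
    have : NeZero (q ^ s * (q * M)) := ⟨by
      have h1 := hq.out.ne_zero
      have h2 := NeZero.ne M
      positivity⟩
    have h1 : q ∣ q ^ s * (q * M) := Dvd.dvd.mul_left (dvd_mul_right q M) _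
    obtain ⟨X', hX'⟩ := hX.low h1 hα0
    exact ih _ rfl h1 X' hX'

end Fermat.Agent.AnJacH
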