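import Fermat.Agent.AnJacH.ModP

/-!
# The residual theorem for `Γ_H`
-/

set_option autoImplicit false
set_option linter.unusedSectionVars false

noncomputable section

namespace Fermat.Agent.AnJacH

open ModularCurve Fermat.Agent.ModFun Fermat.Agent.AnJac AlgebraicCurve IsLocalRing
open Fermat.Agent.HeckeQ CongruenceSubgroup MatrixGroups UpperHalfPlane Matrix
open Fermat.Agent.SSMod
open scoped Pointwise Manifold

local notation "Qbar" => AlgebraicClosure ℚ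
local notation "GQ" => Qbar ≃ₐ[ℚ] Qbar

variable {p : ℕ} [hp : Fact p.Prime] {k : Type*} [Field k] [Algebra (ZMod p) k]
  {A : ValuationSubring Qbar} {N : ℕ} [NeZero N] {m : ℕ} {h : m ∣ N} {H₀ : Subgroup (ZMod m)ˣ}
  {hΓ : Adm N (GH N m h H₀)} {θ : MfG hΓ} {hθ : IsGen hΓ θ}

variable (p k hθ) in
/-- the action on classes with coefficients in `k` -/
def kG (σ : GQ) :
    Matrix (Fin (Module.finrank ℤ (LatG (GH N m h H₀)))) (Fin (Module.finrank ℤ (LatG (GH N m h H₀)))) k :=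
  kM ((KG hθ).M (bG hΓ) hp.out.ne_zero σ)

variable (hΓ) in
/-- `T_ℓ` modulo `n`, `ℓ ≡ 1` -/
def TmG (n ℓ : ℕ) [Fact ℓ.Prime] (hℓN : ¬ ℓ ∣ N)
    (hg : ((dM N m h (1 : Gamma0 N) : (ZMod m)ˣ) : ZMod m) = ℓ) :=
  im n (KSys.tm (bG hΓ) (LTG N m h H₀ ℓ hℓN 1 hg))

variable (hΓ) in
/-- `U_q` modulo `n` -/
def UmG (n q : ℕ) [NeZero q] (hqN : q ∣ N) := im n (KSys.tm (bG hΓ) (LUG N m h H₀ q hqN))

/-- residual data at `q` for `Γ_H` -/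
structure HX (p : ℕ) [hp : Fact p.Prime] {k : Type*} [Field k] [Algebra (ZMod p) k]
    (A : ValuationSubring Qbar) {N : ℕ} [NeZero N] {m : ℕ} {h : m ∣ N} {H₀ : Subgroup (ZMod m)ˣ}
    {hΓ : Adm N (GH N m h H₀)} {θ : MfG hΓ} (hθ : IsGen hΓ θ) (q : ℕ) [NeZero q] (hqN : q ∣ N)
    (τ δ : GQ → k) (α : k)
    (X : Submodule k (Fin (Module.finrank ℤ (LatG (GH N m h H₀))) → k)) : Prop where
  ne : ∃ x ∈ X, x ≠ 0
  stab : ∀ σ, ∀ x ∈ X, kG p k hθ σ *ᵥ x ∈ X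
  rel : ∀ σ, ∀ x ∈ X, kG p k hθ σ *ᵥ (kG p k hθ σ *ᵥ x) - τ σ • (kG p k hθ σ *ᵥ x) + δ σ • x = 0
  U : ∀ x ∈ X, kM (UmG hΓ p q hqN) *ᵥ x = α • x
  dia : ∀ g, ∀ x ∈ X, kM (im p (KSys.tm (bG hΓ) (LdG hΓ g))) *ᵥ x = x
  kt : ∀ x ∈ X, Ex (KT hθ A p) x

lemma kM_sub {m n : Type*} (B C : Matrix m n (ZMod p)) :
    (kM (B - C) : Matrix m n k) = kM B - kM C := by
  ext i j; simp [kM]

lemma kM_sub_mulVec {n : Type*} [Fintype n] [DecidableEq n] (B : Matrix n n (ZMod p)) (c : ℕ)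
    (x : n → k) : (kM (B - c • 1) : Matrix n n k) *ᵥ x = kM B *ᵥ x - (c : k) • x := by
  rw [kM_sub, kM_nsmul, kM_one, Matrix.sub_mulVec, Matrix.smul_mulVec, Matrix.one_mulVec,
    Nat.cast_smul_eq_nsmul]

set_option maxHeartbeats 3200000 in
theorem HX.toGX [Finite k] {q : ℕ} [hq : Fact q.Prime] [NeZero q] {hqN : q ∣ N} {τ δ : GQ → k} {α : k}
    {X : Submodule k (Fin (Module.finrank ℤ (LatG (GH N m h H₀))) → k)}
    (hX : HX p A hθ q hqN τ δ α X) (hQ : MfG hΓ ≤ QZ ℂ)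
    (hΔ : ((Nat.card (Dl N (GH N m h H₀)) : ℕ) : ResidueField A) ≠ 0)
    {ℓ : ℕ} [hℓ : Fact ℓ.Prime] (hℓN : ¬ ℓ ∣ N)
    (hg : ((dM N m h (1 : Gamma0 N) : (ZMod m)ˣ) : ZMod m) = ℓ) {t : k}
    (hT : ∀ x ∈ X, kM (TmG hΓ p ℓ hℓN hg) *ᵥ x = t • x) (ht : t ≠ ℓ + 1) :
    ∃ Y, GX p A q N hqN τ δ α Y := by
  have hn0 : p ≠ 0 := hp.out.ne_zero
  have : NeZero ℓ := ⟨hℓ.out.ne_zero⟩
  obtain ⟨R, hR⟩ := exists_resMat hθ hn0
  set T := TmN N p ℓ hℓN with hTdef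
  set T' := TmG hΓ p ℓ hℓN hg with hT'def
  set B := T - (ℓ + 1) • 1 with hB
  set C := T' - (ℓ + 1) • 1 with hC
  have ht' : t - (ℓ + 1 : ℕ) ≠ 0 := by
    rw [sub_ne_zero]; push_cast; exact ht
  -- `C` acts on `X` by a nonzero scalar
  have hCX : ∀ x ∈ X, (kM C : Matrix _ _ k) *ᵥ x = (t - (ℓ + 1 : ℕ)) • x := by
    intro x hx
    rw [hC, kM_sub_mulVec, hT x hx, sub_smul]
  have hRB : R * B = C * R := by
    rw [hB, hC, Matrix.mul_sub, Matrix.sub_mul, res_T hR hn0 hℓN hg]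
    simp only [Matrix.mul_smul, Matrix.smul_mul, Matrix.mul_one, Matrix.one_mul]
    rfl
  -- lifting
  have hlift : ∀ x ∈ X, ∃ y, Ex (KN N A p) y ∧ (kM R : Matrix _ _ k) *ᵥ y = x := by
    intro x hx
    obtain ⟨y, hy, hyR⟩ := Ex.lift (S := KT hθ A p) (S' := KN N A p) (R := R) (C := C) (cl_KN N)
      (P := fun x => ∀ g, im p (KSys.tm (bG hΓ) (LdG hΓ g)) *ᵥ x = x)
      (fun x h1 h2 => by
        obtain ⟨y, hy, hyR⟩ := h1.descend hℓN hg hQ hn0 hΔ hR h2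
        refine ⟨y, hy, ?_⟩
        rw [hyR, hC, Matrix.sub_mulVec, Matrix.smul_mulVec, Matrix.one_mulVec]
        rfl) (hX.kt x hx) (fun μ g => by
        rw [← fc_mulVec, hX.dia g x hx])
    rw [hCX x hx] at hyR
    refine ⟨(t - (ℓ + 1 : ℕ))⁻¹ • y, hy.smul _, ?_⟩
    rw [Matrix.mulVec_smul, hyR, smul_smul, inv_mul_cancel₀ ht', one_smul]
  -- the kernel of restriction
  have hker : ∀ y, (kM R : Matrix _ _ k) *ᵥ y = 0 → (kM B : Matrix _ _ k) *ᵥ y = 0 := by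
    intro y hy
    apply fc_ext (p := p)
    intro μ
    rw [fc_mulVec, fc_zero, hB, Matrix.sub_mulVec, Matrix.smul_mulVec, Matrix.one_mulVec,
      sub_eq_zero]
    refine res_ker hℓN hg hn0 hR ?_
    rw [← fc_mulVec, hy, fc_zero]
  have hBM : ∀ σ, ∀ y, kA p k N σ *ᵥ ((kM B : Matrix _ _ k) *ᵥ y) = kM B *ᵥ (kA p k N σ *ᵥ y) := by
    intro σ y
    refine comm_push ?_ y
    have e := M_comm_T (n := p) hn0 hℓN σ
    rw [hB, Matrix.mul_sub, Matrix.sub_mul, ← e]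
    simp only [Matrix.mul_smul, Matrix.smul_mul, Matrix.mul_one, Matrix.one_mul]
    rfl
  have hBU : ∀ y, kM (UmN N p q hqN) *ᵥ ((kM B : Matrix _ _ k) *ᵥ y) =
      kM B *ᵥ (kM (UmN N p q hqN) *ᵥ y) := by
    intro y
    refine comm_push ?_ y
    have e := T_comm_U (n := p) hn0 hq.out hℓN hqN
    rw [hB, Matrix.mul_sub, Matrix.sub_mul, ← e]
    simp only [Matrix.mul_smul, Matrix.smul_mul, Matrix.mul_one, Matrix.one_mul]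
    rfl
  have hRM : ∀ σ, ∀ y, kG p k hθ σ *ᵥ ((kM R : Matrix _ _ k) *ᵥ y) = kM R *ᵥ (kA p k N σ *ᵥ y) := by
    intro σ y
    exact comm_push (res_M hR hn0 σ) y
  have hRU : ∀ y, kM (UmG hΓ p q hqN) *ᵥ ((kM R : Matrix _ _ k) *ᵥ y) =
      kM R *ᵥ (kM (UmN N p q hqN) *ᵥ y) := by
    intro y
    exact comm_push (res_U hR hn0 hqN) y
  refine ⟨mapM (kM B) (X.comap (kM R : Matrix _ _ k).mulVecLin), ?_, ?_, ?_, ?_, ?_⟩
  · obtain ⟨x₀, hx₀, hx0⟩ := hX.ne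
    obtain ⟨y₀, -, hy₀⟩ := hlift x₀ hx₀
    refine ⟨_, ⟨y₀, ?_, rfl⟩, fun h0 => ?_⟩
    · change (kM R : Matrix _ _ k) *ᵥ y₀ ∈ X
      rw [hy₀]; exact hx₀
    · change (kM B : Matrix _ _ k) *ᵥ y₀ = 0 at h0
      have h1 : (kM (R * B) : Matrix _ _ k) *ᵥ y₀ = kM (C * R) *ᵥ y₀ := by rw [hRB]
      rw [kM_mulVec_mul, kM_mulVec_mul, h0, Matrix.mulVec_zero, hy₀, hCX x₀ hx₀] at h1
      exact smul_ne_zero ht' hx0 h1.symm
  · rintro σ z ⟨y, hy, rfl⟩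
    refine ⟨kA p k N σ *ᵥ y, ?_, (hBM σ y).symm⟩
    change (kM R : Matrix _ _ k) *ᵥ (kA p k N σ *ᵥ y) ∈ X
    rw [← hRM]
    exact hX.stab σ _ hy
  · rintro σ z ⟨y, hy, rfl⟩
    have h1 := hker (kA p k N σ *ᵥ (kA p k N σ *ᵥ y) - τ σ • (kA p k N σ *ᵥ y) + δ σ • y) (by
      rw [Matrix.mulVec_add, Matrix.mulVec_sub, Matrix.mulVec_smul, Matrix.mulVec_smul, ← hRM,
        ← hRM]
      exact hX.rel σ _ hy)
    change kA p k N σ *ᵥ (kA p k N σ *ᵥ ((kM B : Matrix _ _ k) *ᵥ y)) -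
      τ σ • (kA p k N σ *ᵥ ((kM B : Matrix _ _ k) *ᵥ y)) + δ σ • ((kM B : Matrix _ _ k) *ᵥ y) = 0
    rw [hBM, hBM, ← h1, Matrix.mulVec_add, Matrix.mulVec_sub, Matrix.mulVec_smul,
      Matrix.mulVec_smul]
  · rintro z ⟨y, hy, rfl⟩
    have h1 := hker (kM (UmN N p q hqN) *ᵥ y - α • y) (by
      rw [Matrix.mulVec_sub, Matrix.mulVec_smul, ← hRU, sub_eq_zero]
      exact hX.U _ hy)
    change kM (UmN N p q hqN) *ᵥ ((kM B : Matrix _ _ k) *ᵥ y) = α • ((kM B : Matrix _ _ k) *ᵥ y)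
    rw [hBU, ← sub_eq_zero, ← h1, Matrix.mulVec_sub, Matrix.mulVec_smul]
  · rintro z ⟨y, hy, rfl⟩
    obtain ⟨y', hy', h1⟩ := hlift _ hy
    have h2 := hker (y - y') (by rw [Matrix.mulVec_sub, h1]; exact sub_self _)
    rw [Matrix.mulVec_sub, sub_eq_zero] at h2
    change Ex (KN N A p) ((kM B : Matrix _ _ k) *ᵥ y)
    rw [h2]
    refine Ex.mulVec (fun z hz => ?_) hy'
    rw [hB, Matrix.sub_mulVec, Matrix.smul_mulVec, Matrix.one_mulVec, sub_eq_add_neg]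
    exact (hz.T hℓN).add ((hz.nsmul hn0 (ℓ + 1)).neg hn0)

/-- **The residual theorem at `q`.** -/
theorem HX.comm [Finite k] {q : ℕ} [hq : Fact q.Prime] [NeZero q] {hqN : q ∣ N} {τ : GQ → k}
    {δ : GQ →* k} {α : k}
    {X : Submodule k (Fin (Module.finrank ℤ (LatG (GH N m h H₀))) → k)}
    (hX : HX p A hθ q hqN τ δ α X) (hQ : MfG hΓ ≤ QZ ℂ)
    (hΔ : ((Nat.card (Dl N (GH N m h H₀)) : ℕ) : ResidueField A) ≠ 0)
    {ℓ : ℕ} [hℓ : Fact ℓ.Prime] (hℓN : ¬ ℓ ∣ N)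
    (hg : ((dM N m h (1 : Gamma0 N) : (ZMod m)ˣ) : ZMod m) = ℓ) {t : k}
    (hT : ∀ x ∈ X, kM (TmG hΓ p ℓ hℓN hg) *ᵥ x = t • x) (ht : t ≠ ℓ + 1)
    (hqp : q ≠ p) (hA : A.LiesOverPrime q) (hq1 : (q : k) = 1) (hα : α ^ 2 ≠ 1)
    (hα0 : α ≠ 0) {Φ : GQ} (hΦ : A.IsFrobeniusAt Φ q) (hδ : δ Φ = 1) :
    ∀ g h : GQ, τ (g * h * g⁻¹ * h⁻¹) = 2 := by
  obtain ⟨Y, hY⟩ := hX.toGX hQ hΔ hℓN hg hT ht
  obtain ⟨s, M, hM, hN⟩ : ∃ s M, ¬ q ∣ M ∧ N = q ^ (s + 1) * M := by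
    obtain ⟨M, hN, hM⟩ := (Nat.finiteMultiplicity_iff.mpr
      ⟨hq.out.ne_one, Nat.pos_of_ne_zero (NeZero.ne N)⟩ : FiniteMultiplicity q N).exists_eq_pow_mul_and_not_dvd
    have h1 : multiplicity q N ≠ 0 := by
      intro h0
      rw [h0, pow_zero, one_mul] at hN
      exact hM (hN ▸ hqN)
    obtain ⟨s, hs⟩ := Nat.exists_eq_succ_of_ne_zero h1
    exact ⟨s, M, hM, by rw [hs] at hN; exact hN⟩
  have : NeZero M := ⟨by rintro rfl; exact hM (dvd_zero q)⟩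
  exact GX.all ((Nat.Prime.coprime_iff_not_dvd hq.out).mpr hM) hqp hA hq1 hα hα0 hΦ hδ s N
    (by rw [hN, pow_succ]; ring) hqN Y hY

end Fermat.Agent.AnJacH
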