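import Fermat.Agent.AnJacH.Field
import Fermat.Agent.AnJac.Divs

/-!
# Orders at spots on the function field of `Γ\ℍ`
-/

set_option autoImplicit false
set_option linter.unusedSectionVars false

open UpperHalfPlane ModularForm MatrixGroups Matrix.SpecialLinearGroup Filter Function
open scoped Manifold Topology Real ComplexConjugate

noncomputable section

namespace Fermat.Agent.AnJacH

open Fermat.Agent.AnJac Fermat.Agent.DimS2 Fermat.Agent.ModFun CongruenceSubgroup AlgebraicCurve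
open ModularCurve IntermediateField Fermat.Agent.GenusX0
open Fermat.Agent.Curves hiding ord_pow

/-- spots at which all functions have orders -/
structure Pl (N : ℕ) where
  s : Spot
  g : SL(2,ℤ)
  ex : ∀ f, IsA N f → f ≠ 0 → ∃ r, s.HasOrd (sl f g) r

/-- points of the upper half plane -/
def Pl.pt (N : ℕ) (P : PtData) (g : SL(2,ℤ)) : Pl N where
  s := Spot.ud P.toUD
  g := g
  ex f hf h0 := ⟨_, Spot.hasOrd_ud_pt P (mdiff_comp_smul hf.mdiff g) (sl_ne_zero h0 g)⟩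

/-- cusps -/
def Pl.cusp (N : ℕ) [NeZero N] (g : SL(2,ℤ)) : Pl N where
  s := Spot.ud (cuspUD N)
  g := g
  ex _ hf h0 := Spot.hasOrd_ud_cusp N (mdiff_comp_smul hf.mdiff g) (hf.per g) (hf.mg g)
    (sl_ne_zero h0 g)

variable {N : ℕ} {Γ : Subgroup SL(2,ℤ)} [NeZero N] (hΓ : Adm N Γ) (p : Pl N)

/-- orders of elements -/
def HasRho (p : Pl N) (u : LaurentSeries ℂ) (r : ℤ) : Prop := ∃ (f : ℍ → ℂ) (B : Polynomial ℂ)
  (a b : ℤ), Rp N Γ u f B ∧ p.s.HasOrd (sl f p.g) a ∧ p.s.HasOrd (sl (ef (jev ℂ B)) p.g) b ∧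
    r = a - b

variable {p}

lemma Rp.ne_zero (hΓ : Adm N Γ) {u : LaurentSeries ℂ} {f : ℍ → ℂ} {B : Polynomial ℂ}
    (h : Rp N Γ u f B) (hu : u ≠ 0) : f ≠ 0 := by
  rintro rfl
  have := h.2.2
  rw [(lser_eq_zero_iff (h.1.isP_one hΓ)).mpr rfl] at this
  exact mul_ne_zero hu (jev_ne_zero h.2.1) this

variable (p) in
lemma exists_hasRho {u : LaurentSeries ℂ} (hu : u ∈ MfG hΓ) (h0 : u ≠ 0) :
    ∃ r, HasRho (Γ := Γ) p u r := by
  obtain ⟨f, B, h⟩ := exists_Rp hΓ hu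
  obtain ⟨a, ha⟩ := p.ex f h.1.isA (h.ne_zero hΓ h0)
  obtain ⟨b, hb⟩ := p.ex _ (isXG_jev hΓ B).isA (ef_jev_ne_zero h.2.1)
  exact ⟨a - b, f, B, a, b, h, ha, hb, rfl⟩

include hΓ in
lemma HasRho.unique {u : LaurentSeries ℂ} {r r' : ℤ} (h : HasRho (Γ := Γ) p u r)
    (h' : HasRho (Γ := Γ) p u r') : r = r' := by
  obtain ⟨f, B, a, b, hr, ha, hb, rfl⟩ := h
  obtain ⟨f', B', a', b', hr', ha', hb', rfl⟩ := h'
  have h1 := congrArg (fun f => sl f p.g) (hr.cross hr' hΓ)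
  simp only [sl_mul] at h1
  have h2 := ha.mul hb'
  have h3 := ha'.mul hb
  rw [h1] at h2
  have := h2.unique h3
  omega

/-- a better version of `HasRho` : any pair of functions -/
lemma HasRho.of_quot (hΓ : Adm N Γ) {u : LaurentSeries ℂ} {r : ℤ} (h : HasRho (Γ := Γ) p u r)
    {f g : ℍ → ℂ} (hf : IsP f) (hg : IsP g) (he : u * lser g = lser f)
    {a b : ℤ} (ha : p.s.HasOrd (sl f p.g) a) (hb : p.s.HasOrd (sl g p.g) b) : r = a - b := by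
  obtain ⟨f', B, a', b', hr, ha', hb', rfl⟩ := h
  have h1 : f * ef (jev ℂ B) = f' * g := by
    apply lser_inj (hf.mul ((isXG_jev hΓ B).isP_one hΓ)) ((hr.1.isP_one hΓ).mul hg)
    rw [lser_mul hf ((isXG_jev hΓ B).isP_one hΓ), lser_mul (hr.1.isP_one hΓ) hg,
      lser_ef (jev_mem _), ← hr.2.2, ← he]
    ring
  have h2 := congrArg (fun f => sl f p.g) h1
  simp only [sl_mul] at h2
  have h3 := ha.mul hb'
  have h4 := ha'.mul hb
  rw [h2] at h3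
  have := h3.unique h4
  omega

variable (p) in
open Classical in
/-- the order function -/
def rho (u : MfG hΓ) : ℤ :=
  if h : ∃ r, HasRho (Γ := Γ) p (u : LaurentSeries ℂ) r then h.choose else 0

lemma rho_eq {u : MfG hΓ} {r : ℤ} (h : HasRho (Γ := Γ) p (u : LaurentSeries ℂ) r) :
    rho hΓ p u = r := by
  have h' : ∃ r, HasRho (Γ := Γ) p (u : LaurentSeries ℂ) r := ⟨r, h⟩
  unfold rho
  rw [dif_pos h']
  exact h'.choose_spec.unique hΓ h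

lemma rho_spec {u : MfG hΓ} (h : u ≠ 0) : HasRho (Γ := Γ) p (u : LaurentSeries ℂ) (rho hΓ p u) := by
  obtain ⟨r, hr⟩ := exists_hasRho hΓ p u.2 (fun h' => h (Subtype.ext h'))
  rwa [rho_eq hΓ hr]

lemma isOrd_rho : IsOrd ℂ (rho hΓ p) where
  mul x y hx hy := by
    obtain ⟨f, B, a, b, hr, ha, hb, h1⟩ := rho_spec hΓ (p := p) hx
    obtain ⟨f', B', a', b', hr', ha', hb', h2⟩ := rho_spec hΓ (p := p) hy
    rw [h1, h2]
    apply rho_eq
    refine ⟨f * f', B * B', a + a', b + b', hr.mul hΓ hr', ha.mul ha', ?_, by ring⟩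
    have : ef (jev ℂ (B * B')) = ef (jev ℂ B) * ef (jev ℂ B') := by
      rw [map_mul, ef_mul (jev_mem _) (jev_mem _)]
    rw [this]
    exact hb.mul hb'
  add x y hx hy hxy := by
    obtain ⟨f, B, a, b, hr, ha, hb, h1⟩ := rho_spec hΓ (p := p) hx
    obtain ⟨f', B', a', b', hr', ha', hb', h2⟩ := rho_spec hΓ (p := p) hy
    have hs := hr.add hΓ hr'
    have hne : ((x + y : MfG hΓ) : LaurentSeries ℂ) ≠ 0 := fun h => hxy (Subtype.ext h)
    obtain ⟨c, hc⟩ := p.ex _ hs.1.isA (hs.ne_zero hΓ hne)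
    have hBB : ef (jev ℂ (B * B')) = ef (jev ℂ B) * ef (jev ℂ B') := by
      rw [map_mul, ef_mul (jev_mem _) (jev_mem _)]
    have h3 : rho hΓ p (x + y) = c - (b + b') := by
      apply rho_eq
      refine ⟨_, B * B', c, b + b', hs, hc, ?_, rfl⟩
      rw [hBB]
      exact hb.mul hb'
    have h4 := Spot.HasOrd.add (ha.mul hb') (ha'.mul hb) hc
    rw [h1, h2, h3]
    omega
  const c hc := by
    apply rho_eq
    refine ⟨_, 1, 0, 0, Rp.const hΓ c, ?_, ?_, by ring⟩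
    · exact Spot.hasOrd_const hc
    · rw [map_one, ef_one]
      exact Spot.hasOrd_one

lemma rho_ne_zero_exists_place (h : ∃ z : MfG hΓ, z ≠ 0 ∧ rho hΓ p z ≠ 0) :
    ∃ (v : Place ℂ (MfG hΓ)) (ε : ℕ), 0 < ε ∧ ∀ f, f ≠ 0 → rho hΓ p f = ε * v.ord f := by
  obtain ⟨z, hz, hz'⟩ := h
  exact exists_place_of_rho (isOrd_rho hΓ) hz hz'

/-- dichotomy -/
lemma exists_gcd_rho (p : Pl N) {n : ℕ} {u : MfG hΓ} (hu : u ≠ 0)
    (hord : ∀ v : Place ℂ (MfG hΓ), (n : ℤ) ∣ v.ord u) :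
    ∃ (e m : ℤ) (t : MfG hΓ), t ≠ 0 ∧ rho hΓ p t = e ∧ rho hΓ p u = n * (e * m) := by
  by_cases h : ∀ z : MfG hΓ, z ≠ 0 → rho hΓ p z = 0
  · refine ⟨0, 0, 1, one_ne_zero, h 1 one_ne_zero, by rw [h u hu]; ring⟩
  · push Not at h
    obtain ⟨v, ε, hε, hv⟩ := rho_ne_zero_exists_place hΓ (p := p) h
    obtain ⟨m, hm⟩ := hord v
    obtain ⟨t, ht0, ht⟩ := exists_ord_eq v 1
    refine ⟨ε, m, t, ht0, by rw [hv t ht0, ht, mul_one], ?_⟩
    rw [hv u hu, hm]; ring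

/-- orders of elements of the field of `Γ₀(N)` -/
lemma rho_algebraMap (U : UDN N) {p : Pl N} (hp : p.s = Spot.ud U.toUD) {y : FF N} (hy : y ≠ 0) :
    rho hΓ p (algebraMap (FF N) (MfG hΓ) y) = (sigma (RingHom.id ℂ) U p.g y).order := by
  have hy' : algebraMap (FF N) (MfG hΓ) y ≠ 0 := by
    rw [Ne, map_eq_zero]; exact hy
  obtain ⟨f, hf, B, hB, h⟩ := mem_FF.mp y.2
  have hb := isX_jev (N := N) B
  obtain ⟨b, hb'⟩ := p.ex _ hb.isA (ef_jev_ne_zero hB)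
  have h1 : coeffMap (RingHom.id ℂ) (y : LaurentSeries ℂ) * lser (ef (jev ℂ B)) = lser f := by
    rw [AnJac.coeffMap_id, lser_ef (jev_mem B), h]
  have hb'' : (Spot.ud U.toUD).HasOrd (fun τ => ef (jev ℂ B) (p.g • τ)) b := by
    rw [hp] at hb'; exact hb'
  have h2 := hasOrd_of_repr (RingHom.id ℂ) U p.g hy (hf.isP isNH_one) (hb.isP isNH_one) h1 hb''
  apply rho_eq
  refine ⟨f, B, (sigma (RingHom.id ℂ) U p.g y).order + b, b, ⟨IsXG.of_isX_one hΓ hf, hB, h⟩,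
    ?_, hb', ?_⟩
  · rw [hp]; exact h2
  · ring

lemma exists_spot_aux {U : UDN N} {z : FF N} (h : IsLoc (RingHom.id ℂ) U z)
    (hex : ∀ (f : ℍ → ℂ), IsA N f → f ≠ 0 → ∀ g : SL(2,ℤ),
      ∃ r, (Spot.ud U.toUD).HasOrd (sl f g) r)
    (htr : ∀ m : ℕ, |(U.s ^ m) 0 0 + (U.s ^ m) 1 1| ≤ 2)
    (v : Place ℂ (FF N)) (hv : 0 < v.ord z) :
    ∃ (p : Pl N) (ε : ℕ), 0 < ε ∧
      (∀ y : FF N, y ≠ 0 → rho hΓ p (algebraMap (FF N) (MfG hΓ) y) = ε * v.ord y) ∧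
      ∀ (ψ : Γ →* ℂˣ) (f : ℍ → ℂ) (r : ℤ), IsNHG ψ → IsXG N Γ ψ f → p.s.HasOrd (sl f p.g) r →
        (ε : ℤ) ∣ r := by
  obtain ⟨x, hx⟩ := exists_ctr_eq h hv
  obtain ⟨m, hm, hmx⟩ := exists_pow_smul h x
  obtain ⟨ε, hε, hord⟩ := ctr_spec h x
  rw [hx] at hm hord
  obtain ⟨g, rfl⟩ := QuotientGroup.mk_surjective x
  rw [sig_mk] at hord
  -- `e = ε m`
  have he : (U.e : ℤ) = ε * m := by
    obtain ⟨ξ, h1, h2⟩ := h.fib
    have h3 := h1 (g : GenusX0.Cos N)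
    rw [sig_mk] at h3
    have h4 := hord z (fun h0 => by rw [h0] at hv; simp at hv)
    rw [h3, h2, hm] at h4
    exact h4
  have hm0 : (m : ℤ) ≠ 0 := by
    rintro h0
    rw [h0, mul_zero] at he
    have := U.e_pos
    omega
  -- the element of `Γ₀(N)`
  have hmem : g⁻¹ * U.s ^ m * g ∈ Gamma0 N := by
    have h1 : ((U.s ^ m * g : SL(2,ℤ)) : GenusX0.Cos N) = (g : GenusX0.Cos N) := hmx
    rw [eq_comm, QuotientGroup.eq] at h1
    rwa [mul_assoc]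
  have hγtr : |(g⁻¹ * U.s ^ m * g) 0 0 + (g⁻¹ * U.s ^ m * g) 1 1| ≤ 2 := by
    have := trace_conj g⁻¹ (U.s ^ m)
    rw [inv_inv] at this
    rw [this]
    exact htr m
  set γ : Γ := ⟨_, hΓ.nh _ hmem hγtr⟩ with hγ
  refine ⟨⟨Spot.ud U.toUD, g⁻¹, fun f hf h0 => hex f hf h0 g⁻¹⟩, ε, hε, fun y hy => ?_,
    fun ψ f r hψ hf hr => ?_⟩
  · rw [rho_algebraMap hΓ U rfl hy]
    exact hord y hy
  · have hinv : ∀ τ, f (g⁻¹ • (U.s ^ m • τ)) = 1 * f (g⁻¹ • τ) := by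
      intro τ
      have h1 := hf.inv γ (g⁻¹ • τ)
      rw [hψ γ hγtr, Units.val_one] at h1
      rw [← h1]
      congr 1
      simp only [hγ, ← mul_smul]
      congr 1
      group
    have hζ0 : ((U.ζ : ℂ) ^ m) ≠ 0 := pow_ne_zero _ (Units.ne_zero _)
    have h1 := Spot.ud_transform hζ0 (s_pow_smul U.toUD m) hr hinv
    rw [← zpow_natCast, ← zpow_mul] at h1
    have h2 : IsPrimitiveRoot (U.ζ : ℂ) U.e := IsPrimitiveRoot.coe_units_iff.mpr U.prim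
    have h3 := (h2.zpow_eq_one_iff_dvd _).mp h1.symm
    rw [he, mul_comm (ε : ℤ)] at h3
    exact Int.dvd_of_mul_dvd_mul_left hm0 h3

/-- spots for all places of `Γ₀(N)` -/
theorem exists_spot (v : Place ℂ (FF N)) :
    ∃ (p : Pl N) (ε : ℕ), 0 < ε ∧
      (∀ y : FF N, y ≠ 0 → rho hΓ p (algebraMap (FF N) (MfG hΓ) y) = ε * v.ord y) ∧
      ∀ (ψ : Γ →* ℂˣ) (f : ℍ → ℂ) (r : ℤ), IsNHG ψ → IsXG N Γ ψ f → p.s.HasOrd (sl f p.g) r →
        (ε : ℤ) ∣ r := by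
  rcases place_cases v with hv | ⟨c, hv⟩
  · refine exists_spot_aux hΓ (isLoc_cusp (N := N) (RingHom.id ℂ)) ?_ ?_ v (by rw [v.ord_inv]; omega)
    · intro f hf hf0 g
      exact Spot.hasOrd_ud_cusp N (mdiff_comp_smul hf.mdiff g) (hf.per g) (hf.mg g)
        (sl_ne_zero hf0 g)
    · intro m
      have h1 : ((cuspUDN N).s ^ m) = ModularGroup.T ^ (m : ℤ) := (zpow_natCast _ _).symm
      rw [h1]
      have := ModularGroup.coe_T_zpow (m : ℤ)
      rw [this]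
      simp
  · obtain ⟨P, _, _, hP⟩ := exists_isLoc (N := N) (RingHom.id ℂ) c
    refine exists_spot_aux hΓ hP ?_ ?_ v hv
    · intro f hf hf0 g
      exact ⟨_, Spot.hasOrd_ud_pt P (mdiff_comp_smul hf.mdiff g) (sl_ne_zero hf0 g)⟩
    · intro m
      exact abs_trace_le_of_fix (PtData.s_pow_fix P m)

/-- **unramifiedness** and existence of spots: for each place `v` of the field of `Γ₀(N)` there is
a place `w` above, unramified, whose order is given by a spot -/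
theorem exists_spot_place (v : Place ℂ (FF N)) :
    ∃ (p : Pl N) (ε : ℕ) (w : Place ℂ (MfG hΓ)), 0 < ε ∧
      (∀ x : MfG hΓ, x ≠ 0 → rho hΓ p x = ε * w.ord x) ∧
      (∀ y : FF N, w.ord (algebraMap (FF N) (MfG hΓ) y) = v.ord y) ∧
      ∀ (ψ : Γ →* ℂˣ) (f : ℍ → ℂ) (r : ℤ), IsNHG ψ → IsXG N Γ ψ f → p.s.HasOrd (sl f p.g) r →
        (ε : ℤ) ∣ r := by
  obtain ⟨p, ε, hε, h1, h2⟩ := exists_spot hΓ v
  obtain ⟨t, ht0, ht⟩ := exists_ord_eq v 1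
  have ht0' : algebraMap (FF N) (MfG hΓ) t ≠ 0 := by rw [Ne, map_eq_zero]; exact ht0
  obtain ⟨w, ε', hε', hw⟩ := rho_ne_zero_exists_place hΓ (p := p) ⟨_, ht0', by
    rw [h1 t ht0, ht]; omega⟩
  -- `ε ∣ ε'`
  obtain ⟨s, hs0, hs⟩ := exists_ord_eq w 1
  have h3 : (ε : ℤ) ∣ ε' := by
    obtain ⟨f, B, a, b, hr, ha, hb, he⟩ := rho_spec hΓ (p := p) hs0
    have h4 := h2 1 f a isNHG_one hr.1 ha
    have h5 := h2 1 _ b isNHG_one (isXG_jev hΓ B) hb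
    rw [hw s hs0, hs, mul_one] at he
    rw [he]
    exact dvd_sub h4 h5
  have h4 : (ε' : ℤ) * w.ord (algebraMap (FF N) (MfG hΓ) t) = ε := by
    rw [← hw _ ht0', h1 t ht0, ht, mul_one]
  have h5 : (ε' : ℤ) ∣ ε := ⟨_, h4.symm⟩
  have h6 : ε' = ε := Nat.dvd_antisymm (by exact_mod_cast h5) (by exact_mod_cast h3)
  subst h6
  refine ⟨p, ε', w, hε', hw, fun y => ?_, h2⟩
  rcases eq_or_ne y 0 with rfl | hy
  · rw [map_zero]; simp
  have hy' : algebraMap (FF N) (MfG hΓ) y ≠ 0 := by rw [Ne, map_eq_zero]; exact hy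
  have h7 := h1 y hy
  rw [hw _ hy'] at h7
  exact mul_left_cancel₀ (by omega : (ε' : ℤ) ≠ 0) h7

end Fermat.Agent.AnJacH
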