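import Fermat.Agent.AnJacH.ModPH
import Fermat.Agent.AnJacH.LinO

/-!
# The `p`-adic representation of `Γ_H` and classes with trivial reduction
-/

set_option autoImplicit false
set_option linter.unusedSectionVars false

noncomputable section

namespace Fermat.Agent.AnJacH

open ModularCurve Fermat.Agent.ModFun Fermat.Agent.AnJac AlgebraicCurve IsLocalRing
open Fermat.Agent.HeckeQ CongruenceSubgroup MatrixGroups UpperHalfPlane Matrix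
open Fermat.Agent.SSMod
open scoped Pointwise Manifold

local notation "Qbar" => AlgebraicClosure ℚ
local notation "GQ" => Qbar ≃ₐ[ℚ] Qbar

variable {p : ℕ} [hp : Fact p.Prime]
  {A : ValuationSubring Qbar} {N : ℕ} [NeZero N] {m : ℕ} {h : m ∣ N} {H₀ : Subgroup (ZMod m)ˣ}
  {hΓ : Adm N (GH N m h H₀)} {θ : MfG hΓ} {hθ : IsGen hΓ θ}

/-! ### continuity -/

lemma QZ_le_smoothF : QZ Qbar ≤ smoothF := by
  apply IntermediateField.adjoin_le_iff.mpr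
  rintro _ ⟨y, -, rfl⟩
  refine ⟨⊥, inferInstance, fun σ _ => ?_⟩
  rw [coeffMap_coeffMap]
  congr 1
  congr 1
  exact Subsingleton.elim _ _

lemma exists_finite_fixedG (hQ : MfG hΓ ≤ QZ ℂ) (u : FG hΓ ιQ) :
    ∃ L : IntermediateField ℚ Qbar, FiniteDimensional ℚ L ∧
      ∀ σ : GQ, (∀ x ∈ L, σ x = x) → actFG ιQ hθ fQ σ u = u := by
  let _ := ιQ.toAlgebra
  obtain ⟨L, hL, h⟩ := QZ_le_smoothF (mem_QZ_of_coeffs (hQ u.2))
  refine ⟨L, hL, fun σ hσ => Subtype.ext ?_⟩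
  rw [coe_actFG]
  exact h σ hσ

variable (p hθ) in
/-- the `p`-adic representation -/
def rG : GQ →* Matrix (Fin (Module.finrank ℤ (LatG (GH N m h H₀))))
    (Fin (Module.finrank ℤ (LatG (GH N m h H₀)))) ℤ_[p] :=
  (KG hθ).rho (bG hΓ) p

lemma rG_spec (σ : GQ) (n : ℕ) :
    (PadicInt.toZModPow n).mapMatrix (rG p hθ σ) = (KG hθ).M (bG hΓ) (KSys.pn0 p n) σ :=
  (KG hθ).rho_spec (bG hΓ) p σ n

lemma rG_cont (hQ : MfG hΓ ≤ QZ ℂ) (n : ℕ) :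
    ∃ L : IntermediateField ℚ Qbar, FiniteDimensional ℚ L ∧
    ∀ σ : GQ, (∀ x ∈ L, σ x = x) → (PadicInt.toZModPow n).mapMatrix (rG p hθ σ) = 1 := by
  obtain ⟨u, hu⟩ := (KG hθ).exists_control (bG hΓ) (KSys.pn0 p n)
  choose L hL h using fun j => exists_finite_fixedG (hθ := hθ) hQ (u j)
  refine ⟨⨆ j, L j, IntermediateField.finiteDimensional_iSup_of_finite, fun σ hσ => ?_⟩
  rw [rG_spec]
  exact hu σ fun j => h j σ fun x hx => hσ x (le_iSup L j hx)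

/-! ### divisibility and levels -/

lemma KT.of_dvd {n n' : ℕ} (hn : n ≠ 0) (hd : n' ∣ n) {x} (hx : KT hθ A n x) :
    KT hθ A n' (fun i => ZMod.castHom hd (ZMod n') (x i)) := by
  obtain ⟨m', rfl⟩ := hd
  exact hx.lev (left_ne_zero_of_mul hn) (right_ne_zero_of_mul hn)

lemma KT.nsmul {n : ℕ} (hn : n ≠ 0) {x} (hx : KT hθ A n x) (c : ℕ) : KT hθ A n (c • x) := by
  induction c with
  | zero => rw [zero_smul]; exact KT.zero hn
  | succ c ih => rw [succ_nsmul]; exact ih.add hx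

/-! ### `p`-adic vectors with trivial reduction -/

/-- reduction of vectors -/
def rv {r : ℕ} (n : ℕ) (v : Fin r → ℤ_[p]) : Fin r → ZMod (p ^ n) :=
  fun i => PadicInt.toZModPow n (v i)

lemma rv_add {r : ℕ} (n : ℕ) (v w : Fin r → ℤ_[p]) : rv n (v + w) = rv n v + rv n w := by
  ext i; simp [rv]

lemma rv_sub {r : ℕ} (n : ℕ) (v w : Fin r → ℤ_[p]) : rv n (v - w) = rv n v - rv n w := by
  ext i; simp [rv]

lemma rv_zero {r : ℕ} (n : ℕ) : rv n (0 : Fin r → ℤ_[p]) = 0 := by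
  ext i; simp [rv]

lemma rv_nsmul {r : ℕ} (n c : ℕ) (v : Fin r → ℤ_[p]) : rv n (c • v) = c • rv n v := by
  ext i; simp [rv]

lemma rv_mulVec {r : ℕ} (n : ℕ) (B : Matrix (Fin r) (Fin r) ℤ_[p]) (v : Fin r → ℤ_[p]) :
    rv n (B *ᵥ v) = (PadicInt.toZModPow n).mapMatrix B *ᵥ rv n v := by
  ext i
  simp only [rv, Matrix.mulVec, dotProduct, RingHom.mapMatrix_apply, Matrix.map_apply]
  rw [map_sum]
  refine Finset.sum_congr rfl fun j _ => ?_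
  rw [map_mul]

lemma rv_mulVec_int {r : ℕ} (n : ℕ) (B : Matrix (Fin r) (Fin r) ℤ) (v : Fin r → ℤ_[p]) :
    rv n (oI ℤ_[p] B *ᵥ v) = im (p ^ n) B *ᵥ rv n v := by
  rw [rv_mulVec]
  congr 1
  ext i j
  simp [oI, im]

/-- vectors with trivial reduction -/
def VT {N : ℕ} [NeZero N] {m : ℕ} {h : m ∣ N} {H₀ : Subgroup (ZMod m)ˣ}
    {hΓ : Adm N (GH N m h H₀)} {θ : MfG hΓ} (hθ : IsGen hΓ θ) (A : ValuationSubring Qbar) (v : Fin (Module.finrank ℤ (LatG (GH N m h H₀))) → ℤ_[p]) : Prop :=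
  ∀ n, KT hθ A (p ^ n) (rv n v)

lemma VT.sat (hQ : MfG hΓ ≤ QZ ℂ) {v : Fin (Module.finrank ℤ (LatG (GH N m h H₀))) → ℤ_[p]}
    (hv : VT hθ A (p • v)) : VT hθ A v := by
  intro n
  have h1 := hv (n + 1)
  rw [rv_nsmul] at h1
  have h2 := KT.sat (n := p ^ n) (p := p) hQ (KSys.pn0 p n) hp.out.ne_zero h1
  have h3 : (fun i => ZMod.castHom (dvd_mul_right (p ^ n) p) (ZMod (p ^ n)) (rv (n + 1) v i)) =
      rv n v := by
    ext i
    exact PadicInt.cast_toZModPow n (n + 1) (Nat.le_succ n) (v i)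
  rw [h3] at h2
  exact h2

lemma clO_VT (hQ : MfG hΓ ≤ QZ ℂ) : ClO (p := p) (VT hθ A) where
  zero n := by rw [rv_zero]; exact KT.zero (KSys.pn0 p n)
  add x y hx hy n := by rw [rv_add]; exact (hx n).add (hy n)
  sat x hx := hx.sat hQ

lemma VT.act {v : Fin (Module.finrank ℤ (LatG (GH N m h H₀))) → ℤ_[p]}
    (hv : VT hθ A v) {σ : GQ} (hσ : σ • A = A) : VT hθ A (rG p hθ σ *ᵥ v) := by
  intro n
  rw [rv_mulVec, rG_spec]
  exact (hv n).act (KSys.pn0 p n) hσ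

lemma VT_frob (hQ : MfG hΓ ≤ QZ ℂ) {ℓ : ℕ} [hℓ : Fact ℓ.Prime] [NeZero ℓ]
    (hA : A.LiesOverPrime ℓ) {τ : GQ}
    (hτ : A.IsFrobeniusAt τ ℓ) (hℓN : ¬ ℓ ∣ N) {g : Gamma0 N}
    (hg : ((dM N m h g : (ZMod m)ˣ) : ZMod m) = ℓ)
    (v : Fin (Module.finrank ℤ (LatG (GH N m h H₀))) → ℤ_[p]) :
    VT hθ A (oI ℤ_[p] (KSys.tm (bG hΓ) (LTG N m h H₀ ℓ hℓN g hg)) *ᵥ v -
      (rG p hθ τ *ᵥ v +
        ℓ • (oI ℤ_[p] (KSys.tm (bG hΓ) (LdG hΓ g)) *ᵥ (rG p hθ τ⁻¹ *ᵥ v)))) := by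
  intro n
  rw [rv_sub, rv_add, rv_nsmul, rv_mulVec_int, rv_mulVec_int, rv_mulVec, rv_mulVec, rG_spec,
    rG_spec]
  exact KT_frob hQ hA hτ hℓN hg (KSys.pn0 p n) _

lemma VT_U (hQ : MfG hΓ ≤ QZ ℂ) {q : ℕ} [hq : Fact q.Prime] [NeZero q]
    (hA : A.LiesOverPrime q) {τ : GQ}
    (hτ : A.IsFrobeniusAt τ q) (hqN : q ∣ N)
    (v : Fin (Module.finrank ℤ (LatG (GH N m h H₀))) → ℤ_[p]) :
    VT hθ A (oI ℤ_[p] (KSys.tm (bG hΓ) (LUG N m h H₀ q hqN)) *ᵥ v - rG p hθ τ *ᵥ v) := by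
  intro n
  rw [rv_sub, rv_mulVec_int, rv_mulVec, rG_spec]
  exact KT_U hQ hA hτ hqN (KSys.pn0 p n) _

end Fermat.Agent.AnJacH
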