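import Fermat.Agent.AnJacH.QPart

/-!
# Local-global compatibility at `q` for eigenvectors of `Γ_H`: conclusion
-/

set_option autoImplicit false
set_option linter.unusedSectionVars false

noncomputable section

namespace Fermat.Agent.AnJacH

open ModularCurve Fermat.Agent.ModFun Fermat.Agent.AnJac AlgebraicCurve IsLocalRing
open Fermat.Agent.HeckeQ CongruenceSubgroup MatrixGroups UpperHalfPlane Matrix
open Fermat.Agent.SSMod
open scoped Pointwise Manifold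

local notation "Qbar" => AlgebraicClosure ℚ
local notation "GQ" => Qbar ≃ₐ[ℚ] Qbar

variable {p : ℕ} [hp : Fact p.Prime]
  {A : ValuationSubring Qbar} {N : ℕ} [NeZero N] {m : ℕ} {h : m ∣ N} {H₀ : Subgroup (ZMod m)ˣ}
  {hΓ : Adm N (GH N m h H₀)} {θ : MfG hΓ} {hθ : IsGen hΓ θ} {S : Set ℕ} {q : ℕ} [NeZero q]
  {hqN : q ∣ N}
  {O : Type*} [CommRing O] [Algebra ℤ_[p] O]

section Main

variable [IsDomain O] [IsDiscreteValuationRing O]
  (hpO : (p : O) ∈ maximalIdeal O) [Algebra (ZMod p) (ResidueField O)]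

include hpO in
/-- the residual determinant is the cyclotomic character -/
theorem GalD.det_res (hSf : S.Finite) {χ : Gamma0 N → O} {t : ℕ → O}
    {ρ₂ : GQ →* Matrix (Fin 2) (Fin 2) O}
    (G : GalD p N m h S χ t ρ₂) (σ : GQ) :
    residue O (ρ₂ σ).det = residue O (algebraMap ℤ_[p] O (GalRep.cycP p σ)) := by
  have hNp : N * p ≠ 0 := mul_ne_zero (NeZero.ne N) hp.out.ne_zero
  have hT : ({ℓ | ℓ ∣ N * p} ∪ S).Finite := by
    refine Set.Finite.union ?_ hSf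
    exact (Nat.divisors (N * p)).finite_toSet.subset fun x hx => by
      simp only [Finset.mem_coe, Nat.mem_divisors]
      exact ⟨hx, hNp⟩
  obtain ⟨L₁, hL₁, h₁⟩ := G.cont 1
  obtain ⟨L₂, hL₂, h₂⟩ := GalRep.cycP_finite p 1
  obtain ⟨ℓ, hℓ, hℓT, B, hB, Φ, hΦ, k, -, hk, -⟩ :=
    FrobDens.exists_frobenius (L₁ ⊔ L₂) _ hT σ
  rw [Set.mem_union, not_or] at hℓT
  have hN₁ : ¬ ℓ ∣ N := fun h => hℓT.1 (h.mul_right p)
  have hp₁ : ℓ ≠ p := by
    rintro rfl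
    exact hℓT.1 (dvd_mul_left _ _)
  have hσ : σ = Φ ^ k * ((Φ ^ k)⁻¹ * σ) := by group
  -- the determinant
  have e1 : residue O (ρ₂ ((Φ ^ k)⁻¹ * σ)).det = 1 := by
    have h3 : (residue O).mapMatrix (ρ₂ ((Φ ^ k)⁻¹ * σ)) = 1 := by
      ext i j
      have := h₁ ((Φ ^ k)⁻¹ * σ) (fun x hx => by
        rw [AlgEquiv.mul_apply, ← hk x (le_sup_left (a := L₁) hx)]
        exact inv_smul_smul (Φ ^ k) x) i j
      rw [pow_one, ← residue_eq_zero_iff, map_sub, sub_eq_zero] at this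
      change residue O _ = _
      rw [this]
      exact congrFun (congrFun (map_one (residue O).mapMatrix :
          ((residue O).mapMatrix (1 : Matrix (Fin 2) (Fin 2) O)) = 1) i) j
    rw [RingHom.map_det, h3, Matrix.det_one]
  obtain ⟨g, hg⟩ := exists_g N m h hℓ hN₁
  have e2 : residue O (ρ₂ (Φ ^ k)).det = (ℓ : ResidueField O) ^ k := by
    rw [map_pow, Matrix.det_pow, G.det ℓ hℓ hℓT.1 hℓT.2 B hB Φ hΦ g hg, map_pow, map_mul, G.chi,
      mul_one, map_natCast]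
  -- the cyclotomic character
  have e3 : residue O (algebraMap ℤ_[p] O (GalRep.cycP p ((Φ ^ k)⁻¹ * σ))) = 1 := by
    have h3 := h₂ ((Φ ^ k)⁻¹ * σ) (fun x hx => by
        rw [AlgEquiv.mul_apply, ← hk x (le_sup_right (a := L₁) hx)]
        exact inv_smul_smul (Φ ^ k) x)
    have hd : p ∣ p ^ 1 := by rw [pow_one]
    rw [residue_algebraMap hpO, ← toZMod_pow_one _ hd, h3, map_one, map_one]
  have e4 : GalRep.cycP p (Φ ^ k) = (ℓ : ℤ_[p]) ^ k := by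
    rw [map_pow, GalRep.cycP_frob p hℓ hB hp₁ hΦ]
  conv_lhs => rw [hσ, map_mul, Matrix.det_mul, map_mul, e1, e2, mul_one]
  conv_rhs => rw [hσ, map_mul, map_mul, map_mul, e3, e4, mul_one, map_pow, map_pow, map_natCast,
    map_natCast]

variable [Module.Free ℤ_[p] O] [Module.Finite ℤ_[p] O]

/-- the residual module -/
def XM {r : ℕ} (E : Submodule O (Fin r → O)) : Submodule (ResidueField O) (Fin r → ResidueField O) where
  carrier := {x | ∃ y ∈ E, rs y = x}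
  zero_mem' := ⟨0, E.zero_mem, by ext i; simp [rs]⟩
  add_mem' := by
    rintro _ _ ⟨y, hy, rfl⟩ ⟨z, hz, rfl⟩
    exact ⟨y + z, E.add_mem hy hz, rs_add y z⟩
  smul_mem' := by
    rintro c _ ⟨y, hy, rfl⟩
    obtain ⟨c, rfl⟩ := residue_surjective c
    exact ⟨c • y, E.smul_mem c hy, rs_smul c y⟩

/-- the residual determinant -/
def resDet (ρ₂ : GQ →* Matrix (Fin 2) (Fin 2) O) : GQ →* ResidueField O :=
  ((residue O : O →* ResidueField O).comp (Matrix.detMonoidHom (R := O) (n := Fin 2))).comp ρ₂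

lemma resDet_apply (ρ₂ : GQ →* Matrix (Fin 2) (Fin 2) O) (σ : GQ) :
    resDet ρ₂ σ = residue O (ρ₂ σ).det := rfl

set_option maxHeartbeats 3200000 in
include hpO in
/-- the residual structure, when all eigenvectors have trivial reduction -/
theorem exists_HX (hQ : MfG hΓ ≤ QZ ℂ) {e : ℕ}
    (hΔ : Nat.card (Dl N (GH N m h H₀)) = p ^ e) (hSf : S.Finite)
    {χ : Gamma0 N → O} {t : ℕ → O} {a : O} {ρ₂ : GQ →* Matrix (Fin 2) (Fin 2) O}
    (G : GalD p N m h S χ t ρ₂)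
    {ℓ : ℕ} [hℓ : Fact ℓ.Prime] (hℓN : ¬ ℓ ∣ N) (hS : ℓ ∉ S)
    (hg : ((dM N m h (1 : Gamma0 N) : (ZMod m)ˣ) : ZMod m) = ℓ)
    (ht : residue O (t ℓ) ≠ ℓ + 1)
    {v : Fin (Module.finrank ℤ (LatG (GH N m h H₀))) → O}
    (hv : v ∈ EigA (bM hΓ S hqN) (evO χ t S a)) (hv0 : v ≠ 0)
    (hall : ∀ w : Fin (Module.finrank ℤ (LatG (GH N m h H₀))) → O,
      w ∈ EigA (bM hΓ S hqN) (evO χ t S a) → Eo (p := p) (VT hθ A) w) :
    HX p A hθ q hqN (fun σ => residue O (ρ₂ σ).trace) (resDet ρ₂) (residue O a)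
      (XM (EigA (bM hΓ S hqN) (evO χ t S a))) := by
  have hcomm : ∀ σ j, rG p hθ σ * oI ℤ_[p] (bM hΓ S hqN j) = oI ℤ_[p] (bM hΓ S hqN j) * rG p hθ σ :=
    fun σ j => rG_comm σ j
  refine ⟨?_, ?_, ?_, ?_, ?_, ?_⟩
  · obtain ⟨c, y, hc, hcy, i, hi⟩ := exists_primitive hv0
    rw [hcy] at hv
    exact ⟨rs y, ⟨y, EigA.of_smul hc hv, rfl⟩, fun h0 => hi (congrFun h0 i)⟩
  · rintro σ _ ⟨y, hy, rfl⟩
    exact ⟨_, EigA.act hcomm σ hy, rs_aO hpO σ y⟩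
  · rintro σ _ ⟨y, hy, rfl⟩
    have h1 := quad_rel (hθ := hθ) hpO hQ hΔ hSf G hℓN hS hg ht hy σ
    have h2 := congrArg rs h1
    rw [rs_add, rs_sub, rs_smul, rs_smul, rs_aO hpO, rs_aO hpO] at h2
    rw [resDet_apply, h2]
    ext i; simp [rs]
  · rintro _ ⟨y, hy, rfl⟩
    exact rsU hy
  · rintro g _ ⟨y, hy, rfl⟩
    exact rsD G.chi hy g
  · rintro _ ⟨y, hy, rfl⟩
    exact Ex_KT hpO (hall y hy)

set_option maxHeartbeats 3200000 in
include hpO hθ in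
/-- **Local-global compatibility at `q`** -/
theorem lgcG [Finite (ResidueField O)] (hQ : MfG hΓ ≤ QZ ℂ) {e : ℕ}
    (hΔ : Nat.card (Dl N (GH N m h H₀)) = p ^ e) (hSf : S.Finite)
    {χ : Gamma0 N → O} {t : ℕ → O} {a : O} {ρ₂ : GQ →* Matrix (Fin 2) (Fin 2) O}
    (G : GalD p N m h S χ t ρ₂)
    {ℓ : ℕ} [hℓ : Fact ℓ.Prime] (hℓN : ¬ ℓ ∣ N) (hS : ℓ ∉ S)
    (hg : ((dM N m h (1 : Gamma0 N) : (ZMod m)ˣ) : ZMod m) = ℓ)
    (ht : residue O (t ℓ) ≠ ℓ + 1) [hq : Fact q.Prime] (hqp : q ≠ p) (hA : A.LiesOverPrime q)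
    (hq1 : (q : ResidueField O) = 1) (ha : residue O a ^ 2 ≠ 1) (ha0 : residue O a ≠ 0)
    {g₀ h₀ : GQ} (hne : residue O (ρ₂ (g₀ * h₀ * g₀⁻¹ * h₀⁻¹)).trace ≠ 2)
    {v : Fin (Module.finrank ℤ (LatG (GH N m h H₀))) → O}
    (hv : v ∈ EigA (bM hΓ S hqN) (evO χ t S a)) (hv0 : v ≠ 0)
    {Φ : GQ} (hΦ : A.IsFrobeniusAt Φ q) :
    a ^ 2 - (ρ₂ Φ).trace * a + (ρ₂ Φ).det = 0 := by
  have hcomm : ∀ σ j, rG p hθ σ * oI ℤ_[p] (bM hΓ S hqN j) = oI ℤ_[p] (bM hΓ S hqN j) * rG p hθ σ :=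
    fun σ j => rG_comm σ j
  by_cases hall : ∀ w : Fin (Module.finrank ℤ (LatG (GH N m h H₀))) → O,
      w ∈ EigA (bM hΓ S hqN) (evO χ t S a) → Eo (p := p) (VT hθ A) w
  · exfalso
    have hX := exists_HX (hθ := hθ) hpO hQ hΔ hSf G hℓN hS hg ht hv hv0 hall
    have hδ : resDet ρ₂ Φ = 1 := by
      rw [resDet_apply, G.det_res hpO hSf, GalRep.cycP_frob p hq.out hA hqp hΦ, map_natCast,
        map_natCast, hq1]
    exact hne (hX.comm hQ (by rw [hΔ]; exact pow_ne_zero_res hq.out hp.out hA hqp e) hℓN hg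
      (t := residue O (t ℓ)) (by
        rintro _ ⟨y, hy, rfl⟩
        exact rsT hy hℓN hS hg) ht hqp hA hq1 ha ha0 hΦ hδ g₀ h₀)
  · push Not at hall
    obtain ⟨w, hw, hwn⟩ := hall
    by_contra hne0
    apply hwn
    refine Eo.sat hpO (clO_VT hQ) hne0 ?_
    have h1 : Eo (p := p) (VT hθ A) (a • w - aO O (rG p hθ) Φ *ᵥ w) := by
      intro μ
      have h5 := VT_U (p := p) (hθ := hθ) hQ hA hΦ hqN (fo μ w)
      rw [← evU hw, fo_sub, fo_mulVec_int]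
      unfold aO
      rw [fo_mulVec]
      exact h5
    have hΦA : Φ • A = A := (FrobDens.isFrobeniusAt_iff.mp hΦ).1
    have h2 : Eo (p := p) (VT hθ A) (aO O (rG p hθ) Φ *ᵥ (a • w - aO O (rG p hθ) Φ *ᵥ w)) := by
      intro μ
      unfold aO
      rw [fo_mulVec]
      exact (h1 μ).act hΦA
    have h3 := quad_rel (hθ := hθ) hpO hQ hΔ hSf G hℓN hS hg ht hw Φ
    have h4 : (a ^ 2 - (ρ₂ Φ).trace * a + (ρ₂ Φ).det) • w =
        a • (a • w - aO O (rG p hθ) Φ *ᵥ w) + aO O (rG p hθ) Φ *ᵥ (a • w - aO O (rG p hθ) Φ *ᵥ w)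
          - (ρ₂ Φ).trace • (a • w - aO O (rG p hθ) Φ *ᵥ w) := by
      rw [Matrix.mulVec_sub, Matrix.mulVec_smul, smul_sub, smul_sub, add_smul, sub_smul, mul_smul,
        sq, mul_smul, ← sub_eq_zero, ← h3]
      abel
    rw [h4]
    exact Eo.sub (clO_VT hQ) (Eo.add (clO_VT hQ) (h1.smul a) h2) (h1.smul _)

end Main

end Fermat.Agent.AnJacH
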