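import Fermat.Agent.AnJacH.EisV
import Fermat.Agent.GalRep.Cyclo

/-!
# Local-global compatibility at `q` for eigenvectors of `Γ_H`
-/

set_option autoImplicit false
set_option linter.unusedSectionVars false

noncomputable section

namespace Fermat.Agent.AnJacH

open ModularCurve Fermat.Agent.ModFun Fermat.Agent.AnJac AlgebraicCurve IsLocalRing
open Fermat.Agent.HeckeQ CongruenceSubgroup MatrixGroups UpperHalfPlane Matrix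
open Fermat.Agent.SSMod
open scoped Pointwise Manifold

local notation "Qbar" => AlgebraicClosure ℚ
local notation "GQ" => Qbar ≃ₐ[ℚ] Qbar

variable {p : ℕ} [hp : Fact p.Prime]
  {A : ValuationSubring Qbar} {N : ℕ} [NeZero N] {m : ℕ} {h : m ∣ N} {H₀ : Subgroup (ZMod m)ˣ}
  {hΓ : Adm N (GH N m h H₀)} {θ : MfG hΓ} {hθ : IsGen hΓ θ} {S : Set ℕ} {q : ℕ} [NeZero q]
  {hqN : q ∣ N}
  {O : Type*} [CommRing O] [Algebra ℤ_[p] O]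

/-- the Galois side -/
structure GalD (p : ℕ) [Fact p.Prime] (N m : ℕ) (h : m ∣ N) (S : Set ℕ) {O : Type*} [CommRing O]
    [IsLocalRing O] (χ : Gamma0 N → O) (t : ℕ → O) (ρ₂ : GQ →* Matrix (Fin 2) (Fin 2) O) :
    Prop where
  chi : ∀ g, residue O (χ g) = 1
  cont : ∀ n, ∃ L : IntermediateField ℚ Qbar, FiniteDimensional ℚ L ∧
    ∀ σ : GQ, (∀ x ∈ L, σ x = x) → ∀ i j, ρ₂ σ i j - (1 : Matrix (Fin 2) (Fin 2) O) i j ∈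
      maximalIdeal O ^ n
  tr : ∀ ℓ : ℕ, ℓ.Prime → ¬ ℓ ∣ N * p → ℓ ∉ S → ∀ A : ValuationSubring Qbar,
    A.LiesOverPrime ℓ → ∀ Φ : GQ, A.IsFrobeniusAt Φ ℓ → (ρ₂ Φ).trace = t ℓ
  det : ∀ ℓ : ℕ, ℓ.Prime → ¬ ℓ ∣ N * p → ℓ ∉ S → ∀ A : ValuationSubring Qbar,
    A.LiesOverPrime ℓ → ∀ Φ : GQ, A.IsFrobeniusAt Φ ℓ → ∀ g : Gamma0 N,
    ((dM N m h g : (ZMod m)ˣ) : ZMod m) = ℓ → (ρ₂ Φ).det = ℓ * χ g

section Main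

variable [IsDomain O] [IsDiscreteValuationRing O]
  (hpO : (p : O) ∈ maximalIdeal O) [Algebra (ZMod p) (ResidueField O)]
  [Module.Free ℤ_[p] O] [Module.Finite ℤ_[p] O]

set_option maxHeartbeats 3200000 in
include hpO in
/-- the Frobenius relation on eigenvectors -/
theorem frob_rel (hQ : MfG hΓ ≤ QZ ℂ) {e : ℕ}
    (hΔ : Nat.card (Dl N (GH N m h H₀)) = p ^ e)
    {χ : Gamma0 N → O} {t : ℕ → O} {a : O} (hχ : ∀ g, residue O (χ g) = 1)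
    {ℓ : ℕ} [hℓ : Fact ℓ.Prime] (hℓN : ¬ ℓ ∣ N) (hS : ℓ ∉ S)
    (hg : ((dM N m h (1 : Gamma0 N) : (ZMod m)ˣ) : ZMod m) = ℓ)
    (ht : residue O (t ℓ) ≠ ℓ + 1)
    {ℓ₀ : ℕ} [hℓ₀ : Fact ℓ₀.Prime] (hA : A.LiesOverPrime ℓ₀) (hN : ¬ ℓ₀ ∣ N) (hpℓ : ℓ₀ ≠ p)
    (hS₀ : ℓ₀ ∉ S) {g₀ : Gamma0 N} (hg₀ : ((dM N m h g₀ : (ZMod m)ˣ) : ZMod m) = ℓ₀)
    {Φ : GQ} (hΦ : A.IsFrobeniusAt Φ ℓ₀)
    {v : Fin (Module.finrank ℤ (LatG (GH N m h H₀))) → O}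
    (hv : v ∈ EigA (bM hΓ S hqN) (evO χ t S a)) :
    aO O (rG p hθ) Φ *ᵥ v + (ℓ₀ * χ g₀ : O) • (aO O (rG p hθ) Φ⁻¹ *ᵥ v) = t ℓ₀ • v := by
  have : NeZero ℓ₀ := ⟨hℓ₀.out.ne_zero⟩
  have hcomm : ∀ σ j, rG p hθ σ * oI ℤ_[p] (bM hΓ S hqN j) = oI ℤ_[p] (bM hΓ S hqN j) * rG p hθ σ :=
    fun σ j => rG_comm σ j
  have h1 : aO O (rG p hθ) Φ *ᵥ v ∈ EigA (bM hΓ S hqN) (evO χ t S a) := EigA.act hcomm Φ hv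
  have h2 : aO O (rG p hθ) Φ⁻¹ *ᵥ v ∈ EigA (bM hΓ S hqN) (evO χ t S a) := EigA.act hcomm Φ⁻¹ hv
  have h3 : t ℓ₀ • v - (aO O (rG p hθ) Φ *ᵥ v +
      (ℓ₀ * χ g₀ : O) • (aO O (rG p hθ) Φ⁻¹ *ᵥ v)) ∈ EigA (bM hΓ S hqN) (evO χ t S a) :=
    Submodule.sub_mem _ (Submodule.smul_mem _ _ hv)
      (Submodule.add_mem _ h1 (Submodule.smul_mem _ _ h2))
  have h4 : Eo (p := p) (VT hθ A) (t ℓ₀ • v - (aO O (rG p hθ) Φ *ᵥ v +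
      (ℓ₀ * χ g₀ : O) • (aO O (rG p hθ) Φ⁻¹ *ᵥ v))) := by
    intro μ
    have h5 := VT_frob (p := p) (hθ := hθ) hQ hA hΦ hN hg₀ (fo μ v)
    have h6 : t ℓ₀ • v - (aO O (rG p hθ) Φ *ᵥ v +
        (ℓ₀ * χ g₀ : O) • (aO O (rG p hθ) Φ⁻¹ *ᵥ v)) =
        oI O (KSys.tm (bG hΓ) (LTG N m h H₀ ℓ₀ hN g₀ hg₀)) *ᵥ v -
        (oM (rG p hθ Φ) *ᵥ v + ℓ₀ • (oI O (KSys.tm (bG hΓ) (LdG hΓ g₀)) *ᵥ
          (oM (rG p hθ Φ⁻¹) *ᵥ v))) := by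
      rw [evT hv hN hS₀ hg₀]
      have h7 := evD h2 g₀
      unfold aO at h7
      rw [h7, mul_smul, Nat.cast_smul_eq_nsmul]
      rfl
    rw [h6, fo_sub, fo_add, fo_nsmul, fo_mulVec_int, fo_mulVec_int, fo_mulVec, fo_mulVec]
    exact h5
  have h8 := eis_vanish hpO hQ hΔ hℓ₀.out hA hN hpℓ hχ hℓN hS hg ht h3 h4
  exact (sub_eq_zero.mp h8).symm

set_option maxHeartbeats 1600000 in
include hpO in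
/-- the quadratic relation on eigenvectors -/
theorem quad_rel (hQ : MfG hΓ ≤ QZ ℂ) {e : ℕ}
    (hΔ : Nat.card (Dl N (GH N m h H₀)) = p ^ e) (hSf : S.Finite)
    {χ : Gamma0 N → O} {t : ℕ → O} {a : O} {ρ₂ : GQ →* Matrix (Fin 2) (Fin 2) O}
    (G : GalD p N m h S χ t ρ₂)
    {ℓ : ℕ} [hℓ : Fact ℓ.Prime] (hℓN : ¬ ℓ ∣ N) (hS : ℓ ∉ S)
    (hg : ((dM N m h (1 : Gamma0 N) : (ZMod m)ˣ) : ZMod m) = ℓ)
    (ht : residue O (t ℓ) ≠ ℓ + 1)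
    {v : Fin (Module.finrank ℤ (LatG (GH N m h H₀))) → O}
    (hv : v ∈ EigA (bM hΓ S hqN) (evO χ t S a)) (σ : GQ) :
    aO O (rG p hθ) σ *ᵥ (aO O (rG p hθ) σ *ᵥ v) - (ρ₂ σ).trace • (aO O (rG p hθ) σ *ᵥ v) +
      (ρ₂ σ).det • v = 0 := by
  have hNp : N * p ≠ 0 := mul_ne_zero (NeZero.ne N) hp.out.ne_zero
  have hT : ({ℓ | ℓ ∣ N * p} ∪ S).Finite := by
    refine Set.Finite.union ?_ hSf
    exact (Nat.divisors (N * p)).finite_toSet.subset fun x hx => by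
      simp only [Finset.mem_coe, Nat.mem_divisors]
      exact ⟨hx, hNp⟩
  refine quad_all hpO (fun σ j => rG_comm σ j) (rG_cont hQ) G.cont hT hv ?_ σ
  intro ℓ₁ hℓ₁ h₁ B hB Φ hΦ w hw
  rw [Set.mem_union, not_or] at h₁
  have hN₁ : ¬ ℓ₁ ∣ N := fun h => h₁.1 (h.mul_right p)
  have hp₁ : ℓ₁ ≠ p := by
    rintro rfl
    exact h₁.1 (dvd_mul_left _ _)
  have : Fact ℓ₁.Prime := ⟨hℓ₁⟩
  obtain ⟨g₁, hg₁⟩ := exists_g N m h hℓ₁ hN₁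
  have h2 := frob_rel (hθ := hθ) hpO hQ hΔ G.chi hℓN hS hg ht hB hN₁ hp₁ h₁.2 hg₁ hΦ hw
  rw [G.det ℓ₁ hℓ₁ h₁.1 h₁.2 B hB Φ hΦ g₁ hg₁, G.tr ℓ₁ hℓ₁ h₁.1 h₁.2 B hB Φ hΦ]
  exact h2

end Main

end Fermat.Agent.AnJacH
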