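import Fermat.Agent.AnJacH.ScaleG

/-!
# Functions with constant reduction
-/

set_option autoImplicit false
set_option linter.unusedSectionVars false

noncomputable section

namespace Fermat.Agent.AnJacH

open ModularCurve Fermat.Agent.ModFun Fermat.Agent.AnJac AlgebraicCurve IsLocalRing
open Fermat.Agent.HeckeQ
open scoped Pointwise

local notation "Qbar" => AlgebraicClosure ℚ
local notation "GQ" => Qbar ≃ₐ[ℚ] Qbar

variable {A : ValuationSubring Qbar}

/-- the reduction is constant, after scaling -/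
def RdC (A : ValuationSubring Qbar) (u : LaurentSeries Qbar) : Prop :=
  ∃ c : Qbar, c ≠ 0 ∧ Rd A (HahnSeries.C c * u) 1

/-- the reduction exists and is nonzero, after scaling -/
def Sc (A : ValuationSubring Qbar) (u : LaurentSeries Qbar) : Prop :=
  ∃ c : Qbar, c ≠ 0 ∧ ∃ y : LaurentSeries (ResidueField A), y ≠ 0 ∧ Rd A (HahnSeries.C c * u) y

lemma Rd.inv' {u : LaurentSeries Qbar} {y : LaurentSeries (ResidueField A)} (h : Rd A u y)
    (hy : y ≠ 0) : Rd A u⁻¹ y⁻¹ := GoodRed.LR.inv h hy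

lemma Rd.div' {u v : LaurentSeries Qbar} {y z : LaurentSeries (ResidueField A)} (h : Rd A u y)
    (h' : Rd A v z) (hz : z ≠ 0) : Rd A (u / v) (y / z) := by
  rw [div_eq_mul_inv, div_eq_mul_inv]
  exact h.mul (Rd.inv' h' hz)

lemma Rd.add' {u v : LaurentSeries Qbar} {y z : LaurentSeries (ResidueField A)} (h : Rd A u y)
    (h' : Rd A v z) : Rd A (u + v) (y + z) := GoodRed.LR.add h h'

lemma Rd.const' (a : A) : Rd A (HahnSeries.C (a : Qbar)) (HahnSeries.C (residue A a)) := by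
  rw [C_eq_algebraMap, C_eq_algebraMap]
  exact GoodRed.LR.const (residue A) a

lemma C_ne_zero {R : Type*} [Field R] {c : R} (hc : c ≠ 0) :
    (HahnSeries.C c : LaurentSeries R) ≠ 0 := by
  rw [C_eq_algebraMap, Ne, map_eq_zero]
  exact hc

lemma C_inv {R : Type*} [Field R] (c : R) :
    (HahnSeries.C c⁻¹ : LaurentSeries R) = (HahnSeries.C c)⁻¹ := by
  rw [C_eq_algebraMap, C_eq_algebraMap, map_inv₀]

/-- constants with a nonzero reduction are units -/
lemma Rd.const_unit {e : Qbar} {z : LaurentSeries (ResidueField A)} (hz : z ≠ 0)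
    (h : Rd A (HahnSeries.C e) z) : ∃ a : A, (a : Qbar) = e ∧ residue A a ≠ 0 ∧
      z = HahnSeries.C (residue A a) := by
  have he : e ≠ 0 := by
    rintro rfl
    exact h.ne_zero hz (map_zero _)
  rcases A.mem_or_inv_mem e with h1 | h1
  · refine ⟨⟨e, h1⟩, rfl, ?_, ?_⟩
    · intro h0
      have h2 := Rd.const' (A := A) ⟨e, h1⟩
      have h3 := GoodRed.LR.unique h h2
      rw [h3, h0, map_zero] at hz
      exact hz rfl
    · exact GoodRed.LR.unique h (Rd.const' (A := A) ⟨e, h1⟩)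
  · have h2 := Rd.const' (A := A) ⟨e⁻¹, h1⟩
    have h3 := h.mul h2
    have h4 : (HahnSeries.C e : LaurentSeries Qbar) * HahnSeries.C ((⟨e⁻¹, h1⟩ : A) : Qbar) = 1 := by
      rw [← map_mul]
      change HahnSeries.C (e * e⁻¹) = _
      rw [mul_inv_cancel₀ he, map_one]
    rw [h4] at h3
    have h5 := GoodRed.LR.unique h3 (GoodRed.LR.one (residue A))
    have h6 : residue A ⟨e⁻¹, h1⟩ ≠ 0 := by
      intro h0
      rw [h0, map_zero, mul_zero] at h5
      exact zero_ne_one h5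
    have h7 : IsUnit (⟨e⁻¹, h1⟩ : A) := by
      rwa [residue_ne_zero_iff_isUnit] at h6
    obtain ⟨w, hw⟩ := h7.exists_right_inv
    have h8 : (w : Qbar) = e := by
      have h9 := congrArg (fun x : A => (x : Qbar)) hw
      change e⁻¹ * (w : Qbar) = 1 at h9
      field_simp at h9
      exact h9
    have h9 : Rd A (HahnSeries.C e) (HahnSeries.C (residue A w)) := by
      have := Rd.const' (A := A) w
      rwa [h8] at this
    refine ⟨w, h8, ?_, GoodRed.LR.unique h h9⟩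
    intro h0
    rw [GoodRed.LR.unique h h9, h0, map_zero] at hz
    exact hz rfl

/-- comparison of scalings -/
lemma Rd.compare {u : LaurentSeries Qbar} {c d : Qbar} (hc : c ≠ 0) (hd : d ≠ 0)
    {y z : LaurentSeries (ResidueField A)} (hy : y ≠ 0) (hz : z ≠ 0)
    (h : Rd A (HahnSeries.C c * u) y) (h' : Rd A (HahnSeries.C d * u) z) :
    ∃ b : ResidueField A, b ≠ 0 ∧ z = HahnSeries.C b * y := by
  have h1 := Rd.div' h' h hy
  have hu : u ≠ 0 := by
    rintro rfl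
    exact h.ne_zero hy (mul_zero _)
  have h2 : HahnSeries.C d * u / (HahnSeries.C c * u) = HahnSeries.C (d * c⁻¹) := by
    rw [mul_div_mul_right _ _ hu, map_mul, C_inv, div_eq_mul_inv]
  rw [h2] at h1
  obtain ⟨a, -, ha, h3⟩ := Rd.const_unit (div_ne_zero hz hy) h1
  exact ⟨_, ha, by rw [← h3, div_mul_cancel₀ _ hy]⟩

lemma RdC.of_const {u : LaurentSeries Qbar} {d : Qbar} (hd : d ≠ 0) {b : ResidueField A}
    (hb : b ≠ 0) (h : Rd A (HahnSeries.C d * u) (HahnSeries.C b)) : RdC A u := by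
  obtain ⟨a, ha⟩ := residue_surjective b⁻¹
  have h1 : (a : Qbar) ≠ 0 := by
    intro h0
    have : a = 0 := Subtype.ext h0
    rw [this, map_zero] at ha
    exact inv_ne_zero hb ha.symm
  refine ⟨a * d, mul_ne_zero h1 hd, ?_⟩
  have h2 := (Rd.const' (A := A) a).mul h
  rw [ha, ← map_mul, inv_mul_cancel₀ hb, map_one, ← mul_assoc, ← map_mul] at h2
  exact h2

lemma RdC.of_rd {u : LaurentSeries Qbar} (h : Rd A u 1) : RdC A u :=
  ⟨1, one_ne_zero, by rwa [map_one, one_mul]⟩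

lemma RdC.ne_zero {u : LaurentSeries Qbar} (h : RdC A u) : u ≠ 0 := by
  obtain ⟨c, _, h⟩ := h
  rintro rfl
  exact h.ne_zero one_ne_zero (mul_zero _)

lemma RdC.mul {u v : LaurentSeries Qbar} (h : RdC A u) (h' : RdC A v) : RdC A (u * v) := by
  obtain ⟨c, hc, h1⟩ := h
  obtain ⟨d, hd, h2⟩ := h'
  refine ⟨c * d, mul_ne_zero hc hd, ?_⟩
  have h3 := h1.mul h2
  rw [one_mul] at h3
  rw [map_mul]
  convert h3 using 1
  ring

lemma RdC.inv {u : LaurentSeries Qbar} (h : RdC A u) : RdC A u⁻¹ := by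
  obtain ⟨c, hc, h1⟩ := h
  refine ⟨c⁻¹, inv_ne_zero hc, ?_⟩
  have h3 := Rd.inv' h1 one_ne_zero
  rwa [mul_inv, inv_one, ← C_inv] at h3

lemma RdC.div {u v : LaurentSeries Qbar} (h : RdC A u) (h' : RdC A v) : RdC A (u / v) := by
  rw [div_eq_mul_inv]; exact h.mul h'.inv

lemma RdC.one : RdC A 1 := RdC.of_rd Rd.one

lemma RdC.pow {u : LaurentSeries Qbar} (h : RdC A u) (n : ℕ) : RdC A (u ^ n) := by
  induction n with
  | zero => rw [pow_zero]; exact RdC.one
  | succ n ih => rw [pow_succ]; exact ih.mul h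

lemma RdC.const {c : Qbar} (hc : c ≠ 0) : RdC A (HahnSeries.C c) :=
  ⟨c⁻¹, inv_ne_zero hc, by rw [← map_mul, inv_mul_cancel₀ hc, map_one]; exact Rd.one⟩

/-- roots of functions with constant reduction -/
lemma RdC.of_pow {n : ℕ} (hn : n ≠ 0) {u : LaurentSeries Qbar} (hs : Sc A u)
    (h : RdC A (u ^ n)) : RdC A u := by
  obtain ⟨d, hd, y, hy, h1⟩ := hs
  obtain ⟨c, hc, h2⟩ := h
  have h3 := h1.pow n
  rw [mul_pow, ← map_pow] at h3
  obtain ⟨b, hb, h4⟩ := Rd.compare hc (pow_ne_zero n hd) one_ne_zero (pow_ne_zero n hy) h2 h3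
  rw [mul_one] at h4
  have h5 : IsAlgebraic (ResidueField A) y := by
    refine ⟨Polynomial.X ^ n - Polynomial.C b, (Polynomial.monic_X_pow_sub_C b hn).ne_zero, ?_⟩
    rw [map_sub, map_pow, Polynomial.aeval_X, Polynomial.aeval_C, h4, C_eq_algebraMap, sub_self]
  obtain ⟨z, hz⟩ := exists_algebraMap_eq h5
  rw [← C_eq_algebraMap] at hz
  refine RdC.of_const hd (b := z) ?_ (by rw [hz]; exact h1)
  rintro rfl
  rw [map_zero] at hz
  exact hy hz.symm

lemma Sc.ne_zero {u : LaurentSeries Qbar} (h : Sc A u) : u ≠ 0 := by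
  obtain ⟨c, _, y, hy, h⟩ := h
  rintro rfl
  exact h.ne_zero hy (mul_zero _)

/-! ### Frobenius -/

variable {ℓ : ℕ}

lemma Rd.hW' [NeZero ℓ] [Fact ℓ.Prime] [CharP (ResidueField A) ℓ] {u : LaurentSeries Qbar}
    {ub : LaurentSeries (ResidueField A)} (hu : Rd A u ub) :
    Rd A (hW ℓ u) (coeffMap (frobenius _ ℓ) ub) := by
  obtain ⟨f, g, hg, h1, h2⟩ := hu
  refine ⟨HeckeQ.hW ℓ f, HeckeQ.hW ℓ g, ?_, ?_, ?_⟩
  · rw [red_hW]
    exact coeffMap_ne_zero (frobenius_inj _ ℓ) hg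
  · rw [coeffMap_hW ℓ _ A.subtype_injective, ← hW_mul, h1, coeffMap_hW ℓ _ A.subtype_injective]
  · rw [red_hW, red_hW, ← h2, map_mul]

lemma Rd.qExpand' [NeZero ℓ] {u : LaurentSeries Qbar}
    {ub : LaurentSeries (ResidueField A)} (hu : Rd A u ub) :
    Rd A (qExpand _ ℓ u) (qExpand _ ℓ ub) := by
  obtain ⟨f, g, hg, h1, h2⟩ := hu
  refine ⟨qExpand _ ℓ f, qExpand _ ℓ g, ?_, ?_, ?_⟩
  · rw [coeffMap_qExpand]
    exact fun h => hg (qExpand_inj ℓ (h.trans (map_zero _).symm))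
  · rw [coeffMap_qExpand, ← map_mul, h1, coeffMap_qExpand]
  · rw [coeffMap_qExpand, coeffMap_qExpand, ← h2, map_mul]

lemma prodTwist_map [NeZero ℓ] (f : LaurentSeries A) :
    ∃ P : LaurentSeries (ResidueField A) →* LaurentSeries (ResidueField A),
      (∀ x, x ≠ 0 → P x ≠ 0) ∧
      ∀ f : LaurentSeries A, coeffMap (residue A) (prodTwist ℓ f) = P (coeffMap (residue A) f) := by
  obtain ⟨ζ, hζ⟩ := (hasPrim_val A ℓ).ex
  refine ⟨{ toFun := fun x => ∏ j ∈ Finset.range ℓ, twist (Units.map (residue A : A →* _) (ζ ^ j)) x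
            map_one' := by simp
            map_mul' := fun x y => by
              rw [← Finset.prod_mul_distrib]
              exact Finset.prod_congr rfl fun j _ => map_mul _ _ _ }, ?_, ?_⟩
  · intro x hx
    change ∏ j ∈ Finset.range ℓ, twist (Units.map (residue A : A →* _) (ζ ^ j)) x ≠ 0
    exact Finset.prod_ne_zero_iff.mpr fun j _ => HeckeQ.twist_ne_zero _ hx
  · intro f
    rw [prodTwist_eq_range ℓ hζ, map_prod]
    exact Finset.prod_congr rfl fun j _ => coeffMap_twist _ _ _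

lemma Rd.hW_one' [NeZero ℓ] {u : LaurentSeries Qbar} (hu : Rd A u 1) : Rd A (hW ℓ u) 1 := by
  obtain ⟨f, g, hg, h1, h2⟩ := hu
  obtain ⟨P, hP0, hP⟩ := prodTwist_map (A := A) (ℓ := ℓ) f
  rw [mul_one] at h2
  have key : coeffMap (residue A) (HeckeQ.hW ℓ g) = coeffMap (residue A) (HeckeQ.hW ℓ f) := by
    apply qExpand_inj ℓ
    rw [← coeffMap_qExpand, ← coeffMap_qExpand, qExpand_hW, qExpand_hW, hP, hP, h2]
  refine ⟨HeckeQ.hW ℓ f, HeckeQ.hW ℓ g, ?_, ?_, ?_⟩
  · intro h0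
    have h3 := congrArg (qExpand _ ℓ) h0
    rw [← coeffMap_qExpand, qExpand_hW, hP, map_zero] at h3
    exact hP0 _ hg h3
  · rw [coeffMap_hW ℓ _ A.subtype_injective, ← hW_mul, h1, coeffMap_hW ℓ _ A.subtype_injective]
  · rw [key, mul_one]

lemma hW_const [NeZero ℓ] (c : Qbar) (u : LaurentSeries Qbar) :
    hW ℓ (HahnSeries.C c * u) = HahnSeries.C (c ^ ℓ) * hW ℓ u := by
  rw [hW_mul]
  congr 1
  symm
  apply hW_unique
  obtain ⟨ζ, hζ⟩ := (hasPrim_Qbar ℓ).ex
  rw [qExpand_C, prodTwist_eq_range ℓ hζ, Finset.prod_congr rfl fun j _ => twist_C _ _,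
    Finset.prod_const, Finset.card_range, map_pow]

/-- the finite part of the congruence relation -/
lemma RdC.hW_frob [NeZero ℓ] (hℓ : ℓ.Prime) (hA : A.LiesOverPrime ℓ) {τ : GQ}
    (hτ : A.IsFrobeniusAt τ ℓ) {u : LaurentSeries Qbar} (hs : Sc A u) :
    RdC A (hW ℓ u / coeffMap (τ : Qbar →+* Qbar) u) := by
  have : Fact ℓ.Prime := ⟨hℓ⟩
  have : CharP (ResidueField A) ℓ := FrobDens.charP_residueField A hℓ hA
  obtain ⟨c, hc, y, hy, h⟩ := hs
  have h1 := Rd.hW' (ℓ := ℓ) h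
  have h2 := h.gal τ hτ.mem_decompositionSubgroup
  have e1 : coeffMap (actK τ hτ.mem_decompositionSubgroup : _ →+* ResidueField A) y =
      coeffMap (frobenius _ ℓ) y := by
    ext n
    simp only [coeffMap_coeff]
    exact actK_frob hτ _
  rw [e1] at h2
  have h3 := Rd.div' h1 h2 (coeffMap_ne_zero (frobenius_inj _ ℓ) hy)
  rw [div_self (coeffMap_ne_zero (frobenius_inj _ ℓ) hy), hW_const, map_mul, coeffMap_C] at h3
  have hτc : (τ : Qbar →+* Qbar) c ≠ 0 := (map_ne_zero _).mpr hc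
  refine ⟨c ^ ℓ * ((τ : Qbar →+* Qbar) c)⁻¹, mul_ne_zero (pow_ne_zero _ hc) (inv_ne_zero hτc), ?_⟩
  convert h3 using 1
  rw [map_mul, C_inv]
  field_simp

/-- the infinite part of the congruence relation -/
lemma RdC.qExpand_frob [NeZero ℓ] (hℓ : ℓ.Prime) (hA : A.LiesOverPrime ℓ) {τ : GQ}
    (hτ : A.IsFrobeniusAt τ ℓ) {u : LaurentSeries Qbar} (hs : Sc A u) :
    RdC A (qExpand _ ℓ u / (coeffMap (τ⁻¹ : GQ) u) ^ ℓ) := by
  have : Fact ℓ.Prime := ⟨hℓ⟩
  have : CharP (ResidueField A) ℓ := FrobDens.charP_residueField A hℓ hA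
  obtain ⟨c, hc, y, hy, h⟩ := hs
  have h1 := Rd.qExpand' (ℓ := ℓ) h
  have h2 := (h.gal τ⁻¹ (inv_smul_eq hτ.mem_decompositionSubgroup)).pow ℓ
  have e2 : (coeffMap (actK τ⁻¹ (inv_smul_eq hτ.mem_decompositionSubgroup) :
      _ →+* ResidueField A) y) ^ ℓ = qExpand _ ℓ y := by
    rw [laurent_pow_char]
    congr 1
    ext n
    simp only [coeffMap_coeff]
    exact actK_inv_frob hτ _
  rw [e2] at h2
  have hy' : qExpand _ ℓ y ≠ 0 := fun h => hy (qExpand_inj ℓ (h.trans (map_zero _).symm))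
  have h3 := Rd.div' h1 h2 hy'
  rw [div_self hy', map_mul, qExpand_C, map_mul, coeffMap_C, mul_pow, ← map_pow] at h3
  have hτc : (((τ⁻¹ : GQ) : Qbar →+* Qbar) c) ^ ℓ ≠ 0 := pow_ne_zero _ ((map_ne_zero _).mpr hc)
  refine ⟨c * ((((τ⁻¹ : GQ) : Qbar →+* Qbar) c) ^ ℓ)⁻¹, mul_ne_zero hc (inv_ne_zero hτc), ?_⟩
  convert h3 using 1
  rw [map_mul, C_inv]
  field_simp

end Fermat.Agent.AnJacH
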