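import Fermat.Agent.AnJacH.Coords

/-!
# Restriction of homomorphisms to smaller groups
-/

set_option autoImplicit false
set_option linter.unusedSectionVars false

noncomputable section

namespace Fermat.Agent.AnJacH

open Fermat.Agent.AnJac CongruenceSubgroup MatrixGroups Matrix
open P2MW.S_ModularForm_heckeT_slash_eq_self_of_mem_Gamma0.ModularForm.HeckeSlashInvariance

section Gen

variable {Γ' Γ : Subgroup SL(2,ℤ)} (hle : Γ' ≤ Γ) {O : Type*} [AddCommGroup O]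

/-- restriction -/
def resV : (Additive Γ →+ O) →+ (Additive Γ' →+ O) where
  toFun φ := φ.comp (MonoidHom.toAdditive (Subgroup.inclusion hle))
  map_zero' := rfl
  map_add' _ _ := rfl

lemma resV_apply (φ : Additive Γ →+ O) (γ : Γ') :
    resV hle φ (Additive.ofMul γ) = φ (Additive.ofMul (Subgroup.inclusion hle γ)) := rfl

lemma resV_mem {φ : Additive Γ →+ O} (hφ : φ ∈ NHA Γ O) : resV hle φ ∈ NHA Γ' O :=
  fun γ hγ => hφ (Subgroup.inclusion hle γ) hγ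

lemma resV_T {ι : Type*} [Fintype ι] (F : HF Γ ι) (F' : HF Γ' ι) (hA : ∀ i, F'.A i = F.A i)
    (φ : Additive Γ →+ O) : F'.T (resV hle φ) = resV hle (F.T φ) := by
  refine AddMonoidHom.ext fun γ => ?_
  change ∑ i, φ (Additive.ofMul (Subgroup.inclusion hle (F'.g (Additive.toMul γ) i))) =
    ∑ i, φ (Additive.ofMul (F.g (Subgroup.inclusion hle (Additive.toMul γ)) i))
  refine Finset.sum_congr rfl fun i _ => ?_
  congr 2
  have h1 := F'.spec (Additive.toMul γ) i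
  rw [hA, hA] at h1
  exact (F.eq_of (γ := Subgroup.inclusion hle (Additive.toMul γ))
    (h := Subgroup.inclusion hle (F'.g (Additive.toMul γ) i)) h1).2.symm

lemma resV_ne_zero [IsAddTorsionFree O] (hfin : Γ'.relIndex Γ ≠ 0) {φ : Additive Γ →+ O}
    (hφ : φ ≠ 0) : resV hle φ ≠ 0 := by
  intro h0
  apply hφ
  refine AddMonoidHom.ext fun γ => ?_
  obtain ⟨n, hn, hn'⟩ : ∃ n : ℕ, n ≠ 0 ∧ (Additive.toMul γ) ^ n ∈ Γ'.subgroupOf Γ := by
    have : (Γ'.subgroupOf Γ).FiniteIndex := ⟨hfin⟩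
    obtain ⟨n, hn, -, hn'⟩ := Subgroup.exists_pow_mem_of_index_ne_zero hfin (Additive.toMul γ)
    exact ⟨n, hn.ne', hn'⟩
  have h1 : ((Additive.toMul γ ^ n : Γ) : SL(2,ℤ)) ∈ Γ' := Subgroup.mem_subgroupOf.mp hn'
  have h2 := DFunLike.congr_fun h0 (Additive.ofMul (⟨_, h1⟩ : Γ'))
  have h3 : φ (Additive.ofMul (Additive.toMul γ ^ n)) = 0 := h2
  rw [ofMul_pow, map_nsmul] at h3
  exact (nsmul_eq_zero_iff_right hn).mp h3

end Gen

section Mul

variable {L m : ℕ} [NeZero L] [NeZero m]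

lemma Gamma0_mul_le (L m : ℕ) : Gamma0 (L * m) ≤ Gamma0 L := by
  intro γ hγ
  rw [Gamma0_mem, ZMod.intCast_zmod_eq_zero_iff_dvd] at hγ ⊢
  exact (Int.natCast_dvd_natCast.mpr (dvd_mul_right L m)).trans hγ

/-- inclusion -/
def incl0 (g : Gamma0 (L * m)) : Gamma0 L := ⟨g, Gamma0_mul_le L m g.2⟩

lemma dM_incl0 (h : m ∣ L) (g : Gamma0 (L * m)) :
    dM L m h (incl0 g) = dM (L * m) m (dvd_mul_left m L) g := by
  apply Units.ext
  rw [coe_dM, coe_dM]
  rfl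

variable (h : m ∣ L) {H₀ : Subgroup (ZMod m)ˣ}

lemma GH_mul_le : GH (L * m) m (dvd_mul_left m L) H₀ ≤ GH L m h H₀ := by
  intro γ hγ
  obtain ⟨h1, h2⟩ := mem_GH.mp hγ
  have h3 := dM_incl0 h ⟨γ, h1⟩
  rw [← h3] at h2
  exact mem_GH.mpr ⟨Gamma0_mul_le L m h1, h2⟩

lemma relIndex_GH : (GH (L * m) m (dvd_mul_left m L) H₀).relIndex (GH L m h H₀) ≠ 0 := by
  have h1 : (H₀.comap (dM (L * m) m (dvd_mul_left m L))).FiniteIndex := by
    constructor
    rw [Subgroup.index_comap]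
    exact Subgroup.FiniteIndex.index_ne_zero
  have h2 : (GH (L * m) m (dvd_mul_left m L) H₀).subgroupOf (Gamma0 (L * m)) =
      H₀.comap (dM (L * m) m (dvd_mul_left m L)) := by
    ext γ
    rw [Subgroup.mem_subgroupOf, mem_GH', Subgroup.mem_comap]
  have h3 : (GH (L * m) m (dvd_mul_left m L) H₀).relIndex (Gamma0 (L * m)) ≠ 0 := by
    rw [Subgroup.relIndex, h2]
    exact h1.index_ne_zero
  have : NeZero (L * m) := ⟨mul_ne_zero (NeZero.ne L) (NeZero.ne m)⟩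
  have h4 : (Gamma0 (L * m)).index ≠ 0 := Subgroup.FiniteIndex.index_ne_zero
  have h5 : (GH (L * m) m (dvd_mul_left m L) H₀).index ≠ 0 := by
    rw [← Subgroup.relIndex_mul_index (GH_le (H₀ := H₀))]
    exact mul_ne_zero h3 h4
  have : (GH (L * m) m (dvd_mul_left m L) H₀).FiniteIndex := ⟨h5⟩
  exact Subgroup.FiniteIndex.index_ne_zero

variable {O : Type*} [AddCommGroup O]

/-- restriction to level `L m` -/
def resM : (Additive (GH L m h H₀) →+ O) →+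
    (Additive (GH (L * m) m (dvd_mul_left m L) H₀) →+ O) := resV (GH_mul_le h)

instance : NeZero (L * m) := ⟨mul_ne_zero (NeZero.ne L) (NeZero.ne m)⟩

lemma resM_TG (ℓ : ℕ) [hℓ : Fact ℓ.Prime] (hℓL : ¬ ℓ ∣ L) (hℓL' : ¬ ℓ ∣ L * m)
    (g : Gamma0 (L * m))
    (hg : ((dM (L * m) m (dvd_mul_left m L) g : (ZMod m)ˣ) : ZMod m) = ℓ)
    (hg' : ((dM L m h (incl0 g) : (ZMod m)ˣ) : ZMod m) = ℓ)
    (φ : Additive (GH L m h H₀) →+ O) :
    (hfTG (L * m) m (dvd_mul_left m L) H₀ ℓ hℓL' g hg).T (resM h φ) =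
      resM h ((hfTG L m h H₀ ℓ hℓL (incl0 g) hg').T φ) := by
  refine resV_T _ _ _ (fun i => ?_) φ
  change gl ((sgT ℓ g i : Gamma0 (L * m)) : SL(2,ℤ)) * heckeRep ℓ i =
    gl ((sgT ℓ (incl0 g) i : Gamma0 L) : SL(2,ℤ)) * heckeRep ℓ i
  congr 2
  unfold sgT
  split_ifs
  · rfl
  · rfl

lemma resM_UG (q : ℕ) [hq : NeZero q] (hqL : q ∣ L) (φ : Additive (GH L m h H₀) →+ O) :
    (hfUG (L * m) m (dvd_mul_left m L) H₀ q (hqL.mul_right m)).T (resM h φ) =
      resM h ((hfUG L m h H₀ q hqL).T φ) := by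
  refine resV_T _ _ _ (fun i => ?_) φ
  rfl

lemma card_Dl_dvd (N m : ℕ) [NeZero N] [NeZero m] (h : m ∣ N) (H₀ : Subgroup (ZMod m)ˣ) :
    Nat.card (Dl N (GH N m h H₀)) ∣ H₀.index := by
  have h2 : (GH N m h H₀).subgroupOf (Gamma0 N) = H₀.comap (dM N m h) := by
    ext γ
    rw [Subgroup.mem_subgroupOf, mem_GH', Subgroup.mem_comap]
  have h3 : Nat.card (Dl N (GH N m h H₀)) = ((GH N m h H₀).subgroupOf (Gamma0 N)).index := rfl
  rw [h3, h2, Subgroup.index_comap]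
  exact Subgroup.relIndex_dvd_index_of_normal _ _

end Mul

end Fermat.Agent.AnJacH
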