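import Fermat.Agent.AnJacH.HeckeK
import Fermat.Agent.GoodRed.GaussGen
import Fermat.Agent.HeckeQ.Inst

/-!
# Scaling of functions on `Γ_H`
-/

set_option autoImplicit false
set_option linter.unusedSectionVars false

open UpperHalfPlane ModularForm MatrixGroups Matrix.SpecialLinearGroup Filter Function
open scoped Manifold Topology

noncomputable section

namespace Fermat.Agent.AnJacH

open Fermat.Agent.AnJac Fermat.Agent.DimS2 Fermat.Agent.ModFun CongruenceSubgroup AlgebraicCurve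
open ModularCurve IntermediateField
open Fermat.Agent.GenusX0 (zetaU zetaU_prim)

/-- the field generated by integral Laurent series -/
def QZ (K : Type*) [Field K] : IntermediateField K (LaurentSeries K) :=
  IntermediateField.adjoin K (coeffMap (Int.castRingHom K) '' (Set.univ : Set (LaurentSeries ℤ)))

lemma coeffMap_mem_QZ {K : Type*} [Field K] (y : LaurentSeries ℤ) :
    coeffMap (Int.castRingHom K) y ∈ QZ K :=
  IntermediateField.subset_adjoin _ _ ⟨y, Set.mem_univ _, rfl⟩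

/-- the part of a series supported in a residue class -/
def resPart (m : ℕ) (a : ZMod m) (y : LaurentSeries ℤ) : LaurentSeries ℤ where
  coeff n := open Classical in if (n : ZMod m) = a then y.coeff n else 0
  isPWO_support' := y.isPWO_support.mono fun n hn => by
    rw [Function.mem_support] at hn
    rw [HahnSeries.mem_support]
    intro h0
    apply hn
    rw [h0, ite_self]

lemma twist_mem_QZ {K : Type*} [Field K] {m : ℕ} [NeZero m] {ζ : Kˣ} (hζ : ζ ^ m = 1)
    (y : LaurentSeries ℤ) : twist ζ (coeffMap (Int.castRingHom K) y) ∈ QZ K := by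
  have h1 : twist ζ (coeffMap (Int.castRingHom K) y) =
      ∑ a : ZMod m, HahnSeries.C ((ζ ^ a.val : Kˣ) : K) *
        coeffMap (Int.castRingHom K) (resPart m a y) := by
    ext n
    rw [twist_coeff, HahnSeries.coeff_sum, Finset.sum_eq_single (n : ZMod m)]
    · rw [HahnSeries.C_mul_eq_smul, HahnSeries.coeff_smul, coeffMap_coeff, coeffMap_coeff]
      have h2 : (resPart m (n : ZMod m) y).coeff n = y.coeff n := if_pos rfl
      rw [h2, smul_eq_mul]
      congr 2
      have h3 : (m : ℤ) ∣ n - (n : ZMod m).val := by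
        rw [← ZMod.intCast_zmod_eq_zero_iff_dvd]
        push_cast
        rw [ZMod.natCast_zmod_val, sub_self]
      obtain ⟨c, hc⟩ := h3
      have h4 : n = ((n : ZMod m).val : ℤ) + m * c := by rw [← hc]; ring
      conv_lhs => rw [h4]
      rw [zpow_add, zpow_natCast, zpow_mul, zpow_natCast, hζ, one_zpow, mul_one]
    · intro a _ ha
      rw [HahnSeries.C_mul_eq_smul, HahnSeries.coeff_smul, coeffMap_coeff]
      have h2 : (resPart m a y).coeff n = 0 := if_neg ha.symm
      rw [h2, map_zero, smul_zero]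
    · intro h
      exact absurd (Finset.mem_univ _) h
  rw [h1]
  refine sum_mem fun a _ => mul_mem ?_ (coeffMap_mem_QZ _)
  rw [C_eq_algebraMap]
  exact IntermediateField.algebraMap_mem _ _

/-! ### descent of the field `QZ` -/

section Desc

variable {k : Type*} [Field k]

lemma coordMap_C_int [Algebra k ℂ] (π : ℂ →ₗ[k] k) (a : ℂ) (y : LaurentSeries ℤ) :
    coordMap π (HahnSeries.C a * coeffMap (Int.castRingHom ℂ) y) =
      coeffMap (Int.castRingHom k) y * HahnSeries.C (π a) := by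
  have h1 : coeffMap (Int.castRingHom ℂ) y =
      coeffMap (algebraMap k ℂ) (coeffMap (Int.castRingHom k) y) := by
    rw [coeffMap_coeffMap]
    congr 2
    exact Subsingleton.elim _ _
  rw [h1, coordMap_C_mul]

lemma coordMap_mem_QZ [Algebra k ℂ] (π : ℂ →ₗ[k] k) {x : LaurentSeries ℂ}
    (hx : x ∈ Algebra.adjoin ℂ
      (coeffMap (Int.castRingHom ℂ) '' (Set.univ : Set (LaurentSeries ℤ)))) :
    coordMap π x ∈ QZ k := by
  obtain ⟨c, rfl⟩ := GoodRed.mem_span_of_mem_adjoin hx
  rw [Finsupp.sum, map_sum]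
  refine sum_mem fun y _ => ?_
  rw [coordMap_C_int]
  refine mul_mem (coeffMap_mem_QZ y) ?_
  rw [C_eq_algebraMap]
  exact IntermediateField.algebraMap_mem _ _

/-- descent -/
theorem mem_QZ_of_coeffs [Algebra k ℂ] {w : LaurentSeries k}
    (hw : coeffMap (algebraMap k ℂ) w ∈ QZ ℂ) : w ∈ QZ k := by
  rcases eq_or_ne w 0 with rfl | hw0
  · exact zero_mem _
  unfold QZ at hw
  rw [IntermediateField.mem_adjoin_iff_div] at hw
  obtain ⟨a, ha, b, hb, hab⟩ := hw
  have hw0' : coeffMap (algebraMap k ℂ) w ≠ 0 := by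
    rw [Ne, map_eq_zero_iff _ (GoodRed.coeffMap_injective (algebraMap k ℂ).injective)]
    exact hw0
  have hb0 : b ≠ 0 := by
    rintro rfl
    rw [div_zero] at hab
    exact hw0' hab
  have hab2 : a = coeffMap (algebraMap k ℂ) w * b := by
    rw [hab, div_mul_cancel₀ _ hb0]
  have hbc : b.coeff b.order ≠ 0 := HahnSeries.coeff_order_eq_zero.not.mpr hb0
  obtain ⟨π, hπ⟩ := exists_functional (k := k) hbc
  have h1 := congrArg (coordMap π) hab2
  rw [coordMap_mul] at h1
  have hπb : coordMap π b ≠ 0 := by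
    intro h
    have := congrArg (fun F => HahnSeries.coeff F b.order) h
    rw [coordMap_coeff] at this
    exact hπ this
  have h2 : w = coordMap π a / coordMap π b := by
    rw [h1, mul_div_cancel_right₀ _ hπb]
  rw [h2]
  exact div_mem (coordMap_mem_QZ π ha) (coordMap_mem_QZ π hb)

end Desc


section Gen

variable {m : ℕ} [NeZero m] (H₀ : Subgroup (ZMod m)ˣ)

lemma Pc_eval_mem (c : ℕ) (s : (ZMod m)ˣ) :
    (Pc H₀ s).eval (c : LaurentSeries ℂ) ∈ QZ ℂ := by
  rw [Pc, Polynomial.eval_prod]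
  refine prod_mem fun x _ => ?_
  rw [Polynomial.eval_sub, Polynomial.eval_X, Polynomial.eval_C]
  refine sub_mem (_root_.natCast_mem _ _) ?_
  rw [← coeffMap_jqModC (Int.castRingHom ℂ)]
  refine twist_mem_QZ (m := m) ?_ _
  rw [← pow_mul, mul_comm, pow_mul, (zetaU_prim m).pow_eq_one, one_pow]

variable {N : ℕ} [NeZero N]

lemma FF_le_QZ : FF N ≤ QZ ℂ := by
  apply IntermediateField.adjoin_le_iff.mpr
  rintro _ ⟨d, hd, hdN, rfl⟩
  have : qExpand ℂ d (jqModC ℂ) = coeffMap (Int.castRingHom ℂ) (qExpand ℤ d (jqModC ℤ)) := by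
    rw [coeffMap_qExpand, coeffMap_jqModC]
  rw [this]
  exact coeffMap_mem_QZ _

/-- a generator which lies in `QZ` -/
theorem exists_isGen_QZ (hm : m * m ∣ N) (h : m ∣ N)
    (hΓ : Adm N (GH N m h H₀)) (h2 : ∀ a : (ZMod m)ˣ, a ^ 2 = 1 → a ∈ H₀) :
    ∃ θ : MfG hΓ, IsGen hΓ θ ∧ MfG hΓ ≤ QZ ℂ := by
  obtain ⟨θ, hθ, hθ'⟩ := exists_isGen' H₀ hm h hΓ h2
  refine ⟨θ, hθ, fun u hu => ?_⟩
  obtain ⟨c, s, hc⟩ := hθ'
  obtain ⟨d, a, ha⟩ := hθ.exists_sum ⟨u, hu⟩
  have h1 := congrArg Subtype.val ha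
  change u = _ at h1
  rw [h1]
  have h3 : ((∑ i ∈ Finset.range d, algebraMap (FF N) (MfG hΓ) (a i) * θ ^ i : MfG hΓ) :
      LaurentSeries ℂ) = ∑ i ∈ Finset.range d, (a i : LaurentSeries ℂ) *
        (θ : LaurentSeries ℂ) ^ i := by
    rw [AddSubmonoidClass.coe_finsetSum]
    rfl
  rw [h3]
  refine sum_mem fun i _ => mul_mem (FF_le_QZ (a i).2) (pow_mem ?_ i)
  rw [hc]
  exact Pc_eval_mem H₀ c s

end Gen

section Scale

variable {N : ℕ} [NeZero N] {Γ : Subgroup SL(2,ℤ)} {hΓ : Adm N Γ}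

/-- **scaling** -/
theorem exists_scale_FG {k : Type*} [Field k] [IsAlgClosed k] [CharZero k] (ι : k →+* ℂ)
    (hQ : MfG hΓ ≤ QZ ℂ) {A : ValuationSubring k} {κ : Type*} [Field κ] (π : A →+* κ)
    [IsLocalHom π] {u : FG hΓ ι} (hu : u ≠ 0) :
    ∃ c : k, c ≠ 0 ∧ ∃ y : LaurentSeries κ, y ≠ 0 ∧
      GoodRed.LR π (HahnSeries.C c * (u : LaurentSeries k)) y := by
  let _ := ι.toAlgebra
  refine GoodRed.exists_scale_LR π Set.univ (fun h => hu (Subtype.ext h)) ?_
  exact mem_QZ_of_coeffs (hQ u.2)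

end Scale

end Fermat.Agent.AnJacH
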